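import Fermat.Agent.JRED.ModularRed

/-!
# Degrees under constant field extension

If `i : E → E'` is a homomorphism over `K → K'` which preserves linear independence (linear
disjointness) and whose image generates `E'` over `K'`, then `[E' : K'(i t)] = [E : K(t)]` for
`t` transcendental.
-/

set_option autoImplicit false

noncomputable section

open IntermediateField

namespace Fermat.Agent.DS.X1

open Fermat.Agent.JRED

section

variable {K E : Type*} [Field K] [Field E] [Algebra K E] {t : E}

theorem transcendental_gen (htr : Transcendental K t) :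
    Transcendental K (AdjoinSimple.gen K t) := by
  intro h
  apply htr
  have h0 := h.algebraMap (A := E)
  simpa using h0

theorem linearIndependent_pow_mul (htr : Transcendental K t) {ι : Type*} {e : ι → E}
    (he : LinearIndependent K⟮t⟯ e) :
    LinearIndependent K (fun p : ℕ × ι => t ^ p.1 * e p.2) := by
  have h2 := linearIndependent_smul
    (linearIndependent_pow_of_transcendental (transcendental_gen htr)) he
  have h4 : (fun p : ℕ × ι => t ^ p.1 * e p.2) =
      fun p : ℕ × ι => (AdjoinSimple.gen K t ^ p.1) • e p.2 := by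
    funext p
    rw [Algebra.smul_def, map_pow, AdjoinSimple.algebraMap_gen]
  rw [h4]
  exact h2

end

section Base

variable {K E K' E' : Type*} [Field K] [Field E] [Algebra K E] [Field K'] [Field E']
  [Algebra K' E'] [Algebra K K'] (i : E →+* E')
  (hi : ∀ c, i (algebraMap K E c) = algebraMap K' E' (algebraMap K K' c))

include hi

theorem map_mem_adjoin {t x : E} (hx : x ∈ K⟮t⟯) : i x ∈ K'⟮i t⟯ := by
  have hle : (K⟮t⟯).toSubfield ≤ ((K'⟮i t⟯).toSubfield).comap i := by
    have h1 : K⟮t⟯ ≤ { ((K'⟮i t⟯).toSubfield).comap i with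
        algebraMap_mem' := fun c => by
          show i (algebraMap K E c) ∈ K'⟮i t⟯
          rw [hi]
          exact IntermediateField.algebraMap_mem _ _ : IntermediateField K E } := by
      rw [adjoin_simple_le_iff]
      exact mem_adjoin_simple_self K' (i t)
    exact h1
  exact hle hx

end Base

section Main

variable {K E K' E' : Type*} [Field K] [Field E] [Algebra K E] [Field K'] [Field E']
  [Algebra K' E'] [Algebra K K']

/-- A constant field extension `E → E'` over `K → K'`. -/
structure ConstExt (K K' : Type*) {E E' : Type*} [Field K] [Field E] [Algebra K E] [Field K']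
    [Field E'] [Algebra K' E'] [Algebra K K'] (i : E →+* E') : Prop where
  comm : ∀ c, i (algebraMap K E c) = algebraMap K' E' (algebraMap K K' c)
  li : ∀ {ι : Type} (b : ι → E), LinearIndependent K b → LinearIndependent K' fun j => i (b j)
  gen : IntermediateField.adjoin K' (Set.range i) = ⊤

namespace ConstExt

variable {i : E →+* E'} (h : ConstExt K K' i)

include h

theorem transcendental {t : E} (htr : Transcendental K t) : Transcendental K' (i t) := by
  have h1 := h.li _ (linearIndependent_pow_of_transcendental htr)
  simp only [map_pow] at h1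
  exact transcendental_of_linearIndependent_pow h1

theorem linearIndependent {t : E} (htr : Transcendental K t) {ι : Type} {e : ι → E}
    (he : LinearIndependent K⟮t⟯ e) : LinearIndependent K'⟮i t⟯ fun j => i (e j) := by
  apply linearIndependent_adjoin
  have h1 := h.li _ (linearIndependent_pow_mul htr he)
  simpa only [map_mul, map_pow] using h1

theorem span_eq_top {t : E} {ι : Type} [Fintype ι] {e : ι → E}
    (he : Submodule.span K⟮t⟯ (Set.range e) = ⊤) :
    Submodule.span K'⟮i t⟯ (Set.range fun j => i (e j)) = ⊤ := by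
  set S := Submodule.span K'⟮i t⟯ (Set.range fun j => i (e j)) with hS
  have hfin : FiniteDimensional K'⟮i t⟯ S :=
    FiniteDimensional.span_of_finite _ (Set.finite_range _)
  have hE : ∀ x : E, i x ∈ S := by
    intro x
    have hx : x ∈ Submodule.span K⟮t⟯ (Set.range e) := by rw [he]; trivial
    obtain ⟨c, rfl⟩ := (Submodule.mem_span_range_iff_exists_fun _).mp hx
    rw [map_sum]
    refine Submodule.sum_mem _ fun j _ => ?_
    rw [Algebra.smul_def, map_mul]
    have h1 : i (algebraMap K⟮t⟯ E (c j)) ∈ K'⟮i t⟯ := map_mem_adjoin i h.comm (c j).2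
    have h2 : i (algebraMap K⟮t⟯ E (c j)) * i (e j) =
        (⟨_, h1⟩ : K'⟮i t⟯) • i (e j) := by
      rw [Algebra.smul_def]
      rfl
    rw [h2]
    exact Submodule.smul_mem _ _ (Submodule.subset_span ⟨j, rfl⟩)
  have hmul : ∀ x y, x ∈ S → y ∈ S → x * y ∈ S := by
    intro x y hx hy
    have h1 : x * y ∈ S * S := Submodule.mul_mem_mul hx hy
    rw [hS, Submodule.span_mul_span] at h1
    refine (Submodule.span_le.mpr ?_) h1
    rintro _ ⟨_, ⟨a, rfl⟩, _, ⟨b, rfl⟩, rfl⟩
    show i (e a) * i (e b) ∈ S
    rw [← map_mul]
    exact hE _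
  let T : Subalgebra K'⟮i t⟯ E' := S.toSubalgebra (by rw [← map_one i]; exact hE 1) hmul
  have hTfin : FiniteDimensional K'⟮i t⟯ T := hfin
  have hinv : ∀ x ∈ T, x⁻¹ ∈ T := by
    intro x hx
    have halg : IsAlgebraic K'⟮i t⟯ (⟨x, hx⟩ : T) := Algebra.IsAlgebraic.isAlgebraic _
    exact Subalgebra.inv_mem_of_algebraic T (x := ⟨x, hx⟩)
      (by simpa using halg.algebraMap (A := E'))
  let L : IntermediateField K' E' :=
    { T.toSubring with
      algebraMap_mem' := fun c => by
        have h1 : algebraMap K' E' c = algebraMap K'⟮i t⟯ E' (algebraMap K' K'⟮i t⟯ c) := rfl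
        rw [h1]
        exact T.algebraMap_mem _
      inv_mem' := hinv }
  have hL : L = ⊤ := by
    rw [eq_top_iff, ← h.gen, adjoin_le_iff]
    rintro _ ⟨x, rfl⟩
    exact hE x
  rw [eq_top_iff]
  rintro x -
  have hx : x ∈ L := by rw [hL]; trivial
  exact hx

/-- **Degrees are preserved under constant field extension.** -/
theorem finrank_eq {t : E} (htr : Transcendental K t) [FiniteDimensional K⟮t⟯ E] :
    FiniteDimensional K'⟮i t⟯ E' ∧ Module.finrank K'⟮i t⟯ E' = Module.finrank K⟮t⟯ E := by
  let e := Module.finBasis K⟮t⟯ E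
  have h1 := h.linearIndependent htr e.linearIndependent
  have h2 := h.span_eq_top e.span_eq
  let b := Module.Basis.mk h1 h2.ge
  have : FiniteDimensional K'⟮i t⟯ E' := Module.Basis.finiteDimensional_of_finite b
  refine ⟨this, ?_⟩
  rw [Module.finrank_eq_card_basis b, Fintype.card_fin]

/-- Finiteness descends. -/
theorem finiteDimensional {t : E} (htr : Transcendental K t) [FiniteDimensional K'⟮i t⟯ E'] :
    FiniteDimensional K⟮t⟯ E := by
  by_contra hcon
  set n := Module.finrank K'⟮i t⟯ E' with hn
  obtain ⟨e, he⟩ : ∃ e : Fin (n + 1) → E, LinearIndependent K⟮t⟯ e := by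
    obtain ⟨s, hs1, hs2⟩ := exists_finset_linearIndependent_of_le_rank (R := K⟮t⟯) (M := E)
      (n := n + 1) (by
        have h3 : Cardinal.aleph0 ≤ Module.rank K⟮t⟯ E := by
          rw [← not_lt]
          intro h4
          exact hcon (Module.rank_lt_aleph0_iff.mp h4)
        exact (Cardinal.natCast_lt_aleph0.le).trans h3)
    have hcard : Fintype.card s = n + 1 := by rw [Fintype.card_coe, hs1]
    exact ⟨fun j => ((Fintype.equivFinOfCardEq hcard).symm j : E),
      hs2.comp _ (Fintype.equivFinOfCardEq hcard).symm.injective⟩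
  have h5 := (h.linearIndependent htr he).fintype_card_le_finrank
  rw [Fintype.card_fin] at h5
  omega

end ConstExt

end Main

end Fermat.Agent.DS.X1
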