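import Fermat.Agent.DS.X1.ApiRed
import Fermat.Agent.DS.X1.DegBase

/-!
# Base change for the function field of `X₁(M)`

* `mapLin`: coefficientwise linear functionals;
* `coeffMap_mem_F1`, `mem_F1_of_coeffMap`;
* `incF K K' M : F1 K M →+* F1 K' M`, linear disjointness, generation, and equality of degrees.
-/

set_option autoImplicit false

noncomputable section

open UpperHalfPlane CongruenceSubgroup ModularCurve IntermediateField

namespace Fermat.Agent.DS.X1

open Fermat.Agent.JRED

section MapLin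

variable {K K' : Type*} [Field K] [Field K'] [Algebra K K']

/-- Apply an additive map to the coefficients. -/
def mapLin (lam : K' →ₗ[K] K) : LaurentSeries K' →+ LaurentSeries K where
  toFun y := y.map lam
  map_zero' := by ext n; simp
  map_add' x y := by ext n; simp

@[simp]
theorem coeff_mapLin (lam : K' →ₗ[K] K) (y : LaurentSeries K') (n : ℤ) :
    (mapLin lam y).coeff n = lam (y.coeff n) := rfl

theorem mapLin_coeffMap_mul (lam : K' →ₗ[K] K) (x : LaurentSeries K) (y : LaurentSeries K') :
    mapLin lam (coeffMap (algebraMap K K') x * y) = x * mapLin lam y := by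
  ext n
  rw [coeff_mapLin, HahnSeries.coeff_mul_left' x.isPWO_support (x := coeffMap _ x) (by
      intro m hm
      rw [HahnSeries.mem_support, coeffMap_coeff] at hm
      rw [HahnSeries.mem_support]
      intro h
      exact hm (by rw [h, map_zero])),
    HahnSeries.coeff_mul_right' y.isPWO_support (y := mapLin lam y) (by
      intro m hm
      rw [HahnSeries.mem_support, coeff_mapLin] at hm
      rw [HahnSeries.mem_support]
      intro h
      exact hm (by rw [h, map_zero])), map_sum]
  refine Finset.sum_congr rfl fun ij _ => ?_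
  rw [coeffMap_coeff, coeff_mapLin, ← Algebra.smul_def, map_smul, smul_eq_mul]

theorem mapLin_smul_coeffMap (lam : K' →ₗ[K] K) (c : K') (x : LaurentSeries K) :
    mapLin lam (c • coeffMap (algebraMap K K') x) = lam c • x := by
  ext n
  rw [coeff_mapLin, HahnSeries.coeff_smul, coeffMap_coeff, smul_eq_mul, mul_comm,
    ← Algebra.smul_def, map_smul, HahnSeries.coeff_smul, smul_eq_mul, smul_eq_mul, mul_comm]

theorem mapLin_smul_toK (lam : K' →ₗ[K] K) (c : K') (F : PowerSeries ℤ) :
    mapLin lam (c • toK K' F) = lam c • toK K F := by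
  rw [← coeffMap_toK (algebraMap K K') F, mapLin_smul_coeffMap]

theorem exists_mapLin_ne_zero {y : LaurentSeries K'} (hy : y ≠ 0) :
    ∃ lam : K' →ₗ[K] K, mapLin lam y ≠ 0 := by
  obtain ⟨n, hn⟩ : ∃ n, y.coeff n ≠ 0 := by
    by_contra hcon
    push Not at hcon
    exact hy (HahnSeries.ext (funext hcon))
  obtain ⟨f, hf⟩ : ∃ f : Module.Dual K K', f (y.coeff n) ≠ 0 := by
    by_contra hcon
    push Not at hcon
    exact hn ((Module.forall_dual_apply_eq_zero_iff K _).mp hcon)
  exact ⟨f, fun h => hf (by rw [← coeff_mapLin, h]; rfl)⟩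

theorem coeffMap_ne_zero {x : LaurentSeries K} (hx : x ≠ 0) :
    coeffMap (algebraMap K K') x ≠ 0 := fun h =>
  hx (coeffMap_injective (algebraMap K K').injective (by rw [h, map_zero]))

/-- Linear independence is preserved. -/
theorem linearIndependent_coeffMap {ι : Type*} {b : ι → LaurentSeries K}
    (hb : LinearIndependent K b) :
    LinearIndependent K' fun i => coeffMap (algebraMap K K') (b i) := by
  rw [linearIndependent_iff'] at hb ⊢
  intro s c hc i hi
  by_contra hci
  obtain ⟨f, hf⟩ : ∃ f : Module.Dual K K', f (c i) ≠ 0 := by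
    by_contra hcon
    push Not at hcon
    exact hci ((Module.forall_dual_apply_eq_zero_iff K _).mp hcon)
  have h1 := congrArg (mapLin f) hc
  rw [map_sum, map_zero] at h1
  simp only [mapLin_smul_coeffMap] at h1
  exact hf (hb s _ h1 i hi)

end MapLin

section F1

variable {K K' : Type*} [Field K] [Field K'] [Algebra K K'] {M : ℕ} [NeZero M] {k : ℤ}

theorem coeffMap_smul' {R S : Type*} [Field R] [Field S] (φ : R →+* S) (c : R)
    (x : LaurentSeries R) : coeffMap φ (c • x) = φ c • coeffMap φ x := by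
  ext n
  simp

theorem coeffMap_mem_MK {K K' : Type*} [Field K] [Field K'] (φ : K →+* K') {x : LaurentSeries K}
    (hx : x ∈ MK K M k) : coeffMap φ x ∈ MK K' M k := by
  obtain ⟨c, rfl⟩ := mem_MK_iff.mp hx
  rw [map_sum]
  refine Submodule.sum_mem _ fun i _ => ?_
  rw [coeffMap_smul', coeffMap_toK]
  exact Submodule.smul_mem _ _ (mem_MK_of_intExp (intExp_basF i))

theorem coeffMap_mem_F1 {K K' : Type*} [Field K] [Field K'] (φ : K →+* K') {x : LaurentSeries K}
    (hx : x ∈ F1 K M) : coeffMap φ x ∈ F1 K' M := by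
  obtain ⟨k, a, ha, b, hb, hb0, h⟩ := hx
  refine ⟨k, _, coeffMap_mem_MK φ ha, _, coeffMap_mem_MK φ hb, ?_, ?_⟩
  · intro h0
    exact hb0 (coeffMap_injective φ.injective (by rw [h0, map_zero]))
  · rw [← map_mul, h]

theorem mapLin_mem_MK (lam : K' →ₗ[K] K) {y : LaurentSeries K'} (hy : y ∈ MK K' M k) :
    mapLin lam y ∈ MK K M k := by
  obtain ⟨c, rfl⟩ := mem_MK_iff.mp hy
  rw [map_sum]
  refine Submodule.sum_mem _ fun i _ => ?_
  rw [mapLin_smul_toK]
  exact Submodule.smul_mem _ _ (mem_MK_of_intExp (intExp_basF i))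

theorem mem_MK_of_coeffMap {x : LaurentSeries K}
    (hx : coeffMap (algebraMap K K') x ∈ MK K' M k) : x ∈ MK K M k := by
  obtain ⟨f, hf⟩ : ∃ f : Module.Dual K K', f 1 ≠ 0 := by
    by_contra hcon
    push Not at hcon
    exact one_ne_zero ((Module.forall_dual_apply_eq_zero_iff K (1 : K')).mp hcon)
  have h1 := mapLin_mem_MK (K := K) f hx
  rw [← one_smul K' (coeffMap (algebraMap K K') x), mapLin_smul_coeffMap] at h1
  have h2 := Submodule.smul_mem _ (f 1)⁻¹ h1
  rwa [smul_smul, inv_mul_cancel₀ hf, one_smul] at h2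

/-- **Descent**: a series over `K` which is in `F1 K' M` is in `F1 K M`. -/
theorem mem_F1_of_coeffMap {x : LaurentSeries K}
    (hx : coeffMap (algebraMap K K') x ∈ F1 K' M) : x ∈ F1 K M := by
  obtain ⟨k, a, ha, b, hb, hb0, h⟩ := hx
  obtain ⟨lam, hlam⟩ := exists_mapLin_ne_zero (K := K) hb0
  exact ⟨k, mapLin lam a, mapLin_mem_MK lam ha, mapLin lam b, mapLin_mem_MK lam hb, hlam,
    by rw [← h, mapLin_coeffMap_mul]⟩

theorem mem_F1_iff_coeffMap {x : LaurentSeries K} :
    coeffMap (algebraMap K K') x ∈ F1 K' M ↔ x ∈ F1 K M :=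
  ⟨mem_F1_of_coeffMap, coeffMap_mem_F1 _⟩

theorem mem_F1_of_coeffMap' {K K' : Type*} [Field K] [Field K'] (φ : K →+* K')
    {x : LaurentSeries K} (hx : coeffMap φ x ∈ F1 K' M) : x ∈ F1 K M :=
  let _ := φ.toAlgebra
  mem_F1_of_coeffMap hx

variable (K K' M) in
/-- The inclusion `F1 K M → F1 K' M`. -/
def incF : F1 K M →+* F1 K' M :=
  ((coeffMap (algebraMap K K')).comp (algebraMap (F1 K M) (LaurentSeries K))).codRestrict _
    fun x => coeffMap_mem_F1 _ x.2

@[simp]
theorem coe_incF (x : F1 K M) :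
    (incF K K' M x : LaurentSeries K') = coeffMap (algebraMap K K') (x : LaurentSeries K) := rfl

theorem incF_algebraMap (c : K) : incF K K' M (algebraMap K (F1 K M) c) =
    algebraMap K' (F1 K' M) (algebraMap K K' c) := by
  apply Subtype.ext
  rw [coe_incF]
  show coeffMap _ (algebraMap K (LaurentSeries K) c) = algebraMap K' (LaurentSeries K') _
  rw [algebraMap_eq_C, algebraMap_eq_C, coeffMap_const]

theorem coe_smul_F1 (c : K) (x : F1 K M) :
    ((c • x : F1 K M) : LaurentSeries K) = c • (x : LaurentSeries K) := by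
  rw [smul_eq_mul_MK, Algebra.smul_def]
  rfl

theorem coe_sum_smul_F1 {ι : Type*} (s : Finset ι) (c : ι → K) (x : ι → F1 K M) :
    ((∑ i ∈ s, c i • x i : F1 K M) : LaurentSeries K) = ∑ i ∈ s, c i • (x i : LaurentSeries K) := by
  have h1 : ((∑ i ∈ s, c i • x i : F1 K M) : LaurentSeries K) =
      algebraMap (F1 K M) (LaurentSeries K) (∑ i ∈ s, c i • x i) := rfl
  rw [h1, map_sum]
  exact Finset.sum_congr rfl fun i _ => coe_smul_F1 (c i) (x i)

/-- **Linear disjointness.** -/
theorem linearIndependent_incF {ι : Type*} {b : ι → F1 K M} (hb : LinearIndependent K b) :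
    LinearIndependent K' fun i => incF K K' M (b i) := by
  rw [linearIndependent_iff'] at hb ⊢
  intro s c hc i hi
  by_contra hci
  obtain ⟨f, hf⟩ : ∃ f : Module.Dual K K', f (c i) ≠ 0 := by
    by_contra hcon
    push Not at hcon
    exact hci ((Module.forall_dual_apply_eq_zero_iff K _).mp hcon)
  have h0 : ∑ i ∈ s, c i • coeffMap (algebraMap K K') (b i : LaurentSeries K) = 0 := by
    have h1 := congrArg (fun x : F1 K' M => (x : LaurentSeries K')) hc
    simp only [coe_sum_smul_F1, coe_incF] at h1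
    exact h1
  have h1 := congrArg (mapLin f) h0
  rw [map_sum, map_zero] at h1
  simp only [mapLin_smul_coeffMap] at h1
  refine hf (hb s (fun i => f (c i)) ?_ i hi)
  apply Subtype.ext
  rw [coe_sum_smul_F1]
  exact h1

/-- Elements of `F1 K' M` are quotients of `K'`-combinations of elements of `F1 K M`. -/
theorem exists_quot_F1 (x : F1 K' M) : ∃ a ∈ Submodule.span K' (Set.range (incF K K' M)),
    ∃ b ∈ Submodule.span K' (Set.range (incF K K' M)), b ≠ 0 ∧ x * b = a := by
  obtain ⟨x, k, a, ha, b, hb, hb0, h⟩ := x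
  -- a nonzero integral form of weight `k`
  have hne : Nonempty (Fin (rkF M k)) := by
    by_contra hcon
    rw [not_nonempty_iff] at hcon
    obtain ⟨c, rfl⟩ := mem_MK_iff.mp hb
    exact hb0 (by rw [Finset.univ_eq_empty, Finset.sum_empty])
  obtain ⟨i₀⟩ := hne
  have hF0 : toK K (basF M k i₀) ≠ 0 := (linearIndependent_toK K M k).ne_zero i₀
  have hF0' : toK K' (basF M k i₀) ≠ 0 := (linearIndependent_toK K' M k).ne_zero i₀
  have key : ∀ a ∈ MK K' M k, ∃ a' : F1 K' M, a' ∈ Submodule.span K' (Set.range (incF K K' M)) ∧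
      (a' : LaurentSeries K') * toK K' (basF M k i₀) = a := by
    intro a ha
    obtain ⟨c, rfl⟩ := mem_MK_iff.mp ha
    have hmem : ∀ i, toK K (basF M k i) * (toK K (basF M k i₀))⁻¹ ∈ F1 K M := fun i =>
      ⟨k, _, mem_MK_of_intExp (intExp_basF i), _, mem_MK_of_intExp (intExp_basF i₀), hF0,
        by field_simp⟩
    refine ⟨∑ i, c i • incF K K' M ⟨_, hmem i⟩, Submodule.sum_mem _ fun i _ =>
      Submodule.smul_mem _ _ (Submodule.subset_span ⟨_, rfl⟩), ?_⟩
    have h1 : ((∑ i, c i • incF K K' M ⟨_, hmem i⟩ : F1 K' M) : LaurentSeries K') =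
        ∑ i, c i • (toK K' (basF M k i) * (toK K' (basF M k i₀))⁻¹) := by
      rw [coe_sum_smul_F1]
      refine Finset.sum_congr rfl fun i _ => ?_
      rw [coe_incF]
      show c i • coeffMap _ (toK K (basF M k i) * (toK K (basF M k i₀))⁻¹) = _
      rw [map_mul, map_inv₀, coeffMap_toK, coeffMap_toK]
    rw [h1, Finset.sum_mul]
    refine Finset.sum_congr rfl fun i _ => ?_
    rw [smul_eq_mul_MK, smul_eq_mul_MK, mul_assoc, inv_mul_cancel_right₀ hF0']
  obtain ⟨a', ha', haa⟩ := key a ha
  obtain ⟨b', hb', hbb⟩ := key b hb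
  refine ⟨a', ha', b', hb', ?_, ?_⟩
  · rintro rfl
    exact hb0 (by rw [← hbb]; simp)
  · apply Subtype.ext
    show x * (b' : LaurentSeries K') = a'
    apply mul_right_cancel₀ hF0'
    rw [mul_assoc, hbb, haa, h]

/-- `F1 K' M` is generated by `F1 K M` over `K'`. -/
theorem adjoin_range_incF :
    IntermediateField.adjoin K' (Set.range (incF K K' M)) = ⊤ := by
  rw [eq_top_iff]
  rintro x -
  obtain ⟨a, ha, b, hb, hb0, h⟩ := exists_quot_F1 (K := K) x
  have hle : Submodule.span K' (Set.range (incF K K' M)) ≤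
      Subalgebra.toSubmodule (IntermediateField.adjoin K' (Set.range (incF K K' M))).toSubalgebra := by
    rw [Submodule.span_le]
    exact IntermediateField.subset_adjoin _ _
  have h1 : x = a / b := by rw [← h, mul_div_cancel_right₀ _ hb0]
  rw [h1]
  exact div_mem (hle ha) (hle hb)

variable (K K' M) in
/-- `F1 K M → F1 K' M` is a constant field extension. -/
theorem constExt_incF : ConstExt K K' (incF K K' M) where
  comm := incF_algebraMap
  li _ hb := linearIndependent_incF hb
  gen := adjoin_range_incF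

end F1

end Fermat.Agent.DS.X1
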