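import Fermat.Agent.DS.X1.ApiBase
import Fermat.Agent.MFF.Ratio
import Fermat.Agent.MFF.Integral
import Fermat.Agent.S28.ModPolySym

/-!
# The function field of `X₁(M)` over `ℂ`, and the functions `j(q^d)`

* `mem_MK_complex`, `mem_F1_complex`: over `ℂ`, `F1 ℂ M` is the field of ratios of `q`-expansions
  of modular forms on `Γ₁(M)`;
* `IntExp.V`: `F(q) ↦ F(q^d)`;
* `full_le_F1`: `K(j(q^d) : d ∣ M) ≤ F1 K M`; `F1_mono`: `F1 K M ≤ F1 K M'` for `M ∣ M'`.
-/

set_option autoImplicit false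

noncomputable section

open UpperHalfPlane ModularForm MatrixGroups CongruenceSubgroup ModularCurve
open Matrix.SpecialLinearGroup
open scoped Pointwise
open Fermat.Agent.IntStr

namespace Fermat.Agent.DS.X1

open Fermat.Agent.JRED Fermat.Agent.MFF

section Complex

variable {M : ℕ} [NeZero M] {k l : ℤ} {f g : ℍ → ℂ}

/-- modular forms on `Γ₁(M)` of weight `k`, as functions -/
abbrev IsM1 (M : ℕ) (k : ℤ) (f : ℍ → ℂ) : Prop := IsMG (Gamma1 M : Subgroup (GL (Fin 2) ℝ)) k f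

omit [NeZero M] in
theorem LQ_of_intExp {F : PowerSeries ℤ} (h : qExpansion 1 f = PowerSeries.map (Int.castRingHom ℂ) F) :
    LQ f = toK ℂ F := by
  rw [LQ, h]
  rfl

theorem LQ_mem_MK (hf : IsM1 M k f) : LQ f ∈ MK ℂ M k := by
  have h := hf.mem_VG
  have key : f ∈ VG (Gamma1 M : Subgroup (GL (Fin 2) ℝ)) k ∧ LQ f ∈ MK ℂ M k := by
    refine Submodule.span_induction (p := fun x _ => x ∈ VG (Gamma1 M : Subgroup (GL (Fin 2) ℝ)) k ∧
      LQ x ∈ MK ℂ M k) ?_ ?_ ?_ ?_ h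
    · intro x hx
      refine ⟨Submodule.subset_span hx, ?_⟩
      obtain ⟨F, hF⟩ := hx.2.exists_map
      rw [LQ_of_intExp hF.symm]
      exact mem_MK_of_intExp ⟨x, hx.1, hF.symm⟩
    · exact ⟨zero_mem _, by rw [LQ_zero]; exact zero_mem _⟩
    · rintro x y _ _ ⟨hx, hx'⟩ ⟨hy, hy'⟩
      refine ⟨add_mem hx hy, ?_⟩
      rw [LQ_add (VG.isMG hx).anQ (VG.isMG hy).anQ]
      exact add_mem hx' hy'
    · rintro c x _ ⟨hx, hx'⟩
      refine ⟨Submodule.smul_mem _ _ hx, ?_⟩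
      rw [LQ_smul c (VG.isMG hx).anQ]
      exact Submodule.smul_mem _ _ hx'
  exact key.2

/-- Over `ℂ`, `MK` consists of the `q`-expansions of all modular forms. -/
theorem mem_MK_complex {x : LaurentSeries ℂ} :
    x ∈ MK ℂ M k ↔ ∃ f, IsM1 M k f ∧ x = LQ f := by
  constructor
  · intro hx
    induction hx using Submodule.span_induction with
    | mem x hx =>
      obtain ⟨F, ⟨f, hf, hfF⟩, rfl⟩ := hx
      exact ⟨f, hf, (LQ_of_intExp hfF).symm⟩
    | zero => exact ⟨0, IsMG.zero _ k, LQ_zero.symm⟩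
    | add x y _ _ hx hy =>
      obtain ⟨f, hf, rfl⟩ := hx
      obtain ⟨g, hg, rfl⟩ := hy
      exact ⟨f + g, hf.add hg, (LQ_add hf.anQ hg.anQ).symm⟩
    | smul c x _ hx =>
      obtain ⟨f, hf, rfl⟩ := hx
      exact ⟨c • f, hf.smul c, (LQ_smul c hf.anQ).symm⟩
  · rintro ⟨f, hf, rfl⟩
    exact LQ_mem_MK hf

theorem LQ_eq_zero (hf : IsM1 M k f) : LQ f = 0 ↔ f = 0 := by
  constructor
  · intro h
    exact hf.eq_zero_of_qExp ((map_eq_zero_iff _ HahnSeries.ofPowerSeries_injective).1 h)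
  · rintro rfl
    exact LQ_zero

theorem LQ_inj (hf : IsM1 M k f) (hg : IsM1 M k g) (h : LQ f = LQ g) : f = g :=
  hf.eq_of_qExp hg (HahnSeries.ofPowerSeries_injective h)

/-- **`F1 ℂ M` is the field of ratios of modular forms.** -/
theorem mem_F1_complex {x : LaurentSeries ℂ} :
    x ∈ F1 ℂ M ↔ ∃ (k : ℤ) (f g : ℍ → ℂ), IsM1 M k f ∧ IsM1 M k g ∧ g ≠ 0 ∧
      x * LQ g = LQ f := by
  constructor
  · rintro ⟨k, a, ha, b, hb, hb0, h⟩
    obtain ⟨f, hf, rfl⟩ := mem_MK_complex.mp ha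
    obtain ⟨g, hg, rfl⟩ := mem_MK_complex.mp hb
    exact ⟨k, f, g, hf, hg, fun h0 => hb0 ((LQ_eq_zero hg).mpr h0), h⟩
  · rintro ⟨k, f, g, hf, hg, hg0, h⟩
    exact ⟨k, _, LQ_mem_MK hf, _, LQ_mem_MK hg, fun h0 => hg0 ((LQ_eq_zero hg).mp h0), h⟩

theorem exists_num (k : ℤ) (f g : ℍ → ℂ) (hf : IsM1 M k f) (hg : IsM1 M k g) :
    LQ f / LQ g ∈ F1 ℂ M := by
  by_cases hg0 : LQ g = 0
  · rw [hg0, div_zero]; exact zero_mem _
  · exact ⟨k, _, LQ_mem_MK hf, _, LQ_mem_MK hg, hg0, div_mul_cancel₀ _ hg0⟩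

end Complex

section V

variable {M M' d : ℕ} [NeZero M] [NeZero M'] [NeZero d] {k : ℤ}

omit [NeZero M] in
theorem Gamma1_le_conj (h : M * d ∣ M') : (Gamma1 M' : Subgroup (GL (Fin 2) ℝ)) ≤
    ConjAct.toConjAct (heckeDiagMatrix d)⁻¹ • (Gamma1 M : Subgroup (GL (Fin 2) ℝ)) := by
  rintro _ ⟨g, hg, rfl⟩
  have hg' : g ∈ Gamma1 M' := hg
  rw [Gamma1_mem] at hg'
  obtain ⟨ha, hd, hc⟩ := hg'
  have hcM : ((M * d : ℕ) : ℤ) ∣ g 1 0 :=
    (Int.natCast_dvd_natCast.mpr h).trans ((ZMod.intCast_zmod_eq_zero_iff_dvd _ M').mp hc)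
  have hM : M ∣ M' := (Dvd.intro _ rfl).trans h
  obtain ⟨c, hc'⟩ : (d : ℤ) ∣ g 1 0 := by
    refine (Dvd.intro_left (M : ℤ) ?_).trans hcM
    push_cast; rfl
  rw [Subgroup.mem_pointwise_smul_iff_inv_smul_mem]
  refine ⟨conjSL d g c hc', ?_, ?_⟩
  · show conjSL d g c hc' ∈ Gamma1 M
    rw [Gamma1_mem]
    refine ⟨?_, ?_, ?_⟩
    · have h1 : (conjSL d g c hc') 0 0 = g 0 0 := by simp [conjSL]
      rw [h1]
      have h2 := congrArg (ZMod.castHom hM (ZMod M)) ha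
      rwa [map_intCast, map_one] at h2
    · have h1 : (conjSL d g c hc') 1 1 = g 1 1 := by simp [conjSL]
      rw [h1]
      have h2 := congrArg (ZMod.castHom hM (ZMod M)) hd
      rwa [map_intCast, map_one] at h2
    · have h1 : (conjSL d g c hc') 1 0 = c := by simp [conjSL]
      rw [h1, ZMod.intCast_zmod_eq_zero_iff_dvd]
      rw [hc', Nat.cast_mul, mul_comm (M : ℤ)] at hcM
      exact (mul_dvd_mul_iff_left (by exact_mod_cast NeZero.ne d)).mp hcM
  · have := heckeDiag_mul d g c hc'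
    rw [← map_inv, inv_inv, ConjAct.toConjAct_smul]
    rw [show (mapGL ℝ : SL(2, ℤ) →* GL (Fin 2) ℝ) g = (mapGL ℝ) g from rfl, this,
      mul_inv_cancel_right]

/-- The form `f(dτ)` on `Γ₁(M')`. -/
def lift1 (h : M * d ∣ M') {k : ℤ} (F : ModularForm (Gamma1 M : Subgroup (GL (Fin 2) ℝ)) k) :
    ModularForm (Gamma1 M' : Subgroup (GL (Fin 2) ℝ)) k :=
  ((d : ℂ) ^ (1 - k : ℤ)) •
    restrictMod (Gamma1_le_conj h) (ModularForm.translate F (heckeDiagMatrix d))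

omit [NeZero M] in
theorem lift1_apply (h : M * d ∣ M') {k : ℤ}
    (F : ModularForm (Gamma1 M : Subgroup (GL (Fin 2) ℝ)) k) (τ : ℍ) :
    lift1 h F τ = F (heckeDiagMatrix d • τ) := by
  have hd : d ≠ 0 := NeZero.ne d
  have hd' : (d : ℂ) ≠ 0 := by exact_mod_cast hd
  have : lift1 h F τ = ((d : ℂ) ^ (1 - k : ℤ)) * ((⇑F : ℍ → ℂ) ∣[k] (heckeDiagMatrix d)) τ := rfl
  rw [this, slash_heckeDiagMatrix_apply _ hd, ← mul_assoc, ← zpow_add₀ hd']
  simp

theorem lift1_coeff (h : M * d ∣ M') {k : ℤ}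
    (F : ModularForm (Gamma1 M : Subgroup (GL (Fin 2) ℝ)) k) (n : ℕ) :
    (qExpansion 1 (lift1 h F)).coeff n = if d ∣ n then (qExpansion 1 F).coeff (n / d) else 0 := by
  have hd : d ≠ 0 := NeZero.ne d
  symm
  refine ModularFormClass.qExpansion_coeff_unique (f := lift1 h F)
    (c := fun n => if d ∣ n then (qExpansion 1 F).coeff (n / d) else 0) one_pos
    (GoodLevel.per) ?_ n
  intro τ
  have hinj : Function.Injective (fun m : ℕ => d * m) := fun a b h =>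
    Nat.eq_of_mul_eq_mul_left (Nat.pos_of_ne_zero hd) h
  rw [← hinj.hasSum_iff]
  · have h := ModularForm.hasSum_qExpansion F one_pos GoodLevel.per
      (heckeDiagMatrix d • τ)
    rw [lift1_apply]
    convert h using 2 with m
    simp only [Function.comp_apply, dvd_mul_right, if_true,
      Nat.mul_div_cancel_left _ (Nat.pos_of_ne_zero hd), smul_eq_mul]
    congr 1
    rw [coe_heckeDiagMatrix_smul hd, pow_mul]
    congr 1
    simp only [Function.Periodic.qParam, ← Complex.exp_nat_mul]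
    congr 1
    ring
  · intro x hx
    have : ¬ d ∣ x := fun ⟨m, hm⟩ => hx ⟨m, hm.symm⟩
    simp [this]

/-- The operator `F(q) ↦ F(q^d)` on power series. -/
def VV (d : ℕ) (F : PowerSeries ℤ) : PowerSeries ℤ :=
  PowerSeries.mk fun n => if d ∣ n then PowerSeries.coeff (n / d) F else 0

theorem toK_VV (K : Type*) [Field K] (d : ℕ) [NeZero d] (F : PowerSeries ℤ) :
    toK K (VV d F) = qExpand K d (toK K F) := by
  have hd : d ≠ 0 := NeZero.ne d
  ext n
  by_cases hn : (d : ℤ) ∣ n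
  · obtain ⟨m, rfl⟩ := hn
    rw [qExpand_coeff_mul]
    rcases le_or_gt 0 m with hm | hm
    · lift m to ℕ using hm
      have h1 : ((d : ℤ) * (m : ℤ)) = ((d * m : ℕ) : ℤ) := by push_cast; ring
      rw [h1, coeff_toK, coeff_toK, VV, PowerSeries.coeff_mk, if_pos (Dvd.intro m rfl),
        Nat.mul_div_cancel_left _ (Nat.pos_of_ne_zero hd)]
    · have h1 : (d : ℤ) * m < 0 :=
        mul_neg_of_pos_of_neg (by exact_mod_cast Nat.pos_of_ne_zero hd) hm
      rw [coeff_toK_neg _ _ h1, coeff_toK_neg _ _ hm]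
  · rw [qExpand_coeff_of_not_dvd _ _ hn]
    rcases le_or_gt 0 n with hn' | hn'
    · lift n to ℕ using hn'
      rw [coeff_toK, VV, PowerSeries.coeff_mk, if_neg, Int.cast_zero]
      intro h2
      exact hn (by exact_mod_cast h2)
    · rw [coeff_toK_neg _ _ hn']

/-- **`V_d`** on integral expansions. -/
theorem IntExp.V (h : M * d ∣ M') {F : PowerSeries ℤ} (hF : IntExp M k F) :
    IntExp M' k (VV d F) := by
  obtain ⟨_, ⟨f, rfl⟩, hfF⟩ := hF
  refine ⟨lift1 h f, ⟨_, rfl⟩, ?_⟩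
  ext n
  rw [lift1_coeff, PowerSeries.coeff_map, VV, PowerSeries.coeff_mk, hfF]
  split_ifs
  · rw [PowerSeries.coeff_map]
  · rw [map_zero]

theorem IntExp.mono (h : M ∣ M') {F : PowerSeries ℤ} (hF : IntExp M k F) : IntExp M' k F := by
  have h1 := hF.V (M' := M') (d := 1) (by rwa [mul_one])
  have h2 : VV 1 F = F := by ext n; simp [VV]
  rwa [h2] at h1

theorem MK_mono (K : Type*) [Field K] (h : M ∣ M') (k : ℤ) : MK K M k ≤ MK K M' k := by
  rw [MK, Submodule.span_le]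
  rintro _ ⟨F, hF, rfl⟩
  exact mem_MK_of_intExp (hF.mono h)

/-- `F1 K M ≤ F1 K M'` for `M ∣ M'`. -/
theorem F1_mono (K : Type*) [Field K] (h : M ∣ M') : F1 K M ≤ F1 K M' := by
  rintro x ⟨k, a, ha, b, hb, hb0, hab⟩
  exact ⟨k, a, MK_mono K h k ha, b, MK_mono K h k hb, hb0, hab⟩

theorem qExpand_mem_MK {K : Type*} [Field K] (h : M * d ∣ M') {x : LaurentSeries K}
    (hx : x ∈ MK K M k) : qExpand K d x ∈ MK K M' k := by
  obtain ⟨c, rfl⟩ := mem_MK_iff.mp hx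
  rw [map_sum]
  refine Submodule.sum_mem _ fun i _ => ?_
  rw [smul_eq_mul_MK, map_mul, ← toK_VV, algebraMap_eq_C]
  have h1 : qExpand K d (HahnSeries.C (c i)) = HahnSeries.C (c i) := by
    rw [HahnSeries.C_apply, qExpand_single, mul_zero]
  rw [h1, ← algebraMap_eq_C, ← smul_eq_mul_MK]
  exact Submodule.smul_mem _ _ (mem_MK_of_intExp ((intExp_basF i).V h))

theorem qExpand_mem_F1 {K : Type*} [Field K] (h : M * d ∣ M') {x : LaurentSeries K}
    (hx : x ∈ F1 K M) : qExpand K d x ∈ F1 K M' := by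
  obtain ⟨k, a, ha, b, hb, hb0, hab⟩ := hx
  refine ⟨k, _, qExpand_mem_MK h ha, _, qExpand_mem_MK h hb, ?_, ?_⟩
  · intro h0
    exact hb0 ((map_eq_zero_iff _ (qExpand K d).injective).mp h0)
  · rw [← map_mul, hab]

end V

section J

open Fermat.Agent.S28.ModPoly

variable {M : ℕ} [NeZero M]

/-- level one forms -/
theorem IntExp.of_isQ {k : ℤ} {F : PowerSeries ℤ} (hF : IsQ k F) : IntExp M k F := by
  obtain ⟨f, hf⟩ := hF
  exact ⟨f, IsMG.of_isL1 ⟨f, rfl⟩, hf⟩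

theorem jqModC_mul_toK (K : Type*) [Field K] :
    jqModC K * toK K dz = toK K (eisenstein4 ^ 3) := by
  rw [mul_comm]
  exact L_dz_mul_jq K

theorem toK_dz_ne_zero (K : Type*) [Field K] : toK K dz ≠ 0 := by
  intro h
  have h1 : L K dz * dInv K = 1 := L_dz_mul_dInv K
  have h2 : L K dz = 0 := h
  rw [h2, zero_mul] at h1
  exact zero_ne_one h1

theorem intExp_dz : IntExp M 12 dz := IntExp.of_isQ isQ_dz

theorem intExp_E4cube : IntExp M 12 (eisenstein4 ^ 3) :=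
  IntExp.of_isQ ((isQ_E4.pow 3).cast (by norm_num))

theorem jqModC_mem_F1 (K : Type*) [Field K] (M : ℕ) [NeZero M] : jqModC K ∈ F1 K M :=
  ⟨12, _, mem_MK_of_intExp intExp_E4cube, _, mem_MK_of_intExp intExp_dz, toK_dz_ne_zero K,
    jqModC_mul_toK K⟩

theorem qExpand_jqModC_mem_F1 (K : Type*) [Field K] {d : ℕ} [NeZero d] (hd : d ∣ M) :
    qExpand K d (jqModC K) ∈ F1 K M :=
  qExpand_mem_F1 (M := 1) (by rwa [one_mul]) (jqModC_mem_F1 K 1)

/-- The function field of `X₀(M)` is contained in that of `X₁(M)`. -/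
theorem full_le_F1 (K : Type*) [Field K] (M : ℕ) [NeZero M] :
    modularFunctionFieldFullC K M ≤ F1 K M := by
  unfold modularFunctionFieldFullC
  rw [IntermediateField.adjoin_le_iff]
  rintro _ ⟨d, hd0, hd, rfl⟩
  exact qExpand_jqModC_mem_F1 K hd

/-- `j` as an element of `F1 K M`. -/
def j1 (K : Type*) [Field K] (M : ℕ) [NeZero M] : F1 K M := ⟨jqModC K, jqModC_mem_F1 K M⟩

@[simp]
theorem coe_j1 (K : Type*) [Field K] (M : ℕ) [NeZero M] :
    ((j1 K M : F1 K M) : LaurentSeries K) = jqModC K := rfl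

theorem incF_j1 {K K' : Type*} [Field K] [Field K'] [Algebra K K'] (M : ℕ) [NeZero M] :
    incF K K' M (j1 K M) = j1 K' M := by
  apply Subtype.ext
  rw [coe_incF, coe_j1, coe_j1, coeffMap_jqModC]

theorem transcendental_j1 (K : Type*) [Field K] (M : ℕ) [NeZero M] :
    Transcendental K (j1 K M) := by
  intro h
  have h1 := h.algebraMap (A := LaurentSeries K)
  exact transcendental_jqModC K h1

theorem red_j1 {K κ : Type*} [Field K] [Field κ] {A : ValuationSubring K} {π : A →+* κ}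
    (hπ : Function.Surjective π) (M : ℕ) [NeZero M] :
    (redF1 hπ M).Red (j1 K M) (j1 κ M) := by
  rw [redF1_red, coe_j1, coe_j1]
  have h := GRed.of_int (π := π) (jqModC ℤ)
  rwa [coeffMap_jqModC, coeffMap_jqModC] at h

end J

end Fermat.Agent.DS.X1
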