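import Fermat.Agent.DS.X1.ApiC
import Fermat.Agent.DS.Hecke1Coset
import Fermat.Agent.IntStr.AutC

/-!
# Diamond automorphisms of the function field of `X₁(M)`

For a field `K` of characteristic zero and `d ∈ (ℤ/M)ˣ`:

* `dM K k d`: the diamond operator on `MK K M k` (a `K`-linear endomorphism of `K((q))`);
  `dM_mem`, `dM_mul`, `dM_dM`, `coeffMap_dM`, `dM_LQ` (over `ℂ` it is `f ↦ f ∣ γ`);
* `dia K M d : F1 K M ≃ₐ[K] F1 K M`, `diaG K M : (ZMod M)ˣ →* (F1 K M ≃ₐ[K] F1 K M)`;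
* `coe_dia_mul_dM`, `dia_complex`, `coeffMap_dia`, `dia_incF`, `dia_of_mem_full`.
-/

set_option autoImplicit false

noncomputable section

open UpperHalfPlane ModularForm MatrixGroups CongruenceSubgroup ModularCurve
open Matrix.SpecialLinearGroup
open scoped Pointwise
open Fermat.Agent.IntStr

namespace Fermat.Agent.DS.X1

open Fermat.Agent.JRED Fermat.Agent.MFF Fermat.Agent.DS.Hecke1

/-! ### Over `ℂ` -/

section Complex

variable {M : ℕ} [NeZero M] {k l : ℤ} {f g : ℍ → ℂ}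

omit [NeZero M] in
theorem IsM1.inv (hf : IsM1 M k f) : Inv M k f := by
  obtain ⟨F, rfl⟩ := hf
  exact fun γ hγ => SlashInvariantFormClass.slash_action_eq F _ ⟨γ, hγ, rfl⟩

theorem IsM1.dia (hf : IsM1 M k f) (d : (ZMod M)ˣ) : IsM1 M k (diaF M k d f) :=
  IsMG.slash_Gamma0 hf (rep_mem d)

theorem diaF_mul (d : (ZMod M)ˣ) (f g : ℍ → ℂ) :
    diaF M (k + l) d (f * g) = diaF M k d f * diaF M l d g := by
  have h := ModularForm.mul_slash_SL2 k l (rep M d) f g
  exact h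

theorem IsM1.diaF_diaF_inv (hf : IsM1 M k f) (d : (ZMod M)ˣ) :
    diaF M k d⁻¹ (diaF M k d f) = f := by
  rw [hf.inv.diaF_diaF, mul_inv_cancel, hf.inv.diaF_one]

theorem IsM1.isConj_dia {σ : ℂ →+* ℂ} (hf : IsM1 M k f) (hg : IsM1 M k g)
    (h : IsConj' σ f g) (d : (ZMod M)ˣ) : IsConj' σ (diaF M k d f) (diaF M k d g) :=
  isConj_slash_Gamma0 σ (rep_mem d) hf hg h

theorem LQ_isConj {σ : ℂ →+* ℂ} (h : IsConj' σ f g) : coeffMap σ (LQ f) = LQ g := by
  unfold IsConj' at h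
  rw [LQ, LQ, h]
  ext n
  rcases lt_or_ge n 0 with hn | hn
  · rw [coeffMap_coeff, ofPowerSeries_coeff_of_neg _ hn, ofPowerSeries_coeff_of_neg _ hn, map_zero]
  · obtain ⟨m, rfl⟩ := Int.eq_ofNat_of_zero_le hn
    rw [coeffMap_coeff, HahnSeries.ofPowerSeries_apply_coeff, HahnSeries.ofPowerSeries_apply_coeff,
      PowerSeries.coeff_map]

/-- The diamond operators are defined over `ℚ`. -/
theorem exists_rat_dia {F : PowerSeries ℤ} (hF : IntExp M k F) (d : (ZMod M)ˣ) :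
    ∃ a : Fin (rkF M k) → ℚ, ∀ f, IsM1 M k f → qExpansion 1 f = F.map (Int.castRingHom ℂ) →
      LQ (diaF M k d f) = ∑ j, ((a j : ℚ) : ℂ) • toK ℂ (basF M k j) := by
  obtain ⟨f, hf, hfF⟩ := hF
  obtain ⟨c, hc⟩ := mem_MK_iff.mp (LQ_mem_MK (IsM1.dia hf d))
  have hfix : ∀ (σ : ℂ ≃+* ℂ) (j), σ (c j) = c j := by
    intro σ
    have h1 : IsConj' (σ : ℂ →+* ℂ) f f := by
      unfold IsConj'
      rw [hfF]
      ext n
      rw [PowerSeries.coeff_map, PowerSeries.coeff_map]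
      simp
    have h2 := LQ_isConj (IsM1.isConj_dia hf hf h1 d)
    rw [hc, map_sum] at h2
    simp only [coeffMap_smul', coeffMap_toK] at h2
    rw [← sub_eq_zero, ← Finset.sum_sub_distrib] at h2
    simp only [← sub_smul] at h2
    intro j
    have h3 := Fintype.linearIndependent_iff.mp (linearIndependent_toK ℂ M k) _ h2 j
    exact sub_eq_zero.mp h3
  choose a ha using fun j => mem_range_of_forall_aut (c j) fun σ => hfix σ j
  refine ⟨a, fun f' hf' hf'F => ?_⟩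
  have h3 : f' = f := hf'.eq_of_qExp hf (by rw [hf'F, hfF])
  rw [h3, hc]
  exact Finset.sum_congr rfl fun j _ => by rw [ha]

end Complex

/-! ### Diamond operators on `MK` -/

section dM

variable {M : ℕ} [NeZero M]

/-- The rational matrix of the diamond operator. -/
def diaC (k : ℤ) (d : (ZMod M)ˣ) (i : Fin (rkF M k)) : Fin (rkF M k) → ℚ :=
  (exists_rat_dia (intExp_basF (M := M) (k := k) i) d).choose

/-- The image of the basis. -/
def bD (K : Type*) [Field K] (k : ℤ) (d : (ZMod M)ˣ) (i : Fin (rkF M k)) : LaurentSeries K :=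
  ∑ j, ((diaC k d i j : ℚ) : K) • toK K (basF M k j)

theorem bD_complex (k : ℤ) (d : (ZMod M)ˣ) (i : Fin (rkF M k)) {f : ℍ → ℂ} (hf : IsM1 M k f)
    (h : qExpansion 1 f = (basF M k i).map (Int.castRingHom ℂ)) :
    LQ (diaF M k d f) = bD ℂ k d i :=
  (exists_rat_dia (intExp_basF (M := M) (k := k) i) d).choose_spec f hf h

theorem bD_mem (K : Type*) [Field K] (k : ℤ) (d : (ZMod M)ˣ) (i : Fin (rkF M k)) :
    bD K k d i ∈ MK K M k :=
  Submodule.sum_mem _ fun j _ => Submodule.smul_mem _ _ (mem_MK_of_intExp (intExp_basF j))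

theorem coeffMap_bD {K K' : Type*} [Field K] [Field K'] [CharZero K] [CharZero K'] (φ : K →+* K')
    (k : ℤ) (d : (ZMod M)ˣ) (i : Fin (rkF M k)) :
    coeffMap φ (bD K k d i) = bD K' k d i := by
  rw [bD, bD, map_sum]
  refine Finset.sum_congr rfl fun j _ => ?_
  rw [coeffMap_smul', coeffMap_toK, map_ratCast]

theorem exists_dM (K : Type*) [Field K] (k : ℤ) (d : (ZMod M)ˣ) :
    ∃ L : LaurentSeries K →ₗ[K] LaurentSeries K, ∀ i, L (toK K (basF M k i)) = bD K k d i := by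
  let b := Module.Basis.span (linearIndependent_toK K M k)
  obtain ⟨L, hL⟩ := LinearMap.exists_extend (b.constr K (bD K k d))
  refine ⟨L, fun i => ?_⟩
  have h1 := LinearMap.congr_fun hL (b i)
  rw [Module.Basis.constr_basis, LinearMap.comp_apply] at h1
  rw [← h1]
  congr 1
  exact (congrArg Subtype.val (Module.Basis.span_apply (linearIndependent_toK K M k) i)).symm

/-- **The diamond operator** on forms of weight `k` over `K` (only meaningful on `MK K M k`). -/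
def dM (K : Type*) [Field K] (k : ℤ) (d : (ZMod M)ˣ) : LaurentSeries K →ₗ[K] LaurentSeries K :=
  (exists_dM K k d).choose

theorem dM_bas (K : Type*) [Field K] (k : ℤ) (d : (ZMod M)ˣ) (i : Fin (rkF M k)) :
    dM K k d (toK K (basF M k i)) = bD K k d i := (exists_dM K k d).choose_spec i

variable {k l : ℤ} (d e : (ZMod M)ˣ)

theorem dM_mem {K : Type*} [Field K] {x : LaurentSeries K} (hx : x ∈ MK K M k) :
    dM K k d x ∈ MK K M k := by
  obtain ⟨c, rfl⟩ := mem_MK_iff.mp hx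
  rw [map_sum]
  refine Submodule.sum_mem _ fun i _ => ?_
  rw [map_smul, dM_bas]
  exact Submodule.smul_mem _ _ (bD_mem K k d i)

theorem coeffMap_dM {K K' : Type*} [Field K] [Field K'] [CharZero K] [CharZero K'] (φ : K →+* K')
    {x : LaurentSeries K} (hx : x ∈ MK K M k) :
    coeffMap φ (dM K k d x) = dM K' k d (coeffMap φ x) := by
  obtain ⟨c, rfl⟩ := mem_MK_iff.mp hx
  simp only [map_sum, map_smul, coeffMap_smul', coeffMap_toK, dM_bas, coeffMap_bD]

/-- Over `ℂ`, `dM` is the usual diamond operator. -/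
theorem dM_LQ {f : ℍ → ℂ} (hf : IsM1 M k f) : dM ℂ k d (LQ f) = LQ (diaF M k d f) := by
  choose b hb hbF using fun i : Fin (rkF M k) => intExp_basF (M := M) (k := k) i
  obtain ⟨c, hc⟩ := mem_MK_iff.mp (LQ_mem_MK hf)
  have hbL : ∀ i, LQ (b i) = toK ℂ (basF M k i) := fun i => LQ_of_intExp (hbF i)
  have h1 : f = ∑ i, c i • b i := by
    apply LQ_inj hf (IsMG.sum fun i _ => (hb i).smul (c i))
    rw [hc, LQ_sum fun i _ => ((hb i).smul (c i)).anQ]
    exact Finset.sum_congr rfl fun i _ => by rw [LQ_smul (c i) (hb i).anQ, hbL]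
  have h2 : diaF M k d f = ∑ i, c i • diaF M k d (b i) := by
    rw [h1]
    unfold diaF
    rw [SlashAction.sum_slash]
    exact Finset.sum_congr rfl fun i _ => diaF_smul d (c i) (b i)
  rw [h2, LQ_sum fun i _ => ((IsM1.dia (hb i) d).smul (c i)).anQ, hc, map_sum]
  refine Finset.sum_congr rfl fun i _ => ?_
  rw [map_smul, dM_bas, LQ_smul (c i) (IsM1.dia (hb i) d).anQ, bD_complex k d i (hb i) (hbF i)]

/-- Transfer of identities from `ℂ`. -/
theorem dM_toK_of_complex {K : Type*} [Field K] [CharZero K] {F G : PowerSeries ℤ}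
    (hF : IntExp M k F) (h : dM ℂ k d (toK ℂ F) = toK ℂ G) : dM K k d (toK K F) = toK K G := by
  have h1 : dM ℚ k d (toK ℚ F) = toK ℚ G := by
    apply coeffMap_injective (Rat.castHom ℂ).injective
    rw [coeffMap_dM d (Rat.castHom ℂ) (mem_MK_of_intExp hF), coeffMap_toK, coeffMap_toK, h]
  have h2 := congrArg (coeffMap (Rat.castHom K)) h1
  rwa [coeffMap_dM d (Rat.castHom K) (mem_MK_of_intExp hF), coeffMap_toK, coeffMap_toK] at h2

theorem dM_one (K : Type*) [Field K] [CharZero K] : dM K 0 d 1 = 1 := by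
  have h1 : dM ℂ 0 d (toK ℂ 1) = toK ℂ 1 := by
    have h2 : toK ℂ 1 = LQ (1 : ℍ → ℂ) := by rw [map_one, LQ_one]
    rw [h2, dM_LQ d (IsMG.one _)]
    congr 1
    have h3 := diaF_mul (k := 0) (l := 0) d (1 : ℍ → ℂ) 1
    show (1 : ℍ → ℂ) ∣[(0 : ℤ)] (rep M d) = 1
    exact ModularForm.is_invariant_one (rep M d)
  have h2 := dM_toK_of_complex (K := K) d (IntExp.one M) h1
  rwa [map_one] at h2

theorem dM_mul_aux {K : Type*} [Field K] [CharZero K] (φ : K →+* ℂ) {a b : LaurentSeries K}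
    (ha : a ∈ MK K M k) (hb : b ∈ MK K M l) :
    dM K (k + l) d (a * b) = dM K k d a * dM K l d b := by
  apply coeffMap_injective φ.injective
  rw [coeffMap_dM d φ (mul_mem_MK ha hb), map_mul (coeffMap φ), map_mul (coeffMap φ),
    coeffMap_dM d φ ha, coeffMap_dM d φ hb]
  obtain ⟨f, hf, hfa⟩ := mem_MK_complex.mp (coeffMap_mem_MK φ ha)
  obtain ⟨g, hg, hgb⟩ := mem_MK_complex.mp (coeffMap_mem_MK φ hb)
  rw [hfa, hgb, ← LQ_mul hf.anQ hg.anQ, dM_LQ d (hf.mul hg), dM_LQ d hf, dM_LQ d hg, diaF_mul,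
    LQ_mul (hf.dia d).anQ (hg.dia d).anQ]

/-- Multiplicativity. -/
theorem dM_mul {K : Type*} [Field K] [CharZero K] {a b : LaurentSeries K}
    (ha : a ∈ MK K M k) (hb : b ∈ MK K M l) :
    dM K (k + l) d (a * b) = dM K k d a * dM K l d b := by
  have hbas : ∀ i j, dM K (k + l) d (toK K (basF M k i) * toK K (basF M l j)) =
      dM K k d (toK K (basF M k i)) * dM K l d (toK K (basF M l j)) := by
    intro i j
    have h1 := congrArg (coeffMap (Rat.castHom K)) (dM_mul_aux d (Rat.castHom ℂ)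
      (mem_MK_of_intExp (intExp_basF (M := M) (k := k) i))
      (mem_MK_of_intExp (intExp_basF (M := M) (k := l) j)))
    rw [coeffMap_dM d (Rat.castHom K) (mul_mem_MK (mem_MK_of_intExp (intExp_basF i))
        (mem_MK_of_intExp (intExp_basF j))), map_mul (coeffMap _), map_mul (coeffMap _),
      coeffMap_dM d (Rat.castHom K) (mem_MK_of_intExp (intExp_basF i)),
      coeffMap_dM d (Rat.castHom K) (mem_MK_of_intExp (intExp_basF j)), coeffMap_toK,
      coeffMap_toK] at h1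
    exact h1
  obtain ⟨c, rfl⟩ := mem_MK_iff.mp ha
  obtain ⟨c', rfl⟩ := mem_MK_iff.mp hb
  simp only [Finset.sum_mul_sum, map_sum, map_smul]
  refine Finset.sum_congr rfl fun i _ => Finset.sum_congr rfl fun j _ => ?_
  have h2 : (c i • toK K (basF M k i)) * (c' j • toK K (basF M l j)) =
      (c i * c' j) • (toK K (basF M k i) * toK K (basF M l j)) := by
    simp only [smul_eq_mul_MK, map_mul]
    ring
  rw [h2, map_smul, hbas]
  simp only [smul_eq_mul_MK, map_mul]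
  ring

theorem dM_dM_aux {K : Type*} [Field K] [CharZero K] (φ : K →+* ℂ) {a : LaurentSeries K}
    (ha : a ∈ MK K M k) : dM K k e (dM K k d a) = dM K k (d * e) a := by
  apply coeffMap_injective φ.injective
  rw [coeffMap_dM e φ (dM_mem d ha), coeffMap_dM d φ ha, coeffMap_dM (d * e) φ ha]
  obtain ⟨f, hf, hfa⟩ := mem_MK_complex.mp (coeffMap_mem_MK φ ha)
  rw [hfa, dM_LQ d hf, dM_LQ e (hf.dia d), dM_LQ (d * e) hf, hf.inv.diaF_diaF]

theorem dM_dM {K : Type*} [Field K] [CharZero K] {a : LaurentSeries K}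
    (ha : a ∈ MK K M k) : dM K k e (dM K k d a) = dM K k (d * e) a := by
  have hbas : ∀ i, dM K k e (dM K k d (toK K (basF M k i))) =
      dM K k (d * e) (toK K (basF M k i)) := by
    intro i
    have h1 := congrArg (coeffMap (Rat.castHom K)) (dM_dM_aux d e (Rat.castHom ℂ)
      (mem_MK_of_intExp (intExp_basF (M := M) (k := k) i)))
    rwa [coeffMap_dM e (Rat.castHom K) (dM_mem d (mem_MK_of_intExp (intExp_basF i))),
      coeffMap_dM d (Rat.castHom K) (mem_MK_of_intExp (intExp_basF i)),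
      coeffMap_dM (d * e) (Rat.castHom K) (mem_MK_of_intExp (intExp_basF i)), coeffMap_toK] at h1
  obtain ⟨c, rfl⟩ := mem_MK_iff.mp ha
  simp only [map_sum, map_smul, hbas]

theorem dM_id_aux {K : Type*} [Field K] [CharZero K] (φ : K →+* ℂ) {a : LaurentSeries K}
    (ha : a ∈ MK K M k) : dM K k (1 : (ZMod M)ˣ) a = a := by
  apply coeffMap_injective φ.injective
  rw [coeffMap_dM 1 φ ha]
  obtain ⟨f, hf, hfa⟩ := mem_MK_complex.mp (coeffMap_mem_MK φ ha)
  rw [hfa, dM_LQ 1 hf, hf.inv.diaF_one]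

theorem dM_id {K : Type*} [Field K] [CharZero K] {a : LaurentSeries K}
    (ha : a ∈ MK K M k) : dM K k (1 : (ZMod M)ˣ) a = a := by
  have hbas : ∀ i, dM K k (1 : (ZMod M)ˣ) (toK K (basF M k i)) = toK K (basF M k i) := by
    intro i
    have h1 := congrArg (coeffMap (Rat.castHom K)) (dM_id_aux (Rat.castHom ℂ)
      (mem_MK_of_intExp (intExp_basF (M := M) (k := k) i)))
    rwa [coeffMap_dM 1 (Rat.castHom K) (mem_MK_of_intExp (intExp_basF i)), coeffMap_toK] at h1
  obtain ⟨c, rfl⟩ := mem_MK_iff.mp ha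
  simp only [map_sum, map_smul, hbas]

theorem dM_inv_dM {K : Type*} [Field K] [CharZero K] {a : LaurentSeries K}
    (ha : a ∈ MK K M k) : dM K k d⁻¹ (dM K k d a) = a := by
  rw [dM_dM d d⁻¹ ha, mul_inv_cancel, dM_id ha]

theorem dM_ne_zero {K : Type*} [Field K] [CharZero K] {a : LaurentSeries K}
    (ha : a ∈ MK K M k) (h0 : a ≠ 0) : dM K k d a ≠ 0 := fun h => h0 (by
  rw [← dM_inv_dM d ha, h, map_zero])

end dM

/-! ### Diamond automorphisms -/

section dia

variable {M : ℕ} [NeZero M] (d e : (ZMod M)ˣ) {K : Type*} [Field K] [CharZero K]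

theorem exists_dia (x : F1 K M) : ∃ y : F1 K M, ∀ (k : ℤ) (a b : LaurentSeries K),
    a ∈ MK K M k → b ∈ MK K M k → (x : LaurentSeries K) * b = a →
      (y : LaurentSeries K) * dM K k d b = dM K k d a := by
  obtain ⟨x, k₀, a₀, ha₀, b₀, hb₀, hb0, h₀⟩ := x
  have hb1 : dM K k₀ d b₀ ≠ 0 := dM_ne_zero d hb₀ hb0
  refine ⟨⟨dM K k₀ d a₀ / dM K k₀ d b₀, k₀, _, dM_mem d ha₀, _, dM_mem d hb₀, hb1,
    div_mul_cancel₀ _ hb1⟩, fun k a b ha hb h => ?_⟩
  have h' : x * b = a := h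
  have h1 : a * b₀ = b * a₀ := by rw [← h', ← h₀]; ring
  have h2 := dM_mul d ha hb₀
  have h3 := dM_mul d hb ha₀
  rw [h1] at h2
  have h4 : dM K k d a * dM K k₀ d b₀ = dM K k d b * dM K k₀ d a₀ := h2.symm.trans h3
  show dM K k₀ d a₀ / dM K k₀ d b₀ * dM K k d b = dM K k d a
  rw [div_mul_eq_mul_div, div_eq_iff hb1, h4]
  ring

/-- the diamond automorphism on elements -/
def diaVal (x : F1 K M) : F1 K M := (exists_dia d x).choose

theorem diaVal_mul {k : ℤ} {x : F1 K M} {a b : LaurentSeries K}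
    (ha : a ∈ MK K M k) (hb : b ∈ MK K M k) (h : (x : LaurentSeries K) * b = a) :
    (diaVal d x : LaurentSeries K) * dM K k d b = dM K k d a :=
  (exists_dia d x).choose_spec k a b ha hb h

theorem diaVal_eq {k : ℤ} {x y : F1 K M} {a b : LaurentSeries K}
    (ha : a ∈ MK K M k) (hb : b ∈ MK K M k) (hb0 : b ≠ 0) (h : (x : LaurentSeries K) * b = a)
    (h' : (y : LaurentSeries K) * dM K k d b = dM K k d a) : diaVal d x = y := by
  apply Subtype.ext
  apply mul_right_cancel₀ (dM_ne_zero d hb hb0)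
  rw [diaVal_mul d ha hb h, h']

variable (K M) in
/-- The diamond endomorphism. -/
def diaEnd : F1 K M →ₐ[K] F1 K M where
  toFun := diaVal d
  map_one' := diaVal_eq (k := 0) d one_mem_MK one_mem_MK one_ne_zero (one_mul 1) (one_mul _)
  map_mul' x y := by
    obtain ⟨k, a, ha, b, hb, hb0, h⟩ := mem_F1.mp x.2
    obtain ⟨l, a', ha', b', hb', hb0', h'⟩ := mem_F1.mp y.2
    refine diaVal_eq (k := k + l) d (mul_mem_MK ha ha') (mul_mem_MK hb hb')
      (mul_ne_zero hb0 hb0') ?_ ?_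
    · show (x : LaurentSeries K) * (y : LaurentSeries K) * (b * b') = a * a'
      rw [← h, ← h']; ring
    · rw [dM_mul d ha ha', dM_mul d hb hb', ← diaVal_mul d ha hb h, ← diaVal_mul d ha' hb' h']
      show (diaVal d x : LaurentSeries K) * (diaVal d y : LaurentSeries K) * _ = _
      ring
  map_zero' := diaVal_eq (k := 0) d (zero_mem _) one_mem_MK one_ne_zero (zero_mul 1) (by
    rw [map_zero]; exact zero_mul _)
  map_add' x y := by
    obtain ⟨k, a, ha, b, hb, hb0, h⟩ := mem_F1.mp x.2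
    obtain ⟨l, a', ha', b', hb', hb0', h'⟩ := mem_F1.mp y.2
    refine diaVal_eq (k := k + l) d (add_mem (mul_mem_MK ha hb') (mul_mem_MK hb ha'))
      (mul_mem_MK hb hb') (mul_ne_zero hb0 hb0') ?_ ?_
    · show ((x : LaurentSeries K) + (y : LaurentSeries K)) * (b * b') = a * b' + b * a'
      rw [← h, ← h']; ring
    · rw [map_add, dM_mul d ha hb', dM_mul d hb ha', dM_mul d hb hb', ← diaVal_mul d ha hb h,
        ← diaVal_mul d ha' hb' h']
      show ((diaVal d x : LaurentSeries K) + (diaVal d y : LaurentSeries K)) * _ = _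
      ring
  commutes' c := by
    refine diaVal_eq (k := 0) d (Submodule.smul_mem _ c one_mem_MK) one_mem_MK one_ne_zero ?_ ?_
    · show algebraMap K (LaurentSeries K) c * 1 = c • (1 : LaurentSeries K)
      rw [smul_eq_mul_MK]
    · rw [map_smul, dM_one]
      show algebraMap K (LaurentSeries K) c * 1 = c • (1 : LaurentSeries K)
      rw [smul_eq_mul_MK]

theorem diaEnd_mul {k : ℤ} {x : F1 K M} {a b : LaurentSeries K}
    (ha : a ∈ MK K M k) (hb : b ∈ MK K M k) (h : (x : LaurentSeries K) * b = a) :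
    (diaEnd M d K x : LaurentSeries K) * dM K k d b = dM K k d a := diaVal_mul d ha hb h

theorem diaEnd_eq {k : ℤ} {x y : F1 K M} {a b : LaurentSeries K}
    (ha : a ∈ MK K M k) (hb : b ∈ MK K M k) (hb0 : b ≠ 0) (h : (x : LaurentSeries K) * b = a)
    (h' : (y : LaurentSeries K) * dM K k d b = dM K k d a) : diaEnd M d K x = y :=
  diaVal_eq d ha hb hb0 h h'

theorem diaEnd_diaHom (x : F1 K M) :
    diaEnd M e K (diaEnd M d K x) = diaEnd M (d * e) K x := by
  obtain ⟨k, a, ha, b, hb, hb0, h⟩ := mem_F1.mp x.2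
  refine diaEnd_eq e (dM_mem d ha) (dM_mem d hb) (dM_ne_zero d hb hb0) (diaEnd_mul d ha hb h) ?_
  rw [dM_dM d e ha, dM_dM d e hb]
  exact diaEnd_mul (d * e) ha hb h

theorem diaEnd_one (x : F1 K M) : diaEnd M 1 K x = x := by
  obtain ⟨k, a, ha, b, hb, hb0, h⟩ := mem_F1.mp x.2
  refine diaEnd_eq 1 ha hb hb0 h ?_
  rw [dM_id ha, dM_id hb, h]

variable (K M) in
/-- **The diamond automorphism** `⟨d⟩` of `F1 K M`. -/
def dia : F1 K M ≃ₐ[K] F1 K M :=
  AlgEquiv.ofAlgHom (diaEnd M d K) (diaEnd M d⁻¹ K)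
    (AlgHom.ext fun x => by
      show diaEnd M d K (diaEnd M d⁻¹ K x) = x
      rw [diaEnd_diaHom, inv_mul_cancel, diaEnd_one])
    (AlgHom.ext fun x => by
      show diaEnd M d⁻¹ K (diaEnd M d K x) = x
      rw [diaEnd_diaHom, mul_inv_cancel, diaEnd_one])

/-- `⟨d⟩(a / b) = ⟨d⟩a / ⟨d⟩b`. -/
theorem coe_dia_mul_dM {k : ℤ} {x : F1 K M} {a b : LaurentSeries K}
    (ha : a ∈ MK K M k) (hb : b ∈ MK K M k) (h : (x : LaurentSeries K) * b = a) :
    (dia M d K x : LaurentSeries K) * dM K k d b = dM K k d a := diaVal_mul d ha hb h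

theorem dia_eq_of {k : ℤ} {x y : F1 K M} {a b : LaurentSeries K}
    (ha : a ∈ MK K M k) (hb : b ∈ MK K M k) (hb0 : b ≠ 0) (h : (x : LaurentSeries K) * b = a)
    (h' : (y : LaurentSeries K) * dM K k d b = dM K k d a) : dia M d K x = y :=
  diaVal_eq d ha hb hb0 h h'

theorem dia_dia (x : F1 K M) : dia M e K (dia M d K x) = dia M (d * e) K x :=
  diaEnd_diaHom d e x

theorem dia_one (x : F1 K M) : dia M 1 K x = x := diaEnd_one x

variable (K M) in
/-- The group homomorphism `d ↦ ⟨d⟩`. -/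
def diaG : (ZMod M)ˣ →* (F1 K M ≃ₐ[K] F1 K M) where
  toFun d := dia M d K
  map_one' := AlgEquiv.ext dia_one
  map_mul' d e := AlgEquiv.ext fun x => by
    show dia M (d * e) K x = dia M d K (dia M e K x)
    rw [dia_dia, mul_comm]

theorem diaG_apply : diaG M K d = dia M d K := rfl

/-- Diamonds commute with coefficient maps. -/
theorem coeffMap_dia {K' : Type*} [Field K'] [CharZero K'] (φ : K →+* K') (x : F1 K M) :
    coeffMap φ (dia M d K x : LaurentSeries K) =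
      (dia M d K' ⟨coeffMap φ (x : LaurentSeries K), coeffMap_mem_F1 φ x.2⟩ :
        LaurentSeries K') := by
  obtain ⟨k, a, ha, b, hb, hb0, h⟩ := mem_F1.mp x.2
  have h1 := congrArg (coeffMap φ) (coe_dia_mul_dM d ha hb h)
  rw [map_mul, coeffMap_dM d φ hb, coeffMap_dM d φ ha] at h1
  have hb0' : coeffMap φ b ≠ 0 := fun h0 =>
    hb0 (coeffMap_injective φ.injective (by rw [h0, map_zero]))
  apply mul_right_cancel₀ (dM_ne_zero d (coeffMap_mem_MK φ hb) hb0')
  rw [h1]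
  symm
  exact coe_dia_mul_dM d (coeffMap_mem_MK φ ha) (coeffMap_mem_MK φ hb) (by
    show coeffMap φ (x : LaurentSeries K) * coeffMap φ b = coeffMap φ a
    rw [← map_mul, h])

theorem dia_incF {K' : Type*} [Field K'] [CharZero K'] [Algebra K K'] (x : F1 K M) :
    dia M d K' (incF K K' M x) = incF K K' M (dia M d K x) :=
  Subtype.ext (coeffMap_dia d (algebraMap K K') x).symm

/-- **Over `ℂ`, diamonds are given by the slash action of `Γ₀(M)`.** -/
theorem dia_complex {k : ℤ} {f g : ℍ → ℂ} (hf : IsM1 M k f) (hg : IsM1 M k g) {x : F1 ℂ M}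
    (h : (x : LaurentSeries ℂ) * LQ g = LQ f) :
    (dia M d ℂ x : LaurentSeries ℂ) * LQ (diaF M k d g) = LQ (diaF M k d f) := by
  rw [← dM_LQ d hf, ← dM_LQ d hg]
  exact coe_dia_mul_dM d (LQ_mem_MK hf) (LQ_mem_MK hg) h

theorem dia_complex_slash {k : ℤ} {f g : ℍ → ℂ} (hf : IsM1 M k f) (hg : IsM1 M k g) {x : F1 ℂ M}
    (h : (x : LaurentSeries ℂ) * LQ g = LQ f) {γ : SL(2, ℤ)} (hγ : γ ∈ Gamma0 M) :
    (dia M (unit11 γ hγ) ℂ x : LaurentSeries ℂ) * LQ (g ∣[k] γ) = LQ (f ∣[k] γ) := by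
  have h1 := dia_complex (unit11 γ hγ) hf hg h
  rw [← hf.inv.slash_eq_diaF hγ, ← hg.inv.slash_eq_diaF hγ] at h1
  exact h1

end dia

/-! ### Functions on `X₀(M)` are fixed -/

section full

open Fermat.Agent.S28.ModPoly

variable {M : ℕ} [NeZero M] {k : ℤ}

/-- `F(dτ)` for `F` of level one is `Γ₀(M)`-invariant. -/
theorem slash_lift1 {t : ℕ} [NeZero t] (h : 1 * t ∣ M)
    (F : ModularForm (Gamma1 1 : Subgroup (GL (Fin 2) ℝ)) k) {γ : SL(2, ℤ)} (hγ : γ ∈ Gamma0 M) :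
    (⇑(lift1 h F) : ℍ → ℂ) ∣[k] (mapGL ℝ γ : GL (Fin 2) ℝ) = ⇑(lift1 h F) := by
  have hcM : ((M : ℕ) : ℤ) ∣ γ 1 0 := (ZMod.intCast_zmod_eq_zero_iff_dvd _ M).mp (Gamma0_mem.mp hγ)
  obtain ⟨c, hc⟩ : (t : ℤ) ∣ γ 1 0 := by
    refine (Int.natCast_dvd_natCast.mpr ?_).trans hcM
    rwa [one_mul] at h
  have h1 : (⇑(lift1 h F) : ℍ → ℂ) =
      ((t : ℂ) ^ (1 - k : ℤ)) • ((⇑F : ℍ → ℂ) ∣[k] (heckeDiagMatrix t)) := rfl
  have h2 := heckeDiag_mul t γ c hc
  have h3 : (⇑F : ℍ → ℂ) ∣[k] (mapGL ℝ (conjSL t γ c hc) : GL (Fin 2) ℝ) = ⇑F := by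
    refine SlashInvariantFormClass.slash_action_eq F _ ⟨conjSL t γ c hc, ?_, rfl⟩
    show conjSL t γ c hc ∈ Gamma1 1
    rw [Gamma1_mem]
    exact ⟨Subsingleton.elim _ _, Subsingleton.elim _ _, Subsingleton.elim _ _⟩
  rw [h1, ModularForm.smul_slash, ← SlashAction.slash_mul]
  have h4 : heckeDiagMatrix t * (mapGL ℝ γ : GL (Fin 2) ℝ) =
      mapGL ℝ (conjSL t γ c hc) * heckeDiagMatrix t := h2
  rw [h4, SlashAction.slash_mul, h3]
  congr 1
  simp [UpperHalfPlane.σ]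

/-- The expansions `F(q^t)`, `F` of level one, are fixed by diamonds. -/
theorem dM_VV (d : (ZMod M)ˣ) {K : Type*} [Field K] [CharZero K] {t : ℕ} [NeZero t] (ht : t ∣ M)
    {F : PowerSeries ℤ} (hF : IntExp 1 k F) :
    dM K k d (toK K (VV t F)) = toK K (VV t F) := by
  have h1 : 1 * t ∣ M := by rwa [one_mul]
  refine dM_toK_of_complex d (hF.V h1) ?_
  obtain ⟨_, ⟨f, rfl⟩, hfF⟩ := hF
  have h2 : LQ (⇑(lift1 h1 f) : ℍ → ℂ) = toK ℂ (VV t F) := by
    apply LQ_of_intExp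
    ext n
    rw [lift1_coeff, PowerSeries.coeff_map, VV, PowerSeries.coeff_mk, hfF]
    split_ifs
    · rw [PowerSeries.coeff_map]
    · rw [map_zero]
  have h3 : IsM1 M k (⇑(lift1 h1 f) : ℍ → ℂ) := ⟨_, rfl⟩
  rw [← h2, dM_LQ d h3]
  congr 1
  exact slash_lift1 h1 f (rep_mem d)

variable {K : Type*} [Field K] [CharZero K] (d : (ZMod M)ˣ)

theorem dia_qExpand {t : ℕ} [NeZero t] (ht : t ∣ M) :
    dia M d K ⟨qExpand K t (jqModC K), qExpand_jqModC_mem_F1 K ht⟩ =
      ⟨qExpand K t (jqModC K), qExpand_jqModC_mem_F1 K ht⟩ := by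
  have h1 : 1 * t ∣ M := by rwa [one_mul]
  have hb0 : toK K (VV t dz) ≠ 0 := by
    rw [toK_VV]
    intro h0
    exact toK_dz_ne_zero K ((map_eq_zero_iff _ (qExpand K t).injective).mp h0)
  have h2 : qExpand K t (jqModC K) * toK K (VV t dz) = toK K (VV t (eisenstein4 ^ 3)) := by
    rw [toK_VV, toK_VV, ← map_mul, jqModC_mul_toK]
  refine dia_eq_of (k := 12) d (mem_MK_of_intExp (IntExp.V h1 intExp_E4cube))
    (mem_MK_of_intExp (IntExp.V h1 intExp_dz)) hb0 h2 ?_
  rw [dM_VV d ht intExp_dz, dM_VV d ht intExp_E4cube]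
  exact h2

/-- **Functions on `X₀(M)` are fixed by the diamonds.** -/
theorem dia_of_mem_full {x : F1 K M} (hx : (x : LaurentSeries K) ∈ modularFunctionFieldFullC K M) :
    dia M d K x = x := by
  have key : ∀ y (hy : y ∈ modularFunctionFieldFullC K M),
      dia M d K ⟨y, full_le_F1 K M hy⟩ = ⟨y, full_le_F1 K M hy⟩ := by
    intro y hy
    refine IntermediateField.adjoin_induction (p := fun y hy =>
      dia M d K ⟨y, full_le_F1 K M hy⟩ = ⟨y, full_le_F1 K M hy⟩) K ?_ ?_ ?_ ?_ ?_ hy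
    · rintro _ ⟨t, ht0, ht, rfl⟩
      exact dia_qExpand d ht
    · intro c
      exact (dia M d K).commutes c
    · intro y z hy hz h h'
      have h1 : (⟨y + z, full_le_F1 K M (add_mem hy hz)⟩ : F1 K M) =
          ⟨y, full_le_F1 K M hy⟩ + ⟨z, full_le_F1 K M hz⟩ := rfl
      rw [h1, map_add, h, h']
    · intro y hy h
      have h1 : (⟨y⁻¹, full_le_F1 K M (inv_mem hy)⟩ : F1 K M) =
          (⟨y, full_le_F1 K M hy⟩ : F1 K M)⁻¹ := rfl
      rw [h1, map_inv₀, h]
    · intro y z hy hz h h'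
      have h1 : (⟨y * z, full_le_F1 K M (mul_mem hy hz)⟩ : F1 K M) =
          ⟨y, full_le_F1 K M hy⟩ * ⟨z, full_le_F1 K M hz⟩ := rfl
      rw [h1, map_mul, h, h']
  exact key _ hx

@[simp]
theorem dia_j1 : dia M d K (j1 K M) = j1 K M :=
  dia_of_mem_full d (jqModC_mem_full K M)

end full

end Fermat.Agent.DS.X1
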