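import Fermat.Agent.DS.X1.ApiLat

/-!
# The Gauss reduction of the function field of `X₁(M)`

* `GRed.mem_MK`, `exists_GRed_MK`: reductions of the spaces `MK`;
* `mem_F1_of_GRed`, `exists_GRed_F1`: reductions of `F1`;
* `redF1 : RedDatum K (F1 K M) k (F1 k M) A π`, surjective.
-/

set_option autoImplicit false

noncomputable section

open UpperHalfPlane CongruenceSubgroup ModularCurve

namespace Fermat.Agent.DS.X1

open Fermat.Agent.JRED

section FG

variable {K : Type*} [Field K] {M : ℕ} [NeZero M] {k : ℤ}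

theorem fgCoeff_sum {ι : Type*} (s : Finset ι) (c : ι → K) (F : ι → PowerSeries ℤ) :
    FGCoeff (∑ i ∈ s, c i • toK K (F i)) := by
  classical
  induction s using Finset.induction_on with
  | empty =>
    rw [Finset.sum_empty]
    simpa using FGCoeff.const (0 : K)
  | insert a s ha ih =>
    rw [Finset.sum_insert ha]
    refine FGCoeff.add ?_ ih
    rw [smul_eq_mul_MK, toK_eq]
    exact (FGCoeff.const _).mul (FGCoeff.of_int _)

theorem fgCoeff_of_mem_MK {x : LaurentSeries K} (hx : x ∈ MK K M k) : FGCoeff x := by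
  obtain ⟨c, rfl⟩ := mem_MK_iff.mp hx
  exact fgCoeff_sum _ c _

theorem mem_fgField_of_mem_F1 {x : LaurentSeries K} (hx : x ∈ F1 K M) : x ∈ fgField K := by
  obtain ⟨k, a, ha, b, hb, hb0, h⟩ := hx
  exact ⟨a, b, fgCoeff_of_mem_MK ha, fgCoeff_of_mem_MK hb, hb0, h⟩

end FG

section Red

variable {K κ : Type*} [Field K] [Field κ] {A : ValuationSubring K} {π : A →+* κ} {M : ℕ}
  [NeZero M] {k : ℤ}

theorem gred_toK (F : PowerSeries ℤ) : GRed π (toK K F) (toK κ F) := by
  rw [toK_eq, toK_eq]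
  exact GRed.of_int _

theorem gred_sum_toK {ι : Type*} (s : Finset ι) (c : ι → K) (hc : ∀ i, c i ∈ A)
    (F : ι → PowerSeries ℤ) :
    GRed π (∑ i ∈ s, c i • toK K (F i)) (∑ i ∈ s, π ⟨c i, hc i⟩ • toK κ (F i)) := by
  refine GRed.sum fun i _ => ?_
  rw [smul_eq_mul_MK, smul_eq_mul_MK]
  exact (GRed.const ⟨c i, hc i⟩).mul (gred_toK _)

/-- Coordinates of an integral combination are integral. -/
theorem coord_mem_of_GRed (hπ : Function.Surjective π) {c : Fin (rkF M k) → K}
    {u : LaurentSeries κ} (h : GRed π (∑ i, c i • toK K (basF M k i)) u)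
    (i : Fin (rkF M k)) : c i ∈ A := by
  classical
  obtain ⟨j, -, hj⟩ := Finset.exists_max_image Finset.univ (fun i => A.valuation (c i)) ⟨i,
    Finset.mem_univ i⟩
  by_cases hj0 : c j = 0
  · have h1 := hj i (Finset.mem_univ i)
    rw [hj0, map_zero, le_zero_iff, Valuation.zero_iff] at h1
    rw [h1]
    exact zero_mem A
  have hdiv : ∀ i, (c j)⁻¹ * c i ∈ A := by
    intro i
    rw [← A.valuation_le_one_iff, map_mul, map_inv₀]
    have h1 : A.valuation (c j) ≠ 0 := (Valuation.ne_zero_iff _).mpr hj0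
    rw [inv_mul_le_one₀ (zero_lt_iff.mpr h1)]
    exact hj i (Finset.mem_univ i)
  have hjA : c j ∈ A := by
    by_contra hcon
    obtain ⟨h1, h2⟩ := res_inv_eq_zero hπ hcon
    have h3 := (GRed.const ⟨_, h1⟩).mul h
    rw [h2, map_zero, zero_mul, ← smul_eq_mul_MK, Finset.smul_sum] at h3
    simp only [smul_smul] at h3
    have h4 := GRed.unique h3 (gred_sum_toK (π := π) Finset.univ (fun i => (c j)⁻¹ * c i) hdiv
      (basF M k))
    have h5 := Fintype.linearIndependent_iff.mp (linearIndependent_toK κ M k) _ h4.symm j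
    have h6 : (⟨(c j)⁻¹ * c j, hdiv j⟩ : A) = 1 := Subtype.ext (inv_mul_cancel₀ hj0)
    rw [h6, map_one] at h5
    exact one_ne_zero h5
  have h7 := mul_mem hjA (hdiv i)
  rwa [mul_inv_cancel_left₀ hj0] at h7

theorem mem_MK_of_GRed (hπ : Function.Surjective π) {x : LaurentSeries K} (hx : x ∈ MK K M k)
    {u : LaurentSeries κ} (h : GRed π x u) : u ∈ MK κ M k := by
  obtain ⟨c, rfl⟩ := mem_MK_iff.mp hx
  have hc := coord_mem_of_GRed hπ h
  rw [GRed.unique h (gred_sum_toK _ c hc _)]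
  exact mem_MK_iff.mpr ⟨_, rfl⟩

theorem exists_GRed_MK (hπ : Function.Surjective π) {u : LaurentSeries κ} (hu : u ∈ MK κ M k) :
    ∃ x ∈ MK K M k, GRed π x u := by
  obtain ⟨c, rfl⟩ := mem_MK_iff.mp hu
  choose a ha using fun i => hπ (c i)
  refine ⟨∑ i, (a i : K) • toK K (basF M k i), mem_MK_iff.mpr ⟨_, rfl⟩, ?_⟩
  have h := gred_sum_toK (π := π) Finset.univ (fun i => (a i : K)) (fun i => (a i).2) (basF M k)
  convert h using 3 with i
  exact (ha i).symm

/-- Normalised representation of a nonzero element of `MK`. -/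
theorem exists_normalize_MK (π : A →+* κ) {x : LaurentSeries K} (hx : x ∈ MK K M k)
    (hx0 : x ≠ 0) :
    ∃ c : K, c ≠ 0 ∧ ∃ u : LaurentSeries κ, u ≠ 0 ∧ GRed π (c • x) u := by
  obtain ⟨c, hc, u, hu, h⟩ := exists_normalize_of_mem_fgField π
    (fgCoeff_of_mem_MK hx).mem_fgField hx0
  exact ⟨c, hc, u, hu, by rwa [smul_eq_mul_MK]⟩

/-- **Saturation**: the reductions of the elements of `F1 K M` lie in `F1 κ M`. -/
theorem mem_F1_of_GRed (hπ : Function.Surjective π) {x : LaurentSeries K} (hx : x ∈ F1 K M)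
    {u : LaurentSeries κ} (h : GRed π x u) : u ∈ F1 κ M := by
  obtain ⟨k, a, ha, b, hb, hb0, hab⟩ := hx
  obtain ⟨c, hc, v, hv, hcb⟩ := exists_normalize_MK π hb hb0
  have h1 : x * (c • b) = c • a := by
    rw [smul_eq_mul_MK, smul_eq_mul_MK, ← hab]; ring
  have h2 := h.mul hcb
  rw [h1] at h2
  exact ⟨k, u * v, mem_MK_of_GRed hπ (Submodule.smul_mem _ c ha) h2, v,
    mem_MK_of_GRed hπ (Submodule.smul_mem _ c hb) hcb, hv, rfl⟩

/-- Every element of `F1 κ M` is the reduction of an element of `F1 K M`. -/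
theorem exists_GRed_F1 (hπ : Function.Surjective π) {u : LaurentSeries κ} (hu : u ∈ F1 κ M) :
    ∃ x ∈ F1 K M, GRed π x u := by
  obtain ⟨k, a, ha, b, hb, hb0, hab⟩ := hu
  obtain ⟨a', ha', hra⟩ := exists_GRed_MK (K := K) hπ ha
  obtain ⟨b', hb', hrb⟩ := exists_GRed_MK (K := K) hπ hb
  have hb0' : b' ≠ 0 := by
    rintro rfl
    exact hb0 (GRed.unique hrb GRed.zero)
  refine ⟨a' * b'⁻¹, ⟨k, a', ha', b', hb', hb0', by field_simp⟩, ?_⟩
  have h1 := hra.mul (hrb.inv hb0)
  rwa [← hab, mul_inv_cancel_right₀ hb0] at h1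

/-- The reduction datum of `F1`, with values in all Laurent series. -/
def redL1 (π : A →+* κ) (M : ℕ) [NeZero M] :
    RedDatum K (F1 K M) κ (LaurentSeries κ) A π where
  Red f u := GRed π (f : LaurentSeries K) u
  add h h' := h.add h'
  mul h h' := h.mul h'
  const a := GRed.const a
  unique h h' := h.unique h'
  normalize w hw := by
    obtain ⟨c, hc, u, hu, h⟩ := exists_normalize_of_mem_fgField π (mem_fgField_of_mem_F1 w.2)
      (fun h => hw (Subtype.ext h))
    exact ⟨c, hc, u, hu, h⟩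

theorem redL1_red {f : F1 K M} {u : LaurentSeries κ} :
    (redL1 π M).Red f u ↔ GRed π (f : LaurentSeries K) u := Iff.rfl

/-- **The reduction datum of `F1`.** -/
def redF1 (hπ : Function.Surjective π) (M : ℕ) [NeZero M] :
    RedDatum K (F1 K M) κ (F1 κ M) A π :=
  (redL1 π M).restrict (F1 κ M) fun f _ h => mem_F1_of_GRed hπ f.2 h

theorem redF1_red {hπ : Function.Surjective π} {f : F1 K M} {u : F1 κ M} :
    (redF1 hπ M).Red f u ↔ GRed π (f : LaurentSeries K) (u : LaurentSeries κ) := Iff.rfl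

theorem redF1_surjective (hπ : Function.Surjective π) (u : F1 κ M) :
    ∃ f, (redF1 hπ M).Red f u := by
  obtain ⟨x, hx, h⟩ := exists_GRed_F1 (K := K) hπ u.2
  exact ⟨⟨x, hx⟩, h⟩

end Red

end Fermat.Agent.DS.X1
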