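import Mathlib
import Fermat.Agent.DS.RatGamma1
import Fermat.Agent.JAN.EisCharB

/-!
# Modular forms on a subgroup of `SL₂(ℤ)`, as functions

`GF Γ k f`: `f` is a modular form of weight `k` on `Γ`.
-/

set_option autoImplicit false
set_option linter.unusedSectionVars false

noncomputable section

open UpperHalfPlane ModularForm MatrixGroups CongruenceSubgroup Matrix.SpecialLinearGroup
open scoped Manifold
open Fermat.Agent.IntStr

namespace Fermat.Agent.DS.X1

/-- `f` is a modular form of weight `k` on `Γ`. -/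
structure GF (Γ : Subgroup SL(2, ℤ)) (k : ℤ) (f : ℍ → ℂ) : Prop where
  slash : ∀ γ ∈ Γ, f ∣[k] γ = f
  mdiff : MDiff f
  bdd : ∀ g : SL(2, ℤ), IsBoundedAtImInfty (f ∣[k] g)

variable {Γ Γ' : Subgroup SL(2, ℤ)} {k l : ℤ} {f g : ℍ → ℂ}

namespace GF

theorem of_form [Γ.FiniteIndex] (F : ModularForm (Γ : Subgroup (GL (Fin 2) ℝ)) k) : GF Γ k F where
  slash γ hγ := F.slash_action_eq' _ ⟨γ, hγ, rfl⟩
  mdiff := F.holo'
  bdd g := ModularFormClass.bdd_at_infty_slash F g

theorem isMG [Γ.FiniteIndex] (h : GF Γ k f) : IsMG (Γ : Subgroup (GL (Fin 2) ℝ)) k f :=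
  ⟨Fermat.Agent.JAN.EisCharB.mkModularForm Γ k f h.slash h.mdiff h.bdd, rfl⟩

theorem of_isMG [Γ.FiniteIndex] (h : IsMG (Γ : Subgroup (GL (Fin 2) ℝ)) k f) : GF Γ k f := by
  obtain ⟨F, rfl⟩ := h
  exact of_form F

theorem mono (h : GF Γ k f) (hle : Γ' ≤ Γ) : GF Γ' k f := ⟨fun γ hγ => h.slash γ (hle hγ), h.mdiff, h.bdd⟩

theorem mul (hf : GF Γ k f) (hg : GF Γ l g) : GF Γ (k + l) (f * g) where
  slash γ hγ := by rw [mul_slash_SL2, hf.slash γ hγ, hg.slash γ hγ]
  mdiff := hf.mdiff.mul hg.mdiff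
  bdd γ := by rw [mul_slash_SL2]; exact (hf.bdd γ).mul (hg.bdd γ)

theorem add (hf : GF Γ k f) (hg : GF Γ k g) : GF Γ k (f + g) where
  slash γ hγ := by rw [SlashAction.add_slash, hf.slash γ hγ, hg.slash γ hγ]
  mdiff := hf.mdiff.add hg.mdiff
  bdd γ := by rw [SlashAction.add_slash]; exact (hf.bdd γ).add (hg.bdd γ)

theorem zero (Γ : Subgroup SL(2, ℤ)) (k : ℤ) : GF Γ k 0 where
  slash γ _ := SlashAction.zero_slash _ _
  mdiff := mdifferentiable_const
  bdd γ := by
    rw [SlashAction.zero_slash]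
    exact Filter.zero_zeroAtFilter _ |>.boundedAtFilter

theorem neg (hf : GF Γ k f) : GF Γ k (-f) where
  slash γ hγ := by rw [SlashAction.neg_slash, hf.slash γ hγ]
  mdiff := hf.mdiff.neg
  bdd γ := by rw [SlashAction.neg_slash]; exact (hf.bdd γ).neg

theorem one (Γ : Subgroup SL(2, ℤ)) : GF Γ 0 1 where
  slash γ _ := ModularForm.is_invariant_one γ
  mdiff := mdifferentiable_const
  bdd γ := by
    rw [ModularForm.is_invariant_one γ]
    exact Filter.const_boundedAtFilter _ (1 : ℂ)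

theorem smul (c : ℂ) (hf : GF Γ k f) : GF Γ k (c • f) where
  slash γ hγ := by rw [SL_smul_slash, hf.slash γ hγ]
  mdiff := hf.mdiff.const_smul c
  bdd γ := by rw [SL_smul_slash]; exact (hf.bdd γ).const_smul_left c

theorem cast (hf : GF Γ k f) (h : k = l) : GF Γ l f := h ▸ hf

theorem pow (hf : GF Γ k f) (n : ℕ) : GF Γ (n * k) (f ^ n) := by
  induction n with
  | zero => rw [pow_zero]; exact (one Γ).cast (by simp)
  | succ n ih => rw [pow_succ]; exact (ih.mul hf).cast (by push_cast; ring)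

theorem sum {ι : Type*} {s : Finset ι} {F : ι → ℍ → ℂ} (h : ∀ i ∈ s, GF Γ k (F i)) :
    GF Γ k (∑ i ∈ s, F i) := by
  classical
  induction s using Finset.induction_on with
  | empty => rw [Finset.sum_empty]; exact zero Γ k
  | insert a s ha ih =>
    rw [Finset.sum_insert ha]
    exact (h a (Finset.mem_insert_self a s)).add (ih fun i hi => h i (Finset.mem_insert_of_mem hi))

theorem prod {ι : Type*} {s : Finset ι} {F : ι → ℍ → ℂ} (h : ∀ i ∈ s, GF Γ k (F i)) :
    GF Γ (s.card * k) (∏ i ∈ s, F i) := by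
  classical
  induction s using Finset.induction_on with
  | empty => rw [Finset.prod_empty]; exact (one Γ).cast (by simp)
  | insert a s ha ih =>
    rw [Finset.prod_insert ha, Finset.card_insert_of_notMem ha]
    exact ((h a (Finset.mem_insert_self a s)).mul
      (ih fun i hi => h i (Finset.mem_insert_of_mem hi))).cast (by push_cast; ring)

/-- slashing by an element of `SL₂(ℤ)`, for a normal subgroup -/
theorem slash_of_normal [hΓ : Γ.Normal] (hf : GF Γ k f) (g : SL(2, ℤ)) : GF Γ k (f ∣[k] g) where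
  slash γ hγ := by
    rw [← SlashAction.slash_mul]
    have h1 : g * γ = (g * γ * g⁻¹) * g := by group
    rw [h1, SlashAction.slash_mul, hf.slash _ (hΓ.conj_mem γ hγ g)]
  mdiff := by
    have := hf.mdiff.slash k (mapGL ℝ g)
    exact this
  bdd γ := by rw [← SlashAction.slash_mul]; exact hf.bdd _

theorem isL1 (hf : GF (⊤ : Subgroup SL(2, ℤ)) k f) : IsL1 k f := by
  refine isL1_of ?_ hf.mdiff ?_
  · rintro _ ⟨γ, rfl⟩
    exact hf.slash γ trivial
  · have := hf.bdd 1
    rwa [SlashAction.slash_one] at this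

theorem of_isL1 (hf : IsL1 k f) : GF (⊤ : Subgroup SL(2, ℤ)) k f := by
  obtain ⟨F, rfl⟩ := hf
  refine ⟨fun γ _ => F.slash_action_eq' _ ⟨γ, rfl⟩, F.holo', fun g => ?_⟩
  have h1 : (⇑F : ℍ → ℂ) ∣[k] g = F := F.slash_action_eq' _ ⟨g, rfl⟩
  rw [h1]
  exact ModularFormClass.bdd_at_infty F

end GF

end Fermat.Agent.DS.X1
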