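import Mathlib
import Fermat.Agent.DS.X1.GForm
import Fermat.Agent.JAN.AnFun
import Fermat.Agent.MFF.CharDict
import Fermat.Agent.JRED.GaussRing

/-!
# Expansions of modular forms on `Γ(M)` in `q^{1/M}`
-/

set_option autoImplicit false
set_option linter.unusedSectionVars false

noncomputable section

open UpperHalfPlane ModularForm MatrixGroups CongruenceSubgroup Matrix.SpecialLinearGroup
open scoped Manifold
open Fermat.Agent.IntStr FermatJ Fermat.Agent.JAN.MerField Fermat.Agent.JAN.AnFun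
open Fermat.Agent.MFF Fermat.Agent.JRED

namespace Fermat.Agent.DS.X1

section Good

variable {𝒢 : Subgroup (GL (Fin 2) ℝ)} [GoodLevel 𝒢] {k : ℤ} {f : ℍ → ℂ}

theorem hasExp_LQ_of_isMG (hf : IsMG 𝒢 k f) : HasExp (qc 1) f (LQ f) := by
  obtain ⟨F, rfl⟩ := hf
  refine HasExp.of_hasPS fun τ => ?_
  have h := ModularForm.hasSum_qExpansion (h := 1) F one_pos GoodLevel.per τ
  simpa [qc] using h

theorem LQ_of_intQ {f : ℍ → ℂ} (hf : IntQ f) : FGCoeff (LQ f) := by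
  obtain ⟨a, ha⟩ := hf.exists_map
  have h1 : LQ f = ModularCurve.coeffMap (Int.castRingHom ℂ) (HahnSeries.ofPowerSeries ℤ ℤ a) := by
    rw [LQ, ← ha]
    ext n
    simp only [HahnSeries.ofPowerSeries_apply, ModularCurve.coeffMap_coeff]
    by_cases hn : n ∈ Set.range ((↑) : ℕ → ℤ)
    · obtain ⟨m, rfl⟩ := hn
      have e1 : ∀ {R : Type} [Semiring R] (p : PowerSeries R),
          (HahnSeries.ofPowerSeries ℤ R p).coeff (m : ℤ) = p.coeff m := fun p =>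
        HahnSeries.ofPowerSeries_apply_coeff p m
      have e2 := e1 (PowerSeries.map (Int.castRingHom ℂ) a)
      have e3 := e1 a
      rw [HahnSeries.ofPowerSeries_apply] at e2 e3
      rw [e2, e3]
      simp
    · rw [HahnSeries.embDomain_of_notMem_range, HahnSeries.embDomain_of_notMem_range, map_zero]
      · simpa using hn
      · simpa using hn
  rw [h1]
  exact FGCoeff.of_int _

theorem fgCoeff_LQ [HasSep 𝒢] (hf : IsMG 𝒢 k f) : FGCoeff (LQ f) := by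
  have h := hf.mem_VG
  refine Submodule.span_induction
    (p := fun (x : ℍ → ℂ) _ => IsMG 𝒢 k x ∧ FGCoeff (LQ x)) ?_ ?_ ?_ ?_ h |>.2
  · rintro x ⟨hx, hx'⟩
    exact ⟨hx, LQ_of_intQ hx'⟩
  · refine ⟨IsMG.zero 𝒢 k, ?_⟩
    rw [LQ_zero]
    simpa using FGCoeff.const (0 : ℂ)
  · rintro x y - - ⟨hx, hx'⟩ ⟨hy, hy'⟩
    refine ⟨hx.add hy, ?_⟩
    rw [LQ_add hx.anQ hy.anQ]
    exact hx'.add hy'
  · rintro c x - ⟨hx, hx'⟩
    refine ⟨hx.smul c, ?_⟩
    rw [LQ_smul' c hx.anQ]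
    exact (FGCoeff.const c).mul hx'

end Good

/-! ### Forms on `Γ(M)` -/

theorem slash_upper_apply (k : ℤ) (f : ℍ → ℂ) (a d : ℕ) [NeZero a] [NeZero d] (b : ℤ) (τ : ℍ) :
    (f ∣[k] ((upper a d b : GL(2, ℝ)⁺) : GL (Fin 2) ℝ)) τ =
      f ((upper a d b : GL (Fin 2) ℝ) • τ) * ((a : ℂ) * d) ^ (k - 1) * (d : ℂ) ^ (-k) := by
  have hdet : ((upper a d b : GL(2, ℝ)⁺) : GL (Fin 2) ℝ).det.val = (a : ℝ) * d := by
    show Matrix.det !![(a : ℝ), (b : ℝ); 0, (d : ℝ)] = _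
    rw [Matrix.det_fin_two_of]; ring
  have hden : denom ((upper a d b : GL(2, ℝ)⁺) : GL (Fin 2) ℝ) τ = d := by
    show ((0 : ℝ) : ℂ) * τ + ((d : ℝ) : ℂ) = d
    simp
  have hσ : ∀ z, UpperHalfPlane.σ ((upper a d b : GL(2, ℝ)⁺) : GL (Fin 2) ℝ) z = z := by
    intro z
    have : 0 < ((upper a d b : GL(2, ℝ)⁺) : GL (Fin 2) ℝ).det.val := (upper a d b).2
    rw [UpperHalfPlane.σ, if_pos this]
    rfl
  rw [ModularForm.slash_apply, hden, hσ, hdet]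
  have h0 : |(a : ℝ) * d| = (a : ℝ) * d := abs_of_nonneg (by positivity)
  rw [h0]
  push_cast
  rfl

theorem tendsto_upper (a d : ℕ) [NeZero a] [NeZero d] (b : ℤ) :
    Filter.Tendsto (fun τ : ℍ => ((upper a d b : GL(2, ℝ)⁺) : GL (Fin 2) ℝ) • τ) atImInfty
      atImInfty := by
  rw [atImInfty, Filter.tendsto_comap_iff]
  have h1 : (im ∘ fun τ : ℍ => ((upper a d b : GL(2, ℝ)⁺) : GL (Fin 2) ℝ) • τ) =
      fun τ : ℍ => (a : ℝ) / d * τ.im := by
    funext τ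
    have h2 := congrArg Complex.im (coe_upper_smul a d b τ)
    simp only [Function.comp_apply]
    rw [← UpperHalfPlane.coe_im, h2]
    have h3 : ((a * τ + b : ℂ) / d).im = (a * τ + b : ℂ).im / d := by
      rw [show (d : ℂ) = ((d : ℝ) : ℂ) by push_cast; rfl, Complex.div_ofReal_im]
    rw [h3]
    simp
    ring
  rw [h1]
  have hpos : (0 : ℝ) < (a : ℝ) / d := by
    have ha : (0 : ℝ) < a := by exact_mod_cast Nat.pos_of_ne_zero (NeZero.ne a)
    have hd : (0 : ℝ) < d := by exact_mod_cast Nat.pos_of_ne_zero (NeZero.ne d)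
    positivity
  exact Filter.Tendsto.const_mul_atTop hpos Filter.tendsto_comap

theorem isBoundedAtImInfty_slash_upper {k : ℤ} {f : ℍ → ℂ} (hf : IsBoundedAtImInfty f)
    (a d : ℕ) [NeZero a] [NeZero d] (b : ℤ) :
    IsBoundedAtImInfty (f ∣[k] ((upper a d b : GL(2, ℝ)⁺) : GL (Fin 2) ℝ)) := by
  have h1 : (f ∣[k] ((upper a d b : GL(2, ℝ)⁺) : GL (Fin 2) ℝ)) =
      (((a : ℂ) * d) ^ (k - 1) * (d : ℂ) ^ (-k)) •
        (fun τ : ℍ => f (((upper a d b : GL(2, ℝ)⁺) : GL (Fin 2) ℝ) • τ)) := by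
    funext τ
    rw [slash_upper_apply, Pi.smul_apply, smul_eq_mul]
    ring
  rw [h1]
  refine Asymptotics.IsBigO.const_smul_left ?_ _
  exact hf.comp_tendsto (tendsto_upper a d b)

theorem slash_slp (k : ℤ) (f : ℍ → ℂ) (γ : SL(2, ℤ)) :
    f ∣[k] γ = f ∣[k] ((slp γ : GL(2, ℝ)⁺) : GL (Fin 2) ℝ) := rfl

variable {M : ℕ} [NeZero M] {k : ℤ} {f : ℍ → ℂ}

/-- `f | diag(M, 1)` is a form on `Γ₁(M²)`. -/
theorem GF.slash_dil (hf : GF (Gamma M) k f) :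
    GF (Gamma1 (M ^ 2)) k (f ∣[k] ((dil M : GL(2, ℝ)⁺) : GL (Fin 2) ℝ)) where
  slash γ hγ := by
    rw [Gamma1_mem] at hγ
    obtain ⟨h1, h2, h3⟩ := hγ
    obtain ⟨c, hc⟩ := (ZMod.intCast_zmod_eq_zero_iff_dvd _ (M ^ 2)).mp h3
    obtain ⟨γ', hγ', e00, e01, e10, e11⟩ := dil_mul_slp M γ (c := M * c) (by
      rw [hc]; push_cast; ring)
    have hmem : γ' ∈ Gamma M := by
      have hM : ∀ x : ℤ, ((x : ℤ) : ZMod (M ^ 2)) = 1 → ((x : ℤ) : ZMod M) = 1 := by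
        intro x hx
        have h5 : ((M ^ 2 : ℕ) : ℤ) ∣ x - 1 := by
          rw [← ZMod.intCast_zmod_eq_zero_iff_dvd]
          push_cast
          rw [hx, sub_self]
        have h6 : ((M : ℕ) : ℤ) ∣ x - 1 := dvd_trans (by push_cast; exact ⟨M, by ring⟩) h5
        rw [← sub_eq_zero]
        have h7 := (ZMod.intCast_zmod_eq_zero_iff_dvd _ M).mpr h6
        push_cast at h7
        exact h7
      rw [Gamma_mem]
      refine ⟨?_, ?_, ?_, ?_⟩
      · rw [e00]; exact hM _ h1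
      · rw [e01]; push_cast; simp
      · rw [e10]; push_cast; simp
      · rw [e11]; exact hM _ h2
    rw [slash_slp, ← SlashAction.slash_mul]
    have h8 : ((dil M : GL(2, ℝ)⁺) : GL (Fin 2) ℝ) * ((slp γ : GL(2, ℝ)⁺) : GL (Fin 2) ℝ) =
        ((slp γ' : GL(2, ℝ)⁺) : GL (Fin 2) ℝ) * ((dil M : GL(2, ℝ)⁺) : GL (Fin 2) ℝ) :=
      congrArg Subtype.val hγ'
    rw [h8, SlashAction.slash_mul, ← slash_slp, hf.slash γ' hmem]
  mdiff := hf.mdiff.slash k _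
  bdd g := by
    obtain ⟨g', A, D, _, _, B, -, -, h1⟩ := exists_dil_mul_slp M g
    rw [slash_slp, ← SlashAction.slash_mul]
    have h8 : ((dil M : GL(2, ℝ)⁺) : GL (Fin 2) ℝ) * ((slp g : GL(2, ℝ)⁺) : GL (Fin 2) ℝ) =
        ((slp g' : GL(2, ℝ)⁺) : GL (Fin 2) ℝ) * ((upper A D B : GL(2, ℝ)⁺) : GL (Fin 2) ℝ) :=
      congrArg Subtype.val h1
    rw [h8, SlashAction.slash_mul, ← slash_slp]
    exact isBoundedAtImInfty_slash_upper (hf.bdd g') A D B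

/-- The expansion of a form on `Γ(M)` in `q^{1/M}`. -/
theorem GF.exists_exp (hf : GF (Gamma M) k f) :
    ∃ φ : LaurentSeries ℂ, HasExp (qc M) f φ ∧ FGCoeff φ := by
  set F : ℍ → ℂ := f ∣[k] ((dil M : GL(2, ℝ)⁺) : GL (Fin 2) ℝ) with hF
  have h1 : IsMG (Gamma1 (M ^ 2) : Subgroup (GL (Fin 2) ℝ)) k F := hf.slash_dil.isMG
  have h2 := hasExp_LQ_of_isMG h1
  have h3 := hasExp_upper h2 1 M 0
  have hM0 : (M : ℂ) ≠ 0 := by exact_mod_cast NeZero.ne M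
  have h4 : ∀ τ : ℍ, F (((upper 1 M 0 : GL(2, ℝ)⁺) : GL (Fin 2) ℝ) • τ) =
      (M : ℂ) ^ (k - 1) * f τ := by
    intro τ
    rw [hF, slash_upper_apply]
    have h5 : ((upper M 1 0 : GL(2, ℝ)⁺) : GL (Fin 2) ℝ) •
        (((upper 1 M 0 : GL(2, ℝ)⁺) : GL (Fin 2) ℝ) • τ) = τ := by
      apply UpperHalfPlane.ext
      have e1 := coe_upper_smul M 1 0 (((upper 1 M 0 : GL(2, ℝ)⁺) : GL (Fin 2) ℝ) • τ)
      have e2 := coe_upper_smul 1 M 0 τ
      rw [e2] at e1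
      rw [e1]
      push_cast
      field_simp
      simp
    rw [h5]
    push_cast
    simp
    ring
  have h5 : HasExp (qc M) f (HahnSeries.C (((M : ℂ) ^ (k - 1))⁻¹) *
      ModularCurve.qExpand ℂ 1 (twist (zetaU M 0) (LQ F))) := by
    refine HasExp.congr (fun τ => ?_) ((HasExp.const (qc M) (((M : ℂ) ^ (k - 1))⁻¹)).mul h3)
    rw [h4 τ, ← mul_assoc, inv_mul_cancel₀ (zpow_ne_zero _ hM0), one_mul]
  have h6 : zetaU M 0 = 1 := by
    ext
    simp [zetaU]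
  rw [h6, twist_one, ModularCurve.qExpand_one_apply] at h5
  refine ⟨_, h5, ?_⟩
  rw [← algebraMap_eq_C]
  exact (FGCoeff.const _).mul (fgCoeff_LQ h1)

end Fermat.Agent.DS.X1
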