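import Mathlib
import Fermat.Agent.DS.X1.GExp
import Fermat.Agent.FunField.Quot

/-!
# The field of modular functions for a subgroup of `SL₂(ℤ)` inside the meromorphic functions
-/

set_option autoImplicit false
set_option linter.unusedSectionVars false

noncomputable section

open UpperHalfPlane ModularForm MatrixGroups CongruenceSubgroup Matrix.SpecialLinearGroup
open IntermediateField
open scoped Manifold
open Fermat.Agent.IntStr FermatJ Fermat.Agent.JAN.MerField Fermat.Agent.JAN.AnFun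
open Fermat.Agent.MFF Fermat.Agent.JRED

namespace Fermat.Agent.DS.X1

variable {Γ Γ' : Subgroup SL(2, ℤ)} {k l : ℤ} {f g : ℍ → ℂ}

/-- The meromorphic function defined by a holomorphic function. -/
def merOf (f : ℍ → ℂ) (hf : MDiff f) : Mer := algebraMap Hol Mer ⟨f, hf⟩

theorem merOf_mul (hf : MDiff f) (hg : MDiff g) (h : MDiff (f * g)) :
    merOf (f * g) h = merOf f hf * merOf g hg := by
  rw [merOf, merOf, merOf, ← map_mul]; rfl

theorem merOf_add (hf : MDiff f) (hg : MDiff g) (h : MDiff (f + g)) :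
    merOf (f + g) h = merOf f hf + merOf g hg := by
  rw [merOf, merOf, merOf, ← map_add]; rfl

theorem merOf_inj (hf : MDiff f) (hg : MDiff g) : merOf f hf = merOf g hg ↔ f = g := by
  constructor
  · intro h
    have h1 := IsFractionRing.injective Hol Mer h
    exact congrArg Subtype.val h1
  · rintro rfl; rfl

theorem merOf_congr (h : f = g) (hf : MDiff f) (hg : MDiff g) : merOf f hf = merOf g hg :=
  (merOf_inj hf hg).mpr h

theorem merOf_ne_zero (hf : MDiff f) (h0 : f ≠ 0) : merOf f hf ≠ 0 := by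
  intro h
  apply h0
  have h1 : merOf f hf = merOf 0 mdifferentiable_const := by
    rw [h]
    exact (map_zero (algebraMap Hol Mer)).symm
  exact (merOf_inj hf _).mp h1

/-- the function `(1 ∣[k] γ)(τ) = (cτ + d)^{-k}`. -/
theorem mdiff_one_slash (k : ℤ) (γ : SL(2, ℤ)) : MDiff ((1 : ℍ → ℂ) ∣[k] γ) := by
  have h : MDiff (1 : ℍ → ℂ) := mdifferentiable_const
  exact h.slash k (mapGL ℝ γ)

theorem mdiff_slash {f : ℍ → ℂ} (h : MDiff f) (k : ℤ) (γ : SL(2, ℤ)) : MDiff (f ∣[k] γ) :=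
  h.slash k (mapGL ℝ γ)

/-- `(f ∣[k] γ) = (f ∘ γ) · (1 ∣[k] γ)` in the field of meromorphic functions. -/
theorem merOf_slash (hf : MDiff f) (k : ℤ) (γ : SL(2, ℤ)) :
    merOf (f ∣[k] γ) (mdiff_slash hf k γ) =
      sact γ (merOf f hf) * merOf ((1 : ℍ → ℂ) ∣[k] γ) (mdiff_one_slash k γ) := by
  rw [merOf, merOf, merOf, act_algebraMap, ← map_mul]
  congr 1
  apply Subtype.ext
  funext τ
  show (f ∣[k] γ) τ = f (γ • τ) * ((1 : ℍ → ℂ) ∣[k] γ) τ
  rw [SL_slash_apply, SL_slash_apply]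
  simp

/-- The key formula: if `x = f / g` then `x ∘ γ = (f ∣ γ) / (g ∣ γ)`. -/
theorem sact_ratio {x : Mer} (hf : MDiff f) (hg : MDiff g) (h : x * merOf g hg = merOf f hf)
    (k : ℤ) (γ : SL(2, ℤ)) :
    sact γ x * merOf (g ∣[k] γ) (mdiff_slash hg k γ) = merOf (f ∣[k] γ) (mdiff_slash hf k γ) := by
  rw [merOf_slash hf, merOf_slash hg, ← h, map_mul]
  ring

theorem slash_ne_zero (hg0 : g ≠ 0) (k : ℤ) (γ : SL(2, ℤ)) : g ∣[k] γ ≠ 0 := by
  intro h
  exact hg0 ((SlashAction.slash_eq_zero_iff k γ g).mp h)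

/-- `-1` acts trivially on meromorphic functions. -/
theorem sact_neg_one (x : Mer) : sact (-1) x = x := by
  rw [← sact_one x]
  conv_lhs => rw [sact_one]
  refine act_congr (fun τ => ?_) x
  show ((-1 : SL(2, ℤ))) • τ = (1 : SL(2, ℤ)) • τ
  rw [ModularGroup.SL_neg_smul]

variable (Γ) in
/-- The field of modular functions for `Γ`. -/
def MFun : IntermediateField ℂ Mer where
  carrier := {x | ∃ (k : ℤ) (f g : ℍ → ℂ) (hf : GF Γ k f) (hg : GF Γ k g), g ≠ 0 ∧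
    x * merOf g hg.mdiff = merOf f hf.mdiff}
  mul_mem' := by
    rintro x y ⟨k, f, g, hf, hg, hg0, h⟩ ⟨l, f', g', hf', hg', hg0', h'⟩
    refine ⟨k + l, f * f', g * g', hf.mul hf', hg.mul hg', ?_, ?_⟩
    · intro h0
      have h1 := merOf_mul hg.mdiff hg'.mdiff (hg.mul hg').mdiff
      rw [merOf_congr h0 (hg.mul hg').mdiff mdifferentiable_const] at h1
      have h2 : merOf (0 : ℍ → ℂ) mdifferentiable_const = 0 := map_zero (algebraMap Hol Mer)
      rw [h2] at h1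
      exact mul_ne_zero (merOf_ne_zero hg.mdiff hg0) (merOf_ne_zero hg'.mdiff hg0') h1.symm
    · rw [merOf_mul hg.mdiff hg'.mdiff, merOf_mul hf.mdiff hf'.mdiff, ← h, ← h']
      ring
  one_mem' := ⟨0, 1, 1, GF.one Γ, GF.one Γ, one_ne_zero, one_mul _⟩
  add_mem' := by
    rintro x y ⟨k, f, g, hf, hg, hg0, h⟩ ⟨l, f', g', hf', hg', hg0', h'⟩
    refine ⟨k + l, f * g' + g * f', g * g', (hf.mul hg').add (hg.mul hf'), hg.mul hg', ?_, ?_⟩
    · intro h0
      have h1 := merOf_mul hg.mdiff hg'.mdiff (hg.mul hg').mdiff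
      rw [merOf_congr h0 (hg.mul hg').mdiff mdifferentiable_const] at h1
      have h2 : merOf (0 : ℍ → ℂ) mdifferentiable_const = 0 := map_zero (algebraMap Hol Mer)
      rw [h2] at h1
      exact mul_ne_zero (merOf_ne_zero hg.mdiff hg0) (merOf_ne_zero hg'.mdiff hg0') h1.symm
    · rw [merOf_mul hg.mdiff hg'.mdiff, merOf_add (hf.mul hg').mdiff (hg.mul hf').mdiff,
        merOf_mul hf.mdiff hg'.mdiff, merOf_mul hg.mdiff hf'.mdiff, ← h, ← h']
      ring
  zero_mem' := ⟨0, 0, 1, GF.zero Γ 0, GF.one Γ, one_ne_zero, by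
    rw [zero_mul]; exact (map_zero (algebraMap Hol Mer)).symm⟩
  algebraMap_mem' c := ⟨0, c • 1, 1, (GF.one Γ).smul c, GF.one Γ, one_ne_zero, by
    have h1 : merOf (1 : ℍ → ℂ) (GF.one Γ).mdiff = 1 := map_one (algebraMap Hol Mer)
    rw [h1, mul_one]
    have h2 : (⟨c • 1, ((GF.one Γ).smul c).mdiff⟩ : Hol) = algebraMap ℂ Hol c := by
      apply Subtype.ext
      funext τ
      simp
    rw [merOf, h2, ← IsScalarTower.algebraMap_apply]⟩
  inv_mem' := by
    rintro x ⟨k, f, g, hf, hg, hg0, h⟩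
    by_cases hx : x = 0
    · exact ⟨0, 0, 1, GF.zero Γ 0, GF.one Γ, one_ne_zero, by
        rw [hx, inv_zero, zero_mul]; exact (map_zero (algebraMap Hol Mer)).symm⟩
    · refine ⟨k, g, f, hg, hf, ?_, ?_⟩
      · rintro rfl
        have h2 : merOf (0 : ℍ → ℂ) hf.mdiff = 0 := map_zero (algebraMap Hol Mer)
        rw [h2] at h
        exact (mul_ne_zero hx (merOf_ne_zero hg.mdiff hg0)) h
      · rw [← h, ← mul_assoc, inv_mul_cancel₀ hx, one_mul]

theorem mem_MFun {x : Mer} : x ∈ MFun Γ ↔ ∃ (k : ℤ) (f g : ℍ → ℂ) (hf : GF Γ k f)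
    (hg : GF Γ k g), g ≠ 0 ∧ x * merOf g hg.mdiff = merOf f hf.mdiff := Iff.rfl

theorem MFun_mono (h : Γ' ≤ Γ) : MFun Γ ≤ MFun Γ' := by
  rintro x ⟨k, f, g, hf, hg, hg0, hx⟩
  exact ⟨k, f, g, hf.mono h, hg.mono h, hg0, hx⟩

theorem sact_mem_MFun [Γ.Normal] {x : Mer} (hx : x ∈ MFun Γ) (γ : SL(2, ℤ)) :
    sact γ x ∈ MFun Γ := by
  obtain ⟨k, f, g, hf, hg, hg0, h⟩ := hx
  exact ⟨k, f ∣[k] γ, g ∣[k] γ, hf.slash_of_normal γ, hg.slash_of_normal γ,
    slash_ne_zero hg0 k γ, sact_ratio hf.mdiff hg.mdiff h k γ⟩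

theorem sact_eq_self {x : Mer} (hx : x ∈ MFun Γ) {γ : SL(2, ℤ)} (hγ : γ ∈ Γ) :
    sact γ x = x := by
  obtain ⟨k, f, g, hf, hg, hg0, h⟩ := hx
  have h1 := sact_ratio hf.mdiff hg.mdiff h k γ
  rw [merOf_congr (hf.slash γ hγ) _ hf.mdiff, merOf_congr (hg.slash γ hγ) _ hg.mdiff, ← h] at h1
  exact mul_right_cancel₀ (merOf_ne_zero hg.mdiff hg0) h1

/-! ### The action of `SL₂(ℤ)` -/

section Action

variable (Γ) [Γ.Normal]

/-- The left action of `SL₂(ℤ)` on modular functions: `γ • x = x ∘ γ⁻¹`. -/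
instance mfunAction : MulSemiringAction SL(2, ℤ) (MFun Γ) where
  smul γ x := ⟨sact γ⁻¹ x, sact_mem_MFun x.2 _⟩
  one_smul x := Subtype.ext (by
    show sact (1 : SL(2, ℤ))⁻¹ x = x
    rw [inv_one, sact_one])
  mul_smul γ δ x := Subtype.ext (by
    show sact (γ * δ)⁻¹ x = sact γ⁻¹ (sact δ⁻¹ x)
    rw [mul_inv_rev, sact_mul])
  smul_zero γ := Subtype.ext (map_zero _)
  smul_one γ := Subtype.ext (map_one _)
  smul_add γ x y := Subtype.ext (map_add _ _ _)
  smul_mul γ x y := Subtype.ext (map_mul _ _ _)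

theorem coe_smul_MFun (γ : SL(2, ℤ)) (x : MFun Γ) :
    ((γ • x : MFun Γ) : Mer) = sact γ⁻¹ (x : Mer) := rfl

instance : SMulCommClass SL(2, ℤ) ℂ (MFun Γ) where
  smul_comm γ c x := Subtype.ext (by
    show sact γ⁻¹ (c • (x : Mer)) = c • sact γ⁻¹ (x : Mer)
    exact map_smul _ _ _)

/-- The image of `SL₂(ℤ)` in the automorphism group. -/
def GalG : Type := (MulSemiringAction.toAlgAut SL(2, ℤ) ℂ (MFun Γ)).range

instance : Group (GalG Γ) :=
  inferInstanceAs (Group (MulSemiringAction.toAlgAut SL(2, ℤ) ℂ (MFun Γ)).range)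

instance : MulSemiringAction (GalG Γ) (MFun Γ) :=
  inferInstanceAs (MulSemiringAction (MulSemiringAction.toAlgAut SL(2, ℤ) ℂ (MFun Γ)).range
    (MFun Γ))

instance : FaithfulSMul (GalG Γ) (MFun Γ) :=
  inferInstanceAs (FaithfulSMul (MulSemiringAction.toAlgAut SL(2, ℤ) ℂ (MFun Γ)).range
    (MFun Γ))

/-- The class of `γ`. -/
def toG : SL(2, ℤ) →* GalG Γ := (MulSemiringAction.toAlgAut SL(2, ℤ) ℂ (MFun Γ)).rangeRestrict

theorem toG_surjective : Function.Surjective (toG Γ) := MonoidHom.rangeRestrict_surjective _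

theorem coe_toG_smul (γ : SL(2, ℤ)) (x : MFun Γ) :
    ((toG Γ γ • x : MFun Γ) : Mer) = sact γ⁻¹ (x : Mer) := rfl

theorem toG_eq_one_of_mem {γ : SL(2, ℤ)} (hγ : γ ∈ Γ) : toG Γ γ = 1 := by
  apply Subtype.ext
  apply AlgEquiv.ext
  intro x
  apply Subtype.ext
  exact sact_eq_self x.2 (inv_mem hγ)

theorem toG_neg_one : toG Γ (-1) = 1 := by
  apply Subtype.ext
  apply AlgEquiv.ext
  intro x
  apply Subtype.ext
  show sact (-1 : SL(2, ℤ))⁻¹ (x : Mer) = x
  have : (-1 : SL(2, ℤ))⁻¹ = -1 := by rw [inv_eq_iff_mul_eq_one]; simp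
  rw [this, sact_neg_one]

instance finite_GalG [Γ.FiniteIndex] : Finite (GalG Γ) := by
  have hle : Γ ≤ (toG Γ).ker := fun γ hγ => toG_eq_one_of_mem Γ hγ
  have : (toG Γ).ker.FiniteIndex := Subgroup.finiteIndex_of_le hle
  have : Finite (SL(2, ℤ) ⧸ (toG Γ).ker) := inferInstance
  exact Finite.of_equiv _ (QuotientGroup.quotientKerEquivOfSurjective _ (toG_surjective Γ)).toEquiv

end Action

/-! ### The fixed field -/

section Fixed

variable [Γ.Normal] [Γ.FiniteIndex]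

instance : Fintype (SL(2, ℤ) ⧸ Γ) := Fintype.ofFinite _

variable (Γ) in
/-- The conjugates of a form. -/
def conjF (k : ℤ) (b : ℍ → ℂ) (q : SL(2, ℤ) ⧸ Γ) : ℍ → ℂ := b ∣[k] q.out

theorem conjF_slash {b : ℍ → ℂ} (hb : GF Γ k b) (q : SL(2, ℤ) ⧸ Γ) (h : SL(2, ℤ)) :
    conjF Γ k b q ∣[k] h = conjF Γ k b (q * (QuotientGroup.mk h)) := by
  rw [conjF, conjF, ← SlashAction.slash_mul]
  set r := (q * (QuotientGroup.mk h : SL(2, ℤ) ⧸ Γ)).out with hr
  have h1 : (QuotientGroup.mk (q.out * h) : SL(2, ℤ) ⧸ Γ) = QuotientGroup.mk r := by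
    rw [hr, QuotientGroup.out_eq', QuotientGroup.mk_mul, QuotientGroup.out_eq']
  have h2 : (q.out * h)⁻¹ * r ∈ Γ := QuotientGroup.eq.mp h1
  have h3 : r * (q.out * h)⁻¹ ∈ Γ := by
    have := (inferInstance : Γ.Normal).conj_mem _ h2 (q.out * h)
    simpa [mul_assoc] using this
  have h4 : r = (r * (q.out * h)⁻¹) * (q.out * h) := by group
  conv_rhs => rw [h4, SlashAction.slash_mul, hb.slash _ h3]

theorem conjF_one {b : ℍ → ℂ} (hb : GF Γ k b) : conjF Γ k b 1 = b := by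
  rw [conjF]
  apply hb.slash
  have := QuotientGroup.out_eq' (1 : SL(2, ℤ) ⧸ Γ)
  exact (QuotientGroup.eq_one_iff _).mp this

theorem GF.conjF {b : ℍ → ℂ} (hb : GF Γ k b) (q : SL(2, ℤ) ⧸ Γ) : GF Γ k (conjF Γ k b q) :=
  hb.slash_of_normal _

variable (Γ) in
/-- The norm to level one. -/
def normF (k : ℤ) (b : ℍ → ℂ) : ℍ → ℂ := ∏ q, conjF Γ k b q

variable (Γ) in
/-- The cofactor of the norm. -/
def cofF (k : ℤ) (b : ℍ → ℂ) : ℍ → ℂ := by
  classical exact ∏ q ∈ Finset.univ.erase (1 : SL(2, ℤ) ⧸ Γ), conjF Γ k b q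

theorem mul_cofF {b : ℍ → ℂ} (hb : GF Γ k b) : b * cofF Γ k b = normF Γ k b := by
  classical
  rw [normF, cofF, ← Finset.mul_prod_erase Finset.univ _ (Finset.mem_univ (1 : SL(2, ℤ) ⧸ Γ)),
    conjF_one hb]

theorem GF.cofF {b : ℍ → ℂ} (hb : GF Γ k b) : ∃ w, GF Γ w (cofF Γ k b) ∧
    k + w = (Finset.univ : Finset (SL(2, ℤ) ⧸ Γ)).card * k := by
  classical
  refine ⟨_, GF.prod (k := k) fun q _ => hb.conjF q, ?_⟩
  have h1 := Finset.card_erase_add_one (Finset.mem_univ (1 : SL(2, ℤ) ⧸ Γ))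
  rw [← h1]
  push_cast
  ring_nf

theorem prod_slash_SL {ι : Type*} (s : Finset ι) (F : ι → ℍ → ℂ) (k : ℤ) (h : SL(2, ℤ)) :
    (∏ i ∈ s, F i) ∣[(s.card * k : ℤ)] h = ∏ i ∈ s, (F i ∣[k] h) := by
  classical
  induction s using Finset.induction_on with
  | empty =>
    rw [Finset.prod_empty, Finset.prod_empty, Finset.card_empty, Nat.cast_zero, zero_mul]
    exact is_invariant_one h
  | insert a s ha ih =>
    rw [Finset.prod_insert ha, Finset.prod_insert ha, Finset.card_insert_of_notMem ha, ← ih,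
      ← mul_slash_SL2]
    congr 1
    push_cast
    ring

theorem GF.normF {b : ℍ → ℂ} (hb : GF Γ k b) :
    GF (⊤ : Subgroup SL(2, ℤ)) ((Finset.univ : Finset (SL(2, ℤ) ⧸ Γ)).card * k)
      (normF Γ k b) := by
  have h0 : GF Γ ((Finset.univ : Finset (SL(2, ℤ) ⧸ Γ)).card * k) (X1.normF Γ k b) :=
    GF.prod (k := k) fun q _ => hb.conjF q
  refine ⟨fun h _ => ?_, h0.mdiff, h0.bdd⟩
  rw [X1.normF, prod_slash_SL]
  rw [Finset.prod_congr rfl fun q _ => conjF_slash hb q h]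
  exact Fintype.prod_equiv (Equiv.mulRight (QuotientGroup.mk h)) _ _ fun _ => rfl

theorem merOf_prod {ι : Type*} (s : Finset ι) (F : ι → ℍ → ℂ) (hF : ∀ i ∈ s, MDiff (F i))
    (h0 : ∀ i ∈ s, F i ≠ 0) : (∏ i ∈ s, F i) ≠ 0 := by
  classical
  have key : MDiff (∏ i ∈ s, F i) ∧ (∏ i ∈ s, F i) ≠ 0 := by
    induction s using Finset.induction_on with
    | empty => rw [Finset.prod_empty]; exact ⟨mdifferentiable_const, one_ne_zero⟩
    | insert a s ha ih =>
      obtain ⟨ih1, ih2⟩ := ih (fun i hi => hF i (Finset.mem_insert_of_mem hi))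
        (fun i hi => h0 i (Finset.mem_insert_of_mem hi))
      rw [Finset.prod_insert ha]
      have h1 := hF a (Finset.mem_insert_self a s)
      refine ⟨h1.mul ih1, fun h2 => ?_⟩
      have h3 := merOf_mul h1 ih1 (h1.mul ih1)
      rw [merOf_congr h2 _ mdifferentiable_const] at h3
      have h4 : merOf (0 : ℍ → ℂ) mdifferentiable_const = 0 := map_zero (algebraMap Hol Mer)
      rw [h4] at h3
      exact mul_ne_zero (merOf_ne_zero h1 (h0 a (Finset.mem_insert_self a s)))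
        (merOf_ne_zero ih1 ih2) h3.symm
  exact key.2

theorem normF_ne_zero {b : ℍ → ℂ} (hb : GF Γ k b) (hb0 : b ≠ 0) : normF Γ k b ≠ 0 :=
  merOf_prod _ _ (fun q _ => (hb.conjF q).mdiff) fun _ _ => slash_ne_zero hb0 _ _

/-- A modular function fixed by `SL₂(ℤ)` is a ratio of level one forms. -/
theorem exists_ratio_of_fixed {x : Mer} (hx : x ∈ MFun Γ)
    (hfix : ∀ γ : SL(2, ℤ), sact γ x = x) :
    ∃ (w : ℤ) (a b : ℍ → ℂ) (ha : GF (⊤ : Subgroup SL(2, ℤ)) w a)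
      (hb : GF (⊤ : Subgroup SL(2, ℤ)) w b), b ≠ 0 ∧ x * merOf b hb.mdiff = merOf a ha.mdiff := by
  obtain ⟨k, f, g, hf, hg, hg0, h⟩ := hx
  obtain ⟨w, hc, hw⟩ := hg.cofF
  set c := cofF Γ k g with hcdef
  have hN := hg.normF
  have hA : GF Γ ((Finset.univ : Finset (SL(2, ℤ) ⧸ Γ)).card * k) (f * c) :=
    (hf.mul hc).cast hw
  have hrel : x * merOf (normF Γ k g) hN.mdiff = merOf (f * c) hA.mdiff := by
    have h1 : merOf (normF Γ k g) hN.mdiff = merOf g hg.mdiff * merOf c hc.mdiff := by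
      rw [← merOf_mul hg.mdiff hc.mdiff (hg.mul hc).mdiff]
      exact merOf_congr (mul_cofF hg).symm _ _
    rw [h1, ← mul_assoc, h, ← merOf_mul hf.mdiff hc.mdiff]
  have hA' : GF (⊤ : Subgroup SL(2, ℤ)) ((Finset.univ : Finset (SL(2, ℤ) ⧸ Γ)).card * k)
      (f * c) := by
    refine ⟨fun γ _ => ?_, hA.mdiff, hA.bdd⟩
    have h2 := sact_ratio hA.mdiff hN.mdiff hrel
      ((Finset.univ : Finset (SL(2, ℤ) ⧸ Γ)).card * k) γ
    rw [hfix γ, merOf_congr (hN.slash γ trivial) _ hN.mdiff, hrel] at h2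
    exact ((merOf_inj _ _).mp h2).symm
  exact ⟨_, f * c, normF Γ k g, hA', hN, normF_ne_zero hg hg0, hrel⟩

end Fixed

end Fermat.Agent.DS.X1
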