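import Mathlib

/-!
# Conjugacy of valuation rings under a finite group

If a finite group `H` acts on a field `E`, two valuation subrings of `E` which have the same
`H`-fixed elements are conjugate under `H`.
-/

set_option autoImplicit false

noncomputable section

open Polynomial
open scoped Pointwise

namespace Fermat.Agent.DS.X1

section Key

variable {E : Type*} [Field E]

theorem inv_mem_of_not_mem' {W : ValuationSubring E} {x : E} (h : x ∉ W) : x⁻¹ ∈ W :=
  (W.mem_or_inv_mem x).resolve_left h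

/-- For an algebraic relation with coefficients on which all the valuation rings in `𝒲` agree,
there is `y` such that `y`, `x y` are in all the rings and `y` is a unit in those containing `x`. -/
theorem exists_mul_mem (f : E[X]) (hf : f ≠ 0) {x : E} (hx : f.eval x = 0)
    (𝒲 : Set (ValuationSubring E)) (W₀ : ValuationSubring E)
    (hag : ∀ W ∈ 𝒲, ∀ i j, f.coeff i / f.coeff j ∈ W ↔ f.coeff i / f.coeff j ∈ W₀) :
    ∃ y : E, ∀ W ∈ 𝒲, y ∈ W ∧ x * y ∈ W ∧ (x ∈ W → y ≠ 0 ∧ y⁻¹ ∈ W) := by
  classical
  have hs : f.support.Nonempty := Polynomial.support_nonempty.mpr hf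
  obtain ⟨r, hr, hmax⟩ := Finset.exists_max_image f.support
    (fun i => toLex (W₀.valuation (f.coeff i), i)) hs
  have hr0 : f.coeff r ≠ 0 := Polynomial.mem_support_iff.mp hr
  have hvr : W₀.valuation (f.coeff r) ≠ 0 := (Valuation.ne_zero_iff _).mpr hr0
  -- all quotients are in `W₀`
  have hq0 : ∀ i, f.coeff i / f.coeff r ∈ W₀ := by
    intro i
    by_cases hi : f.coeff i = 0
    · rw [hi, zero_div]; exact W₀.zero_mem
    have h1 := hmax i (Polynomial.mem_support_iff.mpr hi)
    rw [Prod.Lex.toLex_le_toLex] at h1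
    rw [← W₀.valuation_le_one_iff, map_div₀]
    refine div_le_one_of_le₀ ?_ zero_le
    rcases h1 with h1 | h1
    · exact h1.le
    · exact h1.1.le
  -- quotients of larger index are non units
  have hq1 : ∀ i, r < i → f.coeff i ≠ 0 → f.coeff r / f.coeff i ∉ W₀ := by
    intro i hi hi0 hmem
    have h1 := hmax i (Polynomial.mem_support_iff.mpr hi0)
    rw [Prod.Lex.toLex_le_toLex] at h1
    rw [← W₀.valuation_le_one_iff, map_div₀,
      div_le_one₀ (zero_lt_iff.mpr ((Valuation.ne_zero_iff _).mpr hi0))] at hmem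
    rcases h1 with h1 | h1
    · exact absurd h1 (not_lt.mpr hmem)
    · exact absurd h1.2 (not_le.mpr hi)
  set d : ℕ → E := fun i => f.coeff i / f.coeff r with hd
  have hdr : d r = 1 := div_self hr0
  set n := f.natDegree with hn
  have hrn : r ≤ n := Polynomial.le_natDegree_of_mem_supp r hr
  -- the relation
  have hrel : ∑ i ∈ Finset.range (n + 1), d i * x ^ i = 0 := by
    have h1 : ∑ i ∈ Finset.range (n + 1), f.coeff i * x ^ i = 0 := by
      rw [← hx, Polynomial.eval_eq_sum_range]
    have h2 : ∑ i ∈ Finset.range (n + 1), d i * x ^ i =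
        (∑ i ∈ Finset.range (n + 1), f.coeff i * x ^ i) / f.coeff r := by
      rw [Finset.sum_div]
      exact Finset.sum_congr rfl fun i _ => by rw [hd]; ring
    rw [h2, h1, zero_div]
  have hsplit : ∑ i ∈ Finset.range r, d i * x ^ i + ∑ i ∈ Finset.Ico r (n + 1), d i * x ^ i = 0 := by
    rw [Finset.sum_range_add_sum_Ico _ (by omega), hrel]
  set y : E := ∑ i ∈ Finset.Ico r (n + 1), d i * x ^ (i - r) with hy
  have hyx : y * x ^ r = - ∑ i ∈ Finset.range r, d i * x ^ i := by
    rw [eq_neg_iff_add_eq_zero, add_comm, ← hsplit]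
    congr 1
    rw [hy, Finset.sum_mul]
    refine Finset.sum_congr rfl fun i hi => ?_
    rw [mul_assoc, ← pow_add, Nat.sub_add_cancel (Finset.mem_Ico.mp hi).1]
  refine ⟨y, fun W hW => ?_⟩
  have hdW : ∀ i, d i ∈ W := fun i => (hag W hW i r).mpr (hq0 i)
  by_cases hxW : x ∈ W
  · have hyW : y ∈ W := by
      rw [hy]
      exact sum_mem fun i _ => mul_mem (hdW i) (pow_mem hxW _)
    refine ⟨hyW, mul_mem hxW hyW, fun _ => ?_⟩
    -- `y = 1 + x (...)` with coefficients in the maximal ideal
    have hval : W.valuation (y - 1) < 1 := by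
      have h1 : y - 1 = ∑ i ∈ Finset.Ico (r + 1) (n + 1), d i * x ^ (i - r) := by
        rw [hy, Finset.sum_eq_sum_Ico_succ_bot (by omega), hdr, Nat.sub_self, pow_zero, mul_one]
        ring
      rw [h1]
      refine Valuation.map_sum_lt _ one_ne_zero fun i hi => ?_
      rw [Finset.mem_Ico] at hi
      rw [map_mul, map_pow]
      have h2 : W.valuation (d i) < 1 := by
        by_cases hi0 : f.coeff i = 0
        · simp [hd, hi0]
        · rw [← not_le]
          intro hle
          refine hq1 i (by omega) hi0 ((hag W hW r i).mp ?_)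
          rw [← W.valuation_le_one_iff]
          have h3 : f.coeff r / f.coeff i = (d i)⁻¹ := by rw [hd, inv_div]
          rw [h3, map_inv₀]
          exact inv_le_one_of_one_le₀ hle
      have h4 : W.valuation x ^ (i - r) ≤ 1 :=
        pow_le_one₀ zero_le ((W.valuation_le_one_iff x).mpr hxW)
      calc W.valuation (d i) * W.valuation x ^ (i - r) ≤ W.valuation (d i) * 1 :=
            mul_le_mul_right h4 _
        _ < 1 := by rw [mul_one]; exact h2
    have hy1 : W.valuation y = 1 := by
      have h1 : W.valuation (1 : E) = 1 := map_one _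
      have h2 : y = (y - 1) + 1 := by ring
      rw [h2, Valuation.map_add_eq_of_lt_right _ (by rw [h1]; exact hval), h1]
    refine ⟨fun h0 => by rw [h0, map_zero] at hy1; exact zero_ne_one hy1, ?_⟩
    rw [← W.valuation_le_one_iff, map_inv₀, hy1, inv_one]
  · have hx' : x⁻¹ ∈ W := inv_mem_of_not_mem' hxW
    have hx0 : x ≠ 0 := fun h => hxW (h ▸ W.zero_mem)
    have hyeq : y = - ∑ i ∈ Finset.range r, d i * x⁻¹ ^ (r - i) := by
      have h1 : y = (y * x ^ r) * (x⁻¹) ^ r := by
        rw [mul_assoc, ← mul_pow, mul_inv_cancel₀ hx0, one_pow, mul_one]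
      rw [h1, hyx, neg_mul, Finset.sum_mul]
      congr 1
      refine Finset.sum_congr rfl fun i hi => ?_
      rw [Finset.mem_range] at hi
      rw [mul_assoc]
      congr 1
      have h2 : r = i + (r - i) := by omega
      conv_lhs => rw [h2, pow_add, ← mul_assoc, ← mul_pow, mul_inv_cancel₀ hx0, one_pow, one_mul]
    have hxyeq : x * y = - ∑ i ∈ Finset.range r, d i * x⁻¹ ^ (r - i - 1) := by
      rw [hyeq, mul_neg, Finset.mul_sum]
      congr 1
      refine Finset.sum_congr rfl fun i hi => ?_
      rw [Finset.mem_range] at hi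
      have h2 : r - i = (r - i - 1) + 1 := by omega
      rw [h2, pow_succ, Nat.add_sub_cancel]
      field_simp
    refine ⟨?_, ?_, fun h => absurd h hxW⟩
    · rw [hyeq]
      exact neg_mem (sum_mem fun i _ => mul_mem (hdW i) (pow_mem hx' _))
    · rw [hxyeq]
      exact neg_mem (sum_mem fun i _ => mul_mem (hdW i) (pow_mem hx' _))

end Key

section Conj

variable {E : Type*} [Field E] {H : Type*} [Group H] [Finite H] [MulSemiringAction H E]

/-- elements all of whose conjugates are in `V` are in `V'` -/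
theorem mem_of_forall_smul_mem {V V' : ValuationSubring E}
    (hfix : ∀ x : E, (∀ h : H, h • x = x) → (x ∈ V → x ∈ V')) {x : E}
    (h1 : ∀ h : H, h • x ∈ V) : x ∈ V' := by
  classical
  have := Fintype.ofFinite H
  set P := prodXSubSMul H E x with hP
  have hPr : P ∈ (Polynomial.mapRingHom V.toSubring.subtype).range := by
    rw [hP, prodXSubSMul]
    refine prod_mem fun g _ => ?_
    refine sub_mem ⟨X, by simp⟩ ?_
    obtain ⟨h, rfl⟩ := QuotientGroup.mk_surjective g
    exact ⟨C ⟨h • x, h1 h⟩, by simp⟩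
  have hc : ∀ i, P.coeff i ∈ V' := by
    intro i
    refine hfix _ (fun h => prodXSubSMul.coeff H E x h i) ?_
    obtain ⟨Q, hQ⟩ := hPr
    rw [← hQ]
    simp only [coe_mapRingHom, coeff_map]
    exact (Q.coeff i).2
  have hfr : (↑P.coeffs : Set E) ⊆ V'.toSubring := by
    intro c hc'
    obtain ⟨n, -, rfl⟩ := Polynomial.mem_coeffs_iff.mp hc'
    exact hc n
  have hint : IsIntegral V'.toSubring x := by
    refine ⟨P.toSubring V'.toSubring hfr, ?_, ?_⟩
    · rw [Polynomial.monic_toSubring]
      exact prodXSubSMul.monic H E x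
    · rw [Polynomial.eval₂_eq_eval_map]
      have h2 := Polynomial.map_toSubring P V'.toSubring hfr
      have h3 : algebraMap V'.toSubring E = V'.toSubring.subtype := rfl
      rw [h3, h2]
      exact prodXSubSMul.eval H E x
  have hint' : IsIntegral V' x := hint
  obtain ⟨y, hy⟩ := IsIntegrallyClosed.isIntegral_iff.mp hint'
  rw [← hy]
  exact y.2

/-- One of the conjugates of `V` is contained in `V'`. -/
theorem exists_smul_le {V V' : ValuationSubring E}
    (hfix : ∀ x : E, (∀ h : H, h • x = x) → (x ∈ V ↔ x ∈ V')) : ∃ h : H, h • V ≤ V' := by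
  classical
  have := Fintype.ofFinite H
  by_contra hcon
  push Not at hcon
  -- for each `h` an element of `S` in the maximal ideal of `V'`, a unit in `h • V`
  let 𝒲 : Set (ValuationSubring E) := insert V' (Set.range fun h : H => h • V)
  have hstep : ∀ h : H, ∃ y : E, (∀ g : H, y ∈ g • V) ∧ y ∈ V'.nonunits ∧ y ∉ (h • V).nonunits := by
    intro h
    obtain ⟨x, hx, hx'⟩ := SetLike.not_le_iff_exists.mp (hcon h)
    have hP0 : prodXSubSMul H E x ≠ 0 := (prodXSubSMul.monic H E x).ne_zero
    obtain ⟨y, hy⟩ := exists_mul_mem (prodXSubSMul H E x) hP0 (prodXSubSMul.eval H E x) 𝒲 V (by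
      intro W hW i j
      have hfx : ∀ g : H, g • ((prodXSubSMul H E x).coeff i / (prodXSubSMul H E x).coeff j) =
          (prodXSubSMul H E x).coeff i / (prodXSubSMul H E x).coeff j := by
        intro g
        rw [smul_div₀', prodXSubSMul.coeff, prodXSubSMul.coeff]
      rcases hW with rfl | ⟨g, rfl⟩
      · exact (hfix _ hfx).symm
      · show _ ∈ g • V ↔ _
        rw [ValuationSubring.mem_pointwise_smul_iff_inv_smul_mem, hfx])
    refine ⟨y, fun g => (hy (g • V) (Or.inr ⟨g, rfl⟩)).1, ?_, ?_⟩
    · obtain ⟨h1, h2, -⟩ := hy V' (Or.inl rfl)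
      rw [ValuationSubring.mem_nonunits_iff_or]
      by_cases hy0 : y = 0
      · exact Or.inl hy0
      refine Or.inr fun h3 => hx' ?_
      have : x = (x * y) * y⁻¹ := by field_simp
      rw [this]
      exact mul_mem h2 h3
    · obtain ⟨h1, h2, h3⟩ := hy (h • V) (Or.inr ⟨h, rfl⟩)
      obtain ⟨h4, h5⟩ := h3 hx
      rw [ValuationSubring.mem_nonunits_iff_or]
      push Not
      exact ⟨h4, h5⟩
  -- the ring `S`
  let S : Subring E := ⨅ h : H, (h • V).toSubring
  have hSmem : ∀ y : E, y ∈ S ↔ ∀ h : H, y ∈ h • V := fun y => by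
    simp only [S, Subring.mem_iInf]
    rfl
  have hSV : ∀ h : H, S ≤ (h • V).toSubring := fun h => iInf_le _ h
  have hSV' : S ≤ V'.toSubring := by
    intro y hy
    refine mem_of_forall_smul_mem (H := H) (V := V) (fun x hx => (hfix x hx).1) fun h => ?_
    have := (hSmem y).mp hy h⁻¹
    rwa [ValuationSubring.mem_inv_pointwise_smul_iff] at this
  let p : H → Ideal S := fun h =>
    (IsLocalRing.maximalIdeal (h • V : ValuationSubring E)).comap (Subring.inclusion (hSV h))
  let p' : Ideal S := (IsLocalRing.maximalIdeal V').comap (Subring.inclusion hSV')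
  have hp : ∀ h, (p h).IsPrime := fun h => Ideal.IsPrime.comap _
  have hmem_p : ∀ h (y : S), y ∈ p h ↔ (y : E) ∈ (h • V).nonunits := by
    intro h y
    show (⟨y, _⟩ : (h • V : ValuationSubring E)) ∈ IsLocalRing.maximalIdeal _ ↔ _
    rw [← ValuationSubring.coe_mem_nonunits_iff]
  have hmem_p' : ∀ (y : S), y ∈ p' ↔ (y : E) ∈ V'.nonunits := by
    intro y
    show (⟨y, _⟩ : V') ∈ IsLocalRing.maximalIdeal _ ↔ _
    rw [← ValuationSubring.coe_mem_nonunits_iff]
  have hsub : (p' : Set S) ⊆ ⋃ h ∈ ((Finset.univ : Finset H) : Set H), (p h : Set S) := by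
    intro y hy
    by_contra hy'
    simp only [Finset.coe_univ, Set.mem_univ, Set.iUnion_true, Set.mem_iUnion, not_exists,
      SetLike.mem_coe, hmem_p, ValuationSubring.mem_nonunits_iff_or, not_or, not_not] at hy'
    have hy0 : (y : E) ≠ 0 := (hy' 1).1
    have hinv : (y : E)⁻¹ ∈ S := (hSmem _).mpr fun h => (hy' h).2
    have h1 := (hmem_p' y).mp hy
    rw [ValuationSubring.mem_nonunits_iff_or] at h1
    rcases h1 with h1 | h1
    · exact hy0 h1
    · exact h1 (hSV' hinv)
  rw [Ideal.subset_union_prime (1 : H) 1 (fun h _ _ _ => hp h)] at hsub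
  obtain ⟨h, -, hle⟩ := hsub
  obtain ⟨y, h1, h2, h3⟩ := hstep h
  have hyS : y ∈ S := (hSmem y).mpr h1
  exact h3 ((hmem_p h ⟨y, hyS⟩).mp (hle ((hmem_p' ⟨y, hyS⟩).mpr h2)))

/-- **Conjugacy of valuation rings** with the same fixed elements. -/
theorem exists_smul_eq_of_fixed {V V' : ValuationSubring E}
    (hfix : ∀ x : E, (∀ h : H, h • x = x) → (x ∈ V ↔ x ∈ V')) : ∃ h : H, h • V = V' := by
  obtain ⟨h, hh⟩ := exists_smul_le hfix
  obtain ⟨g, hg⟩ := exists_smul_le (H := H) (V := V') (V' := V) (fun x hx => (hfix x hx).symm)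
  refine ⟨h, le_antisymm hh ?_⟩
  -- `(h g) • V' ≤ V'`
  have h1 : (h * g) • V' ≤ V' := by
    rw [mul_smul]
    exact (ValuationSubring.pointwise_smul_le_pointwise_smul_iff.mpr hg).trans hh
  have h2 : ∀ n : ℕ, (h * g) ^ (n + 1) • V' ≤ (h * g) • V' := by
    intro n
    induction n with
    | zero => simp
    | succ n ih =>
      rw [pow_succ', mul_smul]
      exact (ValuationSubring.pointwise_smul_le_pointwise_smul_iff.mpr (ih.trans h1))
  obtain ⟨n, hn, hpow⟩ := isOfFinOrder_iff_pow_eq_one.mp (isOfFinOrder_of_finite (h * g))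
  have h3 : V' ≤ (h * g) • V' := by
    have h4 := h2 (n - 1)
    rwa [Nat.sub_add_cancel hn, hpow, one_smul] at h4
  refine h3.trans ?_
  rw [mul_smul]
  exact ValuationSubring.pointwise_smul_le_pointwise_smul_iff.mpr hg

end Conj

end Fermat.Agent.DS.X1
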