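import Mathlib
import Fermat.Agent.JRED.ModularRed
import Fermat.Agent.JRED.Degree
import Fermat.Agent.DS.X1.GalValConj

/-!
# Valuation theory of reduction data: orthonormality over subfields

For a `RedDatum` `R` on `E / K`, `ring R` is its valuation ring.  If `F' ⊆ Ω` contains the residues
of the subfield `F ⊆ E` then a family with residues linearly independent over `F'` is
"orthonormal over `F`".
-/

set_option autoImplicit false

noncomputable section

open IntermediateField Polynomial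
open scoped Pointwise

namespace Fermat.Agent.DS.X1

open Fermat.Agent.JRED

variable {K E κ Ω : Type*} [Field K] [Field E] [Algebra K E] [Field κ] [Field Ω] [Algebra κ Ω]
  {A : ValuationSubring K} {π : A →+* κ}

/-- The valuation ring of a reduction datum. -/
def ring (R : RedDatum K E κ Ω A π) (hπ : Function.Surjective π) : ValuationSubring E where
  carrier := {w | ∃ u, R.Red w u}
  mul_mem' := by
    rintro w w' ⟨u, h⟩ ⟨u', h'⟩
    exact ⟨_, R.mul h h'⟩
  one_mem' := ⟨1, R.one⟩
  add_mem' := by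
    rintro w w' ⟨u, h⟩ ⟨u', h'⟩
    exact ⟨_, R.add h h'⟩
  zero_mem' := ⟨0, R.zero⟩
  neg_mem' := by
    rintro w ⟨u, h⟩
    exact ⟨_, RedDatum.neg h⟩
  mem_or_inv_mem' w := by
    rcases R.red_or_inv hπ w with h | h
    · exact Or.inl h
    · exact Or.inr ⟨0, h⟩

theorem mem_ring {R : RedDatum K E κ Ω A π} {hπ : Function.Surjective π} {w : E} :
    w ∈ ring R hπ ↔ ∃ u, R.Red w u := Iff.rfl

variable {R : RedDatum K E κ Ω A π}

theorem red_of_inv_mem {γ : K} (hγ : γ⁻¹ ∈ A) (h0 : γ ≠ 0) {w : E} {v : Ω}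
    (h : R.Red (algebraMap K E γ * w) v) :
    R.Red w (algebraMap κ Ω (π ⟨γ⁻¹, hγ⟩) * v) := by
  have h1 := R.mul (R.const ⟨γ⁻¹, hγ⟩) h
  have h2 : algebraMap K E ((⟨γ⁻¹, hγ⟩ : A) : K) * (algebraMap K E γ * w) = w := by
    show algebraMap K E γ⁻¹ * _ = _
    rw [← mul_assoc, ← map_mul, inv_mul_cancel₀ h0, map_one, one_mul]
  rwa [h2] at h1

/-- if `γ w` has nonzero residue and `w` is integral then `γ⁻¹` is integral. -/
theorem inv_mem_of_red (hπ : Function.Surjective π) {γ : K} {w : E} {u v : Ω} (hw : R.Red w u)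
    (h : R.Red (algebraMap K E γ * w) v) (hv : v ≠ 0) : γ⁻¹ ∈ A := by
  by_contra hcon
  obtain ⟨h1, h2⟩ := res_inv_eq_zero hπ hcon
  have h3 := R.mul (R.const ⟨_, h1⟩) hw
  rw [h2, map_zero, zero_mul] at h3
  have h4 : algebraMap K E ((⟨γ⁻¹⁻¹, h1⟩ : A) : K) = algebraMap K E γ := by
    show algebraMap K E γ⁻¹⁻¹ = _
    rw [inv_inv]
  rw [h4] at h3
  exact hv (R.unique h h3)

/-! ### Orthonormality over a subfield -/

/-- Core computation: a nonzero combination can be scaled to have a nonzero residue. -/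
theorem exists_scale_sum (F : IntermediateField K E) (F' : IntermediateField κ Ω)
    (hF : ∀ x ∈ F, ∀ u, R.Red x u → u ∈ F') {ι : Type*} [Fintype ι] {e : ι → E} {eb : ι → Ω}
    (he : ∀ i, R.Red (e i) (eb i)) (hli : LinearIndependent F' eb) {c : ι → E}
    (hc : ∀ i, c i ∈ F) (hne : ∃ i, c i ≠ 0) :
    ∃ γ : K, γ ≠ 0 ∧ (∀ i, ∃ w, R.Red (algebraMap K E γ * c i) w) ∧
      ∃ v, v ≠ 0 ∧ R.Red (algebraMap K E γ * ∑ i, c i * e i) v := by
  classical
  have hnorm : ∀ i, c i ≠ 0 → ∃ g : K, g ≠ 0 ∧ ∃ u : Ω, u ≠ 0 ∧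
      R.Red (algebraMap K E g * c i) u := fun i hi => R.normalize _ hi
  let s : Finset ι := Finset.univ.filter fun i => c i ≠ 0
  have hs : s.Nonempty := by
    obtain ⟨i, hi⟩ := hne
    exact ⟨i, by simp [s, hi]⟩
  let g : ι → K := fun i => if h : c i ≠ 0 then (hnorm i h).choose else 1
  have hg0 : ∀ i, c i ≠ 0 → g i ≠ 0 := fun i hi => by
    simp only [g, dif_pos hi]; exact (hnorm i hi).choose_spec.1
  have hgu : ∀ i, c i ≠ 0 → ∃ u : Ω, u ≠ 0 ∧ R.Red (algebraMap K E (g i) * c i) u :=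
    fun i hi => by
      simp only [g, dif_pos hi]; exact (hnorm i hi).choose_spec.2
  obtain ⟨i₀, hi₀, hmin⟩ := Finset.exists_min_image s (fun i => A.valuation (g i)) hs
  have hi₀' : c i₀ ≠ 0 := by simpa [s] using hi₀
  have hall : ∀ i, ∃ w, R.Red (algebraMap K E (g i₀) * c i) w := by
    intro i
    by_cases hi : c i = 0
    · exact ⟨0, by rw [hi, mul_zero]; exact R.zero⟩
    obtain ⟨u, -, hu⟩ := hgu i hi
    have h1 : g i₀ / g i ∈ A := by
      rw [← A.valuation_le_one_iff, map_div₀]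
      exact div_le_one_of_le₀ (hmin i (by simp [s, hi])) zero_le
    have h2 := R.mul (R.const ⟨_, h1⟩) hu
    have h3 : algebraMap K E ((⟨g i₀ / g i, h1⟩ : A) : K) * (algebraMap K E (g i) * c i) =
        algebraMap K E (g i₀) * c i := by
      show algebraMap K E (g i₀ / g i) * _ = _
      rw [← mul_assoc, ← map_mul, div_mul_cancel₀ _ (hg0 i hi)]
    rw [h3] at h2
    exact ⟨_, h2⟩
  choose w hw using hall
  refine ⟨g i₀, hg0 _ hi₀', fun i => ⟨w i, hw i⟩, ∑ i, w i * eb i, ?_, ?_⟩
  · intro h0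
    have hwF : ∀ i, w i ∈ F' := fun i => hF _ (mul_mem (F.algebraMap_mem _) (hc i)) _ (hw i)
    have h1 := Fintype.linearIndependent_iff.mp hli (fun i => ⟨w i, hwF i⟩) h0 i₀
    have h2 : w i₀ = 0 := congrArg Subtype.val h1
    obtain ⟨u, hu0, hu⟩ := hgu i₀ hi₀'
    exact hu0 ((R.unique hu (hw i₀)).trans h2)
  · rw [Finset.mul_sum]
    exact RedDatum.sum fun i _ => by
      rw [← mul_assoc]
      exact R.mul (hw i) (he i)

/-- Coefficients of an integral combination of an orthonormal family are integral. -/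
theorem coeff_mem_ring (hπ : Function.Surjective π) (F : IntermediateField K E)
    (F' : IntermediateField κ Ω)
    (hF : ∀ x ∈ F, ∀ u, R.Red x u → u ∈ F') {ι : Type*} [Fintype ι] {e : ι → E} {eb : ι → Ω}
    (he : ∀ i, R.Red (e i) (eb i)) (hli : LinearIndependent F' eb) {c : ι → E}
    (hc : ∀ i, c i ∈ F) {u : Ω} (hu : R.Red (∑ i, c i * e i) u) (i : ι) :
    ∃ w, R.Red (c i) w := by
  by_cases hne : ∃ i, c i ≠ 0
  · obtain ⟨γ, hγ, hall, v, hv0, hv⟩ := exists_scale_sum F F' hF he hli hc hne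
    have h1 := inv_mem_of_red hπ hu hv hv0
    obtain ⟨w, hw⟩ := hall i
    exact ⟨_, red_of_inv_mem h1 hγ hw⟩
  · push Not at hne
    exact ⟨0, by rw [hne i]; exact R.zero⟩

/-- Lifts of a residually independent family are independent. -/
theorem linearIndependent_of_red (F : IntermediateField K E)
    (F' : IntermediateField κ Ω)
    (hF : ∀ x ∈ F, ∀ u, R.Red x u → u ∈ F') {ι : Type*} [Fintype ι] {e : ι → E} {eb : ι → Ω}
    (he : ∀ i, R.Red (e i) (eb i)) (hli : LinearIndependent F' eb) : LinearIndependent F e := by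
  rw [Fintype.linearIndependent_iff]
  intro c hc
  by_contra hcon
  push Not at hcon
  obtain ⟨i, hi⟩ := hcon
  obtain ⟨γ, hγ, -, v, hv0, hv⟩ := exists_scale_sum (c := fun i => (c i : E)) F F' hF he hli
    (fun i => (c i).2) ⟨i, fun h => hi (Subtype.ext h)⟩
  have h1 : ∑ i, (c i : E) * e i = 0 := hc
  rw [h1, mul_zero] at hv
  exact hv0 (R.unique hv R.zero)

/-! ### The residue field of `K(j)` -/

section Adjoin

variable {j : E} {jb : Ω}

theorem exists_red_aeval (hπ : Function.Surjective π) (hj : R.Red j jb)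
    (htr : Transcendental κ jb) {P : K[X]} (hP : P ≠ 0) :
    ∃ c : K, c ≠ 0 ∧ ∃ Q : κ[X], aeval jb Q ≠ 0 ∧
      R.Red (algebraMap K E c * aeval j P) (aeval jb Q) := by
  have hO : R.IsOrtho (fun n : ℕ => j ^ n) (fun n : ℕ => jb ^ n) :=
    ⟨fun n => RedDatum.pow hj n, linearIndependent_pow_of_transcendental htr⟩
  have hjt : Transcendental K j := RedDatum.transcendental_of_red hπ hj htr
  have hP0 : aeval j P ≠ 0 := fun h => hP ((transcendental_iff.mp hjt) P h)
  obtain ⟨c, hc, u, hu0, hu⟩ := R.normalize _ hP0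
  have h1 : algebraMap K E c * aeval j P =
      ∑ n ∈ Finset.range (P.natDegree + 1), (c * P.coeff n) • j ^ n := by
    rw [aeval_eq_sum_range, Finset.mul_sum]
    refine Finset.sum_congr rfl fun n _ => ?_
    rw [Algebra.smul_def, Algebra.smul_def, map_mul, mul_assoc]
  have h2 := hO.coeff_mem hπ (s := Finset.range (P.natDegree + 1))
    (c := fun n => c * P.coeff n) (by rw [← h1]; exact hu)
  have h3 : ∀ n, c * P.coeff n ∈ A := by
    intro n
    by_cases hn : n ∈ Finset.range (P.natDegree + 1)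
    · exact h2 n hn
    · rw [Finset.mem_range, not_lt] at hn
      rw [Polynomial.coeff_eq_zero_of_natDegree_lt (by omega), mul_zero]
      exact A.zero_mem
  have h4 := hO.red_sum (Finset.range (P.natDegree + 1)) (fun n => c * P.coeff n) h3
  refine ⟨c, hc, ∑ n ∈ Finset.range (P.natDegree + 1), monomial n (π ⟨_, h3 n⟩), ?_, ?_⟩
  · have h5 : aeval jb (∑ n ∈ Finset.range (P.natDegree + 1), monomial n (π ⟨_, h3 n⟩)) = u := by
      rw [map_sum]
      refine Eq.trans ?_ (R.unique h4 (by rw [← h1]; exact hu))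
      refine Finset.sum_congr rfl fun n _ => ?_
      rw [aeval_monomial, Algebra.smul_def]
    rw [h5]
    exact hu0
  · rw [h1, map_sum]
    convert h4 using 2 with n
    rw [aeval_monomial, Algebra.smul_def]

/-- The residues of `K(j)` are in `κ(j̄)`. -/
theorem mem_adjoin_of_red (hπ : Function.Surjective π) (hj : R.Red j jb)
    (htr : Transcendental κ jb) {c : E} (hc : c ∈ K⟮j⟯) {w : Ω} (h : R.Red c w) :
    w ∈ κ⟮jb⟯ := by
  have hjt : Transcendental K j := RedDatum.transcendental_of_red hπ hj htr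
  obtain ⟨B, hB, P, hP⟩ := exists_common_denom hjt (m := 1) (fun _ => c) (fun _ => hc)
  have hP0 := hP 0
  by_cases hPz : P 0 = 0
  · rw [hPz, map_zero] at hP0
    have hB0 : aeval j B ≠ 0 := fun h => hB ((transcendental_iff.mp hjt) B h)
    have hc0 : c = 0 := (mul_eq_zero.mp hP0).resolve_right hB0
    rw [hc0] at h
    rw [R.unique h R.zero]
    exact zero_mem _
  obtain ⟨α, hα, Q₁, hQ₁, h1⟩ := exists_red_aeval hπ hj htr hPz
  obtain ⟨β, hβ, Q₂, hQ₂, h2⟩ := exists_red_aeval hπ hj htr hB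
  have hB0 : aeval j B ≠ 0 := fun h => hB ((transcendental_iff.mp hjt) B h)
  have h3 := RedDatum.div hπ h1 h2 hQ₂
  have h4 : algebraMap K E α * aeval j (P 0) / (algebraMap K E β * aeval j B) =
      algebraMap K E (α / β) * c := by
    rw [← hP0, map_div₀]
    have : algebraMap K E β ≠ 0 := (_root_.map_ne_zero _).mpr hβ
    field_simp
  rw [h4] at h3
  have h5 := inv_mem_of_red hπ h h3 (div_ne_zero hQ₁ hQ₂)
  have h6 := red_of_inv_mem h5 (div_ne_zero hα hβ) h3
  rw [R.unique h h6]
  have hmem : ∀ Q : κ[X], aeval jb Q ∈ κ⟮jb⟯ := fun Q => by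
    have h7 : Algebra.adjoin κ {jb} ≤ κ⟮jb⟯.toSubalgebra := algebra_adjoin_le_adjoin κ {jb}
    exact h7 (aeval_mem_adjoin_singleton κ jb)
  exact mul_mem (κ⟮jb⟯.algebraMap_mem _) (div_mem (hmem _) (hmem _))

end Adjoin

/-! ### Integrality -/

/-- The subring of integral elements of `F`. -/
def integralIn (R : RedDatum K E κ Ω A π) (hπ : Function.Surjective π)
    (F : IntermediateField K E) : Subring E :=
  (ring R hπ).toSubring ⊓ F.toSubfield.toSubring

theorem mem_integralIn {hπ : Function.Surjective π} {F : IntermediateField K E} {y : E} :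
    y ∈ integralIn R hπ F ↔ (∃ u, R.Red y u) ∧ y ∈ F := Iff.rfl

/-- If `F₀` has a basis over `F` which is orthonormal, then the integral elements of `F₀` are
integral over those of `F`. -/
theorem isIntegral_of_red (hπ : Function.Surjective π) (F : IntermediateField K E)
    (F' : IntermediateField κ Ω)
    (hF : ∀ x ∈ F, ∀ u, R.Red x u → u ∈ F') {ι : Type*} [Fintype ι] [Nonempty ι] {e : ι → E}
    {eb : ι → Ω} (he : ∀ i, R.Red (e i) (eb i)) (hli : LinearIndependent F' eb) {x : E}
    (hspan : ∀ i, ∃ c : ι → E, (∀ l, c l ∈ F) ∧ x * e i = ∑ l, c l * e l) {u : Ω}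
    (hx : R.Red x u) : IsIntegral (integralIn R hπ F) x := by
  classical
  let N : Submodule (integralIn R hπ F) E := Submodule.span _ (Set.range e)
  have hne0 : ∀ i, e i ≠ 0 := fun i h0 => by
    have h1 := he i
    rw [h0] at h1
    exact hli.ne_zero i (R.unique h1 R.zero)
  refine isIntegral_of_smul_mem_submodule N ?_ (Submodule.fg_span (Set.finite_range e)) x ?_
  · intro h0
    obtain ⟨i⟩ := ‹Nonempty ι›
    have h1 : e i ∈ N := Submodule.subset_span ⟨i, rfl⟩
    rw [h0, Submodule.mem_bot] at h1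
    exact hne0 i h1
  · intro n hn
    induction hn using Submodule.span_induction with
    | mem y hy =>
      obtain ⟨i, rfl⟩ := hy
      obtain ⟨c, hc, hce⟩ := hspan i
      have h1 : R.Red (∑ l, c l * e l) (u * eb i) := by
        rw [← hce]
        exact R.mul hx (he i)
      have h2 := coeff_mem_ring hπ F F' hF he hli hc h1
      rw [smul_eq_mul, hce]
      refine Submodule.sum_mem _ fun l _ => ?_
      have h3 : c l * e l = (⟨c l, mem_integralIn.mpr ⟨h2 l, hc l⟩⟩ : integralIn R hπ F) • e l :=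
        rfl
      rw [h3]
      exact N.smul_mem _ (Submodule.subset_span ⟨l, rfl⟩)
    | zero => rw [smul_zero]; exact N.zero_mem
    | add y z _ _ hy hz => rw [smul_add]; exact N.add_mem hy hz
    | smul a y _ hy =>
      rw [smul_comm]
      exact N.smul_mem _ hy

/-- Such elements are in all valuation rings containing the integral elements of `F`. -/
theorem mem_of_red (hπ : Function.Surjective π) (F : IntermediateField K E)
    (F' : IntermediateField κ Ω)
    (hF : ∀ x ∈ F, ∀ u, R.Red x u → u ∈ F') {ι : Type*} [Fintype ι] [Nonempty ι] {e : ι → E}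
    {eb : ι → Ω} (he : ∀ i, R.Red (e i) (eb i)) (hli : LinearIndependent F' eb) {x : E}
    (hspan : ∀ i, ∃ c : ι → E, (∀ l, c l ∈ F) ∧ x * e i = ∑ l, c l * e l) {u : Ω}
    (hx : R.Red x u) (V' : ValuationSubring E) (hV' : ∀ y ∈ F, ∀ v, R.Red y v → y ∈ V') :
    x ∈ V' := by
  obtain ⟨p, hp, hpx⟩ := isIntegral_of_red hπ F F' hF he hli hspan hx
  have hle : integralIn R hπ F ≤ V'.toSubring := fun y hy =>
    hV' y hy.2 _ (mem_integralIn.mp hy).1.choose_spec
  have hint : IsIntegral V' x := by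
    refine ⟨p.map (Subring.inclusion hle), hp.map _, ?_⟩
    have h1 : (algebraMap V' E).comp (Subring.inclusion hle : integralIn R hπ F →+* V'.toSubring) =
      algebraMap (integralIn R hπ F) E := rfl
    rw [Polynomial.eval₂_map]
    exact hpx
  obtain ⟨y, hy⟩ := IsIntegrallyClosed.isIntegral_iff.mp hint
  rw [← hy]
  exact y.2

/-- **Uniqueness**: on a subfield `F₀` all of whose elements satisfy the conclusion of `mem_of_red`,
the ring `V'` agrees with `ring R`. -/
theorem mem_iff_of_forall (hπ : Function.Surjective π) (F₀ : IntermediateField K E)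
    (V' : ValuationSubring E) (hsub : ∀ x ∈ F₀, ∀ u, R.Red x u → x ∈ V')
    (hK : ∀ c : K, algebraMap K E c ∈ V' → c ∈ A) {x : E} (hx : x ∈ F₀) :
    x ∈ ring R hπ ↔ x ∈ V' := by
  refine ⟨fun ⟨u, hu⟩ => hsub x hx u hu, fun hxV => ?_⟩
  by_cases hx0 : x = 0
  · rw [hx0]; exact zero_mem _
  obtain ⟨γ, hγ, u, hu0, hu⟩ := R.normalize x hx0
  have hmem : algebraMap K E γ * x ∈ F₀ := mul_mem (F₀.algebraMap_mem _) hx
  have hinv : (algebraMap K E γ * x)⁻¹ ∈ V' :=
    hsub _ (inv_mem hmem) _ (RedDatum.inv hπ hu hu0)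
  have h1 : γ⁻¹ ∈ A := by
    refine hK _ ?_
    have h2 : algebraMap K E γ⁻¹ = x * (algebraMap K E γ * x)⁻¹ := by
      have : algebraMap K E γ ≠ 0 := (_root_.map_ne_zero _).mpr hγ
      rw [map_inv₀]
      field_simp
    rw [h2]
    exact mul_mem hxV hinv
  exact ⟨_, red_of_inv_mem h1 hγ hu⟩

end Fermat.Agent.DS.X1
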