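import Mathlib
import Fermat.Agent.DS.X1.GalAlg

/-!
# Decomposition and inertia for a reduction datum with a group action

`G` is a finite group acting faithfully on `E / K` with fixed field `K(j)`, and `x ∈ E` an element
with residue `x̄` such that the degree of `x̄` over `κ(j̄)` is that of `x` over `K(j)`.
-/

set_option autoImplicit false

noncomputable section

open IntermediateField Polynomial
open scoped Pointwise

namespace Fermat.Agent.DS.X1

open Fermat.Agent.JRED

variable {K E κ Ω : Type*} [Field K] [Field E] [Algebra K E] [Field κ] [Field Ω] [Algebra κ Ω]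
  {A : ValuationSubring K} {π : A →+* κ} {R : RedDatum K E κ Ω A π}

/-- elements of `L(x)` are combinations of the powers of `x` -/
theorem exists_coeffs {L F : Type*} [Field L] [Field F] [Algebra L F] {x z : F}
    (hx : IsIntegral L x) (hz : z ∈ L⟮x⟯) {n : ℕ} (hn : (minpoly L x).natDegree ≤ n) :
    ∃ c : Fin n → L, z = ∑ l, algebraMap L F (c l) * x ^ (l : ℕ) := by
  have h1 : z ∈ L⟮x⟯.toSubalgebra := hz
  rw [adjoin_simple_toSubalgebra_of_isAlgebraic hx.isAlgebraic,
    Algebra.adjoin_singleton_eq_range_aeval] at h1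
  obtain ⟨p, hp⟩ := h1
  have hp' : aeval x p = z := hp
  set q := p %ₘ minpoly L x with hq
  have hqz : aeval x q = z := by
    rw [hq, Polynomial.aeval_modByMonic_eq_self_of_root (minpoly.aeval L x)]
    exact hp'
  have hqn : q.natDegree < n ∨ q = 0 := by
    by_cases h0 : q = 0
    · exact Or.inr h0
    · left
      have h2 : q.degree < (minpoly L x).degree := Polynomial.degree_modByMonic_lt p (minpoly.monic hx)
      exact lt_of_lt_of_le (Polynomial.natDegree_lt_natDegree h0 h2) hn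
  refine ⟨fun l => q.coeff l, ?_⟩
  rw [← hqz]
  rcases hqn with hqn | h0
  · rw [Polynomial.aeval_eq_sum_range' hqn, Finset.sum_range]
    exact Finset.sum_congr rfl fun l _ => by rw [Algebra.smul_def]
  · simp [h0]

section Action

variable {G : Type*} [Group G] [Finite G] [MulSemiringAction G E] [FaithfulSMul G E]

omit [Algebra K E] in
/-- **Galois correspondence**: elements fixed by all `h` fixing `x` are in the field generated by
`x` over the fixed field. -/
theorem mem_adjoin_of_fixed {x y : E} (hy : ∀ h : G, h • x = x → h • y = y) :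
    y ∈ (FixedPoints.subfield G E)⟮x⟯ := by
  rw [← IsGalois.fixedField_fixingSubgroup (FixedPoints.subfield G E)⟮x⟯,
    IntermediateField.mem_fixedField_iff]
  intro f hf
  obtain ⟨g, hg⟩ := (FixedPoints.toAlgAut_bijective G E).surjective f
  have hgf : ∀ z : E, f z = g • z := fun z => by rw [← hg]; rfl
  rw [hgf]
  refine hy g ?_
  rw [← hgf]
  exact (IntermediateField.mem_fixingSubgroup_iff _ _).mp hf x
    (IntermediateField.mem_adjoin_simple_self _ x)

/-- The hypotheses: a finite group with fixed field `K(j)` and a good element `x`. -/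
structure GalHyp (R : RedDatum K E κ Ω A π) (G : Type*) [Group G] [MulSemiringAction G E]
    (j : E) (jb : Ω) (x : E) (xb : Ω) (n : ℕ) : Prop where
  surj : Function.Surjective π
  red_j : R.Red j jb
  transc : Transcendental κ jb
  smul_algebraMap : ∀ (g : G) (c : K), g • algebraMap K E c = algebraMap K E c
  smul_j : ∀ g : G, g • j = j
  mem_adjoin : ∀ y : E, (∀ g : G, g • y = y) → y ∈ K⟮j⟯
  red_x : R.Red x xb
  n_pos : 0 < n
  degree_le : (minpoly K⟮j⟯ x).natDegree ≤ n
  le_degree : n ≤ (minpoly κ⟮jb⟯ xb).natDegree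
  separable : (minpoly κ⟮jb⟯ xb).Separable

namespace GalHyp

variable {j : E} {jb : Ω} {x : E} {xb : Ω} {n : ℕ} (h : GalHyp R G j jb x xb n)

include h

theorem smul_of_mem {y : E} (hy : y ∈ K⟮j⟯) (g : G) : g • y = y := by
  have h1 : K⟮j⟯ ≤ { (FixedPoints.subfield G E) with
      algebraMap_mem' := fun c g => h.smul_algebraMap g c : IntermediateField K E } := by
    rw [adjoin_simple_le_iff]
    exact fun g => h.smul_j g
  exact h1 hy g

theorem isIntegral_x : IsIntegral K⟮j⟯ x := by
  have h1 := FixedPoints.isIntegral G E x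
  have hle : (FixedPoints.subfield G E) ≤ K⟮j⟯.toSubfield := fun y hy => h.mem_adjoin y hy
  obtain ⟨p, hp, hpx⟩ := h1
  exact ⟨p.map (Subfield.inclusion hle), hp.map _, by rw [Polynomial.eval₂_map]; exact hpx⟩

theorem hF : ∀ c ∈ K⟮j⟯, ∀ w, R.Red c w → w ∈ κ⟮jb⟯ := fun _ hc _ hw =>
  mem_adjoin_of_red h.surj h.red_j h.transc hc hw

theorem isIntegral_xb : IsIntegral κ⟮jb⟯ xb := by
  by_contra hcon
  have h1 := minpoly.eq_zero hcon
  have h2 := h.le_degree
  rw [h1, natDegree_zero] at h2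
  exact absurd h.n_pos (by omega)

theorem li : LinearIndependent κ⟮jb⟯ (fun i : Fin n => xb ^ (i : ℕ)) := by
  have h1 := (linearIndependent_pow (K := κ⟮jb⟯) xb).comp
    (Fin.castLE h.le_degree) (Fin.castLE_injective _)
  exact h1

theorem span_condition {y : E} (hy : y ∈ (K⟮j⟯⟮x⟯).restrictScalars K) (i : Fin n) :
    ∃ c : Fin n → E, (∀ l, c l ∈ K⟮j⟯) ∧ y * x ^ (i : ℕ) = ∑ l, c l * x ^ (l : ℕ) := by
  have h1 : y * x ^ (i : ℕ) ∈ K⟮j⟯⟮x⟯ := mul_mem hy (pow_mem (mem_adjoin_simple_self _ x) _)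
  obtain ⟨c, hc⟩ := exists_coeffs h.isIntegral_x h1 h.degree_le
  exact ⟨fun l => c l, fun l => (c l).2, hc⟩

theorem mem_of_fixed {y : E} (hy : ∀ g : G, g • x = x → g • y = y) :
    y ∈ (K⟮j⟯⟮x⟯).restrictScalars K := by
  have h1 := mem_adjoin_of_fixed hy
  have h2 : (FixedPoints.subfield G E)⟮x⟯.toSubfield ≤ (K⟮j⟯⟮x⟯).toSubfield := by
    rw [IntermediateField.adjoin_toSubfield, Subfield.closure_le]
    rintro z (⟨w, rfl⟩ | hz)
    · exact (K⟮j⟯⟮x⟯).algebraMap_mem ⟨w, h.mem_adjoin _ w.2⟩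
    · rw [Set.mem_singleton_iff.mp hz]
      exact mem_adjoin_simple_self _ x
  exact h2 h1

theorem mem_smul_iff_of_mem {y : E} (hy : y ∈ (K⟮j⟯⟮x⟯).restrictScalars K) (g : G) :
    y ∈ ring R h.surj ↔ y ∈ g • ring R h.surj := by
  haveI : Nonempty (Fin n) := ⟨⟨0, h.n_pos⟩⟩
  refine mem_iff_of_forall h.surj ((K⟮j⟯⟮x⟯).restrictScalars K) (g • ring R h.surj) ?_ ?_ hy
  · intro z hz u hu
    refine mem_of_red h.surj K⟮j⟯ κ⟮jb⟯ h.hF (fun i : Fin n => RedDatum.pow h.red_x i) h.li
      (h.span_condition hz) hu _ ?_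
    intro c hc v hv
    rw [ValuationSubring.mem_pointwise_smul_iff_inv_smul_mem, h.smul_of_mem hc]
    exact ⟨v, hv⟩
  · intro c hc
    rw [ValuationSubring.mem_pointwise_smul_iff_inv_smul_mem, h.smul_algebraMap] at hc
    obtain ⟨u, hu⟩ := hc
    exact R.mem_of_red_const h.surj hu

/-- **Transitivity of the decomposition group.** -/
theorem exists_mem_stabilizer (g : G) :
    ∃ s : G, s • x = x ∧ s⁻¹ * g ∈ MulAction.stabilizer G (ring R h.surj) := by
  obtain ⟨s, hs⟩ := exists_smul_eq_of_fixed (H := MulAction.stabilizer G x)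
    (V := ring R h.surj) (V' := g • ring R h.surj) (by
      intro y hy
      exact h.mem_smul_iff_of_mem (h.mem_of_fixed fun s hs => hy ⟨s, hs⟩) g)
  refine ⟨s, s.2, ?_⟩
  rw [MulAction.mem_stabilizer_iff, mul_smul, ← hs]
  show ((s : G))⁻¹ • ((s : G) • ring R h.surj) = _
  rw [inv_smul_smul]

/-- **Elements of the inertia group fix `x`.** -/
theorem smul_eq_of_inertia {g : G} (hg : ∀ y u, R.Red y u → R.Red (g • y) u) : g • x = x := by
  have hx := h.isIntegral_x
  have hxb := h.isIntegral_xb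
  set P := minpoly K⟮j⟯ x with hP
  set Pb := minpoly κ⟮jb⟯ xb with hPb
  obtain ⟨c, hc⟩ := exists_coeffs (z := x ^ n) hx (pow_mem (mem_adjoin_simple_self _ x) _)
    h.degree_le
  have hcr : ∀ i, ∃ w, R.Red (c i : E) w := by
    refine coeff_mem_ring h.surj K⟮j⟯ κ⟮jb⟯ h.hF (fun i : Fin n => RedDatum.pow h.red_x i) h.li
      (c := fun i => (c i : E)) (fun i => (c i).2) (u := xb ^ n) ?_
    rw [show (∑ i, (c i : E) * x ^ (i : ℕ)) = x ^ n from hc.symm]
    exact RedDatum.pow h.red_x n
  choose w hw using hcr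
  have hwF : ∀ i, w i ∈ κ⟮jb⟯ := fun i => h.hF _ (c i).2 _ (hw i)
  -- the reduced polynomial
  set Q : κ⟮jb⟯[X] := X ^ n - ∑ i : Fin n, C (⟨w i, hwF i⟩ : κ⟮jb⟯) * X ^ (i : ℕ) with hQ
  have hQx : aeval xb Q = 0 := by
    have h1 : R.Red (x ^ n - ∑ i, (c i : E) * x ^ (i : ℕ)) (xb ^ n - ∑ i, w i * xb ^ (i : ℕ)) :=
      RedDatum.sub (RedDatum.pow h.red_x n)
        (RedDatum.sum fun i _ => R.mul (hw i) (RedDatum.pow h.red_x i))
    have h2 : x ^ n - ∑ i, (c i : E) * x ^ (i : ℕ) = 0 := sub_eq_zero.mpr hc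
    rw [h2] at h1
    have h3 := R.unique h1 R.zero
    rw [hQ, map_sub, map_pow, aeval_X, map_sum, ← h3]
    congr 1
    refine Finset.sum_congr rfl fun i _ => ?_
    rw [map_mul, aeval_C, map_pow, aeval_X]
    rfl
  have hQmonic : Q.Monic := monic_X_pow_sub (degree_sum_fin_lt _)
  have hQdeg : Q.natDegree ≤ n := by
    rw [hQ]
    refine (natDegree_sub_le _ _).trans ?_
    rw [natDegree_X_pow]
    refine max_le le_rfl ?_
    exact natDegree_le_of_degree_le (degree_sum_fin_lt _).le
  have hQPb : Q = Pb := by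
    have h1 : Pb ∣ Q := minpoly.dvd _ _ hQx
    exact eq_of_monic_of_dvd_of_natDegree_le (minpoly.monic hxb) hQmonic h1
      (hQdeg.trans h.le_degree)
  have hder : aeval xb (derivative Q) ≠ 0 := by
    rw [hQPb]
    exact h.separable.aeval_derivative_ne_zero (minpoly.aeval _ _)
  -- the difference quotient
  by_contra hne
  set y := g • x with hy
  have hred_y : R.Red y xb := hg x xb h.red_x
  have hyn : y ^ n = ∑ i, (c i : E) * y ^ (i : ℕ) := by
    have h1 := congrArg (fun z => g • z) hc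
    simp only [smul_pow'] at h1
    rw [← hy] at h1
    rw [h1, Finset.smul_sum]
    refine Finset.sum_congr rfl fun i _ => ?_
    rw [smul_mul', smul_pow', ← hy]
    congr 1
    exact h.smul_of_mem (c i).2 g
  set S : ℕ → E := fun i => ∑ a ∈ Finset.range i, y ^ a * x ^ (i - 1 - a) with hS
  have hSmul : ∀ i, S i * (y - x) = y ^ i - x ^ i := fun i => (Commute.all y x).geom_sum₂_mul i
  have hSred : ∀ i, R.Red (S i) (i * xb ^ (i - 1)) := by
    intro i
    have h1 : R.Red (S i) (∑ a ∈ Finset.range i, xb ^ a * xb ^ (i - 1 - a)) :=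
      RedDatum.sum fun a _ => R.mul (RedDatum.pow hred_y a) (RedDatum.pow h.red_x _)
    have h2 : ∑ a ∈ Finset.range i, xb ^ a * xb ^ (i - 1 - a) = i * xb ^ (i - 1) := by
      have h3 : ∀ a ∈ Finset.range i, xb ^ a * xb ^ (i - 1 - a) = xb ^ (i - 1) := by
        intro a ha
        rw [Finset.mem_range] at ha
        rw [← pow_add]
        congr 1
        omega
      rw [Finset.sum_congr rfl h3, Finset.sum_const, Finset.card_range, nsmul_eq_mul]
    rwa [h2] at h1
  have hSn : S n - ∑ i, (c i : E) * S i = 0 := by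
    have h1 : (S n - ∑ i, (c i : E) * S i) * (y - x) = 0 := by
      rw [sub_mul, hSmul, Finset.sum_mul]
      have h2 : ∀ i ∈ (Finset.univ : Finset (Fin n)), (c i : E) * S i * (y - x) =
          (c i : E) * y ^ (i : ℕ) - (c i : E) * x ^ (i : ℕ) := fun i _ => by
        rw [mul_assoc, hSmul, mul_sub]
      rw [Finset.sum_congr rfl h2, Finset.sum_sub_distrib, hyn]
      have h3 : x ^ n = ∑ i, (c i : E) * x ^ (i : ℕ) := hc
      rw [h3]
      ring
    exact (mul_eq_zero.mp h1).resolve_right (sub_ne_zero.mpr hne)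
  have hfin : R.Red (S n - ∑ i, (c i : E) * S i)
      (n * xb ^ (n - 1) - ∑ i : Fin n, w i * ((i : ℕ) * xb ^ ((i : ℕ) - 1))) :=
    RedDatum.sub (hSred n) (RedDatum.sum fun i _ => R.mul (hw i) (hSred i))
  rw [hSn] at hfin
  have h5 := R.unique hfin R.zero
  apply hder
  rw [← h5, hQ, derivative_sub, derivative_X_pow, map_sub, map_mul, aeval_C, map_pow, aeval_X,
    map_natCast, derivative_sum, map_sum]
  congr 1
  refine Finset.sum_congr rfl fun i _ => ?_
  rw [derivative_C_mul, derivative_X_pow, map_mul, map_mul, aeval_C, aeval_C, map_pow, aeval_X,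
    map_natCast]
  rfl

end GalHyp

end Action

end Fermat.Agent.DS.X1
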