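import Mathlib
import Fermat.Agent.DS.X1.GalDec

/-!
# Residue fields of subfields, and the degree theorem

If all of `G` preserves the valuation ring and the inertia group is trivial then the degree of the
residue field of a subfield `F ⊇ K(j)` over `κ(j̄)` is at least `[F : K(j)]`.
-/

set_option autoImplicit false
set_option linter.unusedSectionVars false

noncomputable section

open IntermediateField Polynomial
open scoped Pointwise

namespace Fermat.Agent.DS.X1

open Fermat.Agent.JRED

variable {K E κ Ω : Type*} [Field K] [Field E] [Algebra K E] [Field κ] [Field Ω] [Algebra κ Ω]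
  {A : ValuationSubring K} {π : A →+* κ} {R : RedDatum K E κ Ω A π}

/-! ### Eigenvectors -/

theorem exists_eigen {K V : Type*} [Field K] [AddCommGroup V] [Module K V] (f : Module.End K V) :
    ∀ (s : List K) (z : V), z ≠ 0 →
      ((s.map fun μ => f - algebraMap K (Module.End K V) μ).prod) z = 0 →
      ∃ μ ∈ s, ∃ w : V, w ≠ 0 ∧ f w = μ • w := by
  intro s
  induction s with
  | nil =>
    intro z hz h
    simp only [List.map_nil, List.prod_nil, Module.End.one_apply] at h
    exact absurd h hz
  | cons μ s ih =>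
    intro z hz h
    rw [List.map_cons, List.prod_cons, Module.End.mul_apply] at h
    by_cases h0 : ((s.map fun μ => f - algebraMap K (Module.End K V) μ).prod) z = 0
    · obtain ⟨ν, hν, w, hw⟩ := ih z hz h0
      exact ⟨ν, List.mem_cons_of_mem _ hν, w, hw⟩
    · refine ⟨μ, List.mem_cons_self, _, h0, ?_⟩
      rw [LinearMap.sub_apply, sub_eq_zero, Module.algebraMap_end_apply] at h
      exact h

/-- An element of prime order `r` (as an operator) has an eigenvector with eigenvalue `≠ 1`. -/
theorem exists_eigen_of_pow {K V : Type*} [Field K] [IsAlgClosed K] [AddCommGroup V] [Module K V]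
    (f : Module.End K V) {r : ℕ} (hr : r ≠ 0) (hrK : (r : K) ≠ 0) (hf : f ^ r = 1) (hne : f ≠ 1) :
    ∃ ζ : K, ζ ^ r = 1 ∧ ζ ≠ 1 ∧ ∃ w : V, w ≠ 0 ∧ f w = ζ • w := by
  classical
  haveI : NeZero (r : K) := ⟨hrK⟩
  obtain ⟨ζ₀, hζ₀⟩ := HasEnoughRootsOfUnity.exists_primitiveRoot K r
  have h1 : (X ^ r - 1 : K[X]) = ∏ ζ ∈ nthRootsFinset r (1 : K), (X - C ζ) :=
    X_pow_sub_one_eq_prod (Nat.pos_of_ne_zero hr) hζ₀
  set S := nthRootsFinset r (1 : K) with hS
  have h1S : (1 : K) ∈ S := (mem_nthRootsFinset (Nat.pos_of_ne_zero hr) _).mpr (one_pow r)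
  rw [← Finset.mul_prod_erase S _ h1S, ← Finset.prod_map_toList (S.erase 1), mul_comm] at h1
  have h2 := congrArg (aeval f) h1
  rw [map_sub, map_pow, aeval_X, map_one, hf, sub_self, map_mul, map_list_prod, List.map_map,
    map_sub, aeval_X, aeval_C, map_one] at h2
  obtain ⟨x, hx⟩ : ∃ x, f x ≠ x := by
    by_contra hcon
    push Not at hcon
    exact hne (LinearMap.ext hcon)
  have h3 := LinearMap.congr_fun h2 x
  rw [LinearMap.zero_apply, Module.End.mul_apply] at h3
  have h4 : ((S.erase 1).toList.map ((aeval f) ∘ fun ζ => (X - C ζ : K[X]))) =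
      (S.erase 1).toList.map fun μ => f - algebraMap K (Module.End K V) μ := by
    refine List.map_congr_left fun μ _ => ?_
    simp
  rw [h4] at h3
  obtain ⟨ζ, hζ, w, hw0, hw⟩ := exists_eigen f (S.erase 1).toList _ (by
    rw [LinearMap.sub_apply, Module.End.one_apply]
    exact sub_ne_zero.mpr hx) h3.symm
  rw [Finset.mem_toList, Finset.mem_erase] at hζ
  exact ⟨ζ, (mem_nthRootsFinset (Nat.pos_of_ne_zero hr) _).mp hζ.2, hζ.1, w, hw0, hw⟩

/-- **Inertia elements of prime order different from the residue characteristic are trivial.** -/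
theorem eq_one_of_inertia {G : Type*} [Group G] [MulSemiringAction G E]
    [FaithfulSMul G E] [IsAlgClosed K] (hπ : Function.Surjective π)
    (hsm : ∀ (g : G) (c : K), g • algebraMap K E c = algebraMap K E c)
    {g : G} (hg : ∀ y u, R.Red y u → R.Red (g • y) u) {r : ℕ} (hr : r ≠ 0)
    (hrκ : (r : κ) ≠ 0) (hpow : g ^ r = 1) : g = 1 := by
  have hrK : (r : K) ≠ 0 := by
    intro h0
    apply hrκ
    have h1 : (r : A) = 0 := Subtype.ext (by push_cast; exact h0)
    rw [← map_natCast π r, h1, map_zero]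
  by_contra hne
  let f : Module.End K E :=
    { toFun := fun y => g • y
      map_add' := fun y z => smul_add g y z
      map_smul' := fun c y => by
        rw [Algebra.smul_def, smul_mul', hsm, RingHom.id_apply, Algebra.smul_def] }
  have hfa : ∀ y, f y = g • y := fun _ => rfl
  have hfp : ∀ m y, (f ^ m) y = g ^ m • y := by
    intro m
    induction m with
    | zero => intro y; simp
    | succ m ih => intro y; rw [pow_succ', Module.End.mul_apply, ih, hfa, pow_succ', mul_smul]
  obtain ⟨ζ, hζ, hζ1, w, hw0, hw⟩ := exists_eigen_of_pow f hr hrK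
    (LinearMap.ext fun y => by rw [hfp, hpow, one_smul]; rfl) (by
      intro h1
      apply hne
      refine eq_of_smul_eq_smul (α := E) fun y => ?_
      rw [one_smul, ← hfa, h1]
      rfl)
  obtain ⟨c, hc, v, hv0, hv⟩ := R.normalize w hw0
  have hζA : ζ ∈ A := by
    rw [← A.valuation_le_one_iff]
    have h1 : A.valuation ζ ^ r = 1 := by rw [← map_pow, hζ, map_one]
    exact (pow_le_one_iff hr).mp h1.le
  have h1 : g • (algebraMap K E c * w) = algebraMap K E ((⟨ζ, hζA⟩ : A) : K) *
      (algebraMap K E c * w) := by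
    rw [smul_mul', hsm, ← hfa, hw, Algebra.smul_def]
    show _ = algebraMap K E ζ * _
    ring
  have h2 := R.mul (R.const ⟨ζ, hζA⟩) hv
  rw [← h1] at h2
  have h3 := R.unique h2 (hg _ _ hv)
  have h4 : algebraMap κ Ω (π ⟨ζ, hζA⟩) = 1 := by
    have h5 : algebraMap κ Ω (π ⟨ζ, hζA⟩) * v = 1 * v := by rw [one_mul]; exact h3
    exact mul_right_cancel₀ hv0 h5
  have h5 : π ⟨ζ, hζA⟩ = 1 := by
    apply (algebraMap κ Ω).injective
    rw [h4, map_one]
  have h6 : ∑ i ∈ Finset.range r, ζ ^ i = 0 := by
    have h7 : (∑ i ∈ Finset.range r, ζ ^ i) * (ζ - 1) = ζ ^ r - 1 := geom_sum_mul ζ r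
    rw [hζ, sub_self] at h7
    exact (mul_eq_zero.mp h7).resolve_right (sub_ne_zero.mpr hζ1)
  have h7 : ∑ i ∈ Finset.range r, (⟨ζ, hζA⟩ : A) ^ i = 0 := by
    apply Subtype.ext
    push_cast
    exact h6
  have h8 := congrArg π h7
  rw [map_sum, map_zero] at h8
  simp only [map_pow, h5, one_pow, Finset.sum_const, Finset.card_range, nsmul_eq_mul,
    mul_one] at h8
  exact hrκ h8

/-! ### Residue fields of subfields -/

/-- The residue field of a subfield. -/
def resF (R : RedDatum K E κ Ω A π) (hπ : Function.Surjective π) (F : IntermediateField K E) :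
    IntermediateField κ Ω where
  carrier := {u | ∃ f ∈ F, R.Red f u}
  mul_mem' := by
    rintro u u' ⟨f, hf, h⟩ ⟨f', hf', h'⟩
    exact ⟨f * f', mul_mem hf hf', R.mul h h'⟩
  one_mem' := ⟨1, one_mem _, R.one⟩
  add_mem' := by
    rintro u u' ⟨f, hf, h⟩ ⟨f', hf', h'⟩
    exact ⟨f + f', add_mem hf hf', R.add h h'⟩
  zero_mem' := ⟨0, zero_mem _, R.zero⟩
  algebraMap_mem' := by
    intro c
    obtain ⟨a, rfl⟩ := hπ c
    exact ⟨_, F.algebraMap_mem _, R.const a⟩
  inv_mem' := by
    rintro u ⟨f, hf, h⟩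
    by_cases hu : u = 0
    · exact ⟨0, zero_mem _, by rw [hu, inv_zero]; exact R.zero⟩
    · exact ⟨f⁻¹, inv_mem hf, RedDatum.inv hπ h hu⟩

theorem mem_resF {hπ : Function.Surjective π} {F : IntermediateField K E} {u : Ω} :
    u ∈ resF R hπ F ↔ ∃ f ∈ F, R.Red f u := Iff.rfl

theorem resF_mono {hπ : Function.Surjective π} {F₁ F₂ : IntermediateField K E} (h : F₁ ≤ F₂) :
    resF R hπ F₁ ≤ resF R hπ F₂ := by
  rintro u ⟨f, hf, hu⟩
  exact ⟨f, h hf, hu⟩

/-- **Fundamental inequality** for a pair of subfields. -/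
theorem finrank_resF_le (hπ : Function.Surjective π) {F₁ F₂ : IntermediateField K E} (h : F₁ ≤ F₂)
    [FiniteDimensional F₁ (extendScalars h)] :
    FiniteDimensional (resF R hπ F₁) (extendScalars (resF_mono (R := R) (hπ := hπ) h)) ∧
      Module.finrank (resF R hπ F₁) (extendScalars (resF_mono (R := R) (hπ := hπ) h)) ≤
        Module.finrank F₁ (extendScalars h) := by
  have key : ∀ (n : ℕ) (eb : Fin n → extendScalars (resF_mono (R := R) (hπ := hπ) h)),
      LinearIndependent (resF R hπ F₁) eb → n ≤ Module.finrank F₁ (extendScalars h) := by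
    intro n eb hli
    have h1 : ∀ i, ∃ f ∈ F₂, R.Red f (eb i : Ω) := fun i => (eb i).2
    choose e heF he using h1
    have hli' : LinearIndependent (resF R hπ F₁) (fun i => (eb i : Ω)) :=
      hli.map' (extendScalars (resF_mono (R := R) (hπ := hπ) h)).val.toLinearMap
        (LinearMap.ker_eq_bot.mpr Subtype.val_injective)
    have h2 : LinearIndependent F₁ e :=
      linearIndependent_of_red F₁ (resF R hπ F₁) (fun x hx u hu => ⟨x, hx, hu⟩) he hli'
    have h3 : LinearIndependent F₁ (fun i => (⟨e i, heF i⟩ : extendScalars h)) := by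
      refine LinearIndependent.of_comp (extendScalars h).val.toLinearMap ?_
      exact h2
    simpa using h3.fintype_card_le_finrank
  have hfin : FiniteDimensional (resF R hπ F₁) (extendScalars (resF_mono (R := R) (hπ := hπ) h)) := by
    by_contra hinf
    have hinf' : Module.rank (resF R hπ F₁) (extendScalars (resF_mono (R := R) (hπ := hπ) h)) ≥
        Cardinal.aleph0 := by
      rw [ge_iff_le, ← not_lt]
      intro h
      exact hinf (Module.rank_lt_aleph0_iff.mp h)
    obtain ⟨s, hs, hli⟩ := exists_finset_linearIndependent_of_le_rank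
      (n := Module.finrank F₁ (extendScalars h) + 1)
      ((Cardinal.natCast_lt_aleph0.le).trans hinf')
    have h2 := hli.comp (s.equivFin.symm) (s.equivFin.symm.injective)
    have h3 := key _ _ h2
    omega
  refine ⟨hfin, ?_⟩
  exact key _ _ (Module.finBasis _ _).linearIndependent

/-! ### The action on the residue field -/

section Action

variable {G : Type*} [Group G] [MulSemiringAction G E]

theorem red_zero_iff {hπ : Function.Surjective π} {y : E} :
    R.Red y 0 ↔ y ∈ (ring R hπ).nonunits := by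
  rw [ValuationSubring.mem_nonunits_iff_or]
  constructor
  · intro h
    by_cases hy : y = 0
    · exact Or.inl hy
    · refine Or.inr ?_
      rintro ⟨w, hw⟩
      have h1 := R.mul h hw
      rw [mul_inv_cancel₀ hy, zero_mul] at h1
      exact zero_ne_one (R.unique h1 R.one)
  · rintro (rfl | h)
    · exact R.zero
    · rcases R.red_or_inv hπ y with ⟨u, hu⟩ | h'
      · by_cases hu0 : u = 0
        · rwa [hu0] at hu
        · exact absurd ⟨_, RedDatum.inv hπ hu hu0⟩ h
      · exact absurd ⟨_, h'⟩ h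

theorem smul_mem_ring {hπ : Function.Surjective π} {g : G} (hg : g • ring R hπ = ring R hπ)
    {y : E} (hy : y ∈ ring R hπ) : g • y ∈ ring R hπ := by
  rw [← hg]
  exact ValuationSubring.smul_mem_pointwise_smul g y _ hy

theorem red_zero_smul {hπ : Function.Surjective π} {g : G} (hg : g • ring R hπ = ring R hπ)
    {y : E} (hy : R.Red y 0) : R.Red (g • y) 0 := by
  rw [red_zero_iff (hπ := hπ), ValuationSubring.mem_nonunits_iff_or] at hy ⊢
  rcases hy with rfl | hy
  · exact Or.inl (smul_zero g)
  · refine Or.inr fun h => hy ?_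
    have hg' : g⁻¹ • ring R hπ = ring R hπ := by
      conv_lhs => rw [← hg]
      rw [inv_smul_smul]
    have h1 := smul_mem_ring hg' h
    rwa [← smul_inv'', smul_smul, inv_mul_cancel, one_smul] at h1

theorem exists_res {hπ : Function.Surjective π} {g : G} (hg : g • ring R hπ = ring R hπ)
    {u : Ω} (hu : ∃ y, R.Red y u) : ∃ v, ∀ y, R.Red y u → R.Red (g • y) v := by
  obtain ⟨y₀, hy₀⟩ := hu
  obtain ⟨v, hv⟩ := smul_mem_ring hg (y := y₀) ⟨u, hy₀⟩
  refine ⟨v, fun y hy => ?_⟩
  have h1 : R.Red (y - y₀) 0 := by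
    have := RedDatum.sub hy hy₀
    rwa [sub_self] at this
  have h2 := R.add (red_zero_smul hg h1) hv
  rwa [smul_sub, sub_add_cancel, zero_add] at h2

/-- The map on residues induced by `g`. -/
def resHom {hπ : Function.Surjective π} (g : G) (hg : g • ring R hπ = ring R hπ) :
    resF R hπ ⊤ →+* Ω :=
  have hex : ∀ u : resF R hπ ⊤, ∃ y, R.Red y (u : Ω) := fun u => u.2.imp fun _ h => h.2
  have hspec : ∀ (u : resF R hπ ⊤) (y : E), R.Red y (u : Ω) →
      R.Red (g • y) (Classical.choose (exists_res hg (hex u))) := fun u =>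
    Classical.choose_spec (exists_res hg (hex u))
  { toFun := fun u => Classical.choose (exists_res hg (hex u))
    map_one' := by
      have h1 := hspec 1 1 R.one
      rw [smul_one] at h1
      exact R.unique h1 R.one
    map_zero' := by
      have h1 := hspec 0 0 R.zero
      rw [smul_zero] at h1
      exact R.unique h1 R.zero
    map_add' := fun u u' => by
      obtain ⟨y, hy⟩ := hex u
      obtain ⟨y', hy'⟩ := hex u'
      have h1 := hspec (u + u') (y + y') (R.add hy hy')
      rw [smul_add] at h1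
      exact R.unique h1 (R.add (hspec u y hy) (hspec u' y' hy'))
    map_mul' := fun u u' => by
      obtain ⟨y, hy⟩ := hex u
      obtain ⟨y', hy'⟩ := hex u'
      have h1 := hspec (u * u') (y * y') (R.mul hy hy')
      rw [smul_mul'] at h1
      exact R.unique h1 (R.mul (hspec u y hy) (hspec u' y' hy')) }

theorem red_resHom {hπ : Function.Surjective π} (g : G) (hg : g • ring R hπ = ring R hπ)
    (u : resF R hπ ⊤) {y : E} (hy : R.Red y (u : Ω)) :
    R.Red (g • y) (resHom g hg u) :=
  Classical.choose_spec (exists_res hg (u.2.imp fun _ h => h.2)) y hy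

theorem resF_adjoin (hπ : Function.Surjective π) {j : E} {jb : Ω} (hj : R.Red j jb)
    (htr : Transcendental κ jb) : resF R hπ K⟮j⟯ = κ⟮jb⟯ := by
  apply le_antisymm
  · rintro u ⟨c, hc, hu⟩
    exact mem_adjoin_of_red hπ hj htr hc hu
  · rw [adjoin_simple_le_iff]
    exact ⟨j, mem_adjoin_simple_self K j, hj⟩

/-- **The degree of the residue field of `E` is at least the order of `G`** if inertia is
trivial. -/
theorem card_le_relfinrank [Finite G] {hπ : Function.Surjective π}
    {F₁ : IntermediateField K E} (hfix : ∀ y ∈ F₁, ∀ g : G, g • y = y)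
    (hD : ∀ g : G, g • ring R hπ = ring R hπ)
    (hI : ∀ g : G, (∀ y u, R.Red y u → R.Red (g • y) u) → g = 1)
    (hfin : FiniteDimensional (resF R hπ F₁)
      (extendScalars (resF_mono (R := R) (hπ := hπ) (le_top : F₁ ≤ ⊤)))) :
    Nat.card G ≤ Module.finrank (resF R hπ F₁)
      (extendScalars (resF_mono (R := R) (hπ := hπ) (le_top : F₁ ≤ ⊤))) := by
  let φ : G → (extendScalars (resF_mono (R := R) (hπ := hπ) (le_top : F₁ ≤ ⊤)) →ₐ[resF R hπ F₁] Ω) :=
    fun g =>
      { (resHom g (hD g) : resF R hπ ⊤ →+* Ω) with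
        commutes' := fun c => by
          obtain ⟨y, hy, hyc⟩ := c.2
          have h1 := red_resHom g (hD g) ⟨(c : Ω), ⟨y, mem_top, hyc⟩⟩ hyc
          rw [hfix y hy g] at h1
          exact R.unique h1 hyc }
  have hφ : ∀ g (u : resF R hπ ⊤), φ g u = resHom g (hD g) u := fun _ _ => rfl
  have hinj : Function.Injective φ := by
    intro g g' hgg
    have h1 : g'⁻¹ * g = 1 := by
      refine hI _ fun y u hu => ?_
      have h2 := red_resHom g (hD g) ⟨u, ⟨y, mem_top, hu⟩⟩ hu
      have h3 := red_resHom g' (hD g') ⟨u, ⟨y, mem_top, hu⟩⟩ hu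
      have h4 : resHom g (hD g) ⟨u, ⟨y, mem_top, hu⟩⟩ = resHom g' (hD g') ⟨u, ⟨y, mem_top, hu⟩⟩ := by
        rw [← hφ, ← hφ, hgg]
      rw [h4] at h2
      have h5 := RedDatum.sub h2 h3
      rw [sub_self] at h5
      have h6 := red_zero_smul (hD g'⁻¹) h5
      rw [smul_sub, smul_smul, inv_smul_smul] at h6
      have h7 := R.add h6 hu
      rwa [sub_add_cancel, zero_add] at h7
    exact (inv_mul_eq_one.mp h1).symm
  have h1 := card_algHom_le_finrank (resF R hπ F₁)
    (extendScalars (resF_mono (R := R) (hπ := hπ) (le_top : F₁ ≤ ⊤))) Ω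
  refine le_trans ?_ h1
  exact Nat.card_le_card_of_injective φ hinj

/-- **Degree theorem, abstract form.** -/
theorem relfinrank_le [Finite G] [FaithfulSMul G E] {hπ : Function.Surjective π}
    {F₁ F : IntermediateField K E} (h1 : F₁ ≤ F) (hfix : ∀ y ∈ F₁, ∀ g : G, g • y = y)
    (hfix' : ∀ y : E, (∀ g : G, g • y = y) → y ∈ F₁)
    (hD : ∀ g : G, g • ring R hπ = ring R hπ)
    (hI : ∀ g : G, (∀ y u, R.Red y u → R.Red (g • y) u) → g = 1) :
    0 < relfinrank (resF R hπ F₁) (resF R hπ F) ∧
    relfinrank F₁ F ≤ relfinrank (resF R hπ F₁) (resF R hπ F) := by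
  -- `[E : F₁] = |G|`
  have hsub : F₁.toSubfield = FixedPoints.subfield G E := by
    ext y
    exact ⟨fun hy g => hfix y hy g, fun hy => hfix' y hy⟩
  have := Fintype.ofFinite G
  have hE : Module.finrank F₁ E ≤ Nat.card G ∧ FiniteDimensional F₁ E := by
    have h2 : Module.finrank (FixedPoints.subfield G E) E ≤ Fintype.card G :=
      FixedPoints.finrank_le_card G E
    have h3 : FiniteDimensional (FixedPoints.subfield G E) E := inferInstance
    rw [← hsub] at h2 h3
    rw [Nat.card_eq_fintype_card]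
    exact ⟨h2, h3⟩
  obtain ⟨hE1, hE2⟩ := hE
  haveI := hE2
  haveI hFE : FiniteDimensional F E := by
    letI : Algebra F₁ F := (IntermediateField.inclusion h1).toRingHom.toAlgebra
    haveI : IsScalarTower F₁ F E := IsScalarTower.of_algebraMap_eq (fun _ => rfl)
    exact Module.Finite.of_restrictScalars_finite F₁ F E
  have a1 := finrank_resF_le (R := R) hπ (le_top : F₁ ≤ ⊤)
  have a2 := finrank_resF_le (R := R) hπ (le_top : F ≤ ⊤)
  have a3 := card_le_relfinrank (R := R) (hπ := hπ) hfix hD hI a1.1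
  rw [← relfinrank_eq_finrank_of_le] at a3
  have a4 := a2.2
  rw [← relfinrank_eq_finrank_of_le, ← relfinrank_eq_finrank_of_le, relfinrank_top_right] at a4
  have a5 := relfinrank_mul_relfinrank (resF_mono (R := R) (hπ := hπ) h1)
    (resF_mono (R := R) (hπ := hπ) (le_top : F ≤ ⊤))
  have a6 := relfinrank_mul_finrank_top h1
  have a7 : 0 < Module.finrank F E := Module.finrank_pos
  have a8 : 0 < Nat.card G := Nat.card_pos
  set r₁ := relfinrank (resF R hπ F₁) (resF R hπ F)
  set r₂ := relfinrank (resF R hπ F) (resF R hπ ⊤)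
  have a9 : Nat.card G ≤ r₁ * r₂ := by rw [a5]; exact a3
  refine ⟨Nat.pos_of_ne_zero fun h0 => ?_, ?_⟩
  · rw [h0, zero_mul] at a9
    omega
  · have b1 : relfinrank F₁ F * Module.finrank F E ≤ r₁ * Module.finrank F E :=
      calc relfinrank F₁ F * Module.finrank F E = Module.finrank F₁ E := a6
        _ ≤ Nat.card G := hE1
        _ ≤ r₁ * r₂ := a9
        _ ≤ r₁ * Module.finrank F E := Nat.mul_le_mul_left _ a4
    exact Nat.le_of_mul_le_mul_right b1 a7

end Action

end Fermat.Agent.DS.X1
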