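import Mathlib
import Fermat.Agent.DS.X1.GMer
import Fermat.Agent.DS.X1.GalRes

/-!
# The Gauss reduction datum on modular functions of level `M`, and the fixed field
-/

set_option autoImplicit false
set_option linter.unusedSectionVars false

noncomputable section

open UpperHalfPlane ModularForm MatrixGroups CongruenceSubgroup Matrix.SpecialLinearGroup
open IntermediateField
open scoped Manifold
open Fermat.Agent.IntStr FermatJ Fermat.Agent.JAN.MerField Fermat.Agent.JAN.AnFun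
open Fermat.Agent.MFF Fermat.Agent.JRED ModularCurve

namespace Fermat.Agent.DS.X1

variable {Γ Γ' : Subgroup SL(2, ℤ)} {k l : ℤ} {f g : ℍ → ℂ}

/-! ### General lemmas -/

theorem mem_adjoin_of_coe {K L : Type*} [Field K] [Field L] [Algebra K L]
    {F : IntermediateField K L} {x y : F} (h : (y : L) ∈ K⟮(x : L)⟯) : y ∈ K⟮x⟯ := by
  have h1 : (K⟮x⟯).map F.val = K⟮(x : L)⟯ := by
    rw [IntermediateField.adjoin_map]
    congr 1
    simp
  rw [← h1] at h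
  obtain ⟨z, hz, hzy⟩ := h
  have : z = y := Subtype.ext hzy
  rwa [← this]

/-! ### Expansions -/

variable {M : ℕ} [NeZero M]

theorem merOf_hasQ {f : ℍ → ℂ} (hf : MDiff f) {φ : LaurentSeries ℂ} (h : HasExp (qc M) f φ) :
    HasQ M (merOf f hf) φ := HasQ.of_hol (f := ⟨f, hf⟩) h

theorem merOf_hasQ_one {f : ℍ → ℂ} (hf : MDiff f) {φ : LaurentSeries ℂ} (h : HasExp (qc 1) f φ) :
    HasQ 1 (merOf f hf) φ := HasQ.of_hol (f := ⟨f, hf⟩) h

theorem exists_hasQ {x : Mer} (hx : x ∈ MFun (Gamma M)) :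
    ∃ φ ∈ fgField ℂ, HasQ M x φ := by
  obtain ⟨k, f, g, hf, hg, hg0, h⟩ := hx
  obtain ⟨φ, h1, h2⟩ := hf.exists_exp
  obtain ⟨ψ, h3, h4⟩ := hg.exists_exp
  have h5 : x = merOf f hf.mdiff / merOf g hg.mdiff := by
    rw [← h, mul_div_cancel_right₀ _ (merOf_ne_zero hg.mdiff hg0)]
  refine ⟨φ / ψ, div_mem h2.mem_fgField h4.mem_fgField, ?_⟩
  rw [h5]
  exact (merOf_hasQ hf.mdiff h1).div (merOf_hasQ hg.mdiff h3)

/-- A function with an expansion in `q` has an expansion in `q^{1/M}`. -/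
theorem hasQ_level {x : Mer} {φ : LaurentSeries ℂ} (hx : HasQ 1 x φ) :
    HasQ M x (qExpand ℂ M φ) := by
  obtain ⟨a, b, α, β, hb, ha, hb', h1, h2⟩ := hx
  have hσ : ∀ τ : ℍ, qc 1 τ = qc M τ ^ M := by
    intro τ
    have h3 := qc_upper M M 0 τ
    have h4 : ((upper M M 0 : GL(2, ℝ)⁺) : GL (Fin 2) ℝ) • τ = τ := by
      apply UpperHalfPlane.ext
      rw [coe_upper_smul]
      have hM0 : (M : ℂ) ≠ 0 := by exact_mod_cast NeZero.ne M
      push_cast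
      field_simp
      simp
    rw [h4] at h3
    rw [h3]
    simp [zetaU]
  refine ⟨a, b, qExpand ℂ M α, qExpand ℂ M β, hb, ?_, ?_, h1, ?_⟩
  · exact HasExp.expand (σ := id) M hσ ha
  · exact HasExp.expand (σ := id) M hσ hb'
  · rw [← map_mul, h2]

section Datum

variable {κ : Type*} [Field κ] {A : ValuationSubring ℂ} (π : A →+* κ)

variable (M) in
/-- **The Gauss reduction datum** on modular functions of level `M`, through expansions in
`q^{1/M}`. -/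
def gDatum : RedDatum ℂ (MFun (Gamma M)) κ (LaurentSeries κ) A π where
  Red x u := ∃ φ, HasQ M (x : Mer) φ ∧ GRed π φ u
  add := by
    rintro x y u v ⟨φ, h1, h2⟩ ⟨ψ, h3, h4⟩
    exact ⟨φ + ψ, h1.add h3, h2.add h4⟩
  mul := by
    rintro x y u v ⟨φ, h1, h2⟩ ⟨ψ, h3, h4⟩
    exact ⟨φ * ψ, h1.mul h3, h2.mul h4⟩
  const a := ⟨_, HasQ.algebraMap_hasQ (a : ℂ), GRed.const a⟩
  unique := by
    rintro x u v ⟨φ, h1, h2⟩ ⟨ψ, h3, h4⟩
    have := h1.unique h3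
    subst this
    exact h2.unique h4
  normalize x hx := by
    obtain ⟨φ, h1, h2⟩ := exists_hasQ x.2
    have hφ0 : φ ≠ 0 := by
      rintro rfl
      have h3 : (x : Mer) = 0 := h2.unique' HasQ.zero
      exact hx (Subtype.ext h3)
    obtain ⟨c, hc, u, hu, h3⟩ := exists_normalize_of_mem_fgField π h1 hφ0
    exact ⟨c, hc, u, hu, _, (HasQ.algebraMap_hasQ c).mul h2, h3⟩

theorem gDatum_red {x : MFun (Gamma M)} {u : LaurentSeries κ} :
    (gDatum M π).Red x u ↔ ∃ φ, HasQ M (x : Mer) φ ∧ GRed π φ u := Iff.rfl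

end Datum

/-! ### `j` and the fixed field -/

theorem jqC_eq : jqC = jqModC ℂ := by
  have h1 := emb_qExpand_jqModC (K := ℚ) (Ω := ℂ) 1
  rw [qExpand_one_apply, qExpand_one_apply] at h1
  exact h1

theorem jMer_mem (Γ : Subgroup SL(2, ℤ)) : jMer ∈ MFun Γ := by
  refine MFun_mono (le_top : Γ ≤ ⊤) ?_
  have h1 : GF (⊤ : Subgroup SL(2, ℤ)) 12 (⇑E4cube : ℍ → ℂ) := GF.of_isL1 ⟨E4cube, rfl⟩
  have h2 : GF (⊤ : Subgroup SL(2, ℤ)) 12 (⇑Delta : ℍ → ℂ) := GF.of_isL1 ⟨Delta, rfl⟩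
  refine ⟨12, _, _, h1, h2, ?_, ?_⟩
  · intro h3
    exact Delta_ne_zero UpperHalfPlane.I (congrFun h3 _)
  · rw [jMer, merOf, merOf, ← map_mul]
    congr 1
    apply Subtype.ext
    funext τ
    show jf τ * Delta τ = E4cube τ
    rw [coe_E4cube]
    exact jf_mul_discriminant τ

/-- `j` as a modular function on `Γ` -/
def jM (Γ : Subgroup SL(2, ℤ)) : MFun Γ := ⟨jMer, jMer_mem Γ⟩

/-- Expansions in `ℂ(j)` come from functions in `ℂ(j)`. -/
theorem exists_of_mem_adjoin_j {φ : LaurentSeries ℂ} (hφ : φ ∈ ℂ⟮jqModC ℂ⟯) :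
    ∃ x ∈ ℂ⟮jMer⟯, HasQ 1 x φ := by
  let S : IntermediateField ℂ (LaurentSeries ℂ) :=
    { carrier := {φ | ∃ x ∈ ℂ⟮jMer⟯, HasQ 1 x φ}
      mul_mem' := by
        rintro _ _ ⟨x, hx, h1⟩ ⟨y, hy, h2⟩
        exact ⟨x * y, mul_mem hx hy, h1.mul h2⟩
      one_mem' := ⟨1, one_mem _, HasQ.one⟩
      add_mem' := by
        rintro _ _ ⟨x, hx, h1⟩ ⟨y, hy, h2⟩
        exact ⟨x + y, add_mem hx hy, h1.add h2⟩
      zero_mem' := ⟨0, zero_mem _, HasQ.zero⟩
      algebraMap_mem' := fun c => ⟨_, IntermediateField.algebraMap_mem _ c, HasQ.algebraMap_hasQ c⟩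
      inv_mem' := by
        rintro _ ⟨x, hx, h1⟩
        exact ⟨x⁻¹, inv_mem hx, h1.inv⟩ }
  have h1 : ℂ⟮jqModC ℂ⟯ ≤ S := by
    rw [adjoin_simple_le_iff]
    exact ⟨jMer, mem_adjoin_simple_self _ _, jqC_eq ▸ hasQ_jMer⟩
  exact h1 hφ

theorem mem_adjoin_j_of_fixed [Γ.Normal] [Γ.FiniteIndex] {x : MFun Γ}
    (hfix : ∀ γ : SL(2, ℤ), γ • x = x) : x ∈ ℂ⟮jM Γ⟯ := by
  apply mem_adjoin_of_coe
  show (x : Mer) ∈ ℂ⟮jMer⟯
  obtain ⟨w, a, b, ha, hb, hb0, h⟩ := exists_ratio_of_fixed x.2 (fun γ => by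
    have := congrArg Subtype.val (hfix γ⁻¹)
    rw [coe_smul_MFun, inv_inv] at this
    exact this)
  have ha' := ha.isL1
  have hb' := hb.isL1
  have h1 := FunField.isL1_ratio_mem ha' hb' hb0
  obtain ⟨y, hy, h2⟩ := exists_of_mem_adjoin_j h1
  have hexp : ∀ {f : ℍ → ℂ}, IsL1 w f → HasExp (qc 1) f (LQ f) := fun hf =>
    hasExp_LQ (N := 1) (hf.isMN 1)
  have h3 : HasQ 1 (x : Mer) (LQ a / LQ b) := by
    have h4 : (x : Mer) = merOf a ha.mdiff / merOf b hb.mdiff := by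
      rw [← h, mul_div_cancel_right₀ _ (merOf_ne_zero hb.mdiff hb0)]
    rw [h4]
    exact (merOf_hasQ_one ha.mdiff (hexp ha')).div (merOf_hasQ_one hb.mdiff (hexp hb'))
  rw [h3.unique' h2]
  exact hy

theorem smul_jM [Γ.Normal] (γ : SL(2, ℤ)) : γ • jM Γ = jM Γ :=
  Subtype.ext (sact_jMer _)

end Fermat.Agent.DS.X1
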