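import Mathlib

/-!
# Minimal polynomials over simple extensions and embeddings of fields
-/

set_option autoImplicit false

noncomputable section

open IntermediateField Polynomial

namespace Fermat.Agent.DS.X1

variable {K L L' : Type*} [Field K] [Field L] [Field L'] [Algebra K L] [Algebra K L']

/-- The isomorphism `K(j) ≃ K(φ(j))` induced by an embedding. -/
def simpleEquiv (φ : L →ₐ[K] L') (j : L) (j' : L') (hj : φ j = j') : K⟮j⟯ ≃+* K⟮j'⟯ :=
  RingEquiv.ofBijective
    ((φ.toRingHom.comp (algebraMap K⟮j⟯ L)).codRestrict (K⟮j'⟯.toSubfield) (by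
      intro x
      have h1 : (K⟮j⟯).map φ = K⟮j'⟯ := by
        rw [IntermediateField.adjoin_map, Set.image_singleton, hj]
      show φ x ∈ K⟮j'⟯
      rw [← h1]
      exact ⟨x, x.2, rfl⟩))
    ⟨fun x y h => Subtype.ext (φ.toRingHom.injective (congrArg Subtype.val h)), fun y => by
      have h1 : (K⟮j⟯).map φ = K⟮j'⟯ := by
        rw [IntermediateField.adjoin_map, Set.image_singleton, hj]
      obtain ⟨x, hx, hxy⟩ : (y : L') ∈ (K⟮j⟯).map φ := by rw [h1]; exact y.2
      exact ⟨⟨x, hx⟩, Subtype.ext hxy⟩⟩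

theorem coe_simpleEquiv (φ : L →ₐ[K] L') (j : L) (j' : L') (hj : φ j = j') (x : K⟮j⟯) :
    ((simpleEquiv φ j j' hj x : K⟮j'⟯) : L') = φ x := rfl

/-- The minimal polynomial is transported by embeddings. -/
theorem minpoly_map (φ : L →ₐ[K] L') (j x : L) (j' x' : L') (hj : φ j = j') (hx' : φ x = x')
    (hx : IsIntegral K⟮j⟯ x) :
    minpoly K⟮j'⟯ x' = (minpoly K⟮j⟯ x).map (simpleEquiv φ j j' hj).toRingHom := by
  symm
  refine minpoly.eq_of_irreducible_of_monic ?_ ?_ ((minpoly.monic hx).map _)
  · have h1 := minpoly.irreducible hx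
    have h2 := (MulEquiv.irreducible_iff (Polynomial.mapEquiv (simpleEquiv φ j j' hj))
      (x := minpoly K⟮j⟯ x)).mpr h1
    exact h2
  · have h1 : ∀ p : K⟮j⟯[X], aeval x' (p.map (simpleEquiv φ j j' hj).toRingHom) =
        φ (aeval x p) := by
      intro p
      induction p using Polynomial.induction_on with
      | C a =>
        rw [Polynomial.map_C, aeval_C, aeval_C]
        exact coe_simpleEquiv φ j j' hj a
      | add p q hp hq => rw [Polynomial.map_add, map_add, map_add, map_add, hp, hq]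
      | monomial n a h =>
        rw [Polynomial.map_mul, map_mul, map_mul, map_mul, Polynomial.map_pow, Polynomial.map_X,
          map_pow, map_pow, map_pow, aeval_X, aeval_X, Polynomial.map_C, aeval_C, aeval_C, hx']
        rfl
    rw [h1, minpoly.aeval, map_zero]

theorem natDegree_minpoly_map (φ : L →ₐ[K] L') (j x : L) (j' x' : L') (hj : φ j = j')
    (hx' : φ x = x') (hx : IsIntegral K⟮j⟯ x) :
    (minpoly K⟮j'⟯ x').natDegree = (minpoly K⟮j⟯ x).natDegree := by
  rw [minpoly_map φ j x j' x' hj hx' hx, Polynomial.natDegree_map]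

theorem separable_minpoly_map (φ : L →ₐ[K] L') (j x : L) (j' x' : L') (hj : φ j = j')
    (hx' : φ x = x') (hx : IsIntegral K⟮j⟯ x) (hs : (minpoly K⟮j⟯ x).Separable) :
    (minpoly K⟮j'⟯ x').Separable := by
  rw [minpoly_map φ j x j' x' hj hx' hx]
  exact hs.map

end Fermat.Agent.DS.X1
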