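import Mathlib
import Fermat.Agent.DS.X1.GDatum
import Fermat.Agent.DS.X1.GalDec
import Fermat.Agent.DS.X1.MinMap
import Fermat.Agent.JRED.Degree
import Fermat.Agent.JRED.ModularRedExists

/-!
# The function field of `X₀(M)` inside modular functions of level `M`, and a good element
-/

set_option autoImplicit false
set_option linter.unusedSectionVars false

noncomputable section

open UpperHalfPlane ModularForm MatrixGroups CongruenceSubgroup Matrix.SpecialLinearGroup
open IntermediateField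
open scoped Manifold
open Fermat.Agent.IntStr FermatJ Fermat.Agent.JAN.MerField Fermat.Agent.JAN.AnFun
open Fermat.Agent.MFF Fermat.Agent.JRED ModularCurve

namespace Fermat.Agent.DS.X1

variable {M : ℕ} [NeZero M]

instance normal_Gamma (M : ℕ) : (Gamma M).Normal := Gamma_normal M

/-! ### The embedding of the function field of `X₀(M)` -/

theorem Gamma_le_Gamma0 (M : ℕ) : Gamma M ≤ Gamma0 M := by
  intro γ hγ
  rw [Gamma_mem] at hγ
  rw [Gamma0_mem]
  exact hγ.2.2.1

theorem exists_mem_of_full {φ : LaurentSeries ℂ} (hφ : φ ∈ modularFunctionFieldFullC ℂ M) :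
    ∃ x ∈ MFun (Gamma0 M), HasQ 1 x φ := by
  obtain ⟨m, f, g, hf, hg, hg0, h⟩ := isRatio_of_mem hφ
  have hf' : GF (Gamma0 M) ((12 * m : ℕ) : ℤ) f := GF.of_isMG hf
  have hg' : GF (Gamma0 M) ((12 * m : ℕ) : ℤ) g := GF.of_isMG hg
  refine ⟨merOf f hf'.mdiff / merOf g hg'.mdiff, ⟨_, f, g, hf', hg', hg0,
    div_mul_cancel₀ _ (merOf_ne_zero hg'.mdiff hg0)⟩, ?_⟩
  have h1 : φ = LQ f / LQ g := by
    rw [← h, mul_div_cancel_right₀]
    intro h0
    exact hg0 ((LQ_eq_zero_iff hg).mp h0)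
  rw [h1]
  exact (merOf_hasQ_one hf'.mdiff (hasExp_LQ hf)).div (merOf_hasQ_one hg'.mdiff (hasExp_LQ hg))

theorem full_le_qField : modularFunctionFieldFullC ℂ M ≤ qField := fun _ hφ => by
  obtain ⟨x, -, hx⟩ := exists_mem_of_full hφ
  exact ⟨x, hx⟩

variable (M) in
/-- The function field of `X₀(M)` over `ℂ` as a field of meromorphic functions. -/
def emb0 : modularFunctionFieldFullC ℂ M →ₐ[ℂ] MFun (Gamma M) :=
  (an.comp (IntermediateField.inclusion full_le_qField)).codRestrict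
    (MFun (Gamma M)).toSubalgebra (by
      intro x
      obtain ⟨y, hy, h1⟩ := exists_mem_of_full x.2
      have h2 := hasQ_an (IntermediateField.inclusion full_le_qField x)
      have h3 : an (IntermediateField.inclusion full_le_qField x) = y := h2.unique' h1
      show an (IntermediateField.inclusion full_le_qField x) ∈ MFun (Gamma M)
      rw [h3]
      exact MFun_mono (Gamma_le_Gamma0 M) hy)

theorem hasQ_emb0 (x : modularFunctionFieldFullC ℂ M) :
    HasQ 1 (emb0 M x : Mer) (x : LaurentSeries ℂ) :=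
  hasQ_an (IntermediateField.inclusion full_le_qField x)

theorem emb0_mem (x : modularFunctionFieldFullC ℂ M) : (emb0 M x : Mer) ∈ MFun (Gamma0 M) := by
  obtain ⟨y, hy, h1⟩ := exists_mem_of_full x.2
  rw [(hasQ_emb0 x).unique' h1]
  exact hy

/-- `j` in the function field of `X₀(M)`. -/
def j0 (K : Type*) [Field K] (M : ℕ) : modularFunctionFieldFullC K M :=
  ⟨jqModC K, jqModC_mem_full K M⟩

theorem emb0_j : emb0 M (j0 ℂ M) = jM (Gamma M) := by
  apply Subtype.ext
  have h1 := hasQ_emb0 (j0 ℂ M)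
  have h2 := hasQ_jMer
  rw [jqC_eq] at h2
  exact h1.unique' h2

/-- `j(Mτ)` in the function field of `X₀(M)`. -/
def jMM (M : ℕ) [NeZero M] : modularFunctionFieldFullC ℂ M :=
  ⟨qExpand ℂ M (jqModC ℂ), jqModCd_mem_full ℂ M dvd_rfl⟩

theorem coe_emb0_jMM : (emb0 M (jMM M) : Mer) = jd M := by
  have h1 := hasQ_emb0 (jMM M)
  have h2 := hasQ_jd M
  rw [jqC_eq] at h2
  exact h1.unique' h2

theorem smul_emb0 {γ : SL(2, ℤ)} (hγ : γ ∈ Gamma0 M) (x : modularFunctionFieldFullC ℂ M) :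
    γ • emb0 M x = emb0 M x :=
  Subtype.ext (sact_eq_self (emb0_mem x) (inv_mem hγ))

theorem mem_Gamma0_of_smul {γ : SL(2, ℤ)} (h : γ • emb0 M (jMM M) = emb0 M (jMM M)) :
    γ ∈ Gamma0 M := by
  have h1 := congrArg Subtype.val h
  rw [coe_smul_MFun, coe_emb0_jMM] at h1
  have h2 := dvd_of_sact_jd h1
  have h3 : γ⁻¹ ∈ Gamma0 M := by
    rw [Gamma0_mem]
    exact (ZMod.intCast_zmod_eq_zero_iff_dvd _ _).mpr h2
  simpa using inv_mem h3

/-! ### Gauss reductions and `q ↦ q^M` -/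

theorem coeffMap_qExpand_eq {R S : Type*} [CommRing R] [CommRing S] (f : R →+* S) (n : ℕ)
    [NeZero n] (x : LaurentSeries R) :
    coeffMap f (qExpand R n x) = qExpand S n (coeffMap f x) := by
  ext k
  by_cases hk : (n : ℤ) ∣ k
  · obtain ⟨m, rfl⟩ := hk
    rw [coeffMap_coeff, qExpand_coeff_mul, qExpand_coeff_mul, coeffMap_coeff]
  · rw [coeffMap_coeff, qExpand_coeff_of_not_dvd n _ hk, qExpand_coeff_of_not_dvd n _ hk, map_zero]

variable {κ : Type} [Field κ] {A : ValuationSubring ℂ} {π : A →+* κ}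

theorem GRed.qExpand {φ : LaurentSeries ℂ} {u : LaurentSeries κ} (h : GRed π φ u) (n : ℕ)
    [NeZero n] : GRed π (qExpand ℂ n φ) (qExpand κ n u) := by
  obtain ⟨a, b, hb, h1, h2⟩ := h
  refine ⟨ModularCurve.qExpand A n a, ModularCurve.qExpand A n b, ?_, ?_, ?_⟩
  · rw [coeffMap_qExpand_eq]
    intro h0
    exact hb ((map_eq_zero_iff _ (qExpand_injective n)).mp h0)
  · rw [coeffMap_qExpand_eq, coeffMap_qExpand_eq, ← map_mul, h1]
  · rw [coeffMap_qExpand_eq, coeffMap_qExpand_eq, ← map_mul, h2]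

theorem red_emb0 {x : modularFunctionFieldFullC ℂ M} {u : LaurentSeries κ}
    (h : GRed π (x : LaurentSeries ℂ) u) :
    (gDatum M π).Red (emb0 M x) (qExpand κ M u) :=
  ⟨_, hasQ_level (hasQ_emb0 x), GRed.qExpand h M⟩

end Fermat.Agent.DS.X1
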