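import Mathlib
import Fermat.Agent.DS.X1.GPrim

/-!
# Decomposition and inertia groups of the Gauss valuation on modular functions of level `M`
-/

set_option autoImplicit false
set_option linter.unusedSectionVars false

noncomputable section

open UpperHalfPlane ModularForm MatrixGroups CongruenceSubgroup Matrix.SpecialLinearGroup
open IntermediateField
open scoped Manifold
open Fermat.Agent.IntStr FermatJ Fermat.Agent.JAN.MerField Fermat.Agent.JAN.AnFun
open Fermat.Agent.MFF Fermat.Agent.JRED ModularCurve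

namespace Fermat.Agent.DS.X1

variable {M : ℕ} [NeZero M]
variable {κ : Type} [Field κ] {A : ValuationSubring ℂ} {π : A →+* κ}

/-- `q ↦ q^n` as an algebra homomorphism -/
def qExpandAlg (κ : Type*) [Field κ] (n : ℕ) [NeZero n] : LaurentSeries κ →ₐ[κ] LaurentSeries κ :=
  { qExpand κ n with
    commutes' := fun c => by
      show qExpand κ n (algebraMap κ (LaurentSeries κ) c) = _
      rw [Fermat.Agent.JRED.algebraMap_eq_C, qExpand_C] }

@[simp] theorem qExpandAlg_apply (κ : Type*) [Field κ] (n : ℕ) [NeZero n] (x : LaurentSeries κ) :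
    qExpandAlg κ n x = qExpand κ n x := rfl

variable (π) in
theorem exists_good (hπ : Function.Surjective π) (hM : (M : κ) ≠ 0) :
    ∃ (x₀ : modularFunctionFieldFullC ℂ M) (θ : modularFunctionFieldFullC κ M),
      GRed π (x₀ : LaurentSeries ℂ) (θ : LaurentSeries κ) ∧
      IsIntegral κ⟮j0 κ M⟯ θ ∧ (minpoly κ⟮j0 κ M⟯ θ).Separable ∧
      (minpoly κ⟮j0 κ M⟯ θ).natDegree = dedekindPsi M := by
  have := finite_full hM (j0 κ M) rfl
  have := isSeparable_full hM (j0 κ M) rfl
  obtain ⟨θ, hθ⟩ := Field.exists_primitive_element κ⟮j0 κ M⟯ (modularFunctionFieldFullC κ M)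
  have hint : IsIntegral κ⟮j0 κ M⟯ θ := IsIntegral.of_finite _ _
  obtain ⟨f, hf⟩ := exists_red_of_mem_full (π := π) (L := ℂ) M hπ θ.2
  refine ⟨⟨f, by rw [← laurentBaseChange_full ℂ M]; exact f.2⟩, θ, hf, hint,
    Algebra.IsSeparable.isSeparable _ θ, ?_⟩
  rw [← IntermediateField.adjoin.finrank hint, hθ, IntermediateField.finrank_top',
    finrank_full hM (j0 κ M) rfl]

theorem transcendental_qExpand_j (κ : Type) [Field κ] (M : ℕ) [NeZero M] :
    Transcendental κ (qExpand κ M (jqModC κ)) := by
  have h := Fermat.Agent.JRED.transcendental_jqModC κ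
  rw [transcendental_iff_injective] at h ⊢
  intro P Q hPQ
  apply h
  apply qExpand_injective M
  have h1 : ∀ P : Polynomial κ, qExpand κ M (Polynomial.aeval (jqModC κ) P) =
      Polynomial.aeval (qExpand κ M (jqModC κ)) P := fun P =>
    (Polynomial.aeval_algHom_apply (qExpandAlg κ M) (jqModC κ) P).symm
  rw [h1, h1]
  exact hPQ

theorem toG_smul (Γ : Subgroup SL(2, ℤ)) [Γ.Normal] (γ : SL(2, ℤ)) (x : MFun Γ) :
    toG Γ γ • x = γ • x := rfl

/-- The good element for the Gauss reduction. -/
theorem exists_galHyp (hπ : Function.Surjective π) (hM : (M : κ) ≠ 0) :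
    ∃ (x₀ : modularFunctionFieldFullC ℂ M) (xb : LaurentSeries κ),
      GalHyp (gDatum M π) (GalG (Gamma M)) (jM (Gamma M)) (qExpand κ M (jqModC κ))
        (emb0 M x₀) xb (dedekindPsi M) ∧
      (∀ γ : SL(2, ℤ), γ • emb0 M x₀ = emb0 M x₀ ↔ γ ∈ Gamma0 M) := by
  obtain ⟨x₀, θ, h1, h2, h3, h4⟩ := exists_good (M := M) π hπ hM
  have hMC : (M : ℂ) ≠ 0 := by exact_mod_cast NeZero.ne M
  have := finite_full hMC (j0 ℂ M) rfl
  have hx₀ : IsIntegral ℂ⟮j0 ℂ M⟯ x₀ := IsIntegral.of_finite _ _
  set φ : modularFunctionFieldFullC κ M →ₐ[κ] LaurentSeries κ :=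
    (qExpandAlg κ M).comp (modularFunctionFieldFullC κ M).val with hφ
  have hyp : GalHyp (gDatum M π) (GalG (Gamma M)) (jM (Gamma M)) (qExpand κ M (jqModC κ))
        (emb0 M x₀) (qExpand κ M θ) (dedekindPsi M) :=
    { surj := hπ
      red_j := by
        rw [← emb0_j]
        refine red_emb0 ?_
        have h5 := GRed.of_int (π := π) (jZ 1)
        rw [coeffMap_jZ, coeffMap_jZ, qExpand_one_apply, qExpand_one_apply] at h5
        exact h5
      transc := transcendental_qExpand_j κ M
      smul_algebraMap := by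
        rintro ⟨_, γ, rfl⟩ c
        exact Subtype.ext ((sact γ⁻¹).commutes c)
      smul_j := by
        rintro ⟨_, γ, rfl⟩
        exact smul_jM γ
      mem_adjoin := by
        intro y hy
        exact mem_adjoin_j_of_fixed fun γ => hy (toG _ γ)
      red_x := red_emb0 h1
      n_pos := by
        rw [← h4]
        exact minpoly.natDegree_pos h2
      degree_le := by
        rw [natDegree_minpoly_map (emb0 M) (j0 ℂ M) x₀ (jM (Gamma M)) (emb0 M x₀) emb0_j rfl hx₀]
        refine (minpoly.natDegree_le x₀).trans ?_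
        rw [finrank_full hMC (j0 ℂ M) rfl]
      le_degree := by
        rw [natDegree_minpoly_map φ (j0 κ M) θ (qExpand κ M (jqModC κ))
          (qExpand κ M (θ : LaurentSeries κ)) rfl rfl h2, h4]
      separable := separable_minpoly_map φ (j0 κ M) θ _ _ rfl rfl h2 h3 }
  refine ⟨x₀, _, hyp, fun γ => ⟨fun hγ => ?_, fun hγ => smul_emb0 hγ x₀⟩⟩
  have h5 : (minpoly ℂ⟮j0 ℂ M⟯ x₀).natDegree = dedekindPsi M := by
    refine le_antisymm ?_ ?_
    · refine (minpoly.natDegree_le x₀).trans ?_
      rw [finrank_full hMC (j0 ℂ M) rfl]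
    · by_contra hlt
      push Not at hlt
      -- the powers of `θ` are independent
      have h6 : (minpoly ℂ⟮jM (Gamma M)⟯ (emb0 M x₀)).natDegree < dedekindPsi M := by
        rw [natDegree_minpoly_map (emb0 M) (j0 ℂ M) x₀ (jM (Gamma M)) (emb0 M x₀) emb0_j rfl hx₀]
        exact hlt
      have h7 : LinearIndependent ℂ⟮jM (Gamma M)⟯ (fun i : Fin (dedekindPsi M) =>
          emb0 M x₀ ^ (i : ℕ)) := by
        have h8 := hyp.li
        exact Fermat.Agent.JRED.RedDatum.linearIndependent_lift hπ hyp.red_j hyp.transc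
          (fun i => RedDatum.pow hyp.red_x (i : ℕ)) h8
      have h9 : ∀ p : Polynomial ℂ⟮jM (Gamma M)⟯, p.natDegree < dedekindPsi M →
          Polynomial.aeval (emb0 M x₀) p = 0 → p = 0 := by
        intro p hp hp0
        rw [Polynomial.aeval_eq_sum_range' hp, Finset.sum_range] at hp0
        have h10 := Fintype.linearIndependent_iff.mp h7 (fun i => p.coeff i) hp0
        ext i
        by_cases hi : i < dedekindPsi M
        · rw [h10 ⟨i, hi⟩, Polynomial.coeff_zero]
        · rw [Polynomial.coeff_eq_zero_of_natDegree_lt (lt_of_lt_of_le hp (not_lt.mp hi)),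
            Polynomial.coeff_zero]
      exact minpoly.ne_zero hyp.isIntegral_x (h9 _ h6 (minpoly.aeval _ _))
  have h6 : ℂ⟮j0 ℂ M⟯⟮x₀⟯ = ⊤ := by
    rw [Field.primitive_element_iff_minpoly_natDegree_eq, h5, finrank_full hMC (j0 ℂ M) rfl]
  apply mem_Gamma0_of_smul
  let S : IntermediateField ℂ⟮j0 ℂ M⟯ (modularFunctionFieldFullC ℂ M) :=
    { carrier := {z | γ • emb0 M z = emb0 M z}
      mul_mem' := by
        intro a b ha hb
        change γ • emb0 M _ = emb0 M _ at ha hb
        show γ • emb0 M _ = emb0 M _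
        rw [map_mul, smul_mul', ha, hb]
      one_mem' := by
        show γ • emb0 M _ = emb0 M _
        rw [map_one, smul_one]
      add_mem' := by
        intro a b ha hb
        change γ • emb0 M _ = emb0 M _ at ha hb
        show γ • emb0 M _ = emb0 M _
        rw [map_add, smul_add, ha, hb]
      zero_mem' := by
        show γ • emb0 M _ = emb0 M _
        rw [map_zero, smul_zero]
      inv_mem' := by
        intro a ha
        change γ • emb0 M _ = emb0 M _ at ha
        show γ • emb0 M _ = emb0 M _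
        rw [map_inv₀, smul_inv'', ha]
      algebraMap_mem' := by
        intro c
        have h7 : emb0 M (c : modularFunctionFieldFullC ℂ M) ∈ ℂ⟮jM (Gamma M)⟯ := by
          have h8 : (ℂ⟮j0 ℂ M⟯).map (emb0 M) = ℂ⟮jM (Gamma M)⟯ := by
            rw [IntermediateField.adjoin_map, Set.image_singleton, emb0_j]
          rw [← h8]
          exact ⟨_, c.2, rfl⟩
        exact hyp.smul_of_mem h7 (toG _ γ) }
  have h7 : (⊤ : IntermediateField ℂ⟮j0 ℂ M⟯ (modularFunctionFieldFullC ℂ M)) ≤ S := by
    rw [← h6, adjoin_simple_le_iff]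
    exact hγ
  exact h7 (IntermediateField.mem_top (x := jMM M))

end Fermat.Agent.DS.X1
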