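import Mathlib
import Fermat.Agent.DS.X1.GHyp

/-!
# All of `SL₂(ℤ)` preserves the Gauss valuation of modular functions of level `M`
-/

set_option autoImplicit false
set_option linter.unusedSectionVars false

noncomputable section

open UpperHalfPlane ModularForm MatrixGroups CongruenceSubgroup Matrix.SpecialLinearGroup
open IntermediateField
open scoped Manifold Pointwise
open Fermat.Agent.IntStr FermatJ Fermat.Agent.JAN.MerField Fermat.Agent.JAN.AnFun
open Fermat.Agent.MFF Fermat.Agent.JRED ModularCurve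

namespace Fermat.Agent.DS.X1

variable {M : ℕ} [NeZero M]
variable {κ : Type} [Field κ] {A : ValuationSubring ℂ} {π : A →+* κ}

/-! ### Translations -/

theorem GRed.twist {φ : LaurentSeries ℂ} {u : LaurentSeries κ} (h : GRed π φ u) (ζ : Aˣ) :
    GRed π (FermatJ.twist (Units.map (A.subtype : A →* ℂ) ζ) φ)
      (FermatJ.twist (Units.map (π : A →* κ) ζ) u) := by
  obtain ⟨a, b, hb, h1, h2⟩ := h
  have hinj : Function.Injective (FermatJ.twist (Units.map (π : A →* κ) ζ)) :=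
    (FermatJ.twist (Units.map (π : A →* κ) ζ)).injective
  refine ⟨FermatJ.twist ζ a, FermatJ.twist ζ b, ?_, ?_, ?_⟩
  · rw [coeffMap_twist]
    intro h0
    exact hb ((map_eq_zero_iff _ hinj).mp h0)
  · rw [coeffMap_twist, coeffMap_twist, ← map_mul, h1]
  · rw [coeffMap_twist, coeffMap_twist, ← map_mul, h2]

theorem mem_of_pow_eq_one {A : ValuationSubring ℂ} {z : ℂ} {n : ℕ} (hn : n ≠ 0)
    (hz : z ^ n = 1) : z ∈ A := by
  rcases A.mem_or_inv_mem z with h | h
  · exact h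
  · have h1 : z = (z⁻¹) ^ (n - 1) := by
      have hz0 : z ≠ 0 := by
        rintro rfl
        rw [zero_pow hn] at hz
        exact zero_ne_one hz
      rw [inv_pow, ← one_div, eq_div_iff (pow_ne_zero _ hz0), ← pow_succ',
        Nat.sub_add_cancel (Nat.one_le_iff_ne_zero.mpr hn), hz]
    rw [h1]
    exact pow_mem h _

theorem zetaU_pow (M : ℕ) [NeZero M] (b : ℤ) : zetaU M b ^ M = 1 := by
  ext
  simp only [zetaU, Units.val_pow_eq_pow_val, Units.val_mk0, Units.val_one]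
  rw [← Complex.exp_nat_mul, Complex.exp_eq_one_iff]
  refine ⟨b, ?_⟩
  have hM0 : (M : ℂ) ≠ 0 := by exact_mod_cast NeZero.ne M
  field_simp

/-- The root of unity as a unit of `A`. -/
theorem exists_zetaA (A : ValuationSubring ℂ) (M : ℕ) [NeZero M] (b : ℤ) :
    ∃ ζ : Aˣ, Units.map (A.subtype : A →* ℂ) ζ = zetaU M b := by
  have h1 : (zetaU M b : ℂ) ^ M = 1 := by
    have := congrArg Units.val (zetaU_pow M b)
    simpa using this
  have h2 : ((zetaU M b)⁻¹ : ℂˣ).val ^ M = 1 := by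
    rw [← Units.val_pow_eq_pow_val, inv_pow, zetaU_pow, inv_one, Units.val_one]
  refine ⟨⟨⟨_, mem_of_pow_eq_one (NeZero.ne M) h1⟩, ⟨_, mem_of_pow_eq_one (NeZero.ne M) h2⟩,
    Subtype.ext (by simp), Subtype.ext (by simp)⟩, ?_⟩
  ext
  rfl

theorem qc_T_zpow (M : ℕ) [NeZero M] (b : ℤ) (τ : ℍ) :
    qc M ((slp (ModularGroup.T ^ b) : GL (Fin 2) ℝ) • τ) = zetaU M b * qc M τ := by
  have h1 : ((((slp (ModularGroup.T ^ b) : GL(2, ℝ)⁺) : GL (Fin 2) ℝ) • τ : ℍ) : ℂ) =
      (τ : ℂ) + b := by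
    rw [slp_smul]
    exact ModularGroup.coe_T_zpow_smul_eq τ
  have hM0 : (M : ℂ) ≠ 0 := by exact_mod_cast NeZero.ne M
  simp only [qc, Function.Periodic.qParam, zetaU, Units.val_mk0]
  rw [← Complex.exp_add, h1]
  congr 1
  push_cast
  field_simp
  ring

theorem hasQ_T_zpow {x : Mer} {φ : LaurentSeries ℂ} (hx : HasQ M x φ) (b : ℤ) :
    HasQ M (sact (ModularGroup.T ^ b) x) (FermatJ.twist (zetaU M b) φ) := by
  obtain ⟨f, g, α, β, hg, h1, h2, rfl, h3⟩ := hx
  refine ⟨compHol (slp (ModularGroup.T ^ b)) f, compHol (slp (ModularGroup.T ^ b)) g,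
    FermatJ.twist (zetaU M b) α, FermatJ.twist (zetaU M b) β, ?_, ?_, ?_, ?_, ?_⟩
  · exact fun h0 => hg (compHol_injective _ (h0.trans (map_zero _).symm))
  · exact HasExp.twist (σ := fun τ : ℍ => (slp (ModularGroup.T ^ b) : GL (Fin 2) ℝ) • τ) _
      (qc_T_zpow M b) h1
  · exact HasExp.twist (σ := fun τ : ℍ => (slp (ModularGroup.T ^ b) : GL (Fin 2) ℝ) • τ) _
      (qc_T_zpow M b) h2
  · rw [map_div₀, act_algebraMap, act_algebraMap]
  · rw [← map_mul, h3]

/-- `T` preserves the Gauss ring. -/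
theorem red_T_zpow {x : MFun (Gamma M)} {u : LaurentSeries κ} (h : (gDatum M π).Red x u) (b : ℤ) :
    ∃ v, (gDatum M π).Red ((ModularGroup.T ^ b : SL(2, ℤ)) • x) v := by
  obtain ⟨φ, h1, h2⟩ := h
  obtain ⟨ζ, hζ⟩ := exists_zetaA A M (-b)
  refine ⟨FermatJ.twist (Units.map (π : A →* κ) ζ) u, FermatJ.twist (zetaU M (-b)) φ, ?_, ?_⟩
  · rw [coe_smul_MFun, ← zpow_neg]
    exact hasQ_T_zpow h1 (-b)
  · rw [← hζ]
    exact GRed.twist h2 ζ

variable (hπ : Function.Surjective π)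

theorem mem_stab_of {g : GalG (Gamma M)}
    (h1 : ∀ x u, (gDatum M π).Red x u → ∃ v, (gDatum M π).Red (g • x) v)
    (h2 : ∀ x u, (gDatum M π).Red x u → ∃ v, (gDatum M π).Red (g⁻¹ • x) v) :
    g ∈ MulAction.stabilizer (GalG (Gamma M)) (ring (gDatum M π) hπ) := by
  rw [MulAction.mem_stabilizer_iff]
  ext y
  rw [ValuationSubring.mem_pointwise_smul_iff_inv_smul_mem]
  constructor
  · rintro ⟨u, hu⟩
    obtain ⟨v, hv⟩ := h1 _ _ hu
    rw [smul_inv_smul] at hv
    exact ⟨v, hv⟩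
  · rintro ⟨u, hu⟩
    exact h2 _ _ hu

theorem toG_T_mem (b : ℤ) : toG (Gamma M) (ModularGroup.T ^ b) ∈
    MulAction.stabilizer (GalG (Gamma M)) (ring (gDatum M π) hπ) := by
  refine mem_stab_of hπ (fun x u h => red_T_zpow h b) fun x u h => ?_
  obtain ⟨v, hv⟩ := red_T_zpow h (-b)
  refine ⟨v, ?_⟩
  rw [← map_inv, ← zpow_neg]
  exact hv

/-! ### The decomposition group -/

/-- For `s ∈ Γ₀(M)`, `s⁻¹ T s` is a power of `T` modulo `Γ(M)`. -/
theorem conj_T {s : SL(2, ℤ)} (hs : s ∈ Gamma0 M) :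
    ∃ b : ℤ, (ModularGroup.T ^ b)⁻¹ * (s⁻¹ * ModularGroup.T * s) ∈ Gamma M := by
  rw [Gamma0_mem] at hs
  refine ⟨(s 1 1) ^ 2, ?_⟩
  have hdet : s 0 0 * s 1 1 - s 0 1 * s 1 0 = 1 := by
    have := s.2
    rw [Matrix.det_fin_two] at this
    exact this
  obtain ⟨c, hc⟩ := (ZMod.intCast_zmod_eq_zero_iff_dvd _ M).mp hs
  have h1 : ((ModularGroup.T ^ ((s 1 1) ^ 2))⁻¹ * (s⁻¹ * ModularGroup.T * s) :
      Matrix.SpecialLinearGroup (Fin 2) ℤ).1 =
      !![1, -((s 1 1) ^ 2); 0, 1] * (!![s 1 1, -(s 0 1); -(s 1 0), s 0 0] * !![1, 1; 0, 1] *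
        !![s 0 0, s 0 1; s 1 0, s 1 1]) := by
    rw [Matrix.SpecialLinearGroup.coe_mul, Matrix.SpecialLinearGroup.coe_mul,
      Matrix.SpecialLinearGroup.coe_mul, ← zpow_neg, ModularGroup.coe_T_zpow,
      Matrix.SpecialLinearGroup.SL2_inv_expl, ModularGroup.coe_T]
    congr 2
    exact Matrix.eta_fin_two _
  have hc' : ((s 1 0 : ℤ) : ZMod M) = 0 := hs
  have hdet' : ((s 0 0 : ℤ) : ZMod M) * ((s 1 1 : ℤ) : ZMod M) = 1 := by
    have := congrArg (Int.cast : ℤ → ZMod M) hdet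
    push_cast at this
    rw [hc', mul_zero, sub_zero] at this
    exact this
  have e00 := congrFun (congrFun h1 0) 0
  have e01 := congrFun (congrFun h1 0) 1
  have e10 := congrFun (congrFun h1 1) 0
  have e11 := congrFun (congrFun h1 1) 1
  simp only [Matrix.mul_apply, Fin.sum_univ_two, Matrix.of_apply, Matrix.cons_val', Matrix.cons_val_zero,
    Matrix.cons_val_one, Matrix.cons_val_fin_one] at e00 e01 e10 e11
  rw [Gamma_mem]
  refine ⟨?_, ?_, ?_, ?_⟩
  · refine (congrArg (Int.cast : ℤ → ZMod M) e00).trans ?_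
    push_cast
    rw [hc']
    linear_combination hdet'
  · refine (congrArg (Int.cast : ℤ → ZMod M) e01).trans ?_
    push_cast
    rw [hc']
    linear_combination (-((s 1 1 : ℤ) : ZMod M) ^ 2) * hdet'
  · refine (congrArg (Int.cast : ℤ → ZMod M) e10).trans ?_
    push_cast
    rw [hc']
    ring
  · refine (congrArg (Int.cast : ℤ → ZMod M) e11).trans ?_
    push_cast
    rw [hc']
    linear_combination hdet'

theorem S_inv_eq : (ModularGroup.S)⁻¹ =
    ModularGroup.T * (ModularGroup.S * ModularGroup.T * (ModularGroup.S)⁻¹) * ModularGroup.T := by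
  decide

/-- **Everything preserves the Gauss ring.** -/
theorem stab_eq_top (hM : (M : κ) ≠ 0) :
    MulAction.stabilizer (GalG (Gamma M)) (ring (gDatum M π) hπ) = ⊤ := by
  obtain ⟨x₀, xb, hyp, hstab⟩ := exists_galHyp (M := M) hπ hM
  set D := MulAction.stabilizer (GalG (Gamma M)) (ring (gDatum M π) hπ) with hD
  obtain ⟨s, hs, hsd⟩ := hyp.exists_mem_stabilizer ((toG (Gamma M) ModularGroup.S)⁻¹)
  obtain ⟨σ, rfl⟩ := toG_surjective (Gamma M) s
  have hσ : σ ∈ Gamma0 M := (hstab σ).mp hs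
  obtain ⟨b, hb⟩ := conj_T hσ
  have hT1 : toG (Gamma M) ModularGroup.T ∈ D := by
    have := toG_T_mem (M := M) hπ 1
    rwa [zpow_one] at this
  have h1 : toG (Gamma M) (σ⁻¹ * ModularGroup.T * σ) ∈ D := by
    have h2 := toG_eq_one_of_mem (Gamma M) hb
    rw [map_mul, map_inv, inv_mul_eq_one] at h2
    rw [← h2]
    exact toG_T_mem hπ b
  have h3 : toG (Gamma M) (ModularGroup.S * ModularGroup.T * (ModularGroup.S)⁻¹) ∈ D := by
    set d := (toG (Gamma M) σ)⁻¹ * (toG (Gamma M) ModularGroup.S)⁻¹ with hd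
    have h4 : toG (Gamma M) (ModularGroup.S * ModularGroup.T * (ModularGroup.S)⁻¹) =
        d⁻¹ * toG (Gamma M) (σ⁻¹ * ModularGroup.T * σ) * d := by
      rw [hd]
      simp only [map_mul, map_inv]
      group
    rw [h4]
    exact mul_mem (mul_mem (inv_mem hsd) h1) hsd
  have h5 : toG (Gamma M) ModularGroup.S ∈ D := by
    have h6 : toG (Gamma M) (ModularGroup.S)⁻¹ ∈ D := by
      rw [S_inv_eq, map_mul, map_mul]
      exact mul_mem (mul_mem hT1 h3) hT1
    rw [map_inv] at h6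
    simpa using inv_mem h6
  have h7 : (⊤ : Subgroup SL(2, ℤ)) ≤ D.comap (toG (Gamma M)) := by
    rw [← _root_.SpecialLinearGroup.SL2Z_generators, Subgroup.closure_le]
    rintro x (rfl | rfl)
    · exact h5
    · exact hT1
  rw [eq_top_iff]
  rintro g -
  obtain ⟨γ, rfl⟩ := toG_surjective (Gamma M) g
  exact h7 (Subgroup.mem_top γ)

end Fermat.Agent.DS.X1
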