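import Mathlib
import Fermat.Agent.DS.X1.GDec
import Fermat.Agent.DS.EisTwo

/-!
# The inertia group of the Gauss valuation on modular functions of level `M` is trivial
-/

set_option autoImplicit false
set_option linter.unusedSectionVars false

noncomputable section

open UpperHalfPlane ModularForm MatrixGroups CongruenceSubgroup Matrix.SpecialLinearGroup
open IntermediateField
open scoped Manifold Pointwise
open Fermat.Agent.IntStr FermatJ Fermat.Agent.JAN.MerField Fermat.Agent.JAN.AnFun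
open Fermat.Agent.MFF Fermat.Agent.JRED ModularCurve

namespace Fermat.Agent.DS.X1

variable {M : ℕ} [NeZero M]
variable {κ : Type} [Field κ] {A : ValuationSubring ℂ} {π : A →+* κ}

/-- `g` is in the inertia group. -/
def InI (π : A →+* κ) (g : GalG (Gamma M)) : Prop :=
  ∀ x u, (gDatum M π).Red x u → (gDatum M π).Red (g • x) u

theorem InI.conj (hπ : Function.Surjective π) (hM : (M : κ) ≠ 0) {g : GalG (Gamma M)}
    (hg : InI π g) (h : GalG (Gamma M)) : InI π (h * g * h⁻¹) := by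
  intro y u hy
  have hstab : ∀ h : GalG (Gamma M), h • ring (gDatum M π) hπ = ring (gDatum M π) hπ := by
    intro h
    rw [← MulAction.mem_stabilizer_iff, stab_eq_top hπ hM]
    exact Subgroup.mem_top h
  obtain ⟨u', hu'⟩ := smul_mem_ring (hstab h⁻¹) (⟨u, hy⟩ : y ∈ ring (gDatum M π) hπ)
  have h1 := hg _ _ hu'
  have h2 := RedDatum.sub h1 hu'
  rw [sub_self] at h2
  have h3 := red_zero_smul (hstab h) h2
  have h4 := (gDatum M π).add h3 hy
  have h5 : h • (g • h⁻¹ • y - h⁻¹ • y) + y = (h * g * h⁻¹) • y := by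
    rw [smul_sub, smul_inv_smul, mul_smul, mul_smul]
    ring
  rw [h5, zero_add] at h4
  exact h4

/-- `(1 0; 1 1)` -/
def vMat : SL(2, ℤ) := ⟨!![1, 0; 1, 1], by simp [Matrix.det_fin_two]⟩

theorem InI.entries (hπ : Function.Surjective π) (hM : (M : κ) ≠ 0) {γ : SL(2, ℤ)}
    (hg : InI (M := M) π (toG (Gamma M) γ)) :
    ((γ 0 1 : ℤ) : ZMod M) = 0 ∧ ((γ 1 0 : ℤ) : ZMod M) = 0 ∧
      ((γ 0 0 : ℤ) : ZMod M) = ((γ 1 1 : ℤ) : ZMod M) := by
  obtain ⟨x₀, xb, hyp, hstab⟩ := exists_galHyp (M := M) hπ hM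
  have key : ∀ h : SL(2, ℤ), h * γ * h⁻¹ ∈ Gamma0 M := by
    intro h
    rw [← hstab]
    have h1 := hyp.smul_eq_of_inertia (hg.conj hπ hM (toG (Gamma M) h))
    rw [← map_inv, ← map_mul, ← map_mul] at h1
    exact h1
  have k1 := key 1
  have k2 := key ModularGroup.S
  have k3 := key vMat
  rw [Gamma0_mem] at k1 k2 k3
  rw [one_mul, inv_one, mul_one] at k1
  have e2 : (ModularGroup.S * γ * ModularGroup.S⁻¹ : SL(2, ℤ)) 1 0 = -(γ 0 1) := by
    show (ModularGroup.S * γ * ModularGroup.S⁻¹ : SL(2, ℤ)).1 1 0 = _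
    rw [Matrix.SpecialLinearGroup.coe_mul, Matrix.SpecialLinearGroup.coe_mul,
      Matrix.SpecialLinearGroup.SL2_inv_expl, Matrix.mul_apply, Fin.sum_univ_two,
      Matrix.mul_apply, Fin.sum_univ_two, Matrix.mul_apply, Fin.sum_univ_two]
    simp [ModularGroup.S]
  have e3 : (vMat * γ * vMat⁻¹ : SL(2, ℤ)) 1 0 = (γ 0 0 + γ 1 0) - (γ 0 1 + γ 1 1) := by
    show (vMat * γ * vMat⁻¹ : SL(2, ℤ)).1 1 0 = _
    rw [Matrix.SpecialLinearGroup.coe_mul, Matrix.SpecialLinearGroup.coe_mul,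
      Matrix.SpecialLinearGroup.SL2_inv_expl, Matrix.mul_apply, Fin.sum_univ_two,
      Matrix.mul_apply, Fin.sum_univ_two, Matrix.mul_apply, Fin.sum_univ_two]
    simp [vMat]
    ring
  rw [e2] at k2
  rw [e3] at k3
  push_cast at k2 k3
  have k2' := neg_eq_zero.mp k2
  refine ⟨k2', k1, ?_⟩
  rw [k1, k2', add_zero, zero_add, sub_eq_zero] at k3
  exact k3

theorem sq_mem_Gamma {γ : SL(2, ℤ)} (h : ((γ 0 1 : ℤ) : ZMod M) = 0 ∧
    ((γ 1 0 : ℤ) : ZMod M) = 0 ∧ ((γ 0 0 : ℤ) : ZMod M) = ((γ 1 1 : ℤ) : ZMod M)) :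
    ((γ 0 0 : ℤ) : ZMod M) * ((γ 0 0 : ℤ) : ZMod M) = 1 ∧ γ ^ 2 ∈ Gamma M := by
  obtain ⟨h1, h2, h3⟩ := h
  have hdet : γ 0 0 * γ 1 1 - γ 0 1 * γ 1 0 = 1 := by
    have := γ.2
    rw [Matrix.det_fin_two] at this
    exact this
  have hdet' : ((γ 0 0 : ℤ) : ZMod M) * ((γ 0 0 : ℤ) : ZMod M) = 1 := by
    have := congrArg (Int.cast : ℤ → ZMod M) hdet
    push_cast at this
    rw [h1, zero_mul, sub_zero, ← h3] at this
    exact this
  refine ⟨hdet', ?_⟩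
  have e : ∀ i j, (γ ^ 2 : SL(2, ℤ)) i j = γ i 0 * γ 0 j + γ i 1 * γ 1 j := by
    intro i j
    show (γ ^ 2 : SL(2, ℤ)).1 i j = _
    rw [pow_two, Matrix.SpecialLinearGroup.coe_mul, Matrix.mul_apply, Fin.sum_univ_two]
  rw [Gamma_mem]
  refine ⟨?_, ?_, ?_, ?_⟩
  · rw [e]; push_cast; rw [h1, zero_mul, add_zero]; exact hdet'
  · rw [e]; push_cast; rw [h1]; ring
  · rw [e]; push_cast; rw [h2]; ring
  · rw [e]; push_cast; rw [h2, zero_mul, zero_add, ← h3]; exact hdet'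

/-- odd residue characteristic -/
theorem InI.eq_one_of_odd (hπ : Function.Surjective π) (hM : (M : κ) ≠ 0) (h2 : (2 : κ) ≠ 0)
    {g : GalG (Gamma M)} (hg : InI π g) : g = 1 := by
  obtain ⟨γ, rfl⟩ := toG_surjective (Gamma M) g
  refine eq_one_of_inertia hπ (fun g c => ?_) hg (r := 2) two_ne_zero (by exact_mod_cast h2) ?_
  · obtain ⟨γ, rfl⟩ := toG_surjective (Gamma M) g
    exact Subtype.ext ((sact γ⁻¹).commutes c)
  · rw [← map_pow]
    exact toG_eq_one_of_mem _ (sq_mem_Gamma (hg.entries hπ hM)).2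

/-! ### Residue characteristic two -/

theorem gamma_le_gamma1 (d M : ℕ) (h : d ∣ M) : Gamma M ≤ Gamma1 d := by
  intro γ hγ
  rw [Gamma_mem] at hγ
  rw [Gamma1_mem]
  have key : ∀ x y : ℤ, ((x : ℤ) : ZMod M) = y → ((x : ℤ) : ZMod d) = y := by
    intro x y hxy
    have h1 := (ZMod.intCast_eq_intCast_iff_dvd_sub _ _ _).mp hxy
    exact (ZMod.intCast_eq_intCast_iff_dvd_sub _ _ _).mpr
      (dvd_trans (by exact_mod_cast h) h1)
  have k1 := key _ 1 (by push_cast; exact hγ.1)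
  have k2 := key _ 1 (by push_cast; exact hγ.2.2.2)
  have k3 := key _ 0 (by push_cast; exact hγ.2.2.1)
  push_cast at k1 k2 k3
  exact ⟨k1, k2, k3⟩

theorem slash_neg_one (k : ℤ) (f : ℍ → ℂ) : f ∣[k] (-1 : SL(2, ℤ)) = ((-1 : ℂ) ^ (-k)) • f := by
  funext τ
  rw [SL_slash_apply, Pi.smul_apply, smul_eq_mul, ModularGroup.SL_neg_smul, one_smul]
  have h1 : denom (((-1 : SL(2, ℤ)) : GL (Fin 2) ℝ)) τ = -1 := by
    simp [denom]
  rw [h1, mul_comm]

theorem slash_eq_neg {M₂ : ℕ} [NeZero M₂] {f : ℍ → ℂ} (hf : GF (Gamma1 M₂) 1 f) {δ : SL(2, ℤ)}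
    (hδ : -δ ∈ Gamma1 M₂) : f ∣[(1 : ℤ)] δ = -f := by
  have h1 : δ = (-1) * (-δ) := by rw [neg_mul_neg, one_mul]
  rw [h1, SlashAction.slash_mul, slash_neg_one]
  have h2 : ((-1 : ℂ) ^ (-(1 : ℤ))) • f = -f := by
    rw [zpow_neg, zpow_one]
    norm_num
  rw [h2, SlashAction.neg_slash, hf.slash _ hδ]

open Fermat.Agent.DS.Eis in
/-- The weight one form congruent to one modulo two with its expansion over `A`. -/
theorem exists_form_two (A : ValuationSubring ℂ) {m : ℕ} [NeZero m] (hm : 1 < m) (hodd : Odd m) :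
    ∃ (F : ℍ → ℂ) (U : LaurentSeries A), GF (Gamma1 m) 1 F ∧
      HasExp (qc 1) F (coeffMap A.subtype (1 + 2 * U)) := by
  obtain ⟨f, D, u, hD, h⟩ := exists_weight_one_two hm hodd
  have hA : ∀ x : Zb, (x : ℂ) ∈ A := fun x => by
    have h1 : IsIntegral ℤ (x : ℂ) := x.2
    exact (IsIntegrallyClosed.isIntegral_iff (R := A) (K := ℂ)).mp (h1.tower_top) |>.elim
      fun y hy => hy ▸ y.2
  set F : ℍ → ℂ := (D : ℂ) • (⇑f : ℍ → ℂ) with hF
  have hFG : GF (Gamma1 m) 1 F := (GF.of_form f).smul _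
  have hexp := hasExp_LQ_of_isMG hFG.isMG
  set U : LaurentSeries A := HahnSeries.ofPowerSeries ℤ A (PowerSeries.mk fun n => ⟨u n, hA (u n)⟩)
    with hU
  have h0 : LQ F = coeffMap A.subtype (1 + 2 * U) := by
    have h1 : qExpansion 1 F = PowerSeries.map A.subtype
        (1 + 2 * (PowerSeries.mk fun n => (⟨u n, hA (u n)⟩ : A))) := by
      ext n
      rw [hF, qExpansion_smul (GF.of_form f).isMG.anQ]
      have h2 := h n
      rw [PowerSeries.coeff_smul]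
      rw [PowerSeries.coeff_map, map_add, PowerSeries.coeff_one]
      have h3 : (PowerSeries.coeff n) (2 * (PowerSeries.mk fun n => (⟨u n, hA (u n)⟩ : A))) =
          2 * ⟨u n, hA (u n)⟩ := by
        rw [show (2 : PowerSeries A) = PowerSeries.C (2 : A) from (map_ofNat _ 2).symm,
          PowerSeries.coeff_C_mul, PowerSeries.coeff_mk]
      rw [h3]
      refine Eq.trans h2 ?_
      rw [map_add]
      congr 1
      · split_ifs <;> simp
    rw [LQ, h1, ← FermatJ.coeffMap_ofPowerSeries, map_add, map_one, map_mul, map_ofNat]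
  exact ⟨F, U, hFG, h0 ▸ hexp⟩

/-- residue characteristic two: there is no inertia element with eigenvalues `1` mod `M₁` and `-1`
mod `M₂`. -/
theorem InI.false_of_two (h2 : (2 : κ) = 0) {M₁ M₂ : ℕ} (hM : M₁ * M₂ = M)
    (h1lt : 1 < M₁) (h2lt : 1 < M₂) (hodd : Odd M) {γ : SL(2, ℤ)}
    (hγ1 : γ ∈ Gamma1 M₁) (hγ2 : -γ ∈ Gamma1 M₂) (hg : InI (M := M) π (toG (Gamma M) γ)) :
    False := by
  have : NeZero M₁ := ⟨by omega⟩
  have : NeZero M₂ := ⟨by omega⟩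
  have hodd' := hM ▸ hodd
  rw [Nat.odd_mul] at hodd'
  obtain ⟨F₁, U₁, hF₁, hE₁⟩ := exists_form_two A h1lt hodd'.1
  obtain ⟨F₂, U₂, hF₂, hE₂⟩ := exists_form_two A h2lt hodd'.2
  -- reductions
  have hred : ∀ U : LaurentSeries A, coeffMap π (1 + 2 * U) = 1 := by
    intro U
    have h3 : (2 : LaurentSeries κ) = 0 := by
      have := congrArg (algebraMap κ (LaurentSeries κ)) h2
      rwa [map_ofNat, map_zero] at this
    rw [map_add, map_one, map_mul, map_ofNat, h3, zero_mul, add_zero]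
  have hne : ∀ U : LaurentSeries A, coeffMap A.subtype (1 + 2 * U) ≠ 0 := by
    intro U h0
    have h3 : (1 + 2 * U : LaurentSeries A) = 0 :=
      coeffMap_injective Subtype.val_injective (h0.trans (map_zero _).symm)
    have h4 := hred U
    rw [h3, map_zero] at h4
    exact zero_ne_one h4
  have hgam1 : Gamma M ≤ Gamma1 M₁ := by
    exact gamma_le_gamma1 M₁ M ⟨M₂, hM.symm⟩
  have hgam2 : Gamma M ≤ Gamma1 M₂ :=
    gamma_le_gamma1 M₂ M ⟨M₁, by rw [mul_comm]; exact hM.symm⟩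
  have hF₁0 : F₁ ≠ 0 := by
    intro h0
    have h3 : HasExp (qc 1) F₁ 0 := by rw [h0]; exact HasExp.zero _
    exact hne U₁ (exp_unique hE₁ h3)
  set δ : SL(2, ℤ) := γ⁻¹ with hδ
  have hδ1 : δ ∈ Gamma1 M₁ := inv_mem hγ1
  have hδ2 : -δ ∈ Gamma1 M₂ := by
    have h3 : -δ = (-γ)⁻¹ := by
      rw [hδ]
      rw [eq_inv_iff_mul_eq_one, neg_mul_neg, inv_mul_cancel]
    rw [h3]
    exact inv_mem hγ2
  have hsl1 : F₁ ∣[(1 : ℤ)] δ = F₁ := hF₁.slash _ hδ1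
  have hsl2 : F₂ ∣[(1 : ℤ)] δ = -F₂ := slash_eq_neg hF₂ hδ2
  have hG₁ : GF (Gamma M) 1 F₁ := hF₁.mono hgam1
  have hG₂ : GF (Gamma M) 1 F₂ := hF₂.mono hgam2
  have hnum : GF (Gamma M) 1 (F₁ + -F₂) := hG₁.add hG₂.neg
  have hden : GF (Gamma M) 1 ((2 : ℂ) • F₁) := hG₁.smul 2
  have h2C : (2 : Mer) ≠ 0 := by
    have h3 : (algebraMap ℂ Mer) 2 = 2 := map_ofNat _ 2
    rw [← h3]
    exact (map_ne_zero _).mpr two_ne_zero
  have hden' : merOf ((2 : ℂ) • F₁) hden.mdiff = 2 * merOf F₁ hG₁.mdiff := by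
    have h3 : (⟨(2 : ℂ) • F₁, hden.mdiff⟩ : Hol) = 2 * ⟨F₁, hG₁.mdiff⟩ := by
      apply Subtype.ext
      funext τ
      show (2 : ℂ) * F₁ τ = ((2 : Hol) : ℍ → ℂ) τ * F₁ τ
      rfl
    rw [merOf, merOf, h3, map_mul, map_ofNat]
  have hF₁m := merOf_ne_zero hG₁.mdiff hF₁0
  have hnum' : merOf (F₁ + -F₂) hnum.mdiff = merOf F₁ hG₁.mdiff - merOf F₂ hG₂.mdiff := by
    rw [merOf_add hG₁.mdiff hG₂.neg.mdiff, sub_eq_add_neg]
    congr 1
    rw [merOf, merOf, ← map_neg]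
    rfl
  set x : Mer := (merOf F₁ hG₁.mdiff - merOf F₂ hG₂.mdiff) / (2 * merOf F₁ hG₁.mdiff) with hx
  have hden0 : (2 : ℂ) • F₁ ≠ 0 := smul_ne_zero two_ne_zero hF₁0
  have hxrel : x * merOf ((2 : ℂ) • F₁) hden.mdiff = merOf (F₁ + -F₂) hnum.mdiff := by
    rw [hden', hnum', hx, div_mul_cancel₀ _ (mul_ne_zero h2C hF₁m)]
  have hxmem : x ∈ MFun (Gamma M) := ⟨1, _, _, hnum, hden, hden0, hxrel⟩
  set z : Mer := merOf F₂ hG₂.mdiff / merOf F₁ hG₁.mdiff with hz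
  have hzmem : z ∈ MFun (Gamma M) := ⟨1, _, _, hG₂, hG₁, hF₁0, div_mul_cancel₀ _ hF₁m⟩
  -- expansions
  have hQ₁ : HasQ 1 (merOf F₁ hG₁.mdiff) (coeffMap A.subtype (1 + 2 * U₁)) := merOf_hasQ_one _ hE₁
  have hQ₂ : HasQ 1 (merOf F₂ hG₂.mdiff) (coeffMap A.subtype (1 + 2 * U₂)) := merOf_hasQ_one _ hE₂
  have hQ2 : HasQ 1 (2 : Mer) (2 : LaurentSeries ℂ) := by
    have h3 := HasQ.algebraMap_hasQ (h := 1) (2 : ℂ)
    rwa [map_ofNat, map_ofNat] at h3
  have hQx : HasQ 1 x ((coeffMap A.subtype (1 + 2 * U₁) - coeffMap A.subtype (1 + 2 * U₂)) /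
      (2 * coeffMap A.subtype (1 + 2 * U₁))) := by
    rw [hx, sub_eq_add_neg, sub_eq_add_neg]
    exact (hQ₁.add hQ₂.neg).div (hQ2.mul hQ₁)
  have hQz : HasQ 1 z (coeffMap A.subtype (1 + 2 * U₂) / coeffMap A.subtype (1 + 2 * U₁)) :=
    hQ₂.div hQ₁
  have h2L : (2 : LaurentSeries ℂ) ≠ 0 := by
    have h3 : (algebraMap ℂ (LaurentSeries ℂ)) 2 = 2 := map_ofNat _ 2
    rw [← h3]
    exact (map_ne_zero _).mpr two_ne_zero
  have hGx : GRed π ((coeffMap A.subtype (1 + 2 * U₁) - coeffMap A.subtype (1 + 2 * U₂)) /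
      (2 * coeffMap A.subtype (1 + 2 * U₁))) (coeffMap π (U₁ - U₂)) := by
    refine ⟨U₁ - U₂, 1 + 2 * U₁, ?_, ?_, ?_⟩
    · rw [hred]; exact one_ne_zero
    · have h3 := hne U₁
      rw [← map_sub]
      have h4 : (1 + 2 * U₁ - (1 + 2 * U₂) : LaurentSeries A) = 2 * (U₁ - U₂) := by ring
      rw [h4, map_mul, map_ofNat]
      field_simp
    · rw [hred, mul_one]
  have hGz : GRed π (coeffMap A.subtype (1 + 2 * U₂) / coeffMap A.subtype (1 + 2 * U₁))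
      (1 : LaurentSeries κ) := by
    refine ⟨1 + 2 * U₂, 1 + 2 * U₁, ?_, ?_, ?_⟩
    · rw [hred]; exact one_ne_zero
    · exact div_mul_cancel₀ _ (hne U₁)
    · rw [hred, hred, mul_one]
  have hRx : (gDatum M π).Red ⟨x, hxmem⟩ (qExpand κ M (coeffMap π (U₁ - U₂))) :=
    ⟨_, hasQ_level hQx, GRed.qExpand hGx M⟩
  have hRz : (gDatum M π).Red ⟨z, hzmem⟩ 1 := by
    have h3 := GRed.qExpand hGz M
    rw [map_one] at h3
    exact ⟨_, hasQ_level hQz, h3⟩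
  -- the action
  have hact : toG (Gamma M) γ • (⟨x, hxmem⟩ : MFun (Gamma M)) = ⟨x, hxmem⟩ + ⟨z, hzmem⟩ := by
    apply Subtype.ext
    show sact γ⁻¹ x = x + z
    rw [← hδ]
    have h3 := sact_ratio hnum.mdiff hden.mdiff hxrel 1 δ
    have e1 : (F₁ + -F₂) ∣[(1 : ℤ)] δ = F₁ + F₂ := by
      rw [SlashAction.add_slash, SlashAction.neg_slash, hsl1, hsl2, neg_neg]
    have e2 : ((2 : ℂ) • F₁) ∣[(1 : ℤ)] δ = (2 : ℂ) • F₁ := by
      rw [SL_smul_slash, hsl1]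
    rw [merOf_congr e1 _ (hG₁.add hG₂).mdiff, merOf_congr e2 _ hden.mdiff, hden',
      merOf_add hG₁.mdiff hG₂.mdiff] at h3
    have h4 : x + z = (merOf F₁ hG₁.mdiff + merOf F₂ hG₂.mdiff) / (2 * merOf F₁ hG₁.mdiff) := by
      rw [hx, hz]
      field_simp
      ring
    rw [h4, eq_div_iff (mul_ne_zero h2C hF₁m)]
    exact h3
  have h5 := hg _ _ hRx
  rw [hact] at h5
  have h6 := (gDatum M π).unique h5 ((gDatum M π).add hRx hRz)
  have h7 : (1 : LaurentSeries κ) = 0 := by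
    have h8 := (add_eq_left (a := qExpand κ M (coeffMap π (U₁ - U₂)))
      (b := (1 : LaurentSeries κ))).mp h6.symm
    exact h8
  exact one_ne_zero h7

theorem neg_mem_Gamma1_of {d : ℕ} {γ : SL(2, ℤ)} (h1 : ((γ 0 0 : ℤ) : ZMod d) = -1)
    (h2 : ((γ 1 1 : ℤ) : ZMod d) = -1) (h3 : ((γ 1 0 : ℤ) : ZMod d) = 0) : -γ ∈ Gamma1 d := by
  rw [Gamma1_mem]
  have e : ∀ i j, (-γ : SL(2, ℤ)) i j = -(γ i j) := fun i j => by
    show (-γ : SL(2, ℤ)).1 i j = _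
    rw [Matrix.SpecialLinearGroup.coe_neg, Matrix.neg_apply]
  refine ⟨?_, ?_, ?_⟩
  · rw [e]; push_cast; rw [h1, neg_neg]
  · rw [e]; push_cast; rw [h2, neg_neg]
  · rw [e]; push_cast; rw [h3, neg_zero]

theorem neg_mem_Gamma_of {d : ℕ} {γ : SL(2, ℤ)} (h1 : ((γ 0 0 : ℤ) : ZMod d) = -1)
    (h2 : ((γ 1 1 : ℤ) : ZMod d) = -1) (h3 : ((γ 1 0 : ℤ) : ZMod d) = 0)
    (h4 : ((γ 0 1 : ℤ) : ZMod d) = 0) : -γ ∈ Gamma d := by
  rw [Gamma_mem]
  have e : ∀ i j, (-γ : SL(2, ℤ)) i j = -(γ i j) := fun i j => by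
    show (-γ : SL(2, ℤ)).1 i j = _
    rw [Matrix.SpecialLinearGroup.coe_neg, Matrix.neg_apply]
  refine ⟨?_, ?_, ?_, ?_⟩
  · rw [e]; push_cast; rw [h1, neg_neg]
  · rw [e]; push_cast; rw [h4, neg_zero]
  · rw [e]; push_cast; rw [h3, neg_zero]
  · rw [e]; push_cast; rw [h2, neg_neg]

theorem intCast_eq_of_dvd {d M : ℕ} (h : d ∣ M) {x y : ℤ} (hxy : (x : ZMod M) = y) :
    (x : ZMod d) = y := by
  have h1 := (ZMod.intCast_eq_intCast_iff_dvd_sub _ _ _).mp hxy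
  exact (ZMod.intCast_eq_intCast_iff_dvd_sub _ _ _).mpr (dvd_trans (by exact_mod_cast h) h1)

/-- **The inertia group is trivial.** -/
theorem InI.eq_one (hπ : Function.Surjective π) (hM : (M : κ) ≠ 0) {g : GalG (Gamma M)}
    (hg : InI π g) : g = 1 := by
  by_cases h2 : (2 : κ) = 0
  swap
  · exact hg.eq_one_of_odd hπ hM h2
  have hodd : Odd M := by
    rw [← Nat.not_even_iff_odd]
    rintro ⟨m, hm⟩
    apply hM
    rw [hm, ← two_mul]
    push_cast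
    rw [h2, zero_mul]
  obtain ⟨γ, rfl⟩ := toG_surjective (Gamma M) g
  obtain ⟨e1, e2, e3⟩ := hg.entries hπ hM
  obtain ⟨hsq, -⟩ := sq_mem_Gamma ⟨e1, e2, e3⟩
  set a := γ 0 0 with ha
  have hdvd : (M : ℤ) ∣ (a - 1) * (a + 1) := by
    rw [← ZMod.intCast_zmod_eq_zero_iff_dvd]
    push_cast
    linear_combination hsq
  have hdvd' : M ∣ (a - 1).natAbs * (a + 1).natAbs := by
    rw [← Int.natAbs_mul]
    exact Int.natCast_dvd.mp hdvd
  obtain ⟨M₁, M₂, h3, h4, h5⟩ := (Nat.dvd_mul).mp hdvd'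
  have hd1 : M₁ ∣ M := ⟨M₂, h5.symm⟩
  have hd2 : M₂ ∣ M := ⟨M₁, by rw [mul_comm]; exact h5.symm⟩
  have a1 : (a : ZMod M₁) = 1 := by
    have h6 : (M₁ : ℤ) ∣ a - 1 := Int.natCast_dvd.mpr h3
    rw [← ZMod.intCast_zmod_eq_zero_iff_dvd] at h6
    push_cast at h6
    exact sub_eq_zero.mp h6
  have a2 : (a : ZMod M₂) = -1 := by
    have h6 : (M₂ : ℤ) ∣ a + 1 := Int.natCast_dvd.mpr h4
    rw [← ZMod.intCast_zmod_eq_zero_iff_dvd] at h6
    push_cast at h6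
    exact eq_neg_of_add_eq_zero_left h6
  have d1 : ((γ 1 1 : ℤ) : ZMod M₁) = 1 := by
    rw [← intCast_eq_of_dvd hd1 e3]; exact a1
  have d2 : ((γ 1 1 : ℤ) : ZMod M₂) = -1 := by
    rw [← intCast_eq_of_dvd hd2 e3]; exact a2
  have hz : ∀ {d : ℕ} {x : ℤ}, d ∣ M → ((x : ℤ) : ZMod M) = 0 → ((x : ℤ) : ZMod d) = 0 := by
    intro d x hd hx
    have := intCast_eq_of_dvd (x := x) (y := 0) hd (by push_cast; exact hx)
    push_cast at this
    exact this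
  rcases Nat.lt_or_ge 1 M₁ with h1lt | h1le
  · rcases Nat.lt_or_ge 1 M₂ with h2lt | h2le
    · exact (hg.false_of_two h2 h5 h1lt h2lt hodd
        ((Gamma1_mem _ _).mpr ⟨a1, d1, hz hd1 e2⟩) (neg_mem_Gamma1_of a2 d2 (hz hd2 e2))).elim
    · have h6 : M₂ = 1 := by
        have : M₂ ≠ 0 := by
          rintro rfl
          exact NeZero.ne M (by rw [← h5, mul_zero])
        omega
      rw [h6, mul_one] at h5
      subst h5
      exact toG_eq_one_of_mem _ (Gamma_mem.mpr ⟨a1, e1, e2, d1⟩)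
  · have h6 : M₁ = 1 := by
      have : M₁ ≠ 0 := by
        rintro rfl
        exact NeZero.ne M (by rw [← h5, zero_mul])
      omega
    rw [h6, one_mul] at h5
    subst h5
    have h7 := toG_eq_one_of_mem _ (neg_mem_Gamma_of a2 d2 e2 e1)
    have h8 : γ = (-1) * (-γ) := by rw [neg_mul_neg, one_mul]
    rw [h8, map_mul, toG_neg_one, one_mul]
    exact h7

/-- **The degree theorem.** -/
theorem relfinrank_le_of_level (hπ : Function.Surjective π) (hM : (M : κ) ≠ 0)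
    {F : IntermediateField ℂ (MFun (Gamma M))} (hF : ℂ⟮jM (Gamma M)⟯ ≤ F) :
    0 < relfinrank κ⟮qExpand κ M (jqModC κ)⟯ (resF (gDatum M π) hπ F) ∧
    relfinrank ℂ⟮jM (Gamma M)⟯ F ≤
      relfinrank κ⟮qExpand κ M (jqModC κ)⟯ (resF (gDatum M π) hπ F) := by
  obtain ⟨x₀, xb, hyp, -⟩ := exists_galHyp (M := M) hπ hM
  have h1 := relfinrank_le (G := GalG (Gamma M)) (hπ := hπ) (R := gDatum M π) hF
    (fun y hy g => hyp.smul_of_mem hy g) hyp.mem_adjoin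
    (fun g => by
      rw [← MulAction.mem_stabilizer_iff, stab_eq_top hπ hM]
      exact Subgroup.mem_top g)
    (fun g hg => InI.eq_one hπ hM hg)
  rw [resF_adjoin hπ hyp.red_j hyp.transc] at h1
  exact h1

end Fermat.Agent.DS.X1
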