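import Mathlib
import Fermat.Agent.DS.X1.GIn
import Fermat.Agent.DS.X1.ApiC
import Fermat.Agent.DS.X1.ApiRed
import Fermat.Agent.S25.PropRig

/-!
# The degree of `F1` over `K(j)` does not drop under reduction

* `emb1 : F1 ℂ M →ₐ[ℂ] MFun (Gamma M)`;
* `finrank_F1_complex`: `[F1 ℂ M : ℂ(j)] ≤ [F1 κ M : κ(j)]`, both finite;
* `finrank_F1_le`: the same for `Qbar` in place of `ℂ`.
-/

set_option autoImplicit false
set_option linter.unusedSectionVars false

noncomputable section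

open UpperHalfPlane ModularForm MatrixGroups CongruenceSubgroup Matrix.SpecialLinearGroup
open IntermediateField
open scoped Manifold Pointwise
open Fermat.Agent.IntStr FermatJ Fermat.Agent.JAN.MerField Fermat.Agent.JAN.AnFun
open Fermat.Agent.MFF Fermat.Agent.JRED ModularCurve

namespace Fermat.Agent.DS.X1

variable {M : ℕ} [NeZero M]

/-! ### The embedding -/

theorem exists_mem_of_F1 {φ : LaurentSeries ℂ} (hφ : φ ∈ F1 ℂ M) :
    ∃ x ∈ MFun (Gamma1 M), HasQ 1 x φ := by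
  obtain ⟨k, f, g, hf, hg, hg0, h⟩ := mem_F1_complex.mp hφ
  have hf' : GF (Gamma1 M) k f := GF.of_isMG hf
  have hg' : GF (Gamma1 M) k g := GF.of_isMG hg
  refine ⟨merOf f hf'.mdiff / merOf g hg'.mdiff, ⟨_, f, g, hf', hg', hg0,
    div_mul_cancel₀ _ (merOf_ne_zero hg'.mdiff hg0)⟩, ?_⟩
  have h1 : φ = LQ f / LQ g := by
    rw [← h, mul_div_cancel_right₀]
    intro h0
    exact hg0 ((LQ_eq_zero hg).mp h0)
  rw [h1]
  exact (merOf_hasQ_one hf'.mdiff (hasExp_LQ_of_isMG hf)).div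
    (merOf_hasQ_one hg'.mdiff (hasExp_LQ_of_isMG hg))

theorem mem_F1_of_hasQ {x : Mer} (hx : x ∈ MFun (Gamma1 M)) {φ : LaurentSeries ℂ}
    (h : HasQ 1 x φ) : φ ∈ F1 ℂ M := by
  obtain ⟨k, f, g, hf, hg, hg0, h1⟩ := hx
  refine mem_F1_complex.mpr ⟨k, f, g, hf.isMG, hg.isMG, hg0, ?_⟩
  have h2 : x = merOf f hf.mdiff / merOf g hg.mdiff := by
    rw [← h1, mul_div_cancel_right₀ _ (merOf_ne_zero hg.mdiff hg0)]
  have h3 : HasQ 1 x (LQ f / LQ g) := by
    rw [h2]
    exact (merOf_hasQ_one hf.mdiff (hasExp_LQ_of_isMG hf.isMG)).div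
      (merOf_hasQ_one hg.mdiff (hasExp_LQ_of_isMG hg.isMG))
  rw [h.unique h3]
  exact div_mul_cancel₀ _ fun h0 => hg0 ((LQ_eq_zero hg.isMG).mp h0)

theorem F1_le_qField : F1 ℂ M ≤ qField := fun _ hφ => by
  obtain ⟨x, -, hx⟩ := exists_mem_of_F1 hφ
  exact ⟨x, hx⟩

theorem Gamma_le_Gamma1' (M : ℕ) : Gamma M ≤ Gamma1 M := gamma_le_gamma1 M M dvd_rfl

variable (M) in
/-- The function field of `X₁(M)` over `ℂ` as a field of meromorphic functions. -/
def emb1 : F1 ℂ M →ₐ[ℂ] MFun (Gamma M) :=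
  (an.comp (IntermediateField.inclusion F1_le_qField)).codRestrict
    (MFun (Gamma M)).toSubalgebra (by
      intro x
      obtain ⟨y, hy, h1⟩ := exists_mem_of_F1 x.2
      have h2 := hasQ_an (IntermediateField.inclusion F1_le_qField x)
      have h3 : an (IntermediateField.inclusion F1_le_qField x) = y := h2.unique' h1
      show an (IntermediateField.inclusion F1_le_qField x) ∈ MFun (Gamma M)
      rw [h3]
      exact MFun_mono (Gamma_le_Gamma1' M) hy)

theorem hasQ_emb1 (x : F1 ℂ M) : HasQ 1 (emb1 M x : Mer) (x : LaurentSeries ℂ) :=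
  hasQ_an (IntermediateField.inclusion F1_le_qField x)

theorem emb1_mem (x : F1 ℂ M) : (emb1 M x : Mer) ∈ MFun (Gamma1 M) := by
  obtain ⟨y, hy, h1⟩ := exists_mem_of_F1 x.2
  rw [(hasQ_emb1 x).unique' h1]
  exact hy

theorem emb1_j : emb1 M (j1 ℂ M) = jM (Gamma M) := by
  apply Subtype.ext
  have h1 := hasQ_emb1 (j1 ℂ M)
  have h2 := hasQ_jMer
  rw [jqC_eq] at h2
  exact h1.unique' h2

theorem mem_range_emb1 {x : MFun (Gamma M)} (hx : (x : Mer) ∈ MFun (Gamma1 M)) :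
    ∃ y, emb1 M y = x := by
  obtain ⟨k, f, g, hf, hg, hg0, h1⟩ := hx
  have h2 : (x : Mer) = merOf f hf.mdiff / merOf g hg.mdiff := by
    rw [← h1, mul_div_cancel_right₀ _ (merOf_ne_zero hg.mdiff hg0)]
  have h3 : HasQ 1 (x : Mer) (LQ f / LQ g) := by
    rw [h2]
    exact (merOf_hasQ_one hf.mdiff (hasExp_LQ_of_isMG hf.isMG)).div
      (merOf_hasQ_one hg.mdiff (hasExp_LQ_of_isMG hg.isMG))
  have h4 : LQ f / LQ g ∈ F1 ℂ M := mem_F1_of_hasQ ⟨k, f, g, hf, hg, hg0, h1⟩ h3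
  exact ⟨⟨_, h4⟩, Subtype.ext ((hasQ_emb1 ⟨_, h4⟩).unique' h3)⟩

/-- `MFun (Gamma M)` is finite over `ℂ(j)`. -/
theorem finite_MFun (Γ : Subgroup SL(2, ℤ)) [Γ.Normal] [Γ.FiniteIndex] :
    FiniteDimensional ℂ⟮jM Γ⟯ (MFun Γ) := by
  have h1 : FiniteDimensional (FixedPoints.subfield (GalG Γ) (MFun Γ)) (MFun Γ) := inferInstance
  have hle : (FixedPoints.subfield (GalG Γ) (MFun Γ)) ≤ ℂ⟮jM Γ⟯.toSubfield := fun y hy =>
    mem_adjoin_j_of_fixed fun γ => hy (toG Γ γ)
  let _ : Algebra (FixedPoints.subfield (GalG Γ) (MFun Γ)) ℂ⟮jM Γ⟯ :=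
    (Subfield.inclusion hle).toAlgebra
  have : IsScalarTower (FixedPoints.subfield (GalG Γ) (MFun Γ)) ℂ⟮jM Γ⟯ (MFun Γ) :=
    IsScalarTower.of_algebraMap_eq fun x => rfl
  exact FiniteDimensional.right (FixedPoints.subfield (GalG Γ) (MFun Γ)) ℂ⟮jM Γ⟯ (MFun Γ)

/-- relative degrees through an embedding -/
theorem relfinrank_map_top {K L L' : Type*} [Field K] [Field L] [Field L'] [Algebra K L]
    [Algebra K L'] (φ : L →ₐ[K] L') (j : L) (j' : L') (hj : φ j = j') :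
    relfinrank K⟮j'⟯ ((⊤ : IntermediateField K L).map φ) = Module.finrank K⟮j⟯ L := by
  have h1 : K⟮j'⟯ = (K⟮j⟯).map φ := by
    rw [IntermediateField.adjoin_map, Set.image_singleton, hj]
  rw [h1, relfinrank_map_map, relfinrank_top_right]

theorem finite_F1_complex (M : ℕ) [NeZero M] : FiniteDimensional ℂ⟮j1 ℂ M⟯ (F1 ℂ M) := by
  have := finite_MFun (Gamma M)
  -- linearly independent families are bounded
  have hbd : ∀ s : Finset (F1 ℂ M), LinearIndependent ℂ⟮j1 ℂ M⟯ (fun x : s => (x : F1 ℂ M)) →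
      s.card ≤ Module.finrank ℂ⟮jM (Gamma M)⟯ (MFun (Gamma M)) := by
    intro s hs
    have h2 : LinearIndependent ℂ⟮jM (Gamma M)⟯ (fun x : s => emb1 M (x : F1 ℂ M)) := by
      rw [Fintype.linearIndependent_iff] at hs ⊢
      intro g hg
      let e := simpleEquiv (emb1 M) (j1 ℂ M) (jM (Gamma M)) emb1_j
      have h3 := hs (fun i => e.symm (g i)) (by
        apply (emb1 M).toRingHom.injective
        show emb1 M _ = emb1 M 0
        rw [map_zero, map_sum, ← hg]
        refine Finset.sum_congr rfl fun i _ => ?_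
        rw [IntermediateField.smul_def, IntermediateField.smul_def, smul_eq_mul, smul_eq_mul,
          map_mul]
        congr 1
        rw [← coe_simpleEquiv (emb1 M) (j1 ℂ M) (jM (Gamma M)) emb1_j]
        congr 1
        exact e.apply_symm_apply (g i))
      intro i
      have h4 := congrArg e (h3 i)
      rwa [e.apply_symm_apply, map_zero] at h4
    have h3 := h2.fintype_card_le_finrank
    rwa [Fintype.card_coe] at h3
  exact Module.rank_lt_aleph0_iff.mp ((rank_le hbd).trans_lt Cardinal.natCast_lt_aleph0)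

/-! ### The residue field -/

section Res

variable {κ : Type} [Field κ] {A : ValuationSubring ℂ} {π : A →+* κ}

theorem red_emb1 {x : F1 ℂ M} {u : LaurentSeries κ} (h : GRed π (x : LaurentSeries ℂ) u) :
    (gDatum M π).Red (emb1 M x) (qExpand κ M u) :=
  ⟨_, hasQ_level (hasQ_emb1 x), GRed.qExpand h M⟩

/-- The reduction of an element of `F1 ℂ M` in `q^{1/M}` is one in `q`. -/
theorem exists_of_red_emb1 (hπ : Function.Surjective π) {x : F1 ℂ M} {u : LaurentSeries κ}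
    (h : (gDatum M π).Red (emb1 M x) u) :
    ∃ v, GRed π (x : LaurentSeries ℂ) v ∧ u = qExpand κ M v := by
  by_cases hx : x = 0
  · subst hx
    refine ⟨0, GRed.zero, ?_⟩
    rw [map_zero] at h ⊢
    exact (gDatum M π).unique h (gDatum M π).zero
  obtain ⟨c, hc, u₀, hu₀, h1⟩ := exists_normalize_of_mem_fgField π (mem_fgField_of_mem_F1 x.2)
      (fun h => hx (Subtype.ext h))
  have hcx : ((c • x : F1 ℂ M) : LaurentSeries ℂ) =
      algebraMap ℂ (LaurentSeries ℂ) c * (x : LaurentSeries ℂ) := by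
    rw [coe_smul_F1, smul_eq_mul_MK]
  rw [← hcx] at h1
  have h2 : (gDatum M π).Red (algebraMap ℂ (MFun (Gamma M)) c * emb1 M x) (qExpand κ M u₀) := by
    have h3 := red_emb1 (π := π) h1
    have h4 : emb1 M (c • x) = algebraMap ℂ (MFun (Gamma M)) c * emb1 M x := by
      rw [Algebra.smul_def, map_mul, AlgHom.commutes]
    rwa [h4] at h3
  by_cases hcA : c⁻¹ ∈ A
  · have h3 : GRed π (x : LaurentSeries ℂ) (algebraMap κ (LaurentSeries κ) (π ⟨c⁻¹, hcA⟩) * u₀) := by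
      have h4 := (GRed.const (π := π) ⟨c⁻¹, hcA⟩).mul h1
      rw [hcx, ← mul_assoc, ← map_mul, inv_mul_cancel₀ hc, map_one, one_mul] at h4
      exact h4
    exact ⟨_, h3, (gDatum M π).unique h (red_emb1 h3)⟩
  · exfalso
    obtain ⟨h3, h4⟩ := res_inv_eq_zero hπ hcA
    rw [inv_inv] at h3
    have hcA' : c ∈ A := h3
    have h5 : π ⟨c, hcA'⟩ = 0 := by
      rw [← h4]
      congr 1
      exact Subtype.ext (inv_inv c).symm
    have h6 := RedDatum.smul_mem hcA' h
    rw [h5, map_zero, zero_mul] at h6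
    have h7 := (gDatum M π).unique h2 h6
    exact hu₀ ((map_eq_zero_iff _ (qExpand_injective M)).mp h7)

/-- **The degree theorem for `F1` over `ℂ`.** -/
theorem finrank_F1_complex (hπ : Function.Surjective π) (hM : (M : κ) ≠ 0) :
    FiniteDimensional κ⟮j1 κ M⟯ (F1 κ M) ∧
      Module.finrank ℂ⟮j1 ℂ M⟯ (F1 ℂ M) ≤ Module.finrank κ⟮j1 κ M⟯ (F1 κ M) := by
  set F : IntermediateField ℂ (MFun (Gamma M)) :=
    (⊤ : IntermediateField ℂ (F1 ℂ M)).map (emb1 M) with hF
  have hjF : ℂ⟮jM (Gamma M)⟯ ≤ F := by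
    rw [adjoin_simple_le_iff]
    exact ⟨j1 ℂ M, mem_top, emb1_j⟩
  obtain ⟨h1, h2⟩ := relfinrank_le_of_level (M := M) hπ hM hjF
  set φ : F1 κ M →ₐ[κ] LaurentSeries κ := (qExpandAlg κ M).comp (F1 κ M).val with hφ
  have h3 : resF (gDatum M π) hπ F = (⊤ : IntermediateField κ (F1 κ M)).map φ := by
    apply le_antisymm
    · rintro u ⟨_, ⟨x, -, rfl⟩, hu⟩
      obtain ⟨v, hv, rfl⟩ := exists_of_red_emb1 hπ hu
      exact ⟨⟨v, mem_F1_of_GRed hπ x.2 hv⟩, mem_top, rfl⟩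
    · rintro _ ⟨v, -, rfl⟩
      obtain ⟨x, hx, hxv⟩ := exists_GRed_F1 hπ v.2
      exact ⟨emb1 M ⟨x, hx⟩, ⟨⟨x, hx⟩, mem_top, rfl⟩, red_emb1 (x := ⟨x, hx⟩) hxv⟩
  rw [h3, relfinrank_map_top φ (j1 κ M) (qExpand κ M (jqModC κ)) rfl] at h1 h2
  rw [hF, relfinrank_map_top (emb1 M) (j1 ℂ M) (jM (Gamma M)) emb1_j] at h2
  exact ⟨Module.finite_of_finrank_pos h1, h2⟩

end Res

/-! ### Over `Qbar` -/

section Qbar

variable {K : Type} [Field K] [Algebra K ℂ] {κ : Type} [Field κ] {A : ValuationSubring K}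
  {π : A →+* κ}

/-- Extension of a residue map to `ℂ`. -/
theorem exists_ext_complex (hπ : Function.Surjective π) :
    ∃ (A' : ValuationSubring ℂ) (κ' : Type) (_ : Field κ') (π' : A' →+* κ') (ψ : κ →+* κ')
      (α : A →+* A'), Function.Surjective π' ∧ (∀ a, (α a : ℂ) = algebraMap K ℂ a) ∧
      ∀ a, π' (α a) = ψ (π a) := by
  obtain ⟨V, α, hα, hcomm⟩ := Fermat.Agent.S25.exists_val_ext A K ℂ (algebraMap K ℂ)
  let κ' := IsLocalRing.ResidueField V
  let π' : V →+* κ' := IsLocalRing.residue V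
  have hker : RingHom.ker π ≤ RingHom.ker (π'.comp α) := fun a ha => by
    have h1 : ¬ IsUnit a := fun hu => by
      have := hu.map π
      rw [RingHom.mem_ker.mp ha] at this
      exact not_isUnit_zero this
    have h2 : ¬ IsUnit (α a) := fun h => h1 (hα.map_nonunit a h)
    rw [RingHom.mem_ker]
    exact (IsLocalRing.residue_eq_zero_iff _).mpr ((IsLocalRing.mem_maximalIdeal _).mpr h2)
  refine ⟨V, κ', inferInstance, π', RingHom.liftOfSurjective π hπ ⟨π'.comp α, hker⟩, α,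
    IsLocalRing.residue_surjective, ?_, ?_⟩
  · intro a
    exact (congrArg (fun f => f a) hcomm).symm
  · intro a
    exact (RingHom.liftOfRightInverse_comp_apply π _ (Function.rightInverse_surjInv hπ)
      ⟨π'.comp α, hker⟩ a).symm

/-- **The degree theorem for `F1`.** -/
theorem finrank_F1_le [CharZero K] (hπ : Function.Surjective π) (hM : (M : κ) ≠ 0) :
    FiniteDimensional K⟮j1 K M⟯ (F1 K M) ∧ FiniteDimensional κ⟮j1 κ M⟯ (F1 κ M) ∧
      Module.finrank K⟮j1 K M⟯ (F1 K M) ≤ Module.finrank κ⟮j1 κ M⟯ (F1 κ M) := by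
  obtain ⟨A', κ', hκ', π', ψ, -, hπ', -, -⟩ := exists_ext_complex hπ
  let _ : Algebra κ κ' := ψ.toAlgebra
  have hM' : (M : κ') ≠ 0 := by
    have := (map_ne_zero ψ).mpr hM
    rwa [map_natCast] at this
  obtain ⟨f1, f2⟩ := finrank_F1_complex (M := M) hπ' hM'
  have f3 := finite_F1_complex M
  have c1 := constExt_incF K ℂ M
  have c2 := constExt_incF κ κ' M
  have t1 := transcendental_j1 K M
  have t2 := transcendental_j1 κ M
  rw [← incF_j1 (K := K) (K' := ℂ) M] at f2 f3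
  rw [← incF_j1 (K := κ) (K' := κ') M] at f1 f2
  have g1 := c1.finiteDimensional t1
  have g2 := c2.finiteDimensional t2
  refine ⟨g1, g2, ?_⟩
  rw [← (c1.finrank_eq t1).2, ← (c2.finrank_eq t2).2]
  exact f2

end Qbar

section QbarQ

variable {K : Type} [Field K] [Algebra ℚ K] [Algebra.IsAlgebraic ℚ K] {κ : Type} [Field κ]
  {A : ValuationSubring K} {π : A →+* κ}

/-- **The degree theorem for `F1`**, over an algebraic extension of `ℚ`. -/
theorem finrank_F1_le_alg (hπ : Function.Surjective π) (hM : (M : κ) ≠ 0) :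
    FiniteDimensional K⟮j1 K M⟯ (F1 K M) ∧ FiniteDimensional κ⟮j1 κ M⟯ (F1 κ M) ∧
      Module.finrank K⟮j1 K M⟯ (F1 K M) ≤ Module.finrank κ⟮j1 κ M⟯ (F1 κ M) := by
  let _ : Algebra K ℂ := (IsAlgClosed.lift (R := ℚ) (S := K) (M := ℂ)).toRingHom.toAlgebra
  have : CharZero K := algebraRat.charZero K
  exact finrank_F1_le hπ hM

end QbarQ

end Fermat.Agent.DS.X1
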