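import Mathlib
import Fermat.Agent.DS.X1.DegF1

/-!
# The diamond automorphisms preserve the Gauss ring of `F1`

* `exists_red_of_sact_complex`: over `ℂ`;
* `exists_red_of_sact`: over a subfield `K` of `ℂ`.
-/

set_option autoImplicit false
set_option linter.unusedSectionVars false

noncomputable section

open UpperHalfPlane ModularForm MatrixGroups CongruenceSubgroup Matrix.SpecialLinearGroup
open IntermediateField
open scoped Manifold Pointwise
open Fermat.Agent.IntStr FermatJ Fermat.Agent.JAN.MerField Fermat.Agent.JAN.AnFun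
open Fermat.Agent.MFF Fermat.Agent.JRED ModularCurve

namespace Fermat.Agent.DS.X1

variable {M : ℕ} [NeZero M]

section Complex

variable {κ : Type} [Field κ] {A : ValuationSubring ℂ} {π : A →+* κ}

/-- If `y = x ∘ γ` and `x` has a reduction, so does `y`; nonzero reductions are preserved. -/
theorem exists_red_of_sact_complex (hπ : Function.Surjective π) (hM : (M : κ) ≠ 0)
    {x y : F1 ℂ M} {γ : SL(2, ℤ)} (h : sact γ (emb1 M x : Mer) = (emb1 M y : Mer))
    {u : LaurentSeries κ} (hu : GRed π (x : LaurentSeries ℂ) u) :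
    ∃ v, GRed π (y : LaurentSeries ℂ) v ∧ (u ≠ 0 → v ≠ 0) := by
  have hstab : ∀ h : GalG (Gamma M), h • ring (gDatum M π) hπ = ring (gDatum M π) hπ := by
    intro h
    rw [← MulAction.mem_stabilizer_iff, stab_eq_top hπ hM]
    exact Subgroup.mem_top h
  have hxy : toG (Gamma M) γ⁻¹ • emb1 M x = emb1 M y := by
    apply Subtype.ext
    rw [coe_toG_smul, inv_inv]
    exact h
  have hxy' : toG (Gamma M) γ • emb1 M y = emb1 M x := by
    rw [← hxy, smul_smul, ← map_mul, mul_inv_cancel, map_one, one_smul]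
  obtain ⟨v', hv'⟩ := smul_mem_ring (hstab (toG (Gamma M) γ⁻¹))
    (⟨_, red_emb1 hu⟩ : emb1 M x ∈ ring (gDatum M π) hπ)
  rw [hxy] at hv'
  obtain ⟨v, hv, rfl⟩ := exists_of_red_emb1 hπ hv'
  refine ⟨v, hv, fun hu0 hv0 => hu0 ?_⟩
  subst hv0
  rw [map_zero] at hv'
  have h1 := red_zero_smul (hstab (toG (Gamma M) γ)) hv'
  rw [hxy'] at h1
  have h2 := (gDatum M π).unique (red_emb1 hu) h1
  exact (map_eq_zero_iff _ (qExpand_injective M)).mp h2

end Complex

section Sub

variable {K : Type} [Field K] [Algebra K ℂ] {κ : Type} [Field κ] {A : ValuationSubring K}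
  {π : A →+* κ}

/-- Reductions under extension of the valuation ring. -/
theorem GRed.ext {K' κ' : Type*} [Field K'] [Field κ'] {A' : ValuationSubring K'}
    {π' : A' →+* κ'} {i : K →+* K'} {ψ : κ →+* κ'} {α : A →+* A'}
    (h1 : ∀ a, (α a : K') = i a) (h2 : ∀ a, π' (α a) = ψ (π a)) {x : LaurentSeries K}
    {u : LaurentSeries κ} (h : GRed π x u) : GRed π' (coeffMap i x) (coeffMap ψ u) := by
  obtain ⟨a, b, hb, h3, h4⟩ := h
  have e1 : ∀ z : LaurentSeries A, coeffMap A'.subtype (coeffMap α z) =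
      coeffMap i (coeffMap A.subtype z) := by
    intro z
    ext n
    simp only [coeffMap_coeff]
    exact h1 _
  have e2 : ∀ z : LaurentSeries A, coeffMap π' (coeffMap α z) = coeffMap ψ (coeffMap π z) := by
    intro z
    ext n
    simp only [coeffMap_coeff]
    exact h2 _
  refine ⟨coeffMap α a, coeffMap α b, ?_, ?_, ?_⟩
  · rw [e2]
    intro h0
    exact hb (coeffMap_injective ψ.injective (h0.trans (map_zero _).symm))
  · rw [e1, e1, ← map_mul, h3]
  · rw [e2, e2, ← map_mul, h4]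

/-- **Diamonds preserve the Gauss ring.** If `y = x ∘ γ` (over `ℂ`) and `x` has a reduction, so does
`y`; nonzero reductions are preserved. -/
theorem exists_red_of_sact (hπ : Function.Surjective π) (hM : (M : κ) ≠ 0)
    {x y : F1 K M} {γ : SL(2, ℤ)}
    (h : sact γ (emb1 M (incF K ℂ M x) : Mer) = (emb1 M (incF K ℂ M y) : Mer))
    {u : LaurentSeries κ} (hu : GRed π (x : LaurentSeries K) u) :
    ∃ v, GRed π (y : LaurentSeries K) v ∧ (u ≠ 0 → v ≠ 0) := by
  obtain ⟨A', κ', hκ', π', ψ, α, hπ', hα1, hα2⟩ := exists_ext_complex hπ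
  have hM' : (M : κ') ≠ 0 := by
    have := (map_ne_zero ψ).mpr hM
    rwa [map_natCast] at this
  have hu' : GRed π' ((incF K ℂ M x : F1 ℂ M) : LaurentSeries ℂ) (coeffMap ψ u) := by
    rw [coe_incF]
    exact GRed.ext hα1 hα2 hu
  obtain ⟨v', hv', hne⟩ := exists_red_of_sact_complex hπ' hM' h hu'
  by_cases hy : y = 0
  · subst hy
    refine ⟨0, GRed.zero, fun hu0 _ => ?_⟩
    have h1 : v' = 0 := by
      rw [coe_incF] at hv'
      have h2 : ((0 : F1 K M) : LaurentSeries K) = 0 := rfl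
      rw [h2, map_zero] at hv'
      exact hv'.unique GRed.zero
    exact hne (fun h0 => hu0 (coeffMap_injective ψ.injective (h0.trans (map_zero _).symm))) h1
  obtain ⟨c, hc, u₀, hu₀, h1⟩ := exists_normalize_of_mem_fgField π (mem_fgField_of_mem_F1 y.2)
      (fun h => hy (Subtype.ext h))
  have h1' := GRed.ext hα1 hα2 h1
  rw [map_mul] at h1'
  have hcc : coeffMap (algebraMap K ℂ) (algebraMap K (LaurentSeries K) c) =
      algebraMap ℂ (LaurentSeries ℂ) (algebraMap K ℂ c) := by
    rw [Fermat.Agent.JRED.algebraMap_eq_C, coeffMap_const, ← Fermat.Agent.JRED.algebraMap_eq_C]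
  rw [hcc] at h1'
  rw [coe_incF] at hv'
  have hu₀' : coeffMap ψ u₀ ≠ 0 := fun h0 =>
    hu₀ (coeffMap_injective ψ.injective (h0.trans (map_zero _).symm))
  by_cases hcA : c⁻¹ ∈ A
  · have h3 : GRed π (y : LaurentSeries K)
        (algebraMap κ (LaurentSeries κ) (π ⟨c⁻¹, hcA⟩) * u₀) := by
      have h4 := (GRed.const (π := π) ⟨c⁻¹, hcA⟩).mul h1
      rw [← mul_assoc, ← map_mul, inv_mul_cancel₀ hc, map_one, one_mul] at h4
      exact h4
    refine ⟨_, h3, fun hu0 h0 => ?_⟩
    have h5 := GRed.ext hα1 hα2 h3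
    rw [h0, map_zero] at h5
    exact hne (fun h0 => hu0 (coeffMap_injective ψ.injective (h0.trans (map_zero _).symm)))
      (hv'.unique h5)
  · exfalso
    obtain ⟨h3, h4⟩ := res_inv_eq_zero hπ hcA
    have hcA' : c ∈ A := by rw [inv_inv] at h3; exact h3
    have h5 : π ⟨c, hcA'⟩ = 0 := by
      rw [← h4]
      congr 1
      exact Subtype.ext (inv_inv c).symm
    have h6 := (GRed.const (π := π') (α ⟨c, hcA'⟩)).mul hv'
    rw [hα2, h5, map_zero, map_zero, zero_mul] at h6
    have h7 : ((α ⟨c, hcA'⟩ : A') : ℂ) = algebraMap K ℂ c := hα1 _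
    rw [h7] at h6
    exact hu₀' (h1'.unique h6)

end Sub

end Fermat.Agent.DS.X1
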