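import Fermat.Agent.DS.X1.ApiDia
import Fermat.Agent.DS.X1.GDia

/-!
# Diamonds as an action on meromorphic functions; diamonds preserve the Gauss ring

* `sact_emb1_complex`, `sact_emb1`: `x ∘ γ = ⟨γ₁₁⟩ x` for `γ ∈ Γ₀(M)`;
* `exists_red_dia`: diamonds preserve the Gauss ring of `F1 K M` and nonzero reductions.
-/

set_option autoImplicit false
set_option linter.unusedSectionVars false

noncomputable section

open UpperHalfPlane ModularForm MatrixGroups CongruenceSubgroup Matrix.SpecialLinearGroup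
open IntermediateField
open scoped Manifold Pointwise
open Fermat.Agent.IntStr FermatJ Fermat.Agent.JAN.MerField Fermat.Agent.JAN.AnFun
open Fermat.Agent.MFF Fermat.Agent.JRED ModularCurve

namespace Fermat.Agent.DS.X1

open Hecke1

variable {M : ℕ} [NeZero M]

theorem emb1_mul_merOf {k : ℤ} {f g : ℍ → ℂ} (hf : GF (Gamma1 M) k f) (hg : GF (Gamma1 M) k g)
    {x : F1 ℂ M} (h : (x : LaurentSeries ℂ) * LQ g = LQ f) :
    (emb1 M x : Mer) * merOf g hg.mdiff = merOf f hf.mdiff := by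
  have h1 := (hasQ_emb1 x).mul (merOf_hasQ_one hg.mdiff (hasExp_LQ_of_isMG hg.isMG))
  rw [h] at h1
  exact h1.unique' (merOf_hasQ_one hf.mdiff (hasExp_LQ_of_isMG hf.isMG))

/-- Over `ℂ`, the diamond automorphism `⟨γ₁₁⟩` is composition with `γ`. -/
theorem sact_emb1_complex {γ : SL(2, ℤ)} (hγ : γ ∈ Gamma0 M) (x : F1 ℂ M) :
    sact γ (emb1 M x : Mer) = (emb1 M (dia M (unit11 γ hγ) ℂ x) : Mer) := by
  obtain ⟨k, f, g, hf, hg, hg0, h⟩ := mem_F1_complex.mp x.2
  have hf' : GF (Gamma1 M) k f := GF.of_isMG hf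
  have hg' : GF (Gamma1 M) k g := GF.of_isMG hg
  have hfγ : GF (Gamma1 M) k (f ∣[k] γ) := GF.of_isMG (IsMG.slash_Gamma0 hf hγ)
  have hgγ : GF (Gamma1 M) k (g ∣[k] γ) := GF.of_isMG (IsMG.slash_Gamma0 hg hγ)
  have h1 := sact_ratio hf'.mdiff hg'.mdiff (emb1_mul_merOf hf' hg' h) k γ
  have h2 := emb1_mul_merOf hfγ hgγ (dia_complex_slash hf hg h hγ)
  have h3 : merOf (g ∣[k] γ) hgγ.mdiff ≠ 0 := merOf_ne_zero _ (slash_ne_zero hg0 k γ)
  exact mul_right_cancel₀ h3 (h1.trans h2.symm)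

/-- The diamond automorphism `⟨γ₁₁⟩` is composition with `γ`. -/
theorem sact_emb1 {K : Type} [Field K] [CharZero K] [Algebra K ℂ] {γ : SL(2, ℤ)}
    (hγ : γ ∈ Gamma0 M) (x : F1 K M) :
    sact γ (emb1 M (incF K ℂ M x) : Mer) =
      (emb1 M (incF K ℂ M (dia M (unit11 γ hγ) K x)) : Mer) := by
  rw [sact_emb1_complex hγ, dia_incF]

/-- **Diamonds preserve the Gauss ring** (and nonzero reductions). -/
theorem exists_red_dia {K : Type} [Field K] [CharZero K] [Algebra K ℂ] {κ : Type} [Field κ]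
    {A : ValuationSubring K} {π : A →+* κ} (hπ : Function.Surjective π) (hM : (M : κ) ≠ 0)
    (d : (ZMod M)ˣ) (x : F1 K M) {u : LaurentSeries κ} (hu : GRed π (x : LaurentSeries K) u) :
    ∃ v, GRed π (dia M d K x : LaurentSeries K) v ∧ (u ≠ 0 → v ≠ 0) := by
  have hd : unit11 (rep M d) (rep_mem d) = d := Units.ext (rep_11 d)
  have h1 := sact_emb1 (rep_mem d) x
  rw [hd] at h1
  exact exists_red_of_sact hπ hM h1 hu

/-- The same, with the reduction datum `redF1`. -/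
theorem exists_red_dia' {K : Type} [Field K] [CharZero K] [Algebra K ℂ] {κ : Type} [Field κ]
    {A : ValuationSubring K} {π : A →+* κ} (hπ : Function.Surjective π) (hM : (M : κ) ≠ 0)
    (d : (ZMod M)ˣ) {x : F1 K M} {u : F1 κ M} (hu0 : u ≠ 0) (hu : (redF1 hπ M).Red x u) :
    ∃ v : F1 κ M, v ≠ 0 ∧ (redF1 hπ M).Red (dia M d K x) v := by
  obtain ⟨v, hv, hne⟩ := exists_red_dia hπ hM d x (redF1_red.mp hu)
  refine ⟨⟨v, mem_F1_of_GRed hπ (dia M d K x).2 hv⟩, fun h0 => ?_, hv⟩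
  exact hne (fun h => hu0 (Subtype.ext h)) (congrArg Subtype.val h0)

end Fermat.Agent.DS.X1
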