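import Fermat.Agent.DS.X1.ApiBase
import Fermat.Agent.JRED.ESGalois

set_option autoImplicit false
set_option linter.unusedSectionVars false

/-!
# The coefficientwise action on the function field of `X₁(M)`

* `coeffSemi1`: ring automorphisms of `K` act on `F1 K M`;
* `galF1`: the Galois action on `F1 Qbar M`;
* `gred_coeffMap`: compatibility with reductions.
-/

noncomputable section

open ModularCurve AlgebraicCurve

namespace Fermat.Agent.DS.X1

open Fermat.Agent.JRED

section General

variable {K : Type*} [Field K] (M : ℕ) [NeZero M]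

/-- The action of a ring automorphism of `K` on `F1 K M`. -/
def coeffRingAut1 (τ : K ≃+* K) : F1 K M ≃+* F1 K M where
  toFun x := ⟨coeffMap (τ : K →+* K) (x : LaurentSeries K), coeffMap_mem_F1 _ x.2⟩
  invFun x := ⟨coeffMap (τ.symm : K →+* K) (x : LaurentSeries K), coeffMap_mem_F1 _ x.2⟩
  left_inv x := Subtype.ext <| by
    show coeffMap (τ.symm : K →+* K) (coeffMap (τ : K →+* K) (x : LaurentSeries K)) = x
    rw [coeffMap_coeffMap,
      coeffMap_congr (g := RingHom.id K) (RingHom.ext fun a => τ.symm_apply_apply a)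
        (x : LaurentSeries K), coeffMap_id]
  right_inv x := Subtype.ext <| by
    show coeffMap (τ : K →+* K) (coeffMap (τ.symm : K →+* K) (x : LaurentSeries K)) = x
    rw [coeffMap_coeffMap,
      coeffMap_congr (g := RingHom.id K) (RingHom.ext fun a => τ.apply_symm_apply a)
        (x : LaurentSeries K), coeffMap_id]
  map_mul' x y :=
    Subtype.ext (map_mul (coeffMap (τ : K →+* K)) (x : LaurentSeries K) (y : LaurentSeries K))
  map_add' x y :=
    Subtype.ext (map_add (coeffMap (τ : K →+* K)) (x : LaurentSeries K) (y : LaurentSeries K))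

@[simp]
theorem coe_coeffRingAut1 (τ : K ≃+* K) (x : F1 K M) :
    (coeffRingAut1 M τ x : LaurentSeries K) = coeffMap (τ : K →+* K) (x : LaurentSeries K) := rfl

theorem coeffRingAut1_algebraMap (τ : K ≃+* K) (a : K) :
    coeffRingAut1 M τ (algebraMap K (F1 K M) a) = algebraMap K (F1 K M) (τ a) :=
  Subtype.ext (coeffMap_algebraMap (τ : K →+* K) a)

/-- The coefficientwise action of `Aut K` on `F1 K M` by semilinear automorphisms. -/
def coeffSemi1 : (K ≃+* K) →* SemilinearAut K (F1 K M) where
  toFun τ := ⟨(coeffRingAut1 M τ, τ), fun a => coeffRingAut1_algebraMap M τ a⟩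
  map_one' := by
    refine Subtype.ext (Prod.ext (RingEquiv.ext fun x => Subtype.ext ?_) rfl)
    show coeffMap ((1 : K ≃+* K) : K →+* K) (x : LaurentSeries K) = (x : LaurentSeries K)
    rw [show ((1 : K ≃+* K) : K →+* K) = RingHom.id K from RingHom.ext fun _ => rfl,
      coeffMap_id]
  map_mul' σ τ := by
    refine Subtype.ext (Prod.ext (RingEquiv.ext fun x => Subtype.ext ?_) rfl)
    show coeffMap ((σ * τ : K ≃+* K) : K →+* K) (x : LaurentSeries K)
      = coeffMap (σ : K →+* K) (coeffMap (τ : K →+* K) (x : LaurentSeries K))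
    rw [coeffMap_coeffMap]
    exact coeffMap_congr (RingHom.ext fun _ => rfl) _

theorem coe_coeffSemi1_smul (τ : K ≃+* K) (x : F1 K M) :
    ((coeffSemi1 M τ • x : F1 K M) : LaurentSeries K) =
      coeffMap (τ : K →+* K) (x : LaurentSeries K) := rfl

@[simp]
theorem baseAut_coeffSemi1 (τ : K ≃+* K) : SemilinearAut.baseAut (coeffSemi1 M τ) = τ := rfl

end General

section Galois

variable (L : Type*) [Field L] [Algebra ℚ L] (M : ℕ) [NeZero M]

/-- The Galois action on `F1 L M`. -/
def galF1 : (L ≃ₐ[ℚ] L) →* SemilinearAut L (F1 L M) :=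
  (coeffSemi1 M).comp
    { toFun := fun σ => σ.toRingEquiv
      map_one' := rfl
      map_mul' := fun _ _ => rfl }

theorem coe_galF1_smul (σ : L ≃ₐ[ℚ] L) (x : F1 L M) :
    ((galF1 L M σ • x : F1 L M) : LaurentSeries L) =
      coeffMap (σ : L →+* L) (x : LaurentSeries L) := rfl

@[simp]
theorem baseAut_galF1 (σ : L ≃ₐ[ℚ] L) : SemilinearAut.baseAut (galF1 L M σ) = σ.toRingEquiv := rfl

end Galois

section Compat

open Fermat.Agent.JRED.ESGalois

variable {L : Type*} [Field L] [Algebra ℚ L] {κ : Type*} [Field κ] {A : ValuationSubring L}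
  {π : A →+* κ}

/-- **Galois equivariance of reductions.** -/
theorem gred_coeffMap {σ : L ≃ₐ[ℚ] L} {τ : κ ≃+* κ} (hτ : IsResidual π σ τ)
    {x : LaurentSeries L} {u : LaurentSeries κ} (h : GRed π x u) :
    GRed π (coeffMap (σ : L →+* L) x) (coeffMap (τ : κ →+* κ) u) := by
  obtain ⟨hσ, hτ⟩ := hτ
  obtain ⟨a, b, hb, hab, hu⟩ := h
  set g : A →+* A := (autA hσ : A →+* A) with hg
  have h1 : ∀ x : LaurentSeries A,
      coeffMap π (coeffMap g x) = coeffMap (τ : κ →+* κ) (coeffMap π x) := by
    intro x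
    rw [coeffMap_coeffMap, coeffMap_coeffMap]
    exact coeffMap_congr (RingHom.ext fun y => (hτ y).symm) x
  have h2 : ∀ x : LaurentSeries A, coeffMap A.subtype (coeffMap g x) =
      coeffMap (σ : L →+* L) (coeffMap A.subtype x) := by
    intro x
    rw [coeffMap_coeffMap, coeffMap_coeffMap]
    exact coeffMap_congr (RingHom.ext fun y => coe_autA hσ y) x
  refine ⟨coeffMap g a, coeffMap g b, ?_, ?_, ?_⟩
  · rw [h1, Ne, map_eq_zero]
    exact hb
  · rw [h2, h2, ← map_mul, hab]
  · rw [h1, h1, ← map_mul, hu]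

end Compat

end Fermat.Agent.DS.X1
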