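import Fermat.Agent.DS.X1.ApiDia
import Fermat.Agent.DS.X1.RedGal

/-!
# Diamonds commute with the Galois action on `F1 L M`
-/

set_option autoImplicit false

noncomputable section

open ModularCurve AlgebraicCurve

namespace Fermat.Agent.DS.X1

open Fermat.Agent.JRED

theorem dia_galF1 {L : Type*} [Field L] [CharZero L] [Algebra ℚ L] {M : ℕ} [NeZero M]
    (d : (ZMod M)ˣ) (σ : L ≃ₐ[ℚ] L) (x : F1 L M) :
    dia M d L (galF1 L M σ • x) = galF1 L M σ • dia M d L x := by
  apply Subtype.ext
  rw [coe_galF1_smul, coeffMap_dia]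
  rfl

end Fermat.Agent.DS.X1
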