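import Fermat.Agent.DS.X1.ApiC
import Fermat.Agent.JRED.ModularFF
import Fermat.Agent.FunField.LevelOneJ

/-!
# Finiteness of `F1 K M` over `K(j)`

* `finiteDimensional_F1`: for every field `K`, `F1 K M` is finite over `K(j)`;
* `deg1 M`: the degree in characteristic zero; `finrank_F1_charZero`, `finrank_F1_le`;
* `functionField_F1 : RR.FunctionField K (F1 K M)`.
-/

set_option autoImplicit false

noncomputable section

open UpperHalfPlane ModularForm MatrixGroups CongruenceSubgroup ModularCurve IntermediateField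
open Fermat.Agent.IntStr

namespace Fermat.Agent.DS.X1

open Fermat.Agent.JRED Fermat.Agent.MFF

/-! ### Ratios of level one forms -/

section RL

/-- `x` is a ratio of level one forms, of total weight `k`. -/
def RL (k : ℤ) (x : LaurentSeries ℂ) : Prop :=
  ∃ (l : ℤ) (a b : ℍ → ℂ), IsL1 (l + k) a ∧ IsL1 l b ∧ b ≠ 0 ∧ x * LQ b = LQ a

variable {k l : ℤ} {x y : LaurentSeries ℂ}

theorem LQ_ne_zero_L1 {a : ℍ → ℂ} (ha : IsL1 k a) (h0 : a ≠ 0) : LQ a ≠ 0 := fun h =>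
  h0 ((LQ_eq_zero (M := 1) (IsMG.of_isL1 ha)).mp h)

theorem mul_ne_zero_L1 {a b : ℍ → ℂ} (ha : IsL1 k a) (hb : IsL1 l b) (ha0 : a ≠ 0)
    (hb0 : b ≠ 0) : a * b ≠ 0 := fun h => by
  rcases (IsMG.of_isL1 (𝒢 := (Gamma1 1 : Subgroup (GL (Fin 2) ℝ))) ha).mul_eq_zero
    (IsMG.of_isL1 hb) h with h | h
  · exact ha0 h
  · exact hb0 h

theorem RL.cast (h : RL k x) (hkl : k = l) : RL l x := hkl ▸ h

theorem RL.mul (hx : RL k x) (hy : RL l y) : RL (k + l) (x * y) := by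
  obtain ⟨m, a, b, ha, hb, hb0, h⟩ := hx
  obtain ⟨m', a', b', ha', hb', hb0', h'⟩ := hy
  refine ⟨m + m', a * a', b * b', (ha.mul ha').cast (by ring), hb.mul hb',
    mul_ne_zero_L1 hb hb' hb0 hb0', ?_⟩
  rw [LQ_mul hb.anQ hb'.anQ, LQ_mul ha.anQ ha'.anQ, ← h, ← h']
  ring

theorem RL.inv (hx : RL k x) (hx0 : x ≠ 0) : RL (-k) x⁻¹ := by
  obtain ⟨m, a, b, ha, hb, hb0, h⟩ := hx
  have ha0 : a ≠ 0 := by
    rintro rfl
    rw [LQ_zero] at h
    exact (mul_ne_zero hx0 (LQ_ne_zero_L1 hb hb0)) h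
  refine ⟨m + k, b, a, hb.cast (by ring), ha, ha0, ?_⟩
  rw [← h, inv_mul_cancel_left₀ hx0]

theorem RL.of_isL1 {a : ℍ → ℂ} (ha : IsL1 k a) : RL k (LQ a) :=
  ⟨0, a, 1, ha.cast (by ring), IsL1.one, one_ne_zero, by rw [LQ_one, mul_one]⟩

theorem RL.one : RL 0 1 := by
  have := RL.of_isL1 IsL1.one
  rwa [LQ_one] at this

theorem RL.pow (hx : RL k x) (n : ℕ) : RL (n * k) (x ^ n) := by
  induction n with
  | zero => exact RL.one.cast (by simp)
  | succ n ih => rw [pow_succ]; exact (ih.mul hx).cast (by push_cast; ring)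

theorem RL.zpow (hx : RL k x) (hx0 : x ≠ 0) (n : ℤ) : RL (n * k) (x ^ n) := by
  rcases n with n | n
  · rw [Int.ofNat_eq_natCast, zpow_natCast]
    exact hx.pow n
  · rw [zpow_negSucc]
    exact ((hx.pow (n + 1)).inv (pow_ne_zero _ hx0)).cast (by
      rw [Int.negSucc_eq]; push_cast; ring)

/-- Level one ratios of weight zero are rational functions of `j`. -/
theorem RL.mem (hx : RL 0 x) : x ∈ ℂ⟮jqModC ℂ⟯ := by
  obtain ⟨l, a, b, ha, hb, hb0, h⟩ := hx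
  have hl : 0 ≤ l := by
    by_contra hcon
    obtain ⟨B, rfl⟩ := hb
    exact hb0 (ModularFormClass.levelOne_neg_weight_eq_zero (by omega) B)
  obtain ⟨n, rfl⟩ := Int.eq_ofNat_of_zero_le hl
  have hb' : LQ b ≠ 0 := LQ_ne_zero_L1 hb hb0
  have h1 : IsL1 ((12 * n : ℕ) : ℤ) (a * b ^ 11) :=
    (ha.mul (hb.pow 11)).cast (by push_cast; ring)
  have h2 : IsL1 ((12 * n : ℕ) : ℤ) (b ^ 12) := (hb.pow 12).cast (by push_cast; ring)
  obtain ⟨P, -, hP⟩ := isL1_eq_poly n h1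
  obtain ⟨Q, -, hQ⟩ := isL1_eq_poly n h2
  have hΔ : LQ Delta ^ n ≠ 0 := pow_ne_zero _ LQ_Delta_ne_zero
  have hx : x = Polynomial.aeval (jqModC ℂ) P / Polynomial.aeval (jqModC ℂ) Q := by
    rw [LQ_mul ha.anQ (hb.anQ.pow 11), LQ_pow hb.anQ, ← h] at hP
    rw [LQ_pow hb.anQ] at hQ
    have hQ0 : Polynomial.aeval (jqModC ℂ) Q ≠ 0 := by
      intro h0
      rw [h0, zero_mul] at hQ
      exact pow_ne_zero _ hb' hQ
    rw [eq_div_iff hQ0]
    apply mul_right_cancel₀ hΔ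
    rw [mul_assoc, ← hQ, ← hP]
    ring
  have hmem : ∀ P : Polynomial ℂ, Polynomial.aeval (jqModC ℂ) P ∈ ℂ⟮jqModC ℂ⟯ := fun P =>
    algebra_adjoin_le_adjoin ℂ _ (Polynomial.aeval_mem_adjoin_singleton ℂ (jqModC ℂ))
  rw [hx]
  exact div_mem (hmem P) (hmem Q)

theorem RL.odd (hk : Odd k) (hx : RL k x) : x = 0 := by
  obtain ⟨l, a, b, ha, hb, hb0, h⟩ := hx
  have hb' : LQ b ≠ 0 := LQ_ne_zero_L1 hb hb0
  rcases Int.even_or_odd l with hl | hl
  · obtain ⟨A, rfl⟩ := ha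
    have h1 : A = 0 := ModularForm.levelOne_odd_weight_eq_zero (hl.add_odd hk) A
    rw [h1] at h
    have h2 : LQ (⇑(0 : ModularForm 𝒮ℒ (l + k)) : ℍ → ℂ) = 0 := LQ_zero
    rw [h2] at h
    exact (mul_eq_zero.mp h).resolve_right hb'
  · obtain ⟨B, rfl⟩ := hb
    exact absurd (by rw [ModularForm.levelOne_odd_weight_eq_zero hl B]; rfl) hb0

/-- `E₄ / E₆`. -/
def e46 : LaurentSeries ℂ := LQ (E₄ : ModularForm 𝒮ℒ 4) / LQ (E₆ : ModularForm 𝒮ℒ 6)

theorem rl_e46 : RL (-2) e46 ∧ e46 ≠ 0 := by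
  have h4 : (⇑(E₄ : ModularForm 𝒮ℒ 4) : ℍ → ℂ) ≠ 0 := by
    intro h
    have h1 := LQ_E4cube_ne_zero
    rw [coe_E4cube, h] at h1
    apply h1
    rw [zero_pow (by norm_num), LQ_zero]
  have h6 : (⇑(E₆ : ModularForm 𝒮ℒ 6) : ℍ → ℂ) ≠ 0 := by
    intro h
    have h1 : LQ (⇑(E₆ : ModularForm 𝒮ℒ 6) : ℍ → ℂ) = 0 := by rw [h, LQ_zero]
    rw [Fermat.Agent.FunField.LQ_E6, Fermat.Agent.FunField.E6L] at h1
    have h2 := congrArg (fun s : LaurentSeries ℂ => s.coeff 0) h1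
    simp only [HahnSeries.coeff_zero] at h2
    rw [show (0 : ℤ) = ((0 : ℕ) : ℤ) from rfl, HahnSeries.ofPowerSeries_apply_coeff,
      PowerSeries.coeff_map, PowerSeries.coeff_zero_eq_constantCoeff_apply,
      Fermat.Agent.FunField.constantCoeff_eisenstein6, map_one] at h2
    exact one_ne_zero h2
  have h4' := LQ_ne_zero_L1 isL1_E₄ h4
  have h6' := LQ_ne_zero_L1 isL1_E₆ h6
  refine ⟨?_, div_ne_zero h4' h6'⟩
  rw [e46, div_eq_mul_inv]
  exact ((RL.of_isL1 isL1_E₄).mul ((RL.of_isL1 isL1_E₆).inv h6')).cast (by ring)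

end RL

/-! ### Spanning -/

theorem mem_span_of_quot {L E : Type*} [Field L] [Field E] [Algebra L E] {S : Set E}
    (h1 : (1 : E) ∈ S) (hmul : ∀ x y, x ∈ S → y ∈ S → x * y ∈ S)
    (hfin : FiniteDimensional L (Submodule.span L S)) {a b : E} (ha : a ∈ S) (hb : b ∈ S) :
    a * b⁻¹ ∈ Submodule.span L S := by
  have hmul' : ∀ x y, x ∈ Submodule.span L S → y ∈ Submodule.span L S →
      x * y ∈ Submodule.span L S := by
    intro x y hx hy
    have h1 : x * y ∈ Submodule.span L S * Submodule.span L S := Submodule.mul_mem_mul hx hy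
    rw [Submodule.span_mul_span] at h1
    refine (Submodule.span_le.mpr ?_) h1
    rintro _ ⟨a, ha, b, hb, rfl⟩
    exact Submodule.subset_span (hmul _ _ ha hb)
  let T : Subalgebra L E :=
    (Submodule.span L S).toSubalgebra (Submodule.subset_span h1) hmul'
  have hTfin : FiniteDimensional L T := hfin
  have hinv : ∀ x ∈ T, x⁻¹ ∈ T := by
    intro x hx
    have halg : IsAlgebraic L (⟨x, hx⟩ : T) := Algebra.IsAlgebraic.isAlgebraic _
    exact Subalgebra.inv_mem_of_algebraic T (x := ⟨x, hx⟩)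
      (by simpa using halg.algebraMap (A := E))
  exact T.mul_mem (Submodule.subset_span ha) (hinv _ (Submodule.subset_span hb))

section Span

variable (M : ℕ) [NeZero M]

/-- The affine functions: `f / Δ^m`. -/
def affSet : Set (LaurentSeries ℂ) :=
  {x | ∃ (m : ℕ) (f : ℍ → ℂ), IsM1 M ((12 * m : ℕ) : ℤ) f ∧ x * LQ Delta ^ m = LQ f}

variable {M}

theorem isM1_Delta : IsM1 M 12 Delta := IsMG.of_isL1 isL1_Delta

theorem one_mem_affSet : (1 : LaurentSeries ℂ) ∈ affSet M :=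
  ⟨0, 1, (IsMG.one _).cast (by simp), by rw [pow_zero, mul_one, LQ_one]⟩

theorem mul_mem_affSet {x y : LaurentSeries ℂ} (hx : x ∈ affSet M) (hy : y ∈ affSet M) :
    x * y ∈ affSet M := by
  obtain ⟨m, f, hf, h⟩ := hx
  obtain ⟨n, g, hg, h'⟩ := hy
  exact ⟨m + n, f * g, (hf.mul hg).cast (by push_cast; ring), by
    rw [LQ_mul hf.anQ hg.anQ, ← h, ← h']; ring⟩

/-- The affine functions are contained in a finite dimensional `ℂ(j)`-space. -/
theorem exists_span_affSet (M : ℕ) [NeZero M] : ∃ (n : ℕ) (y : Fin n → LaurentSeries ℂ),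
    affSet M ⊆ Submodule.span ℂ⟮jqModC ℂ⟯ (Set.range y) := by
  obtain ⟨w, θ, hθ, hs⟩ := HasSep.exists_sep (𝒢 := (Gamma1 M : Subgroup (GL (Fin 2) ℝ)))
  obtain ⟨Θ, rfl⟩ := VG.isMG hθ
  obtain ⟨n, l, D, hD, hD0, hL⟩ := lagrange_universalG Θ hs
  have hΘ : AnQ (⇑Θ : ℍ → ℂ) := (VG.isMG hθ).anQ
  refine ⟨n, fun i => LQ Θ ^ (i : ℕ) * e46 ^ ((w * i) / 2 : ℤ), ?_⟩
  rintro x ⟨m, _, ⟨f, rfl⟩, hx⟩
  obtain ⟨a, ha, hf⟩ := hL _ f
  have hfA : AnQ (⇑f : ℍ → ℂ) :=
    (show IsM1 M ((12 * m : ℕ) : ℤ) (⇑f : ℍ → ℂ) from ⟨f, rfl⟩).anQ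
  have hD' : LQ D ≠ 0 := LQ_ne_zero_L1 hD hD0
  have h1 : LQ D * LQ f = ∑ i ∈ Finset.range n, LQ (a i) * LQ Θ ^ i := by
    rw [← LQ_mul hD.anQ hfA, hf, LQ_sum fun i hi =>
      ((ha i (Finset.mem_range.mp hi)).anQ).mul (hΘ.pow i)]
    refine Finset.sum_congr rfl fun i hi => ?_
    rw [LQ_mul ((ha i (Finset.mem_range.mp hi)).anQ) (hΘ.pow i), LQ_pow hΘ]
  have hx' : x = ∑ i ∈ Finset.range n, (LQ (a i) / (LQ D * LQ Delta ^ m)) * LQ Θ ^ i := by
    have hne : LQ D * LQ Delta ^ m ≠ 0 := mul_ne_zero hD' (pow_ne_zero _ LQ_Delta_ne_zero)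
    apply mul_right_cancel₀ hne
    rw [Finset.sum_mul]
    have h2 : x * (LQ D * LQ Delta ^ m) = LQ D * LQ f := by rw [← hx]; ring
    rw [h2, h1]
    refine Finset.sum_congr rfl fun i _ => ?_
    rw [mul_right_comm, div_mul_cancel₀ _ hne]
  rw [hx']
  refine Submodule.sum_mem _ fun i hi => ?_
  have hin : i < n := Finset.mem_range.mp hi
  -- the coefficient
  have hΔ : RL (-(12 * m)) (LQ Delta ^ m)⁻¹ :=
    (((RL.of_isL1 isL1_Delta).pow m).inv (pow_ne_zero _ LQ_Delta_ne_zero)).cast (by ring)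
  have hc : RL (-(w * i)) (LQ (a i) / (LQ D * LQ Delta ^ m)) := by
    rw [div_eq_mul_inv, mul_inv]
    exact ((RL.of_isL1 (ha i hin)).mul (((RL.of_isL1 hD).inv hD').mul hΔ)).cast (by
      push_cast; ring)
  rcases Int.even_or_odd (w * i) with he | ho
  · obtain ⟨v, hv⟩ := he
    have hv' : w * (i : ℤ) / 2 = v := by omega
    have h3 : RL 0 (LQ (a i) / (LQ D * LQ Delta ^ m) * (e46 ^ v)⁻¹) :=
      (hc.mul ((rl_e46.1.zpow rl_e46.2 v).inv (zpow_ne_zero _ rl_e46.2))).cast (by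
        rw [hv]; ring)
    have h4 := h3.mem
    have h5 : LQ (a i) / (LQ D * LQ Delta ^ m) * LQ Θ ^ i =
        (⟨_, h4⟩ : ℂ⟮jqModC ℂ⟯) • (LQ Θ ^ i * e46 ^ (w * (i : ℤ) / 2)) := by
      show _ = (LQ (a i) / (LQ D * LQ Delta ^ m) * (e46 ^ v)⁻¹) *
        (LQ Θ ^ i * e46 ^ (w * (i : ℤ) / 2))
      rw [hv']
      have h6 := zpow_ne_zero v rl_e46.2
      generalize LQ (a i) / (LQ D * LQ Delta ^ m) = u
      generalize LQ Θ ^ i = z
      field_simp
    rw [h5]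
    exact Submodule.smul_mem _ _ (Submodule.subset_span ⟨⟨i, hin⟩, rfl⟩)
  · rw [hc.odd ho.neg, zero_mul]
    exact zero_mem _

variable (M) in
/-- The `ℂ(j)`-span of the affine functions. -/
def affSpan : Submodule ℂ⟮jqModC ℂ⟯ (LaurentSeries ℂ) := Submodule.span _ (affSet M)

instance finite_affSpan : FiniteDimensional ℂ⟮jqModC ℂ⟯ (affSpan M) := by
  obtain ⟨n, y, hy⟩ := exists_span_affSet M
  have h1 : affSpan M ≤ Submodule.span ℂ⟮jqModC ℂ⟯ (Set.range y) := Submodule.span_le.mpr hy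
  have : FiniteDimensional ℂ⟮jqModC ℂ⟯ (Submodule.span ℂ⟮jqModC ℂ⟯ (Set.range y)) :=
    FiniteDimensional.span_of_finite _ (Set.finite_range y)
  exact Submodule.finiteDimensional_of_le h1

theorem weight_nonneg {k : ℤ} {g : ℍ → ℂ} (hg : IsM1 M k g) (hg0 : g ≠ 0) : 0 ≤ k := by
  have hg' : LQ g ≠ 0 := fun h0 => hg0 ((LQ_eq_zero hg).mp h0)
  by_contra hcon
  obtain ⟨G, rfl⟩ := hg
  obtain ⟨n, c, hn, hc, hrel⟩ := exists_monic_relation_modG G
  have hzero : ∀ i ∈ Finset.Icc 1 n, c i = 0 := by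
    intro i hi
    obtain ⟨C, hC⟩ := hc i hi
    rw [← hC]
    refine ModularFormClass.levelOne_neg_weight_eq_zero ?_ C
    rw [Finset.mem_Icc] at hi
    exact mul_neg_of_neg_of_pos (not_le.mp hcon) (by exact_mod_cast hi.1)
  have h2 : (⇑G : ℍ → ℂ) ^ n = 0 := by
    rw [← hrel, eq_comm, add_eq_left]
    exact Finset.sum_eq_zero fun i hi => by rw [hzero i hi, zero_mul]
  have hG1 : IsM1 M k (⇑G : ℍ → ℂ) := ⟨G, rfl⟩
  have h3 : LQ (⇑G : ℍ → ℂ) ^ n = 0 := by rw [← LQ_pow hG1.anQ, h2, LQ_zero]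
  exact pow_ne_zero n hg' h3

theorem F1_le_affSpan {x : LaurentSeries ℂ} (hx : x ∈ F1 ℂ M) : x ∈ affSpan M := by
  obtain ⟨k, f, g, hf, hg, hg0, h⟩ := mem_F1_complex.mp hx
  have hg' : LQ g ≠ 0 := fun h0 => hg0 ((LQ_eq_zero hg).mp h0)
  obtain ⟨n, rfl⟩ := Int.eq_ofNat_of_zero_le (weight_nonneg hg hg0)
  have hΔ : LQ Delta ^ n ≠ 0 := pow_ne_zero _ LQ_Delta_ne_zero
  have hA : LQ f * LQ g ^ 11 / LQ Delta ^ n ∈ affSet M :=
    ⟨n, f * g ^ 11, (hf.mul (hg.pow 11)).cast (by push_cast; ring), by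
      rw [div_mul_cancel₀ _ hΔ, LQ_mul hf.anQ (hg.anQ.pow 11), LQ_pow hg.anQ]⟩
  have hB : LQ g ^ 12 / LQ Delta ^ n ∈ affSet M :=
    ⟨n, g ^ 12, (hg.pow 12).cast (by push_cast; ring), by
      rw [div_mul_cancel₀ _ hΔ, LQ_pow hg.anQ]⟩
  have hx' : x = (LQ f * LQ g ^ 11 / LQ Delta ^ n) * (LQ g ^ 12 / LQ Delta ^ n)⁻¹ := by
    rw [← h]
    field_simp
  rw [hx']
  exact mem_span_of_quot one_mem_affSet (fun _ _ => mul_mem_affSet) finite_affSpan hA hB

end Span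

/-! ### Finiteness -/

section Finite

/-- An intermediate field contained in a finite dimensional `k(t)`-space is finite over `k(t)`. -/
theorem finiteDimensional_of_le_span {k E : Type*} [Field k] [Field E] [Algebra k E]
    {F' : IntermediateField k E} {t : E} (ht : t ∈ F') (htr : Transcendental k t)
    (W : Submodule k⟮t⟯ E) [FiniteDimensional k⟮t⟯ W] (hW : ∀ x ∈ F', x ∈ W) :
    FiniteDimensional k⟮(⟨t, ht⟩ : F')⟯ F' := by
  by_contra hcon
  obtain ⟨s, hs, hli⟩ := exists_finset_linearIndependent_of_le_rank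
    (R := k⟮(⟨t, ht⟩ : F')⟯) (M := F') (n := Module.finrank k⟮t⟯ W + 1) (by
      have h3 : Cardinal.aleph0 ≤ Module.rank k⟮(⟨t, ht⟩ : F')⟯ F' := by
        rw [← not_lt]
        intro h4
        exact hcon (Module.rank_lt_aleph0_iff.mp h4)
      exact (Cardinal.natCast_lt_aleph0.le).trans h3)
  have h1 := linearIndependent_intermediate htr hli
  have h2 : LinearIndependent k⟮t⟯ (fun i : s => (⟨((i : F') : E), hW _ (i : F').2⟩ : W)) :=
    LinearIndependent.of_comp W.subtype h1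
  have h5 := h2.fintype_card_le_finrank
  rw [Fintype.card_coe, hs] at h5
  omega

theorem finiteDimensional_F1_complex (M : ℕ) [NeZero M] :
    FiniteDimensional ℂ⟮j1 ℂ M⟯ (F1 ℂ M) :=
  finiteDimensional_of_le_span (jqModC_mem_F1 ℂ M) (transcendental_jqModC ℂ) (affSpan M)
    fun _ hx => F1_le_affSpan hx

theorem finiteDimensional_of_ext {K K' : Type*} [Field K] [Field K'] [Algebra K K'] {M : ℕ}
    [NeZero M] (h : FiniteDimensional K'⟮j1 K' M⟯ (F1 K' M)) :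
    FiniteDimensional K⟮j1 K M⟯ (F1 K M) := by
  have h' : FiniteDimensional K'⟮incF K K' M (j1 K M)⟯ (F1 K' M) := by
    rw [incF_j1]; exact h
  exact (constExt_incF K K' M).finiteDimensional (transcendental_j1 K M)

theorem finrank_of_ext (K K' : Type*) [Field K] [Field K'] [Algebra K K'] {M : ℕ}
    [NeZero M] (h : FiniteDimensional K⟮j1 K M⟯ (F1 K M)) :
    FiniteDimensional K'⟮j1 K' M⟯ (F1 K' M) ∧
      Module.finrank K'⟮j1 K' M⟯ (F1 K' M) = Module.finrank K⟮j1 K M⟯ (F1 K M) := by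
  have h1 := (constExt_incF K K' M).finrank_eq (transcendental_j1 K M)
  rw [incF_j1] at h1
  exact h1

/-- The degree of `F1 K M` over `K(j)`. -/
def degF1 (K : Type*) [Field K] (M : ℕ) [NeZero M] : ℕ :=
  Module.finrank K⟮j1 K M⟯ (F1 K M)

/-- `F1 K M` is finite over `K(j)` -/
def FinF1 (K : Type*) [Field K] (M : ℕ) [NeZero M] : Prop :=
  FiniteDimensional K⟮j1 K M⟯ (F1 K M)

theorem FinF1.of_ext {K K' : Type*} [Field K] [Field K'] [Algebra K K'] {M : ℕ}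
    [NeZero M] (h : FinF1 K' M) : FinF1 K M :=
  finiteDimensional_of_ext h

theorem FinF1.ext {K K' : Type*} [Field K] [Field K'] [Algebra K K'] {M : ℕ}
    [NeZero M] (h : FinF1 K M) : FinF1 K' M ∧ degF1 K' M = degF1 K M :=
  finrank_of_ext K K' h

/-- The degree of `X₁(M)` over the `j`-line. -/
def deg1 (M : ℕ) [NeZero M] : ℕ := degF1 ℚ M

theorem finF1_complex (M : ℕ) [NeZero M] : FinF1 ℂ M := finiteDimensional_F1_complex M

theorem finF1_rat (M : ℕ) [NeZero M] : FinF1 ℚ M := (finF1_complex M).of_ext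

theorem finrank_F1_charZero (K : Type*) [Field K] [CharZero K] (M : ℕ) [NeZero M] :
    FiniteDimensional K⟮j1 K M⟯ (F1 K M) ∧ Module.finrank K⟮j1 K M⟯ (F1 K M) = deg1 M :=
  (finF1_rat M).ext (K' := K)

theorem FinF1.degF1_pos {K : Type*} [Field K] {M : ℕ} [NeZero M] (h : FinF1 K M) :
    0 < degF1 K M := by
  have : FiniteDimensional K⟮j1 K M⟯ (F1 K M) := h
  exact Module.finrank_pos (R := K⟮j1 K M⟯) (M := F1 K M)

theorem deg1_pos (M : ℕ) [NeZero M] : 0 < deg1 M := (finF1_rat M).degF1_pos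

theorem FinF1.functionField {K : Type*} [Field K] {M : ℕ} [NeZero M] (h : FinF1 K M) :
    RR.FunctionField K (F1 K M) :=
  functionField_of_finite (transcendental_j1 K M) h

theorem functionField_F1_charZero (K : Type*) [Field K] [CharZero K] (M : ℕ) [NeZero M] :
    RR.FunctionField K (F1 K M) :=
  FinF1.functionField (finrank_F1_charZero K M).1

/-- The degree does not increase under reduction. -/
theorem FinF1.of_red {K κ : Type*} [Field K] [Field κ] {A : ValuationSubring K} {π : A →+* κ}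
    (hπ : Function.Surjective π) {M : ℕ} [NeZero M] (h : FinF1 K M) :
    FinF1 κ M ∧ degF1 κ M ≤ degF1 K M := by
  have : FiniteDimensional K⟮j1 K M⟯ (F1 K M) := h
  exact RedDatum.rank_adjoin_le hπ (redF1_surjective hπ) (red_j1 hπ M) (transcendental_j1 κ M)

theorem exists_residue_rat (p : ℕ) [Fact p.Prime] : ∃ (A : ValuationSubring ℚ) (κ : Type)
    (_ : Field κ) (π : A →+* κ), Function.Surjective π ∧ CharP κ p := by
  let A : ValuationSubring ℚ := (Rat.padicValuation p).valuationSubring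
  refine ⟨A, IsLocalRing.ResidueField A, inferInstance, IsLocalRing.residue A,
    IsLocalRing.residue_surjective, ?_⟩
  refine (CharP.charP_iff_prime_eq_zero (Fact.out : p.Prime)).mpr ?_
  rw [← map_natCast (IsLocalRing.residue A), IsLocalRing.residue_eq_zero_iff,
    IsLocalRing.mem_maximalIdeal, mem_nonunits_iff]
  rintro ⟨u, hu⟩
  have h1 : ((u : A) : ℚ) * (((u⁻¹ : Aˣ) : A) : ℚ) = 1 := by
    exact_mod_cast congrArg Subtype.val (u.mul_inv)
  have h2 : ((u : A) : ℚ) = p := by rw [hu]; rfl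
  have h3 : Rat.padicValuation p (((u⁻¹ : Aˣ) : A) : ℚ) ≤ 1 := ((u⁻¹ : Aˣ) : A).2
  have h4 := congrArg (Rat.padicValuation p) h1
  rw [map_mul, map_one, h2, Rat.padicValuation_self] at h4
  have h5 : WithZero.exp (-1 : ℤ) < (1 : WithZero (Multiplicative ℤ)) := by
    rw [← WithZero.exp_zero, WithZero.exp_lt_exp]
    norm_num
  have h6 : WithZero.exp (-1 : ℤ) * Rat.padicValuation p (((u⁻¹ : Aˣ) : A) : ℚ) < 1 :=
    (mul_le_of_le_one_right' h3).trans_lt h5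
  exact absurd h4 h6.ne

/-- **Finiteness over an arbitrary field.** -/
theorem finF1_le (κ : Type*) [Field κ] (M : ℕ) [NeZero M] :
    FinF1 κ M ∧ degF1 κ M ≤ deg1 M := by
  obtain ⟨p, hp⟩ := CharP.exists κ
  rcases CharP.char_is_prime_or_zero κ p with hpp | rfl
  · have : Fact p.Prime := ⟨hpp⟩
    obtain ⟨A, k, _, π, hπ, hk⟩ := exists_residue_rat p
    obtain ⟨h1, h2⟩ := FinF1.of_red hπ (finF1_rat M)
    let _ : Algebra (ZMod p) k := ZMod.algebra k p
    let _ : Algebra (ZMod p) κ := ZMod.algebra κ p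
    have h3 : FinF1 (ZMod p) M := h1.of_ext
    obtain ⟨-, h4⟩ := h3.ext (K' := k)
    obtain ⟨h5, h6⟩ := h3.ext (K' := κ)
    refine ⟨h5, ?_⟩
    rw [h6, ← h4]
    exact h2
  · have : CharZero κ := CharP.charP_to_charZero κ
    obtain ⟨h1, h2⟩ := finrank_F1_charZero κ M
    exact ⟨h1, h2.le⟩

instance functionField_F1 (K : Type*) [Field K] (M : ℕ) [NeZero M] :
    RR.FunctionField K (F1 K M) :=
  (finF1_le K M).1.functionField

end Finite

end Fermat.Agent.DS.X1
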