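import Fermat.Agent.DS.X1.Defs
import Fermat.Agent.JRED.ModularRed

/-!
# The lattice of integral `q`-expansions on `Γ₁(M)`

* `Lat M k`: the `ℤ`-module of integral `q`-expansions, free of finite rank, saturated in `ℤ⟦q⟧`;
* `basF M k`: a `ℤ`-basis; its images in `K((q))` are a `K`-basis of `MK K M k` for **every**
  field `K`.
-/

set_option autoImplicit false

noncomputable section

open UpperHalfPlane CongruenceSubgroup ModularCurve
open scoped MatrixGroups

namespace Fermat.Agent.DS.X1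

/-! ### `toK` -/

section toK

variable (K : Type*) [Field K]

theorem toK_eq (F : PowerSeries ℤ) :
    toK K F = coeffMap (Int.castRingHom K) (HahnSeries.ofPowerSeries ℤ ℤ F) := by
  ext n
  rcases lt_or_ge n 0 with hn | hn
  · rw [coeffMap_coeff, ofPowerSeries_coeff_of_neg _ hn, map_zero]
    exact ofPowerSeries_coeff_of_neg _ hn
  · obtain ⟨m, rfl⟩ := Int.eq_ofNat_of_zero_le hn
    rw [coeffMap_coeff, HahnSeries.ofPowerSeries_apply_coeff]
    show (HahnSeries.ofPowerSeries ℤ K (PowerSeries.map _ F)).coeff (m : ℤ) = _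
    rw [HahnSeries.ofPowerSeries_apply_coeff, PowerSeries.coeff_map]

theorem coeff_toK (F : PowerSeries ℤ) (n : ℕ) :
    (toK K F).coeff (n : ℤ) = ((PowerSeries.coeff n F : ℤ) : K) := by
  rw [toK_eq, coeffMap_coeff, HahnSeries.ofPowerSeries_apply_coeff]
  rfl

theorem coeff_toK_neg (F : PowerSeries ℤ) {n : ℤ} (hn : n < 0) : (toK K F).coeff n = 0 := by
  rw [toK_eq, coeffMap_coeff, ofPowerSeries_coeff_of_neg _ hn, map_zero]

variable {K} in
theorem coeffMap_toK {K' : Type*} [Field K'] (φ : K →+* K') (F : PowerSeries ℤ) :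
    coeffMap φ (toK K F) = toK K' F := by
  rw [toK_eq, toK_eq, coeffMap_coeffMap, RingHom.ext_int (φ.comp (Int.castRingHom K))
    (Int.castRingHom K')]

theorem toK_injective [CharZero K] : Function.Injective (toK K) := by
  intro F G h
  ext n
  have h1 := congrArg (fun x => HahnSeries.coeff x (n : ℤ)) h
  simp only [coeff_toK] at h1
  exact_mod_cast h1

end toK

/-! ### The lattice -/

section Lattice

variable {M : ℕ} [NeZero M] {k l : ℤ} {F G : PowerSeries ℤ}

theorem map_int_injective' : Function.Injective (PowerSeries.map (Int.castRingHom ℂ)) :=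
  PowerSeries.map_injective _ (RingHom.injective_int _)

theorem IntExp.cast (hF : IntExp M k F) (h : k = l) : IntExp M l F := h ▸ hF

theorem IntExp.add (hF : IntExp M k F) (hG : IntExp M k G) : IntExp M k (F + G) := by
  obtain ⟨f, hf, hfF⟩ := hF
  obtain ⟨g, hg, hgG⟩ := hG
  exact ⟨f + g, hf.add hg, by rw [Fermat.Agent.IntStr.qExp_add hf.anQ hg.anQ, hfF, hgG, map_add]⟩

theorem IntExp.zero (M : ℕ) [NeZero M] (k : ℤ) : IntExp M k 0 :=
  ⟨0, IsMG.zero _ k, by rw [UpperHalfPlane.qExpansion_zero, map_zero]⟩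

theorem IntExp.smul (c : ℤ) (hF : IntExp M k F) : IntExp M k (c • F) := by
  obtain ⟨f, hf, hfF⟩ := hF
  refine ⟨(c : ℂ) • f, hf.smul c, ?_⟩
  rw [UpperHalfPlane.qExpansion_smul hf.anQ, hfF]
  ext n
  rw [PowerSeries.coeff_smul, PowerSeries.coeff_map, PowerSeries.coeff_map, map_zsmul,
    smul_eq_mul, smul_eq_mul]
  simp

theorem IntExp.pow (hF : IntExp M k F) (n : ℕ) : IntExp M (n * k) (F ^ n) := by
  induction n with
  | zero => exact (IntExp.one M).cast (by simp)
  | succ n ih => rw [pow_succ]; exact (ih.mul hF).cast (by push_cast; ring)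

/-- The lattice is saturated. -/
theorem IntExp.of_smul {c : ℤ} (hc : c ≠ 0) (h : IntExp M k (c • F)) : IntExp M k F := by
  obtain ⟨f, hf, hfF⟩ := h
  have hc' : (c : ℂ) ≠ 0 := by exact_mod_cast hc
  refine ⟨(c : ℂ)⁻¹ • f, hf.smul _, ?_⟩
  rw [UpperHalfPlane.qExpansion_smul hf.anQ, hfF]
  ext n
  rw [PowerSeries.coeff_smul, PowerSeries.coeff_map, PowerSeries.coeff_map, map_zsmul,
    smul_eq_mul, smul_eq_mul]
  simp [hc']

/-- The lattice of integral expansions of weight `k`. -/
def Lat (M : ℕ) [NeZero M] (k : ℤ) : Submodule ℤ (PowerSeries ℤ) where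
  carrier := {F | IntExp M k F}
  add_mem' := IntExp.add
  zero_mem' := IntExp.zero M k
  smul_mem' c _ := IntExp.smul c

theorem mem_Lat : F ∈ Lat M k ↔ IntExp M k F := Iff.rfl

/-- **Sturm bound** for the lattice. -/
theorem exists_sturm_Lat (M : ℕ) [NeZero M] (k : ℤ) : ∃ B : ℕ, ∀ F : PowerSeries ℤ,
    IntExp M k F → (∀ n < B, PowerSeries.coeff n F = 0) → F = 0 := by
  refine ⟨(k * (Gamma1 M : Subgroup (GL (Fin 2) ℝ)).relIndex 𝒮ℒ).toNat / 12 + 1, ?_⟩
  rintro F ⟨f, ⟨f', rfl⟩, hfF⟩ h
  have h1 : f' = 0 := by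
    apply sturmG
    intro n hn
    rw [hfF, PowerSeries.coeff_map, h n (Nat.lt_succ_of_le hn), map_zero]
  apply map_int_injective'
  rw [← hfF, h1, map_zero]
  exact UpperHalfPlane.qExpansion_zero 1

/-- Truncation of the lattice. -/
def truncLat (M : ℕ) [NeZero M] (k : ℤ) (B : ℕ) : Lat M k →ₗ[ℤ] (Fin B → ℤ) where
  toFun F i := PowerSeries.coeff (i : ℕ) (F : PowerSeries ℤ)
  map_add' F G := by
    funext i
    rw [Submodule.coe_add, map_add]
    rfl
  map_smul' c F := by
    funext i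
    rw [Submodule.coe_smul, map_zsmul]
    rfl

instance finite_Lat (M : ℕ) [NeZero M] (k : ℤ) : Module.Finite ℤ (Lat M k) := by
  obtain ⟨B, hB⟩ := exists_sturm_Lat M k
  refine Module.Finite.of_injective (truncLat M k B) ?_
  refine (injective_iff_map_eq_zero _).mpr fun F hF => ?_
  exact Subtype.ext (hB F F.2 fun n hn => congrFun hF ⟨n, hn⟩)

instance free_Lat (M : ℕ) [NeZero M] (k : ℤ) : Module.Free ℤ (Lat M k) := by
  obtain ⟨B, hB⟩ := exists_sturm_Lat M k
  have hinj : Function.Injective (truncLat M k B) :=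
    (injective_iff_map_eq_zero _).mpr fun F hF =>
      Subtype.ext (hB F F.2 fun n hn => congrFun hF ⟨n, hn⟩)
  exact Module.Free.of_equiv (LinearEquiv.ofInjective (truncLat M k B) hinj).symm

/-- The rank of the lattice. -/
def rkF (M : ℕ) [NeZero M] (k : ℤ) : ℕ := Module.finrank ℤ (Lat M k)

/-- A `ℤ`-basis of the lattice. -/
def basF (M : ℕ) [NeZero M] (k : ℤ) (i : Fin (rkF M k)) : PowerSeries ℤ :=
  (Module.finBasis ℤ (Lat M k) i : Lat M k)

theorem intExp_basF (i : Fin (rkF M k)) : IntExp M k (basF M k i) :=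
  (Module.finBasis ℤ (Lat M k) i : Lat M k).2

theorem exists_eq_sum_basF (hF : IntExp M k F) :
    ∃ c : Fin (rkF M k) → ℤ, F = ∑ i, c i • basF M k i := by
  have h1 := (Module.finBasis ℤ (Lat M k)).sum_repr ⟨F, hF⟩
  refine ⟨fun i => (Module.finBasis ℤ (Lat M k)).repr ⟨F, hF⟩ i, ?_⟩
  have h2 := congrArg (fun x : Lat M k => (x : PowerSeries ℤ)) h1
  simp only [Submodule.coe_sum, Submodule.coe_smul] at h2
  exact h2.symm

theorem linearIndependent_basF : LinearIndependent ℤ (basF M k) :=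
  (Module.finBasis ℤ (Lat M k)).linearIndependent.map' (Lat M k).subtype
    (Submodule.ker_subtype _)

/-- Divisibility of combinations of the basis. -/
theorem dvd_of_forall_dvd {m : ℤ} {c : Fin (rkF M k) → ℤ}
    (h : ∀ j, m ∣ ∑ i, c i * PowerSeries.coeff j (basF M k i)) (i : Fin (rkF M k)) : m ∣ c i := by
  have hli := Fintype.linearIndependent_iff.mp (linearIndependent_basF (M := M) (k := k))
  rcases eq_or_ne m 0 with rfl | hm
  · refine zero_dvd_iff.mpr (hli c ?_ i)
    ext j
    rw [map_sum, map_zero]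
    have h1 := zero_dvd_iff.mp (h j)
    rw [← h1]
    exact Finset.sum_congr rfl fun i _ => by rw [map_zsmul, smul_eq_mul]
  · choose g hg using h
    have h1 : m • PowerSeries.mk g = ∑ i, c i • basF M k i := by
      ext j
      rw [map_zsmul, map_sum, PowerSeries.coeff_mk, smul_eq_mul, ← hg j]
      exact Finset.sum_congr rfl fun i _ => by rw [map_zsmul, smul_eq_mul]
    have h2 : IntExp M k (∑ i, c i • basF M k i) :=
      (Lat M k).sum_mem fun i _ => (Lat M k).smul_mem _ (intExp_basF i)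
    rw [← h1] at h2
    obtain ⟨d, hd⟩ := exists_eq_sum_basF (IntExp.of_smul hm h2)
    have h3 : ∑ i, (c i - m * d i) • basF M k i = 0 := by
      rw [hd, Finset.smul_sum] at h1
      rw [← sub_eq_zero, ← Finset.sum_sub_distrib] at h1
      rw [← neg_eq_zero, ← Finset.sum_neg_distrib, ← h1]
      exact Finset.sum_congr rfl fun i _ => by rw [sub_smul, mul_smul]; abel
    have h4 := hli _ h3 i
    exact ⟨d i, by linarith⟩

end Lattice

/-! ### Bases over fields -/

section Field

variable {K : Type*} [Field K] {M : ℕ} [NeZero M] {k : ℤ}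

theorem toK_sum_zsmul {ι : Type*} (s : Finset ι) (c : ι → ℤ) (F : ι → PowerSeries ℤ) :
    toK K (∑ i ∈ s, c i • F i) = ∑ i ∈ s, ((c i : ℤ) : K) • toK K (F i) := by
  rw [map_sum]
  refine Finset.sum_congr rfl fun i _ => ?_
  rw [map_zsmul]
  exact (Int.cast_smul_eq_zsmul K (c i) (toK K (F i))).symm

/-- Additive maps to prime fields separate the points of a field. -/
theorem exists_addHom_ne_zero {p : ℕ} [Fact p.Prime] [CharP K p] {c : K} (hc : c ≠ 0) :
    ∃ lam : K →+ ZMod p, lam c ≠ 0 := by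
  let := ZMod.algebra K p
  obtain ⟨f, hf⟩ : ∃ f : Module.Dual (ZMod p) K, f c ≠ 0 := by
    by_contra hcon
    push Not at hcon
    exact hc ((Module.forall_dual_apply_eq_zero_iff (ZMod p) c).mp hcon)
  exact ⟨f.toAddMonoidHom, hf⟩

theorem addHom_mul_int {V : Type*} [AddCommGroup V] (lam : K →+ V) (x : K) (n : ℤ) :
    lam (x * n) = n • lam x := by rw [mul_comm, ← zsmul_eq_mul, map_zsmul]

theorem exists_addHom_ne_zero_rat [CharZero K] {c : K} (hc : c ≠ 0) :
    ∃ lam : K →+ ℚ, lam c ≠ 0 := by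
  obtain ⟨f, hf⟩ : ∃ f : Module.Dual ℚ K, f c ≠ 0 := by
    by_contra hcon
    push Not at hcon
    exact hc ((Module.forall_dual_apply_eq_zero_iff ℚ c).mp hcon)
  exact ⟨f.toAddMonoidHom, hf⟩

theorem linearIndependent_toK (K : Type*) [Field K] (M : ℕ) [NeZero M] (k : ℤ) :
    LinearIndependent K (fun i => toK K (basF M k i)) := by
  rw [Fintype.linearIndependent_iff]
  intro c hc i
  have hcoef : ∀ j : ℕ, ∑ i, c i * ((PowerSeries.coeff j (basF M k i) : ℤ) : K) = 0 := by
    intro j
    have h1 := congrArg (fun x => HahnSeries.coeff x (j : ℤ)) hc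
    simp only [HahnSeries.coeff_sum, HahnSeries.coeff_smul, coeff_toK, smul_eq_mul,
      HahnSeries.coeff_zero] at h1
    exact h1
  by_contra hci
  obtain ⟨p, hp⟩ := CharP.exists K
  rcases CharP.char_is_prime_or_zero K p with hpp | rfl
  · have : Fact p.Prime := ⟨hpp⟩
    obtain ⟨lam, hlam⟩ := exists_addHom_ne_zero (p := p) hci
    choose d hd using fun i => ZMod.intCast_surjective (lam (c i))
    have h2 : ∀ j, (p : ℤ) ∣ ∑ i, d i * PowerSeries.coeff j (basF M k i) := by
      intro j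
      rw [← ZMod.intCast_zmod_eq_zero_iff_dvd]
      push_cast
      have h3 := congrArg lam (hcoef j)
      rw [map_sum, map_zero] at h3
      rw [← h3]
      refine Finset.sum_congr rfl fun i _ => ?_
      rw [hd, addHom_mul_int, zsmul_eq_mul, mul_comm]
    have h4 := dvd_of_forall_dvd h2 i
    rw [← ZMod.intCast_zmod_eq_zero_iff_dvd, hd] at h4
    exact hlam h4
  · have : CharZero K := CharP.charP_to_charZero K
    obtain ⟨lam, hlam⟩ := exists_addHom_ne_zero_rat hci
    -- clear denominators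
    obtain ⟨D, hD⟩ := IsLocalization.exist_integer_multiples_of_finset (nonZeroDivisors ℤ)
      (Finset.univ.image fun i => lam (c i))
    have hD' : ∀ i, ∃ d : ℤ, (d : ℚ) = (D : ℤ) * lam (c i) := by
      intro i
      obtain ⟨d, hd⟩ := hD (lam (c i)) (Finset.mem_image_of_mem _ (Finset.mem_univ i))
      refine ⟨d, ?_⟩
      have : (algebraMap ℤ ℚ) d = (D : ℤ) • lam (c i) := hd
      rw [zsmul_eq_mul] at this
      exact this
    choose d hd using hD'
    have h2 : ∀ j, (0 : ℤ) ∣ ∑ i, d i * PowerSeries.coeff j (basF M k i) := by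
      intro j
      rw [zero_dvd_iff]
      have h3 := congrArg lam (hcoef j)
      rw [map_sum, map_zero] at h3
      have h4 : ((∑ i, d i * PowerSeries.coeff j (basF M k i) : ℤ) : ℚ) = 0 := by
        push_cast
        rw [← mul_zero ((D : ℤ) : ℚ), ← h3, Finset.mul_sum]
        refine Finset.sum_congr rfl fun i _ => ?_
        rw [hd, addHom_mul_int, zsmul_eq_mul]
        ring
      exact_mod_cast h4
    have h5 := zero_dvd_iff.mp (dvd_of_forall_dvd h2 i)
    have h6 := hd i
    rw [h5, Int.cast_zero] at h6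
    have hD0 : ((D : ℤ) : ℚ) ≠ 0 := by
      exact_mod_cast nonZeroDivisors.coe_ne_zero D
    exact (mul_ne_zero hD0 hlam) h6.symm

theorem span_toK (K : Type*) [Field K] (M : ℕ) [NeZero M] (k : ℤ) :
    Submodule.span K (Set.range fun i => toK K (basF M k i)) = MK K M k := by
  apply le_antisymm
  · rw [Submodule.span_le]
    rintro _ ⟨i, rfl⟩
    exact mem_MK_of_intExp (intExp_basF i)
  · rw [MK, Submodule.span_le]
    rintro _ ⟨F, hF, rfl⟩
    obtain ⟨c, rfl⟩ := exists_eq_sum_basF hF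
    rw [toK_sum_zsmul]
    exact Submodule.sum_mem _ fun i _ => Submodule.smul_mem _ _ (Submodule.subset_span ⟨i, rfl⟩)

theorem mem_MK_iff {x : LaurentSeries K} :
    x ∈ MK K M k ↔ ∃ c : Fin (rkF M k) → K, x = ∑ i, c i • toK K (basF M k i) := by
  rw [← span_toK, Submodule.mem_span_range_iff_exists_fun]
  exact ⟨fun ⟨c, hc⟩ => ⟨c, hc.symm⟩, fun ⟨c, hc⟩ => ⟨c, hc.symm⟩⟩

instance finite_MK (K : Type*) [Field K] (M : ℕ) [NeZero M] (k : ℤ) :
    FiniteDimensional K (MK K M k) := by
  rw [← span_toK]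
  exact FiniteDimensional.span_of_finite K (Set.finite_range _)

theorem finrank_MK (K : Type*) [Field K] (M : ℕ) [NeZero M] (k : ℤ) :
    Module.finrank K (MK K M k) = rkF M k := by
  rw [← span_toK, finrank_span_eq_card (linearIndependent_toK K M k), Fintype.card_fin]

theorem coeff_neg_of_mem_MK {x : LaurentSeries K} (hx : x ∈ MK K M k) {n : ℤ} (hn : n < 0) :
    x.coeff n = 0 := by
  obtain ⟨c, rfl⟩ := mem_MK_iff.mp hx
  rw [HahnSeries.coeff_sum]
  exact Finset.sum_eq_zero fun i _ => by rw [HahnSeries.coeff_smul, coeff_toK_neg K _ hn, smul_zero]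

end Field

end Fermat.Agent.DS.X1
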