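import Mathlib
import Fermat.Agent.DS.X1.ApiBase

/-!
# The Galois action on `F1 Qbar M` is smooth
-/

set_option autoImplicit false

noncomputable section

open UpperHalfPlane CongruenceSubgroup ModularCurve IntermediateField

namespace Fermat.Agent.DS.X1

open Fermat.Agent.JRED

local notation "Qbar" => AlgebraicClosure ℚ
local notation "Γℚ" => (AlgebraicClosure ℚ ≃ₐ[ℚ] AlgebraicClosure ℚ)

variable {M : ℕ} [NeZero M] {k : ℤ}

/-- finitely many algebraic numbers generate a finite extension -/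
theorem exists_finite_level {ι : Type*} [Finite ι] (c : ι → Qbar) :
    ∃ L : IntermediateField ℚ Qbar, FiniteDimensional ℚ L ∧ ∀ i, c i ∈ L := by
  refine ⟨IntermediateField.adjoin ℚ (Set.range c), ?_, fun i =>
    IntermediateField.subset_adjoin _ _ ⟨i, rfl⟩⟩
  have h1 : Finite (Set.range c) := inferInstance
  exact IntermediateField.finiteDimensional_adjoin fun x _ =>
    ((AlgebraicClosure.isAlgebraic ℚ).isAlgebraic x).isIntegral

theorem exists_smooth_MK {x : LaurentSeries Qbar} (hx : x ∈ MK Qbar M k) :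
    ∃ L : IntermediateField ℚ Qbar, FiniteDimensional ℚ L ∧
      ∀ g : Γℚ, (∀ y ∈ L, g y = y) → coeffMap ((g : Qbar ≃+* Qbar) : Qbar →+* Qbar) x = x := by
  obtain ⟨c, rfl⟩ := mem_MK_iff.mp hx
  obtain ⟨L, hL, h⟩ := exists_finite_level c
  refine ⟨L, hL, fun g hg => ?_⟩
  rw [map_sum]
  refine Finset.sum_congr rfl fun i _ => ?_
  rw [coeffMap_smul', coeffMap_toK]
  congr 1
  exact hg _ (h i)

theorem exists_smooth_F1 {x : LaurentSeries Qbar} (hx : x ∈ F1 Qbar M) :
    ∃ L : IntermediateField ℚ Qbar, FiniteDimensional ℚ L ∧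
      ∀ g : Γℚ, (∀ y ∈ L, g y = y) → coeffMap ((g : Qbar ≃+* Qbar) : Qbar →+* Qbar) x = x := by
  obtain ⟨k, a, ha, b, hb, hb0, h⟩ := hx
  obtain ⟨L₁, hL₁, h₁⟩ := exists_smooth_MK ha
  obtain ⟨L₂, hL₂, h₂⟩ := exists_smooth_MK hb
  refine ⟨L₁ ⊔ L₂, IntermediateField.finiteDimensional_sup L₁ L₂, fun g hg => ?_⟩
  have h3 := h₁ g fun y hy => hg y (le_sup_left (a := L₁) (b := L₂) hy)
  have h4 := h₂ g fun y hy => hg y (le_sup_right (a := L₁) (b := L₂) hy)
  apply mul_right_cancel₀ hb0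
  conv_lhs => rw [← h4, ← map_mul]
  rw [h, h3]

end Fermat.Agent.DS.X1
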