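import Mathlib
import Fermat.Prelude.Def_GaloisRep_Residual
import Fermat.Agent.QuadraticModules
import Fermat.Agent.Lib.Cyclotomic
import Fermat.Agent.Density.Final
import Fermat.Agent.DS.Hecke1Alg

/-!
# Two-dimensional mod `ℓ` representations from finite modules with an Eichler–Shimura relation
with nebentypus
-/

set_option autoImplicit false

noncomputable section

open scoped TensorProduct

namespace Fermat.Agent.DS.X1

open QuadraticModules

local notation "Qbar" => AlgebraicClosure ℚ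
local notation "Γℚ" => (AlgebraicClosure ℚ ≃ₐ[ℚ] AlgebraicClosure ℚ)

section StepA

variable {F : Type} [Field F] [IsAlgClosed F] {W : Type} [AddCommGroup W] [Module F W]
  [FiniteDimensional F W] [Nontrivial W]

/-- **Step A.** -/
theorem exists_matrixRep_of_quadratic (σW : Γℚ →* Module.End F W)
    (hlev : GaloisFactorsThroughFiniteLevel σW) (d : Γℚ →* F)
    (hdlev : GaloisFactorsThroughFiniteLevel d) (good : ℕ → Prop) (S : Finset ℕ)
    (hS : ∀ p : ℕ, p.Prime → p ∉ S → good p) (a : ℕ → F)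
    (hfrob : ∀ p : ℕ, p.Prime → good p → ∀ A : ValuationSubring Qbar, A.LiesOverPrime p →
      ∀ g : Γℚ, A.IsFrobeniusAt g p → σW g * σW g - a p • σW g + d g • 1 = 0) :
    ∃ M : Γℚ →* Matrix (Fin 2) (Fin 2) F, GaloisFactorsThroughFiniteLevel M ∧
      (∀ g, σW g = 1 → d g = 1 → M g = 1) ∧
      ∀ p : ℕ, p.Prime → good p → ∀ A : ValuationSubring Qbar, A.LiesOverPrime p →
        ∀ g : Γℚ, A.IsFrobeniusAt g p → (M g).trace = a p ∧ (M g).det = d g := by
  have hscal : ∀ p : ℕ, p.Prime → good p → ∀ A : ValuationSubring Qbar, A.LiesOverPrime p →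
      ∀ g : Γℚ, A.IsFrobeniusAt g p →
        σW g + d g • σW g⁻¹ = a p • (1 : Module.End F W) := by
    intro p hp hgp A hA g hg
    have h := hfrob p hp hgp A hA g hg
    have h1 := congrArg (fun y => y * σW g⁻¹) h
    simp only [add_mul, sub_mul, zero_mul, smul_mul_assoc, one_mul, mul_assoc,
      map_mul_inv_self, mul_one] at h1
    have h2 := congrArg (fun y => y + a p • (1 : Module.End F W)) h1
    simp only [zero_add] at h2
    rw [← h2]; abel
  obtain ⟨L₁, hL₁, h₁⟩ := hlev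
  obtain ⟨L₂, hL₂, h₂⟩ := hdlev
  set L : IntermediateField ℚ Qbar := L₁ ⊔ L₂ with hL
  have hLfin : FiniteDimensional ℚ L := IntermediateField.finiteDimensional_sup L₁ L₂
  have hLσ : ∀ g : Γℚ, (∀ x ∈ L, g x = x) → σW g = 1 := fun g hg =>
    h₁ g fun x hx => hg x (le_sup_left (a := L₁) (b := L₂) hx)
  have hLd : ∀ g : Γℚ, (∀ x ∈ L, g x = x) → d g = 1 := fun g hg =>
    h₂ g fun x hx => hg x (le_sup_right (a := L₁) (b := L₂) hx)
  have hall : ∀ g : Γℚ, ∃ t : F, σW g + d g • σW g⁻¹ = t • (1 : Module.End F W) := by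
    intro g
    obtain ⟨p, hp, hpS, A, σ, hA, hσ, hk⟩ := Density.Final.exists_frobenius_eq L S g
    refine ⟨a p, ?_⟩
    have hfix : ∀ x ∈ L, (σ⁻¹ * g) x = x := by
      intro x hx
      rw [AlgEquiv.mul_apply, ← hk x hx, ← AlgEquiv.mul_apply, inv_mul_cancel, AlgEquiv.one_apply]
    have e1 : σW g = σW σ := by
      have := hLσ _ hfix
      rw [map_mul] at this
      calc σW g = σW σ * (σW σ⁻¹ * σW g) := by rw [← mul_assoc, map_mul_inv_self, one_mul]
        _ = _ := by rw [this, mul_one]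
    have e2 : d g = d σ := by
      have := hLd _ hfix
      rw [map_mul] at this
      calc d g = d σ * (d σ⁻¹ * d g) := by rw [← mul_assoc, d_mul_inv, one_mul]
        _ = _ := by rw [this, mul_one]
    have e3 : σW g⁻¹ = σW σ⁻¹ := by
      have h1 := map_inv_mul_self σW g
      have h2 := map_mul_inv_self σW σ
      rw [← e1] at h2
      calc σW g⁻¹ = σW g⁻¹ * (σW g * σW σ⁻¹) := by rw [h2, mul_one]
        _ = _ := by rw [← mul_assoc, h1, one_mul]
    rw [e1, e2, e3]
    exact hscal p hp (hS p hp hpS) A hA σ hσ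
  choose t ht using hall
  obtain ⟨M, hM1, hM2⟩ := exists_matrixRep (σ := σW) (d := d) (t := t) ht
  have hinj : ∀ x y : F, x • (1 : Module.End F W) = y • (1 : Module.End F W) → x = y := by
    intro x y hxy
    obtain ⟨w, hw⟩ := exists_ne (0 : W)
    have := LinearMap.congr_fun hxy w
    simp only [LinearMap.smul_apply, Module.End.one_apply] at this
    exact smul_left_injective F hw this
  refine ⟨M, ⟨L, hLfin, fun g hg => hM2 g (hLσ g hg) (hLd g hg)⟩, hM2, ?_⟩
  intro p hp hgp A hA g hg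
  refine ⟨?_, (hM1 g).2⟩
  rw [(hM1 g).1]
  exact hinj _ _ (by rw [← ht g, hscal p hp hgp A hA g hg])

end StepA

/-! ### The determinant character -/

section Det

variable {M ℓ : ℕ} [NeZero M] [NeZero ℓ] {F : Type} [Field F] [CharP F ℓ]

/-- The character `g ↦ χ_ℓ(g) δ(g)`. -/
def detChar (δ : (ZMod M)ˣ →* F) : Γℚ →* F :=
  ((ZMod.castHom (dvd_refl ℓ) F : ZMod ℓ →* F).comp
    ((Units.coeHom (ZMod ℓ)).comp (Cyclotomic.cyc ℓ))) * δ.comp (Cyclotomic.cyc M)

theorem detChar_apply (δ : (ZMod M)ˣ →* F) (g : Γℚ) :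
    detChar (ℓ := ℓ) δ g = ZMod.castHom (dvd_refl ℓ) F (Cyclotomic.cyc ℓ g : ZMod ℓ) *
      δ (Cyclotomic.cyc M g) := rfl

theorem detChar_frob (δ : (ZMod M)ˣ →* F) {p : ℕ} (hp : p.Prime) (hpM : ¬ p ∣ M) (hpℓ : ¬ p ∣ ℓ)
    (A : ValuationSubring Qbar) (hA : A.LiesOverPrime p) {g : Γℚ} (hg : A.IsFrobeniusAt g p) :
    detChar (ℓ := ℓ) δ g = p * δ (Hecke1.pu hp hpM) := by
  have h1 : Cyclotomic.cyc M g = Hecke1.pu hp hpM := by
    apply Units.ext
    rw [Cyclotomic.cyc_frobenius hp hpM A hA hg, Hecke1.coe_pu]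
  rw [detChar_apply, Cyclotomic.cyc_frobenius hp hpℓ A hA hg, map_natCast, h1]

theorem detChar_inertia (δ : (ZMod M)ˣ →* F) {p : ℕ} (hp : p.Prime) (hpM : ¬ p ∣ M)
    (hpℓ : ¬ p ∣ ℓ) (A : ValuationSubring Qbar) (hA : A.LiesOverPrime p) {g : Γℚ}
    (hg : g ∈ A.inertiaSubgroupIn ℚ) : detChar (ℓ := ℓ) δ g = 1 := by
  rw [detChar_apply, Cyclotomic.cyc_inertia hp hpM A hA hg,
    Cyclotomic.cyc_inertia hp hpℓ A hA hg, Units.val_one, map_one, map_one, one_mul]

theorem detChar_level (δ : (ZMod M)ˣ →* F) :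
    GaloisFactorsThroughFiniteLevel (detChar (ℓ := ℓ) δ) := by
  obtain ⟨L₁, hL₁, h₁⟩ := Cyclotomic.cyc_finite_level M
  obtain ⟨L₂, hL₂, h₂⟩ := Cyclotomic.cyc_finite_level ℓ
  refine ⟨L₁ ⊔ L₂, IntermediateField.finiteDimensional_sup L₁ L₂, fun g hg => ?_⟩
  rw [detChar_apply, h₁ g fun x hx => hg x (le_sup_left (a := L₁) (b := L₂) hx),
    h₂ g fun x hx => hg x (le_sup_right (a := L₁) (b := L₂) hx), Units.val_one, map_one, map_one,
    one_mul]

end Det

/-! ### Step B -/

section StepB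

theorem nontrivial_tensor {R : Type*} [CommRing R] {F : Type*} [Field F] (θ : R →+* F)
    {W : Type*} [AddCommGroup W] [Module R W] [Module.Finite R W]
    (hθ : Module.annihilator R W ≤ RingHom.ker θ) :
    letI := θ.toAlgebra
    Nontrivial (F ⊗[R] W) := by
  let _ := θ.toAlgebra
  let P : Ideal R := RingHom.ker θ
  have hP : P.IsPrime := RingHom.ker_isPrime θ
  have h1 : (⟨P, hP⟩ : PrimeSpectrum R) ∈ Module.support R W := by
    rw [Module.support_eq_zeroLocus, PrimeSpectrum.mem_zeroLocus]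
    exact hθ
  rw [Module.mem_support_iff_nontrivial_residueField_tensorProduct] at h1
  let j : P.ResidueField →+* F := Ideal.ResidueField.lift P θ le_rfl (by
    intro x hx
    rw [Submonoid.mem_comap]
    exact IsUnit.mk0 _ fun h => hx h)
  let _ := j.toAlgebra
  have : IsScalarTower R P.ResidueField F := IsScalarTower.of_algebraMap_eq fun r => by
    show θ r = j (algebraMap R P.ResidueField r)
    rw [Ideal.ResidueField.lift_algebraMap]
  have h2 : Nontrivial (P.ResidueField ⊗[R] W) := h1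
  have h3 : Nontrivial (F ⊗[P.ResidueField] (P.ResidueField ⊗[R] W)) := inferInstance
  exact (TensorProduct.AlgebraTensorModule.cancelBaseChange R P.ResidueField F F W).symm.toEquiv.nontrivial

/-- **Step B.** -/
theorem exists_rep_of_module {M ℓ : ℕ} [NeZero M] [NeZero ℓ] (hℓ : ℓ.Prime) {F : Type} [Field F]
    [IsAlgClosed F] [CharP F ℓ] {R W : Type} [CommRing R] [AddCommGroup W] [Finite W] [Module R W]
    [DistribMulAction Γℚ W] [SMulCommClass Γℚ R W]
    (hs : ∀ x : W, ∃ L : IntermediateField ℚ Qbar, FiniteDimensional ℚ L ∧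
      ∀ g : Γℚ, (∀ y ∈ L, g y = y) → g • x = x)
    (good : ℕ → Prop) (S : Finset ℕ) (hS : ∀ p : ℕ, p.Prime → p ∉ S → good p)
    (hgM : ∀ p : ℕ, good p → ¬ p ∣ M) (hgℓ : ∀ p : ℕ, good p → p ≠ ℓ)
    (T Sp : ℕ → R)
    (hur : ∀ p : ℕ, p.Prime → good p → ∀ A : ValuationSubring Qbar, A.LiesOverPrime p →
      ∀ g ∈ A.inertiaSubgroupIn ℚ, ∀ w : W, g • w = w)
    (hfr : ∀ p : ℕ, p.Prime → good p → ∀ A : ValuationSubring Qbar, A.LiesOverPrime p →
      ∀ g : Γℚ, A.IsFrobeniusAt g p → ∀ w : W, g • g • w - T p • g • w + p • Sp p • w = 0)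
    (θ : R →+* F) (hθ : Module.annihilator R W ≤ RingHom.ker θ)
    (δ : (ZMod M)ˣ →* F)
    (hδ : ∀ (p : ℕ) (hp : p.Prime) (h : good p), θ (Sp p) = δ (Hecke1.pu hp (hgM p h))) :
    ∃ ρ : Γℚ →* Matrix (Fin 2) (Fin 2) F, GaloisFactorsThroughFiniteLevel ρ ∧
      ∀ p : ℕ, p.Prime → good p → ∀ A : ValuationSubring Qbar, A.LiesOverPrime p →
        (∀ σ ∈ A.inertiaSubgroupIn ℚ, ρ σ = 1) ∧
        ∀ σ : Γℚ, A.IsFrobeniusAt σ p → (ρ σ).trace = θ (T p) ∧ (ρ σ).det = p * θ (Sp p) := by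
  let _ := θ.toAlgebra
  have halg : ∀ r : R, algebraMap R F r = θ r := fun _ => rfl
  have hV : Nontrivial (F ⊗[R] W) := nontrivial_tensor θ hθ
  let σ₀ : Γℚ →* Module.End R W := DistribMulAction.toModuleEnd R W
  have hσ₀ : ∀ g w, σ₀ g w = g • w := fun _ _ => rfl
  let σW : Γℚ →* Module.End F (F ⊗[R] W) :=
    { toFun := fun g => (σ₀ g).baseChange F
      map_one' := by rw [map_one, LinearMap.baseChange_one]
      map_mul' := fun g h => by rw [map_mul, LinearMap.baseChange_mul] }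
  have hσW : ∀ g, σW g = (σ₀ g).baseChange F := fun _ => rfl
  have hlev : GaloisFactorsThroughFiniteLevel σW := by
    choose Lf hLf1 hLf2 using hs
    refine ⟨⨆ y : W, Lf y, ?_, fun g hg => ?_⟩
    · have := fun y : W => hLf1 y
      exact IntermediateField.finiteDimensional_iSup_of_finite
    · have h1 : σ₀ g = 1 := LinearMap.ext fun y =>
        hLf2 y g fun z hz => hg z (le_iSup (fun y : W => Lf y) y hz)
      rw [hσW, h1, LinearMap.baseChange_one]
  have hsm : ∀ (c : R) (f : Module.End R W), (c • f).baseChange F = (θ c) • f.baseChange F := by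
    intro c f
    refine TensorProduct.AlgebraTensorModule.ext fun b y => ?_
    simp only [LinearMap.baseChange_tmul, LinearMap.smul_apply]
    rw [TensorProduct.tmul_smul, TensorProduct.smul_tmul', TensorProduct.smul_tmul',
      Algebra.smul_def, halg]
    rfl
  have hd : ∀ (p : ℕ) (hp : p.Prime) (hgp : good p) (A : ValuationSubring Qbar)
      (_ : A.LiesOverPrime p) (g : Γℚ), A.IsFrobeniusAt g p →
      detChar (ℓ := ℓ) δ g = p * θ (Sp p) := by
    intro p hp hgp A hA g hg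
    rw [hδ p hp hgp]
    exact detChar_frob δ hp (hgM p hgp)
      (fun h => hgℓ p hgp ((Nat.prime_dvd_prime_iff_eq hp hℓ).mp h)) A hA hg
  obtain ⟨ρ, hρ1, hρ2, hρ3⟩ := exists_matrixRep_of_quadratic σW hlev (detChar (ℓ := ℓ) δ)
    (detChar_level δ) good S hS (fun p => θ (T p)) (by
      intro p hp hgp A hA g hg
      have h1 : σ₀ g * σ₀ g - T p • σ₀ g + ((p : R) * Sp p) • (1 : Module.End R W) = 0 := by
        refine LinearMap.ext fun w => ?_
        have h2 := hfr p hp hgp A hA g hg w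
        simp only [LinearMap.add_apply, LinearMap.sub_apply, Module.End.mul_apply,
          LinearMap.smul_apply, Module.End.one_apply, LinearMap.zero_apply]
        rw [hσ₀, hσ₀, mul_smul, Nat.cast_smul_eq_nsmul]
        exact h2
      have h3 := congrArg (LinearMap.baseChange F) h1
      rw [LinearMap.baseChange_add, LinearMap.baseChange_sub, LinearMap.baseChange_mul,
        LinearMap.baseChange_zero, hsm, hsm, LinearMap.baseChange_one, map_mul, map_natCast,
        ← hd p hp hgp A hA g hg] at h3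
      exact h3)
  refine ⟨ρ, hρ1, fun p hp hgp A hA => ⟨fun g hg => ?_, fun g hg => ?_⟩⟩
  · refine hρ2 g ?_ (detChar_inertia δ hp (hgM p hgp)
      (fun h => hgℓ p hgp ((Nat.prime_dvd_prime_iff_eq hp hℓ).mp h)) A hA hg)
    have h1 : σ₀ g = 1 := LinearMap.ext fun w => hur p hp hgp A hA g hg w
    rw [hσW, h1, LinearMap.baseChange_one]
  · rw [← hd p hp hgp A hA g hg]
    exact hρ3 p hp hgp A hA g hg

end StepB

end Fermat.Agent.DS.X1
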