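import Mathlib
import Fermat.Agent.DS.X1.FinRep
import Fermat.Agent.DS.GaloisFinal

/-!
# Combining representations which are good at different sets of primes
-/

set_option autoImplicit false

noncomputable section

namespace Fermat.Agent.DS.X1

open Fermat.Agent.DS Matrix

local notation "Qbar" => AlgebraicClosure ℚ
local notation "Γℚ" => (AlgebraicClosure ℚ ≃ₐ[ℚ] AlgebraicClosure ℚ)

section Trivial

variable {G : Type*} [Group G] {k : Type*} [Field k]

/-- An element `g` with `tr M(g h) = tr M(h)` for all `h` acts trivially in a semisimple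
representation. -/
theorem eq_one_of_trace [IsAlgClosed k] (h2 : (2 : k) ≠ 0) (M : G →* Matrix (Fin 2) (Fin 2) k)
    (hss : Irr M ∨ Dia M) (g : G) (h : ∀ x, (M (g * x)).trace = (M x).trace) : M g = 1 := by
  rcases hss with hirr | ⟨χ₁, χ₂, hχ⟩
  · -- irreducible
    have hspan' : Submodule.span k (Set.range M) = ⊤ := Fermat.Agent.UDef.burnside_two M hirr
    have key : ∀ Y : Matrix (Fin 2) (Fin 2) k, ((M g - 1) * Y).trace = 0 := by
      intro Y
      have hY : Y ∈ Submodule.span k (Set.range M) := by rw [hspan']; trivial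
      induction hY using Submodule.span_induction with
      | mem Y hY =>
        obtain ⟨x, rfl⟩ := hY
        rw [sub_mul, one_mul, Matrix.trace_sub, ← map_mul, h, sub_self]
      | zero => simp
      | add Y Z _ _ hY hZ => rw [mul_add, Matrix.trace_add, hY, hZ, add_zero]
      | smul c Y _ hY => rw [mul_smul_comm, Matrix.trace_smul, hY, smul_zero]
    have h3 : M g - 1 = 0 := by
      rw [Matrix.ext_iff_trace_mul_right]
      intro Y
      rw [key Y, zero_mul, Matrix.trace_zero]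
    exact sub_eq_zero.mp h3
  · have htr : ∀ x, (M x).trace = χ₁ x + χ₂ x := fun x => by rw [hχ, Matrix.trace_fin_two]; simp
    have h1 : ∀ x, (χ₁ g - 1) * χ₁ x + (χ₂ g - 1) * χ₂ x = 0 := fun x => by
      have := h x
      rw [htr, htr, map_mul, map_mul] at this
      linear_combination this
    have h3 := h1 1
    rw [map_one, map_one, mul_one, mul_one] at h3
    have hc : χ₁ g - 1 = 0 := by
      by_contra hc
      have h4 : ∀ x, χ₁ x = χ₂ x := fun x => by
        have h5 := h1 x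
        have h6 : (χ₁ g - 1) * (χ₁ x - χ₂ x) = 0 := by linear_combination h5 - χ₂ x * h3
        exact sub_eq_zero.mp ((mul_eq_zero.mp h6).resolve_left hc)
      apply hc
      rw [← h4 g] at h3
      have h7 : 2 * (χ₁ g - 1) = 0 := by linear_combination h3
      exact (mul_eq_zero.mp h7).resolve_left h2
    have e1 : χ₁ g = 1 := sub_eq_zero.mp hc
    have e2 : χ₂ g = 1 := by
      rw [hc, zero_add] at h3
      exact sub_eq_zero.mp h3
    rw [hχ, e1, e2]
    ext i j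
    fin_cases i <;> fin_cases j <;> simp

end Trivial

variable {k : Type} [Field k]

/-- The representation `ρ` is of finite level, unramified at the good primes with the given
Frobenius traces and determinants. -/
structure RepAt (ρ : Γℚ →* Matrix (Fin 2) (Fin 2) k) (good : ℕ → Prop) (a e : ℕ → k) : Prop where
  level : GaloisFactorsThroughFiniteLevel ρ
  frob : ∀ p : ℕ, p.Prime → good p → ∀ A : ValuationSubring Qbar, A.LiesOverPrime p →
    (∀ σ ∈ A.inertiaSubgroupIn ℚ, ρ σ = 1) ∧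
    ∀ σ : Γℚ, A.IsFrobeniusAt σ p → (ρ σ).trace = a p ∧ (ρ σ).det = e p

theorem RepAt.exists_ss {ρ : Γℚ →* Matrix (Fin 2) (Fin 2) k} {good : ℕ → Prop} {a e : ℕ → k}
    (h : RepAt ρ good a e) : ∃ ρ', RepAt ρ' good a e ∧ (Irr ρ' ∨ Dia ρ') := by
  obtain ⟨M', hss, htr, hdet, hker⟩ := Fermat.Agent.DS.exists_ss ρ
  refine ⟨M', ⟨?_, fun p hp hg A hA => ⟨fun σ hσ => ?_, fun σ hσ => ?_⟩⟩, hss⟩
  · obtain ⟨L, hL, h⟩ := h.level
    exact ⟨L, hL, fun σ hσ => hker _ (h σ hσ)⟩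
  · exact hker _ ((h.frob p hp hg A hA).1 σ hσ)
  · rw [htr, hdet]
    exact (h.frob p hp hg A hA).2 σ hσ

/-- Equality of traces and determinants. -/
theorem RepAt.compare {ρ ρ' : Γℚ →* Matrix (Fin 2) (Fin 2) k} {good good' : ℕ → Prop}
    {a e : ℕ → k} (h : RepAt ρ good a e) (h' : RepAt ρ' good' a e) (S S' : Finset ℕ)
    (hS : ∀ p : ℕ, p.Prime → p ∉ S → good p) (hS' : ∀ p : ℕ, p.Prime → p ∉ S' → good' p)
    (g : Γℚ) : (ρ g).trace = (ρ' g).trace ∧ (ρ g).det = (ρ' g).det := by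
  classical
  obtain ⟨L₁, hL₁, h₁⟩ := h.level
  obtain ⟨L₂, hL₂, h₂⟩ := h'.level
  have hLfin : FiniteDimensional ℚ (L₁ ⊔ L₂ : IntermediateField ℚ Qbar) :=
    IntermediateField.finiteDimensional_sup L₁ L₂
  obtain ⟨p, hp, hpS, A, σ, hA, hσ, hk⟩ := Density.Final.exists_frobenius_eq (L₁ ⊔ L₂) (S ∪ S') g
  have hfix : ∀ x ∈ (L₁ ⊔ L₂ : IntermediateField ℚ Qbar), (σ⁻¹ * g) x = x := by
    intro x hx
    rw [AlgEquiv.mul_apply, ← hk x hx, ← AlgEquiv.mul_apply, inv_mul_cancel, AlgEquiv.one_apply]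
  have e1 : ρ g = ρ σ := by
    have h3 := h₁ _ fun x hx => hfix x (le_sup_left (a := L₁) (b := L₂) hx)
    calc ρ g = ρ (σ * (σ⁻¹ * g)) := by rw [mul_inv_cancel_left]
      _ = _ := by rw [map_mul, h3, mul_one]
  have e2 : ρ' g = ρ' σ := by
    have h3 := h₂ _ fun x hx => hfix x (le_sup_right (a := L₁) (b := L₂) hx)
    calc ρ' g = ρ' (σ * (σ⁻¹ * g)) := by rw [mul_inv_cancel_left]
      _ = _ := by rw [map_mul, h3, mul_one]
  rw [Finset.notMem_union] at hpS
  have f1 := (h.frob p hp (hS p hp hpS.1) A hA).2 σ hσ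
  have f2 := (h'.frob p hp (hS' p hp hpS.2) A hA).2 σ hσ
  rw [e1, e2, f1.1, f1.2, f2.1, f2.2]
  exact ⟨rfl, rfl⟩

/-- **Combination.** -/
theorem RepAt.combine [IsAlgClosed k] (h2 : (2 : k) ≠ 0) {ι : Type*} [Nonempty ι]
    {good : ι → ℕ → Prop} {a e : ℕ → k} (S : ι → Finset ℕ)
    (hS : ∀ i, ∀ p : ℕ, p.Prime → p ∉ S i → good i p)
    (H : ∀ i, ∃ ρ, RepAt ρ (good i) a e) : ∃ ρ, RepAt ρ (fun p => ∃ i, good i p) a e := by
  obtain ⟨i₀⟩ := ‹Nonempty ι›
  obtain ⟨ρ₀, h₀⟩ := H i₀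
  obtain ⟨ρ, hρ, hss⟩ := h₀.exists_ss
  refine ⟨ρ, hρ.level, fun p hp hg A hA => ?_⟩
  obtain ⟨i, hi⟩ := hg
  obtain ⟨ρ', hρ'⟩ := H i
  have hcmp := fun g => hρ.compare hρ' (S i₀) (S i) (hS i₀) (hS i) g
  have hfr := hρ'.frob p hp hi A hA
  refine ⟨fun σ hσ => ?_, fun σ hσ => ?_⟩
  · refine eq_one_of_trace h2 ρ hss σ fun x => ?_
    rw [(hcmp (σ * x)).1, (hcmp x).1, map_mul, hfr.1 σ hσ, one_mul]
  · rw [(hcmp σ).1, (hcmp σ).2]
    exact hfr.2 σ hσ

end Fermat.Agent.DS.X1
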