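import Mathlib
import Fermat.Agent.DS.X1.FinLevels
import Fermat.Agent.DS.EisTheta

/-!
# From representations attached to characters of the weight two Hecke algebras `T1 M` to the
input `hG` of the Galois side of Deligne–Serre
-/

set_option autoImplicit false

noncomputable section

open CongruenceSubgroup

namespace Fermat.Agent.DS.X1

open Fermat.Agent.DS Fermat.Agent.DS.Hecke1 Fermat.Agent.IntStr
open ModularFormClass (qCoeff)

local notation "Qbar" => AlgebraicClosure ℚ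
local notation "Γℚ" => (AlgebraicClosure ℚ ≃ₐ[ℚ] AlgebraicClosure ℚ)

/-- The primes `p ∤ M` at which the geometric input is available. -/
def GoodP (M p : ℕ) : Prop := 5 ≤ p ∨ (p = 3 ∧ 2 ∣ M) ∨ (p = 2 ∧ 3 ∣ M)

/-- **Geometric input**: representations attached to mod `ℓ` characters of the Hecke algebra of
`S_2(Γ₁(M))`, `ℓ` exactly dividing `M` and prime to `φ(M)`. -/
def GaloisT1 : Prop :=
  ∀ (M ℓ : ℕ) [NeZero M], ℓ.Prime → 5 ≤ ℓ → ℓ ∣ M → ¬ ℓ ^ 2 ∣ M → ¬ ℓ ∣ Nat.totient M →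
    ∀ (k : Type) [Field k] [IsAlgClosed k] [CharP k ℓ] (θ : T1 M 2 →+* k),
      ∃ ρ : Γℚ →* Matrix (Fin 2) (Fin 2) k, GaloisFactorsThroughFiniteLevel ρ ∧
        ∀ (p : ℕ) (hp : p.Prime) (hpM : ¬ p ∣ M), GoodP M p →
          ∀ A : ValuationSubring Qbar, A.LiesOverPrime p →
            (∀ σ ∈ A.inertiaSubgroupIn ℚ, ρ σ = 1) ∧
            ∀ σ : Γℚ, A.IsFrobeniusAt σ p →
              (ρ σ).trace = θ (T1.T hp hpM) ∧ (ρ σ).det = p * θ (T1.D (pu hp hpM))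

/-- There are algebraically closed fields of characteristic `ℓ` receiving the algebraic
integers. -/
theorem exists_residue (ℓ : ℕ) (hℓ : ℓ.Prime) : ∃ (k : Type) (_ : Field k) (_ : IsAlgClosed k)
    (_ : CharP k ℓ), Nonempty (Zb →+* k) := by
  have hne : Ideal.span {(ℓ : Zb)} ≠ ⊤ := by
    intro h
    rw [Ideal.span_singleton_eq_top] at h
    obtain ⟨u, hu⟩ := h
    have h1 : ((ℓ : Zb) : ℂ) * ((u⁻¹ : Zbˣ) : Zb) = 1 := by
      have h2 : (ℓ : Zb) * ((u⁻¹ : Zbˣ) : Zb) = 1 := by rw [← hu, Units.mul_inv]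
      exact congrArg (algebraMap Zb ℂ) h2
    have hint : IsIntegral ℤ (((u⁻¹ : Zbˣ) : Zb) : ℂ) := ((u⁻¹ : Zbˣ) : Zb).2
    have h3 : (((u⁻¹ : Zbˣ) : Zb) : ℂ) = algebraMap ℚ ℂ (1 / ℓ) := by
      have hℓ0 : (ℓ : ℂ) ≠ 0 := by exact_mod_cast hℓ.ne_zero
      have h4 : (ℓ : ℂ) * ((u⁻¹ : Zbˣ) : Zb) = 1 := by
        have : ((ℓ : Zb) : ℂ) = (ℓ : ℂ) := rfl
        rwa [this] at h1
      rw [map_div₀, map_one, map_natCast, eq_div_iff hℓ0, mul_comm]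
      exact h4
    rw [h3] at hint
    have h5 : IsIntegral ℤ (1 / ℓ : ℚ) :=
      (isIntegral_algHom_iff ((Algebra.ofId ℚ ℂ).restrictScalars ℤ)
        (algebraMap ℚ ℂ).injective).mp hint
    obtain ⟨z, hz⟩ := IsIntegrallyClosed.isIntegral_iff.mp h5
    have hℓ0 : (ℓ : ℚ) ≠ 0 := by exact_mod_cast hℓ.ne_zero
    have h6 : (z : ℚ) * ℓ = 1 := by
      have : (z : ℚ) = 1 / ℓ := hz
      rw [this]; field_simp
    have h7 : z * (ℓ : ℤ) = 1 := by exact_mod_cast h6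
    have h8 : (ℓ : ℤ) ∣ 1 := ⟨z, by rw [mul_comm]; exact h7.symm⟩
    exact hℓ.one_lt.ne' (Nat.dvd_one.mp (by exact_mod_cast h8))
  obtain ⟨m, hm, hle⟩ := Ideal.exists_le_maximal _ hne
  let _ : Field (Zb ⧸ m) := Ideal.Quotient.field m
  have hmem : (ℓ : Zb) ∈ m := hle (Ideal.mem_span_singleton_self _)
  refine ⟨AlgebraicClosure (Zb ⧸ m), inferInstance, inferInstance, ?_,
    ⟨(algebraMap (Zb ⧸ m) (AlgebraicClosure (Zb ⧸ m))).comp (Ideal.Quotient.mk m)⟩⟩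
  have h1 : ((ℓ : ℕ) : AlgebraicClosure (Zb ⧸ m)) = 0 := by
    have h2 : (Ideal.Quotient.mk m (ℓ : Zb)) = 0 := Ideal.Quotient.eq_zero_iff_mem.mpr hmem
    have h3 := congrArg (algebraMap (Zb ⧸ m) (AlgebraicClosure (Zb ⧸ m))) h2
    rw [map_natCast, map_natCast, map_zero] at h3
    exact h3
  obtain ⟨q, hq⟩ := CharP.exists (AlgebraicClosure (Zb ⧸ m))
  have h2 : q ∣ ℓ := (CharP.cast_eq_zero_iff _ q ℓ).mp h1
  rcases (Nat.dvd_prime hℓ).mp h2 with h3 | h3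
  · exfalso
    subst h3
    exact CharP.false_of_nontrivial_of_char_one (R := AlgebraicClosure (Zb ⧸ m))
  · subst h3; exact hq

/-- The forms at the three levels. -/
theorem exists_repAt (hP : GaloisT1) {N : ℕ} [NeZero N] (ε : DirichletCharacter ℂ N)
    (f : CuspForm (Gamma1 N) 1) (hf1 : qCoeff f 1 = 1)
    (hT : ∀ p : ℕ, p.Prime → ¬ p ∣ N → ∀ n : ℕ,
        qCoeff f (p * n) + ε (p : ZMod N) * (if p ∣ n then qCoeff f (n / p) else 0) =
          qCoeff f p * qCoeff f n)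
    {D : ℕ} (b : ℕ → Zb) (hb : ∀ n, (b n : ℂ) = D * qCoeff f n)
    (a : ℕ → Zb) (ha : ∀ p : ℕ, p.Prime → ¬ p ∣ N → (a p : ℂ) = qCoeff f p)
    (e : ZMod N → Zb) (he : ∀ d : (ZMod N)ˣ, (e d : ℂ) = ε d)
    {ℓ : ℕ} (hℓ : ℓ.Prime) (hℓ5 : 5 ≤ ℓ) (hℓD : ¬ ℓ ∣ D) (c : ℕ) (hc : c ≠ 0)
    (hlt : N * c < ℓ) {k : Type} [Field k] [IsAlgClosed k] [CharP k ℓ] (φ : Zb →+* k) :
    ∃ ρ, RepAt ρ (fun p => ¬ p ∣ N * c * ℓ ∧ GoodP (N * c * ℓ) p) (fun p => φ (a p))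
      (fun p => φ (e (p : ZMod N))) := by
  have : Fact ℓ.Prime := ⟨hℓ⟩
  have : NeZero c := ⟨hc⟩
  have : NeZero (N * c) := ⟨mul_ne_zero (NeZero.ne N) hc⟩
  have : NeZero (N * c * ℓ) := ⟨mul_ne_zero (NeZero.ne (N * c)) hℓ.ne_zero⟩
  have hdvd : N ∣ N * c := dvd_mul_right N c
  -- the form at level `N c`
  let f' : CuspForm (Gamma1 (N * c)) 1 := restrictCusp (Eis.gamma1_le hdvd) f
  let ε' : DirichletCharacter ℂ (N * c) := DirichletCharacter.changeLevel hdvd ε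
  have hε' : ∀ d : (ZMod (N * c))ˣ, ε' d = ε ((d : ZMod (N * c)).cast : ZMod N) := fun d =>
    DirichletCharacter.changeLevel_eq_cast_of_dvd ε hdvd d
  have hεp : ∀ p : ℕ, p.Prime → ¬ p ∣ N * c → ε' (p : ZMod (N * c)) = ε (p : ZMod N) := by
    intro p hp hpc
    have h1 := hε' (pu hp hpc)
    rw [coe_pu] at h1
    rw [h1, ZMod.cast_natCast hdvd]
  have hT' : ∀ p : ℕ, p.Prime → ¬ p ∣ N * c → ∀ n : ℕ,
      qCoeff f' (p * n) + ε' (p : ZMod (N * c)) * (if p ∣ n then qCoeff f' (n / p) else 0) =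
        qCoeff f' p * qCoeff f' n := by
    intro p hp hpc n
    rw [hεp p hp hpc]
    exact hT p hp (fun h => hpc (h.mul_right c)) n
  let e' : ZMod (N * c) → Zb := fun x => e (x.cast : ZMod N)
  have he' : ∀ d : (ZMod (N * c))ˣ, (e' d : ℂ) = ε' d := by
    intro d
    rw [hε']
    show (e ((d : ZMod (N * c)).cast : ZMod N) : ℂ) = _
    have hu : IsUnit ((d : ZMod (N * c)).cast : ZMod N) := by
      have := (ZMod.unitsMap hdvd d).isUnit
      rwa [ZMod.unitsMap_val] at this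
    obtain ⟨u, hu⟩ := hu
    rw [← hu, he]
  have hℓ2 : ℓ ≠ 2 := by omega
  obtain ⟨θ, hθ⟩ := Eis.exists_theta_weight_one ε' f' hf1 hT' b hb a
    (fun p hp hpc => ha p hp (fun h => hpc (h.mul_right c))) e' he' hℓ2 hℓD φ
  -- conditions on the level
  have hpos : 0 < N * c := Nat.pos_of_ne_zero (NeZero.ne (N * c))
  have hcop : ¬ ℓ ∣ N * c := fun h => absurd (Nat.le_of_dvd hpos h) (not_le.mpr hlt)
  have h1 : ¬ ℓ ^ 2 ∣ N * c * ℓ := by
    intro h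
    rw [pow_two] at h
    exact hcop (Nat.dvd_of_mul_dvd_mul_right hℓ.pos h)
  have h2 : ¬ ℓ ∣ Nat.totient (N * c * ℓ) := by
    have hc1 : Nat.Coprime (N * c) ℓ := (Nat.Coprime.symm ((Nat.Prime.coprime_iff_not_dvd hℓ).mpr hcop))
    rw [Nat.totient_mul hc1, Nat.totient_prime hℓ]
    intro h
    rcases hℓ.dvd_mul.mp h with h | h
    · have := Nat.le_of_dvd (Nat.totient_pos.mpr hpos) h
      exact absurd (this.trans (Nat.totient_le _)) (not_le.mpr hlt)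
    · have := Nat.le_of_dvd (by omega) h
      omega
  obtain ⟨ρ, hlev, hρ⟩ := hP (N * c * ℓ) ℓ hℓ hℓ5 (dvd_mul_left ℓ _) h1 h2 k θ
  refine ⟨ρ, hlev, fun p hp hg A hA => ?_⟩
  obtain ⟨hpM, hgp⟩ := hg
  have h3 := hρ p hp hpM hgp A hA
  refine ⟨h3.1, fun σ hσ => ?_⟩
  have h4 := h3.2 σ hσ
  have h5 := hθ p hp hpM
  rw [h4.1, h4.2, h5.1, h5.2]
  refine ⟨rfl, ?_⟩
  show φ (e (((p : ZMod (N * c)).cast : ZMod N))) = _
  rw [ZMod.cast_natCast hdvd]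

/-- **The input of the Galois side.** -/
theorem exists_modRep (hP : GaloisT1) {N : ℕ} [NeZero N] (ε : DirichletCharacter ℂ N)
    (f : CuspForm (Gamma1 N) 1) (hf1 : qCoeff f 1 = 1)
    (hT : ∀ p : ℕ, p.Prime → ¬ p ∣ N → ∀ n : ℕ,
        qCoeff f (p * n) + ε (p : ZMod N) * (if p ∣ n then qCoeff f (n / p) else 0) =
          qCoeff f p * qCoeff f n)
    {D : ℕ} (hD : 0 < D) (b : ℕ → Zb) (hb : ∀ n, (b n : ℂ) = D * qCoeff f n)
    (a : ℕ → Zb) (ha : ∀ p : ℕ, p.Prime → ¬ p ∣ N → (a p : ℂ) = qCoeff f p)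
    (e : ZMod N → Zb) (he : ∀ d : (ZMod N)ˣ, (e d : ℂ) = ε d) (B : ℕ) :
    ∃ ℓ, B < ℓ ∧ ℓ.Prime ∧ Nonempty (ModRep N a (fun p => e (p : ZMod N)) ℓ) := by
  obtain ⟨ℓ, hle, hℓ⟩ := Nat.exists_infinite_primes (B + N * 3 + D + 5 + 1)
  obtain ⟨k, hk1, hk2, hk3, ⟨φ⟩⟩ := exists_residue ℓ hℓ
  have h2 : (2 : k) ≠ 0 := by
    have h3 : ((2 : ℕ) : k) ≠ 0 := by
      rw [Ne, CharP.cast_eq_zero_iff k ℓ]
      intro h
      have := Nat.le_of_dvd (by norm_num) h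
      omega
    exact_mod_cast h3
  have hℓD : ¬ ℓ ∣ D := fun h => by
    have := Nat.le_of_dvd hD h
    omega
  let c : Fin 3 → ℕ := fun i => i + 1
  have hNpos : 0 < N := Nat.pos_of_ne_zero (NeZero.ne N)
  have hcle : ∀ i : Fin 3, N * c i ≤ N * 3 := fun i => Nat.mul_le_mul_left N (by
    show (i : ℕ) + 1 ≤ 3
    omega)
  have H : ∀ i : Fin 3, ∃ ρ, RepAt ρ (fun p => ¬ p ∣ N * c i * ℓ ∧ GoodP (N * c i * ℓ) p)
      (fun p => φ (a p)) (fun p => φ (e (p : ZMod N))) := fun i =>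
    exists_repAt hP ε f hf1 hT b hb a ha e he hℓ (by omega) hℓD (c i) (Nat.succ_ne_zero _)
      (by have := hcle i; omega) φ
  obtain ⟨ρ, hρ⟩ := RepAt.combine h2 (fun i : Fin 3 => Finset.range (N * c i * ℓ + 5))
    (fun i p hp hpS => by
      rw [Finset.mem_range, not_lt] at hpS
      refine ⟨fun h => ?_, Or.inl (by omega)⟩
      have hpos : 0 < N * c i * ℓ := Nat.mul_pos (Nat.mul_pos hNpos (Nat.succ_pos _)) hℓ.pos
      have := Nat.le_of_dvd hpos h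
      omega) H
  refine ⟨ℓ, by omega, hℓ, ⟨{ k := k, φ := φ, M := ρ, level := hρ.level, frob := ?_ }⟩⟩
  intro p hp hpN hpℓ A hA
  refine hρ.frob p hp ?_ A hA
  have hpℓ' : ¬ p ∣ ℓ := fun h => hpℓ ((Nat.prime_dvd_prime_iff_eq hp hℓ).mp h)
  have key : ∀ i : Fin 3, ¬ p ∣ c i → ¬ p ∣ N * c i * ℓ := by
    intro i hi h
    rcases hp.dvd_mul.mp h with h | h
    · rcases hp.dvd_mul.mp h with h | h
      · exact hpN h
      · exact hi h
    · exact hpℓ' h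
  by_cases hp5 : 5 ≤ p
  · exact ⟨0, key 0 (fun h => by
      have := Nat.le_of_dvd (by norm_num [c]) h
      simp [c] at this
      omega), Or.inl hp5⟩
  · have hp2 := hp.two_le
    have h4 : p = 2 ∨ p = 3 ∨ p = 4 := by omega
    rcases h4 with h4 | h4 | h4
    · subst h4
      refine ⟨2, key 2 (by norm_num [c]), Or.inr (Or.inr ⟨rfl, ?_⟩)⟩
      show 3 ∣ N * 3 * ℓ
      exact ⟨N * ℓ, by ring⟩
    · subst h4
      refine ⟨1, key 1 (by norm_num [c]), Or.inr (Or.inl ⟨rfl, ?_⟩)⟩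
      show 2 ∣ N * 2 * ℓ
      exact ⟨N * ℓ, by ring⟩
    · subst h4
      exact absurd hp (by norm_num)

end Fermat.Agent.DS.X1
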