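import Mathlib
import Fermat.Agent.DS.X1.FinFinal
import Fermat.Agent.DS.DescentS48
import Fermat.Agent.DS.Rankin

/-!
# Deligne–Serre modulo the geometric input `GaloisT1`
-/

set_option autoImplicit false

noncomputable section

open CongruenceSubgroup NumberField UpperHalfPlane
open scoped MatrixGroups

namespace Fermat.Agent.DS.X1

open Fermat.Agent.DS Fermat.Agent.DS.Hecke1 Fermat.Agent.IntStr
open ModularFormClass (qCoeff)

local notation "Γℚ" => (AlgebraicClosure ℚ ≃ₐ[ℚ] AlgebraicClosure ℚ)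

/-- **S48 modulo the geometric input.** -/
theorem S48_of_GaloisT1 (hP : GaloisT1)
    (N : ℕ) [NeZero N] (ε : DirichletCharacter ℂ N) (f : CuspForm (Gamma1 N) 1)
    (hf₁ : ModularFormClass.qCoeff f 1 = 1)
    (hT : ∀ p : ℕ, p.Prime → ¬ p ∣ N → ∀ n : ℕ,
        ModularFormClass.qCoeff f (p * n) +
            ε (p : ZMod N) * (if p ∣ n then ModularFormClass.qCoeff f (n / p) else 0) =
          ModularFormClass.qCoeff f p * ModularFormClass.qCoeff f n) :
    ∃ ρ : Γℚ →* GL (Fin 2) ℂ, GaloisFactorsThroughFiniteLevel ρ ∧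
      (Deformation.matrixRepresentation ρ).IsIrreducible ∧
      ∀ p : ℕ, p.Prime → ¬ p ∣ N →
        ∀ A : ValuationSubring (AlgebraicClosure ℚ), A.LiesOverPrime p →
          (∀ σ ∈ A.inertiaSubgroupIn ℚ, ρ σ = 1) ∧
          ∀ σ : Γℚ, A.IsFrobeniusAt σ p →
            ((ρ σ : GL (Fin 2) ℂ) : Matrix (Fin 2) (Fin 2) ℂ).trace = ModularFormClass.qCoeff f p ∧
            ((ρ σ : GL (Fin 2) ℂ) : Matrix (Fin 2) (Fin 2) ℂ).det = ε (p : ZMod N) := by
  classical
  obtain ⟨K, _, _, ι, b, e, α, D, hD, hb1, he, he1, hemul, hα, hrel, hDb, hg⟩ :=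
    exists_S48_data N ε f hf₁ hT
  -- the form with coefficients `ι (b n)`
  obtain ⟨g, hgq⟩ := hg ι
  -- integral coefficients
  let toZ : 𝓞 K → Zb := fun x => ⟨ι (x : K), x.isIntegral_coe.map ι.toIntAlgHom⟩
  have htoZ : ∀ x : 𝓞 K, (toZ x : ℂ) = ι (x : K) := fun _ => rfl
  choose x hx using hDb
  have hf0 : f ≠ 0 := by
    rintro rfl
    have h1 : qCoeff ((0 : CuspForm (Gamma1 N) 1) : ℍ → ℂ) 1 = 0 := by
      have h2 : ((0 : CuspForm (Gamma1 N) 1) : ℍ → ℂ) = 0 := rfl
      rw [h2]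
      exact Hecke1.Good.qCoeff_zero 1
    rw [h1] at hf₁
    exact zero_ne_one hf₁
  have hodd : ε (-1) = -1 := eps_neg_one ε f hf0 (dia_eq_of_weight_one ε f hT)
  have hgT : ∀ p : ℕ, p.Prime → ¬ p ∣ N → ∀ n : ℕ,
      qCoeff g (p * n) + ε (p : ZMod N) * (if p ∣ n then qCoeff g (n / p) else 0) =
        qCoeff g p * qCoeff g n := by
    intro p hp hpN n
    have h1 := congrArg ι (hrel p hp hpN n)
    rw [map_add, map_mul, map_mul, he] at h1
    rw [hgq, hgq, hgq, hgq, ← h1]
    congr 2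
    split_ifs
    · rfl
    · rw [map_zero]
  have hmod := exists_modRep hP ε g (by rw [hgq, hb1, map_one]) hgT hD
    (fun n => toZ (x n)) (fun n => by rw [htoZ, hx, map_mul, map_natCast, hgq])
    (fun n => toZ (α n)) (fun p hp hpN => by rw [htoZ, (hα p hp hpN).1, hgq])
    (fun u => toZ (e u)) (fun d => by rw [htoZ, he])
  obtain ⟨ρ, h1, h2, h3⟩ := galois_side_final (N := N) (a := fun n => toZ (α n))
    (e := fun p => toZ (e (p : ZMod N))) (fun u => toZ (e u)) (fun p _ _ => rfl)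
    (by
      apply Subtype.val_injective
      show ι (e (-1) : K) = ((-1 : Zb) : ℂ)
      rw [he, hodd]
      rfl) K ι α
    (by
      intro σ
      obtain ⟨gσ, hgσ⟩ := hg σ
      have h4 : HeckeRelC N (qCoeff gσ) (fun p => σ (e (p : ZMod N) : K)) := by
        refine ⟨by rw [hgσ, hb1, map_one], fun p hp hpN n => ?_⟩
        have h1 := congrArg σ (hrel p hp hpN n)
        rw [map_add, map_mul, map_mul] at h1
        rw [hgσ, hgσ, hgσ, hgσ, ← h1]
        congr 2
        split_ifs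
        · rfl
        · rw [map_zero]
      have hpow : ∀ (v : ZMod N) (n : ℕ), e (v ^ n) = e v ^ n := by
        intro v n
        induction n with
        | zero => rw [pow_zero, pow_zero, he1]
        | succ n ih => rw [pow_succ, pow_succ, hemul, ih]
      have h5 := rankin_of_form N gσ (fun p => σ (e (p : ZMod N) : K)) (by
        intro p hp hpN
        have h6 : ((pu hp hpN : (ZMod N)ˣ) : ZMod N) = (p : ZMod N) := coe_pu hp hpN
        have h7 : (p : ZMod N) ^ Fintype.card (ZMod N)ˣ = 1 := by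
          rw [← h6, ← Units.val_pow_eq_pow_val, pow_card_eq_one, Units.val_one]
        refine Complex.norm_eq_one_of_pow_eq_one (n := Fintype.card (ZMod N)ˣ) ?_
          Fintype.card_ne_zero
        have h8 := hpow (p : ZMod N) (Fintype.card (ZMod N)ˣ)
        rw [h7, he1] at h8
        have h9 := congrArg (fun y : 𝓞 K => σ (y : K)) h8
        simp only [map_one, map_pow] at h9
        exact h9.symm) h4
      obtain ⟨C, hC⟩ := h5
      refine ⟨C, fun s hs1 hs2 P hP => ?_⟩
      refine le_trans (le_of_eq ?_) (hC s hs1 hs2 P hP)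
      refine Finset.sum_congr rfl fun p hp => ?_
      obtain ⟨hp1, hp2⟩ := hP p hp
      show ‖σ (α p : K)‖ ^ 2 * (p : ℝ) ^ (-s) = _
      rw [(hα p hp1 hp2).1, hgσ])
    (fun n => rfl) hmod
  refine ⟨ρ, h1, h2, fun p hp hpN A hA => ?_⟩
  obtain ⟨h4, h5⟩ := h3 p hp hpN A hA
  refine ⟨h4, fun σ hσ => ?_⟩
  obtain ⟨h6, h7⟩ := h5 σ hσ
  rw [h6, h7]
  refine ⟨?_, ?_⟩
  · show ι (α p : K) = _
    rw [(hα p hp hpN).1, (hα p hp hpN).2]
  · show ι (e (p : ZMod N) : K) = _
    rw [he]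

end Fermat.Agent.DS.X1
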