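import Mathlib
import Fermat.Agent.DS.Hecke1Alg

/-!
# Hecke and diamond operators on homomorphisms `Γ₁(M) → A`
-/

set_option autoImplicit false

noncomputable section

open CongruenceSubgroup ModularForm UpperHalfPlane Matrix.SpecialLinearGroup
open scoped MatrixGroups

namespace Fermat.Agent.DS.X1

open Fermat.Agent.DS.Hecke1

theorem val_mapGL (g : SL(2, ℤ)) : ((mapGL ℝ g : GL (Fin 2) ℝ) : Matrix (Fin 2) (Fin 2) ℝ) =
    (g : Matrix (Fin 2) (Fin 2) ℤ).map (Int.castRingHom ℝ) := by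
  ext a b; simp

theorem map_cast_injective : Function.Injective
    (fun A : Matrix (Fin 2) (Fin 2) ℤ => A.map (Int.castRingHom ℝ)) :=
  Matrix.map_injective (f := Int.castRingHom ℝ) Int.cast_injective

theorem mapGL_inj : Function.Injective (mapGL ℝ : SL(2, ℤ) →* GL (Fin 2) ℝ) := by
  intro a b h
  apply Subtype.ext
  apply map_cast_injective
  have h1 := congrArg (fun A : GL (Fin 2) ℝ => (A : Matrix (Fin 2) (Fin 2) ℝ)) h
  simp only [val_mapGL] at h1
  exact h1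

variable {M : ℕ} [NeZero M] {p : ℕ}

theorem B_unique (hp : p.Prime) (hpM : ¬ p ∣ M) {x y : Option (ZMod p)} {γ δ : SL(2, ℤ)}
    (h : (mapGL ℝ γ : GL (Fin 2) ℝ) * B M hp hpM x = mapGL ℝ δ * B M hp hpM y) :
    x = y ∧ γ = δ := by
  have h1 : (mapGL ℝ (δ⁻¹ * γ) : GL (Fin 2) ℝ) * B M hp hpM x = B M hp hpM y := by
    rw [map_mul, mul_assoc, h, map_inv, inv_mul_cancel_left]
  have h2 : (((δ⁻¹ * γ : SL(2, ℤ)) : Matrix (Fin 2) (Fin 2) ℤ)) *
      bmat p (rep M (pu hp hpM)) x = bmat p (rep M (pu hp hpM)) y := by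
    have h3 := congrArg (fun A : GL (Fin 2) ℝ => (A : Matrix (Fin 2) (Fin 2) ℝ)) h1
    simp only [Units.val_mul] at h3
    rw [val_mapGL, B_val, B_val] at h3
    apply map_cast_injective
    simp only [Matrix.map_mul]
    exact h3
  have h3 := factor_unique hp _ _ h2
  refine ⟨h3, ?_⟩
  rw [h3] at h
  exact mapGL_inj (mul_right_cancel h)

theorem exists_act (hp : p.Prime) (hpM : ¬ p ∣ M) (γ : Gamma0 M) (x : Option (ZMod p)) :
    ∃ y : Option (ZMod p), ∃ δ : Gamma0 M,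
      (((δ : SL(2, ℤ)) 1 1 : ℤ) : ZMod M) = (((γ : SL(2, ℤ)) 1 1 : ℤ) : ZMod M) ∧
      B M hp hpM x * (mapGL ℝ (γ : SL(2, ℤ)) : GL (Fin 2) ℝ) =
        mapGL ℝ (δ : SL(2, ℤ)) * B M hp hpM y := by
  have : NeZero p := ⟨hp.ne_zero⟩
  obtain ⟨σ, hσ⟩ := exists_perm (M := M) hp hpM γ.2
  obtain ⟨δ, hδ, h11, h⟩ := hσ x
  exact ⟨σ x, ⟨δ, hδ⟩, h11, h⟩

/-- the (right) action of `Γ₀(M)` on the cosets -/
def act (hp : p.Prime) (hpM : ¬ p ∣ M) (γ : Gamma0 M) (x : Option (ZMod p)) : Option (ZMod p) :=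
  (exists_act hp hpM γ x).choose

/-- the cocycle: `B_x γ = coc γ x * B_{x γ}` -/
def coc (hp : p.Prime) (hpM : ¬ p ∣ M) (γ : Gamma0 M) (x : Option (ZMod p)) : Gamma0 M :=
  (exists_act hp hpM γ x).choose_spec.choose

theorem coc_11 (hp : p.Prime) (hpM : ¬ p ∣ M) (γ : Gamma0 M) (x : Option (ZMod p)) :
    (((coc hp hpM γ x : SL(2, ℤ)) 1 1 : ℤ) : ZMod M) = (((γ : SL(2, ℤ)) 1 1 : ℤ) : ZMod M) :=
  (exists_act hp hpM γ x).choose_spec.choose_spec.1

theorem coc_spec (hp : p.Prime) (hpM : ¬ p ∣ M) (γ : Gamma0 M) (x : Option (ZMod p)) :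
    B M hp hpM x * (mapGL ℝ (γ : SL(2, ℤ)) : GL (Fin 2) ℝ) =
      mapGL ℝ (coc hp hpM γ x : SL(2, ℤ)) * B M hp hpM (act hp hpM γ x) :=
  (exists_act hp hpM γ x).choose_spec.choose_spec.2

theorem act_eq_of (hp : p.Prime) (hpM : ¬ p ∣ M) {γ : Gamma0 M} {x y : Option (ZMod p)}
    {δ : Gamma0 M} (h : B M hp hpM x * (mapGL ℝ (γ : SL(2, ℤ)) : GL (Fin 2) ℝ) =
      mapGL ℝ (δ : SL(2, ℤ)) * B M hp hpM y) : act hp hpM γ x = y ∧ coc hp hpM γ x = δ := by
  have h1 := B_unique hp hpM ((coc_spec hp hpM γ x).symm.trans h)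
  exact ⟨h1.1, Subtype.ext h1.2⟩

theorem act_mul_aux (hp : p.Prime) (hpM : ¬ p ∣ M) (γ γ' : Gamma0 M) (x : Option (ZMod p)) :
    act hp hpM (γ * γ') x = act hp hpM γ' (act hp hpM γ x) ∧
      coc hp hpM (γ * γ') x = coc hp hpM γ x * coc hp hpM γ' (act hp hpM γ x) := by
  apply act_eq_of
  have h1 := coc_spec hp hpM γ x
  have h2 := coc_spec hp hpM γ' (act hp hpM γ x)
  rw [Subgroup.coe_mul, map_mul, ← mul_assoc, h1, mul_assoc, h2, Subgroup.coe_mul, map_mul,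
    mul_assoc]

theorem act_mul (hp : p.Prime) (hpM : ¬ p ∣ M) (γ γ' : Gamma0 M) (x : Option (ZMod p)) :
    act hp hpM (γ * γ') x = act hp hpM γ' (act hp hpM γ x) := (act_mul_aux hp hpM γ γ' x).1

theorem coc_mul (hp : p.Prime) (hpM : ¬ p ∣ M) (γ γ' : Gamma0 M) (x : Option (ZMod p)) :
    coc hp hpM (γ * γ') x = coc hp hpM γ x * coc hp hpM γ' (act hp hpM γ x) :=
  (act_mul_aux hp hpM γ γ' x).2

theorem act_one_aux (hp : p.Prime) (hpM : ¬ p ∣ M) (x : Option (ZMod p)) :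
    act hp hpM (1 : Gamma0 M) x = x ∧ coc hp hpM (1 : Gamma0 M) x = 1 := by
  apply act_eq_of
  rw [Subgroup.coe_one, map_one, mul_one, one_mul]

theorem act_one (hp : p.Prime) (hpM : ¬ p ∣ M) (x : Option (ZMod p)) :
    act hp hpM (1 : Gamma0 M) x = x := (act_one_aux hp hpM x).1

theorem coc_one (hp : p.Prime) (hpM : ¬ p ∣ M) (x : Option (ZMod p)) :
    coc hp hpM (1 : Gamma0 M) x = 1 := (act_one_aux hp hpM x).2

/-- the permutation of the cosets -/
def actPerm (hp : p.Prime) (hpM : ¬ p ∣ M) (γ : Gamma0 M) : Equiv.Perm (Option (ZMod p)) where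
  toFun := act hp hpM γ
  invFun := act hp hpM γ⁻¹
  left_inv x := by rw [← act_mul, mul_inv_cancel, act_one]
  right_inv x := by rw [← act_mul, inv_mul_cancel, act_one]

theorem actPerm_apply (hp : p.Prime) (hpM : ¬ p ∣ M) (γ : Gamma0 M) (x : Option (ZMod p)) :
    actPerm hp hpM γ x = act hp hpM γ x := rfl

/-- the inclusion `Γ₁(M) → Γ₀(M)` -/
def inc (M : ℕ) : Gamma1 M →* Gamma0 M :=
  Subgroup.inclusion fun _ h => Gamma1_le_Gamma0' h

omit [NeZero M] in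
@[simp] theorem coe_inc (g : Gamma1 M) : ((inc M g : Gamma0 M) : SL(2, ℤ)) = g := rfl

/-- the cocycle restricted to `Γ₁(M)` -/
def coc1 (hp : p.Prime) (hpM : ¬ p ∣ M) (g : Gamma1 M) (x : Option (ZMod p)) : Gamma1 M :=
  ⟨coc hp hpM (inc M g) x, mem_Gamma1_of (coc hp hpM (inc M g) x).2 (by
    rw [coc_11]
    exact ((Gamma1_mem M (g : SL(2, ℤ))).mp g.2).2.1)⟩

theorem coe_coc1 (hp : p.Prime) (hpM : ¬ p ∣ M) (g : Gamma1 M) (x : Option (ZMod p)) :
    (coc1 hp hpM g x : SL(2, ℤ)) = coc hp hpM (inc M g) x := rfl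

theorem coc1_spec (hp : p.Prime) (hpM : ¬ p ∣ M) (g : Gamma1 M) (x : Option (ZMod p)) :
    B M hp hpM x * (mapGL ℝ (g : SL(2, ℤ)) : GL (Fin 2) ℝ) =
      mapGL ℝ (coc1 hp hpM g x : SL(2, ℤ)) * B M hp hpM (act hp hpM (inc M g) x) :=
  coc_spec hp hpM (inc M g) x

theorem coc1_mul (hp : p.Prime) (hpM : ¬ p ∣ M) (g h : Gamma1 M) (x : Option (ZMod p)) :
    coc1 hp hpM (g * h) x = coc1 hp hpM g x * coc1 hp hpM h (act hp hpM (inc M g) x) := by
  apply Subtype.ext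
  have h1 := coc_mul hp hpM (inc M g) (inc M h) x
  rw [← map_mul] at h1
  exact congrArg (fun a : Gamma0 M => (a : SL(2, ℤ))) h1

theorem coc1_one (hp : p.Prime) (hpM : ¬ p ∣ M) (x : Option (ZMod p)) :
    coc1 hp hpM (1 : Gamma1 M) x = 1 := by
  apply Subtype.ext
  have h1 := coc_one (M := M) hp hpM x
  rw [coe_coc1, map_one, h1]
  rfl

/-- **The Hecke operator `T_p` (transfer) on `Hom(Γ₁(M), A)`**, `p ∤ M`. -/
def heckeHom1 (hp : p.Prime) (hpM : ¬ p ∣ M) {A : Type*} [AddCommGroup A] :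
    (Additive (Gamma1 M) →+ A) →+ (Additive (Gamma1 M) →+ A) :=
  haveI : NeZero p := ⟨hp.ne_zero⟩
  { toFun := fun φ =>
      { toFun := fun g => ∑ x : Option (ZMod p),
          φ (Additive.ofMul (coc1 hp hpM (Additive.toMul g) x))
        map_zero' := by
          refine Finset.sum_eq_zero fun x _ => ?_
          rw [toMul_zero, coc1_one, ofMul_one, map_zero]
        map_add' := fun g h => by
          have h1 : ∀ x : Option (ZMod p),
              φ (Additive.ofMul (coc1 hp hpM (Additive.toMul (g + h)) x)) =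
              φ (Additive.ofMul (coc1 hp hpM (Additive.toMul g) x)) +
              φ (Additive.ofMul (coc1 hp hpM (Additive.toMul h)
                (actPerm hp hpM (inc M (Additive.toMul g)) x))) := by
            intro x
            rw [toMul_add, coc1_mul, ofMul_mul, map_add, actPerm_apply]
          simp_rw [h1]
          rw [Finset.sum_add_distrib]
          congr 1
          exact Equiv.sum_comp (actPerm hp hpM (inc M (Additive.toMul g)))
            (fun x => φ (Additive.ofMul (coc1 hp hpM (Additive.toMul h) x))) }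
    map_zero' := by
      ext g
      simp
    map_add' := fun φ ψ => by
      ext g
      simp [Finset.sum_add_distrib] }

theorem heckeHom1_apply (hp : p.Prime) (hpM : ¬ p ∣ M) {A : Type*} [AddCommGroup A]
    (φ : Additive (Gamma1 M) →+ A) (g : Gamma1 M) :
    heckeHom1 hp hpM φ (Additive.ofMul g) =
      haveI : NeZero p := ⟨hp.ne_zero⟩
      ∑ x : Option (ZMod p), φ (Additive.ofMul (coc1 hp hpM g x)) := rfl

theorem heckeHom1_comp (hp : p.Prime) (hpM : ¬ p ∣ M) {A A' : Type*} [AddCommGroup A]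
    [AddCommGroup A'] (f : A →+ A') (φ : Additive (Gamma1 M) →+ A) :
    heckeHom1 hp hpM (f.comp φ) = f.comp (heckeHom1 hp hpM φ) := by
  refine AddMonoidHom.ext fun g => ?_
  obtain ⟨g, rfl⟩ := Additive.ofMul.surjective g
  rw [AddMonoidHom.comp_apply, heckeHom1_apply, heckeHom1_apply, map_sum]
  rfl

/-! ### Diamond operators -/

omit [NeZero M] in
theorem conj_mem {γ : SL(2, ℤ)} (hγ : γ ∈ Gamma0 M) {g : SL(2, ℤ)} (hg : g ∈ Gamma1 M) :
    γ * g * γ⁻¹ ∈ Gamma1 M := by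
  have hg0 := Gamma1_le_Gamma0' hg
  have h1 := ((Gamma1_mem M g).mp hg).2.1
  refine mem_Gamma1_of ((Gamma0 M).mul_mem ((Gamma0 M).mul_mem hγ hg0) ((Gamma0 M).inv_mem hγ)) ?_
  rw [mul_11 _ _ ((Gamma0 M).mul_mem hγ hg0), mul_11 _ _ hγ, h1, mul_one, inv_11, mul_comm]
  exact mul_mod γ hγ

/-- conjugation by an element of `Γ₀(M)` on `Γ₁(M)` -/
def conj1 (γ : Gamma0 M) : Gamma1 M →* Gamma1 M where
  toFun g := ⟨γ * g * (γ : SL(2, ℤ))⁻¹, conj_mem γ.2 g.2⟩
  map_one' := by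
    apply Subtype.ext
    simp
  map_mul' g h := by
    apply Subtype.ext
    simp only [Subgroup.coe_mul]
    group

omit [NeZero M] in
theorem coe_conj1 (γ : Gamma0 M) (g : Gamma1 M) :
    (conj1 γ g : SL(2, ℤ)) = γ * g * (γ : SL(2, ℤ))⁻¹ := rfl

omit [NeZero M] in
/-- conjugation depends only on the lower right entry modulo `M`, on characters -/
theorem comp_conj1_eq {A : Type*} [AddCommGroup A] (φ : Additive (Gamma1 M) →+ A)
    {γ δ : Gamma0 M}
    (h : (((γ : SL(2, ℤ)) 1 1 : ℤ) : ZMod M) = (((δ : SL(2, ℤ)) 1 1 : ℤ) : ZMod M))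
    (g : Gamma1 M) :
    φ (Additive.ofMul (conj1 γ g)) = φ (Additive.ofMul (conj1 δ g)) := by
  have hmem : (γ : SL(2, ℤ)) * (δ : SL(2, ℤ))⁻¹ ∈ Gamma1 M := by
    refine mem_Gamma1_of ((Gamma0 M).mul_mem γ.2 ((Gamma0 M).inv_mem δ.2)) ?_
    rw [mul_11 _ _ γ.2, h, inv_11, mul_comm, mul_mod (δ : SL(2, ℤ)) δ.2]
  set e : Gamma1 M := ⟨_, hmem⟩ with he
  have h1 : conj1 γ g = e * conj1 δ g * e⁻¹ := by
    apply Subtype.ext
    rw [Subgroup.coe_mul, Subgroup.coe_mul, coe_conj1, coe_conj1, he, Subgroup.coe_inv]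
    group
  rw [h1, ofMul_mul, ofMul_mul, ofMul_inv, map_add, map_add, map_neg]
  abel

/-- the diamond `⟨d⟩` on `Hom(Γ₁(M), A)` -/
def diaHom (d : (ZMod M)ˣ) {A : Type*} [AddCommGroup A] :
    (Additive (Gamma1 M) →+ A) →+ (Additive (Gamma1 M) →+ A) where
  toFun φ := φ.comp (MonoidHom.toAdditive (conj1 ⟨rep M d, rep_mem d⟩))
  map_zero' := rfl
  map_add' _ _ := rfl

theorem diaHom_apply (d : (ZMod M)ˣ) {A : Type*} [AddCommGroup A]
    (φ : Additive (Gamma1 M) →+ A) (g : Gamma1 M) :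
    diaHom d φ (Additive.ofMul g) = φ (Additive.ofMul (conj1 ⟨rep M d, rep_mem d⟩ g)) := rfl

theorem diaHom_apply_of (d : (ZMod M)ˣ) {A : Type*} [AddCommGroup A]
    (φ : Additive (Gamma1 M) →+ A) {γ : Gamma0 M}
    (h : (((γ : SL(2, ℤ)) 1 1 : ℤ) : ZMod M) = d) (g : Gamma1 M) :
    diaHom d φ (Additive.ofMul g) = φ (Additive.ofMul (conj1 γ g)) :=
  comp_conj1_eq φ (by rw [h]; exact rep_11 d) g

theorem diaHom_comp (d : (ZMod M)ˣ) {A A' : Type*} [AddCommGroup A] [AddCommGroup A']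
    (f : A →+ A') (φ : Additive (Gamma1 M) →+ A) :
    diaHom d (f.comp φ) = f.comp (diaHom d φ) := rfl

end Fermat.Agent.DS.X1
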