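import Mathlib
import Fermat.Agent.DS.X1.PerHom
import Fermat.Agent.GAL.PeriodVanish

/-!
# Periods of weight two cusp forms on `Γ₁(M)` and their lattice
-/

set_option autoImplicit false

noncomputable section

open UpperHalfPlane Complex Filter Topology Function Matrix.SpecialLinearGroup CongruenceSubgroup
open scoped Manifold MatrixGroups ModularForm OnePoint

namespace Fermat.Agent.DS.X1

open Fermat.Agent.DS.Hecke1 (B B_val bmat pu coe_pu rep rep_mem rep_11 rep_10 dia coe_dia diaF Tp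
  coe_Tp TF TF_eq_sum qc qc_apply exists_sturm ext_qc det_bmat one_mem_strictPeriods)
open Fermat.Agent.EichlerInt (IsPrim IsCuspLike cuspLike prim prim_injective isPrim_prim sl coe_sl
  eq_add_const_of_isPrim periodic_comp_ofComplex_of_vadd)
open Fermat.Agent.GAL.PeriodLattice (isPrim_comp_smul det_mapGL_pos tr pow_twelve_eq_one
  exists_conj_unipotent)

section good

variable {M : ℕ} [NeZero M] {k : ℤ}

theorem cuspForm_good1 (f : CuspForm (Gamma1 M) k) : (f : ℍ → ℂ) ∈ EichlerInt.Good k := by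
  intro δ
  refine ⟨(f.holo').slash k _, ?_, M, Nat.pos_of_ne_zero (NeZero.ne M), ?_⟩
  · have hc : IsCusp (mapGL ℝ δ • (OnePoint.infty : OnePoint ℝ)) 𝒮ℒ :=
      isCusp_SL2Z_iff'.mpr ⟨δ, rfl⟩
    have hc' : IsCusp (mapGL ℝ δ • (OnePoint.infty : OnePoint ℝ))
        (Gamma1 M : Subgroup (GL (Fin 2) ℝ)) :=
      (Subgroup.IsArithmetic.isCusp_iff_isCusp_SL2Z _).mpr hc
    exact (OnePoint.isZeroAt_iff_forall_SL2Z hc).mp (f.zero_at_cusps' hc') δ rfl
  · have : Function.Periodic (((f : ℍ → ℂ) ∣[k] δ) ∘ ofComplex) ((M : ℝ) : ℂ) := by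
      refine periodic_comp_ofComplex_of_vadd (fun τ => ?_)
      have h1 : ((M : ℝ) +ᵥ τ : ℍ) = (ModularGroup.T ^ M : SL(2, ℤ)) • τ := by
        rw [← zpow_natCast, UpperHalfPlane.modular_T_zpow_smul]
        simp
      have hmem : δ * ModularGroup.T ^ M * δ⁻¹ ∈ Gamma1 M := by
        have h2 : ModularGroup.T ^ M ∈ CongruenceSubgroup.Gamma M := by
          have := ModularGroup_T_pow_mem_Gamma (M : ℤ) (M : ℤ) dvd_rfl
          simpa using this
        have h3 := (Gamma_normal (N := M)).conj_mem _ h2 δ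
        rw [Gamma_mem] at h3
        rw [Gamma1_mem]
        exact ⟨h3.1, h3.2.2.2, h3.2.2.1⟩
      have h4 : (f : ℍ → ℂ) ∣[k] (δ * ModularGroup.T ^ M * δ⁻¹) = (f : ℍ → ℂ) :=
        f.slash_action_eq' _ (Subgroup.mem_map_of_mem (mapGL ℝ) hmem)
      have h5 : ((f : ℍ → ℂ) ∣[k] δ) ∣[k] (ModularGroup.T ^ M) = (f : ℍ → ℂ) ∣[k] δ := by
        rw [← SlashAction.slash_mul]
        conv_rhs => rw [← h4, ← SlashAction.slash_mul]
        congr 1
        group
      have h7 := congrFun h5 τ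
      have h6 : denom (ModularGroup.T ^ M : SL(2, ℤ)) τ = 1 := by
        rw [ModularGroup.denom_apply, ← zpow_natCast, ModularGroup.coe_T_zpow]
        simp
      rw [ModularForm.SL_slash_apply, h6, one_zpow, mul_one, ← h1] at h7
      exact h7
    simpa using this

variable (M k) in
/-- cusp forms as good functions -/
def toGood1 : CuspForm (Gamma1 M) k →ₗ[ℂ] EichlerInt.Good k where
  toFun f := ⟨f, cuspForm_good1 f⟩
  map_add' _ _ := rfl
  map_smul' _ _ := rfl

theorem coe_toGood1 (f : CuspForm (Gamma1 M) k) : (toGood1 M k f : ℍ → ℂ) = f := rfl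

end good

variable (M : ℕ) [NeZero M]

/-- the primitive of `f` vanishing at `i∞`. -/
def primOf1 : CuspForm (Gamma1 M) 2 →ₗ[ℂ] cuspLike := prim ∘ₗ sl 2 1 ∘ₗ toGood1 M 2

variable {M}

theorem isPrim_primOf1 (f : CuspForm (Gamma1 M) 2) : IsPrim f (primOf1 M f : ℍ → ℂ) := by
  have h := isPrim_prim (sl 2 1 (toGood1 M 2 f))
  rw [coe_sl, coe_toGood1, SlashAction.slash_one] at h
  exact h

omit [NeZero M] in
theorem slash_eq1 (f : CuspForm (Gamma1 M) 2) (γ : Gamma1 M) :
    (f : ℍ → ℂ) ∣[(2 : ℤ)] (mapGL ℝ (γ : SL(2, ℤ)) : GL (Fin 2) ℝ) = f :=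
  f.slash_action_eq' _ (Subgroup.mem_map_of_mem (mapGL ℝ) γ.2)

omit [NeZero M] in
/-- any primitive of `f` is equivariant up to constants under `Γ₁(M)`. -/
theorem exists_const1 {f : CuspForm (Gamma1 M) 2} {F : ℍ → ℂ} (hF : IsPrim f F) (γ : Gamma1 M) :
    ∃ c : ℂ, ∀ τ : ℍ, F ((γ : SL(2, ℤ)) • τ) = F τ + c := by
  have h1 := isPrim_comp_smul (mapGL ℝ (γ : SL(2, ℤ))) (det_mapGL_pos _) hF
  rw [slash_eq1] at h1
  obtain ⟨c, hc⟩ := eq_add_const_of_isPrim h1 hF
  exact ⟨c, fun τ => hc τ⟩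

/-- period functional `f ↦ ∫_{i}^{γ i} f(z) dz`. -/
def perFun1 (γ : Gamma1 M) : CuspForm (Gamma1 M) 2 →ₗ[ℂ] ℂ :=
  (EichlerInt.ev ((γ : SL(2, ℤ)) • UpperHalfPlane.I) - EichlerInt.ev UpperHalfPlane.I) ∘ₗ
    primOf1 M

theorem perFun1_apply (γ : Gamma1 M) (f : CuspForm (Gamma1 M) 2) :
    perFun1 γ f = (primOf1 M f : ℍ → ℂ) ((γ : SL(2, ℤ)) • UpperHalfPlane.I) -
      (primOf1 M f : ℍ → ℂ) UpperHalfPlane.I := rfl

/-- the period can be computed with any primitive and any base point. -/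
theorem sub_eq_perFun1 {f : CuspForm (Gamma1 M) 2} {F : ℍ → ℂ} (hF : IsPrim f F) (γ : Gamma1 M)
    (τ : ℍ) : F ((γ : SL(2, ℤ)) • τ) - F τ = perFun1 γ f := by
  obtain ⟨c, hc⟩ := eq_add_const_of_isPrim hF (isPrim_primOf1 f)
  obtain ⟨d, hd⟩ := exists_const1 (isPrim_primOf1 f) γ
  rw [perFun1_apply, hc, hc, hd, hd]
  ring

variable (M) in
/-- periods as a homomorphism `Γ₁(M) → S₂(Γ₁(M))^*`. -/
def perHom1 : Additive (Gamma1 M) →+ (CuspForm (Gamma1 M) 2 →ₗ[ℂ] ℂ) where
  toFun γ := perFun1 (Additive.toMul γ)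
  map_zero' := by
    ext f
    rw [perFun1_apply, toMul_zero, Subgroup.coe_one, one_smul, sub_self, LinearMap.zero_apply]
  map_add' γ δ := by
    ext f
    rw [LinearMap.add_apply, toMul_add, perFun1_apply, Subgroup.coe_mul, mul_smul,
      ← sub_eq_perFun1 (isPrim_primOf1 f) (Additive.toMul γ)
        (((Additive.toMul δ : Gamma1 M) : SL(2, ℤ)) • UpperHalfPlane.I),
      ← sub_eq_perFun1 (isPrim_primOf1 f) (Additive.toMul δ) UpperHalfPlane.I]
    ring

theorem perHom1_ofMul (γ : Gamma1 M) : perHom1 M (Additive.ofMul γ) = perFun1 γ := rfl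

theorem det_B_pos {p : ℕ} (hp : p.Prime) (hpM : ¬ p ∣ M) (x : Option (ZMod p)) :
    0 < (B M hp hpM x).det.val := by
  have h1 : (B M hp hpM x).det.val = ((bmat p (rep M (pu hp hpM)) x).det : ℝ) := by
    rw [Matrix.GeneralLinearGroup.val_det_apply, B_val]
    exact ((Int.castRingHom ℝ).map_det _).symm
  rw [h1, det_bmat]
  exact_mod_cast hp.pos

/-- **Hecke equivariance of the periods.** -/
theorem perHom1_comp_Tp {p : ℕ} (hp : p.Prime) (hpM : ¬ p ∣ M) (γ : Additive (Gamma1 M)) :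
    perHom1 M γ ∘ₗ Tp hp hpM = heckeHom1 hp hpM (perHom1 M) γ := by
  have : NeZero p := ⟨hp.ne_zero⟩
  obtain ⟨γ, rfl⟩ := Additive.ofMul.surjective γ
  ext f
  rw [perHom1_ofMul, heckeHom1_apply, LinearMap.comp_apply, LinearMap.sum_apply]
  set F : ℍ → ℂ := (primOf1 M f : ℍ → ℂ) with hFdef
  have hF : IsPrim f F := isPrim_primOf1 f
  set G : ℍ → ℂ := fun τ => ∑ x : Option (ZMod p), F (B M hp hpM x • τ) with hGdef
  have hG : IsPrim (Tp hp hpM f : ℍ → ℂ) G := by
    intro τ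
    rw [coe_Tp, TF_eq_sum, Finset.sum_apply]
    have h1 : G ∘ ofComplex = fun z => ∑ x : Option (ZMod p),
        ((fun τ => F (B M hp hpM x • τ)) ∘ ofComplex) z := rfl
    rw [h1]
    exact HasDerivAt.fun_sum fun x _ =>
      isPrim_comp_smul (B M hp hpM x) (det_B_pos hp hpM x) hF τ
  rw [← sub_eq_perFun1 hG γ UpperHalfPlane.I]
  have h2 : ∀ x : Option (ZMod p),
      F (B M hp hpM x • ((γ : SL(2, ℤ)) • UpperHalfPlane.I)) =
      F (B M hp hpM (actPerm hp hpM (inc M γ) x) • UpperHalfPlane.I) +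
        perFun1 (coc1 hp hpM γ x) f := by
    intro x
    rw [actPerm_apply]
    have h3 : B M hp hpM x • ((γ : SL(2, ℤ)) • UpperHalfPlane.I) =
        (coc1 hp hpM γ x : SL(2, ℤ)) • (B M hp hpM (act hp hpM (inc M γ) x) •
          UpperHalfPlane.I) := by
      have h4 : (B M hp hpM x * mapGL ℝ (γ : SL(2, ℤ))) • UpperHalfPlane.I =
          (mapGL ℝ (coc1 hp hpM γ x : SL(2, ℤ)) *
            B M hp hpM (act hp hpM (inc M γ) x)) • UpperHalfPlane.I := by
        rw [coc1_spec]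
      rw [mul_smul, mul_smul] at h4
      exact h4
    rw [h3, ← sub_eq_perFun1 hF (coc1 hp hpM γ x)
      (B M hp hpM (act hp hpM (inc M γ) x) • UpperHalfPlane.I)]
    ring
  rw [hGdef]
  simp only
  simp_rw [h2]
  rw [Finset.sum_add_distrib]
  have h5 : ∑ x : Option (ZMod p), F (B M hp hpM (actPerm hp hpM (inc M γ) x) •
      UpperHalfPlane.I) = ∑ x : Option (ZMod p), F (B M hp hpM x • UpperHalfPlane.I) :=
    Equiv.sum_comp (actPerm hp hpM (inc M γ)) (fun x => F (B M hp hpM x • UpperHalfPlane.I))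
  rw [h5, add_sub_cancel_left]
  rfl

/-- **Diamond equivariance of the periods.** -/
theorem perHom1_comp_dia (d : (ZMod M)ˣ) (γ : Additive (Gamma1 M)) :
    perHom1 M γ ∘ₗ dia d = diaHom d (perHom1 M) γ := by
  obtain ⟨γ, rfl⟩ := Additive.ofMul.surjective γ
  ext f
  rw [perHom1_ofMul, diaHom_apply, LinearMap.comp_apply, perHom1_ofMul]
  set F : ℍ → ℂ := (primOf1 M f : ℍ → ℂ) with hFdef
  have hF : IsPrim f F := isPrim_primOf1 f
  have hG : IsPrim (dia d f : ℍ → ℂ) (fun τ => F ((rep M d) • τ)) :=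
    isPrim_comp_smul (mapGL ℝ (rep M d)) (det_mapGL_pos _) hF
  rw [← sub_eq_perFun1 hG γ UpperHalfPlane.I,
    ← sub_eq_perFun1 hF (conj1 ⟨rep M d, rep_mem d⟩ γ) ((rep M d) • UpperHalfPlane.I),
    coe_conj1]
  have h1 : ((⟨rep M d, rep_mem d⟩ : Gamma0 M) : SL(2, ℤ)) = rep M d := rfl
  rw [h1, ← mul_smul, ← mul_smul, inv_mul_cancel_right]

/-! ### separation -/

theorem eq_zero_of_perHom1 {f : CuspForm (Gamma1 M) 2}
    (h : ∀ γ : Additive (Gamma1 M), perHom1 M γ f = 0) : f = 0 := by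
  set F : ℍ → ℂ := (primOf1 M f : ℍ → ℂ) with hFdef
  have hF : IsPrim f F := isPrim_primOf1 f
  have hinv : ∀ (γ : Gamma1 M) (τ : ℍ), F ((γ : SL(2, ℤ)) • τ) = F τ := by
    intro γ τ
    have h1 := sub_eq_perFun1 hF γ τ
    have h2 : perFun1 γ f = 0 := h (Additive.ofMul γ)
    rw [h2, sub_eq_zero] at h1
    exact h1
  have hbd : ∀ δ : SL(2, ℤ), IsBoundedAtImInfty (fun τ => F (δ • τ)) := by
    intro δ
    have h1 := isPrim_comp_smul (mapGL ℝ δ) (det_mapGL_pos _) hF
    have h2 := isPrim_prim (sl 2 δ (toGood1 M 2 f))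
    obtain ⟨c, hc⟩ := eq_add_const_of_isPrim h1 h2
    have h3 : (fun τ => F (δ • τ)) = (prim (sl 2 δ (toGood1 M 2 f)) : ℍ → ℂ) + fun _ => c := by
      funext τ
      exact hc τ
    rw [h3]
    exact Filter.BoundedAtFilter.add (prim (sl 2 δ (toGood1 M 2 f))).2.zero.isBoundedAtImInfty
      (Filter.const_boundedAtFilter _ c)
  let G : ModularForm (Gamma1 M) 0 :=
    { toFun := F
      slash_action_eq' := by
        rintro _ ⟨γ, hγ, rfl⟩
        funext τ
        have e1 : (F ∣[(0 : ℤ)] γ) τ = F (γ • τ) := by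
          rw [ModularForm.SL_slash_apply]
          simp
        have e2 : (F ∣[(0 : ℤ)] (mapGL ℝ γ : GL (Fin 2) ℝ)) τ = (F ∣[(0 : ℤ)] γ) τ := rfl
        rw [e2, e1]
        exact hinv ⟨γ, hγ⟩ τ
      holo' := hF.mdiff
      bdd_at_cusps' := by
        intro c hc
        have hc' : IsCusp c 𝒮ℒ := (Subgroup.IsArithmetic.isCusp_iff_isCusp_SL2Z _).mp hc
        rw [OnePoint.isBoundedAt_iff_forall_SL2Z hc']
        intro γ _
        have e1 : (F ∣[(0 : ℤ)] γ) = fun τ => F (γ • τ) := by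
          funext τ
          rw [ModularForm.SL_slash_apply]
          simp
        rw [e1]
        exact hbd γ }
  have hG : G = 0 := by
    apply ModularForm.sturm_bound_of_isArithmetic one_mem_strictPeriods
    rw [zero_mul, Int.toNat_zero, Nat.zero_div]
    refine lt_of_lt_of_le (by exact_mod_cast Nat.zero_lt_one)
      (PowerSeries.nat_le_order _ 1 fun m hm => ?_)
    have hm0 : m = 0 := by omega
    subst hm0
    have hz := (primOf1 M f).2.zero
    have h1 : (1 : ℝ) ∈ (Gamma1 M : Subgroup (GL (Fin 2) ℝ)).strictPeriods :=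
      one_mem_strictPeriods
    have hper := SlashInvariantFormClass.periodic_comp_ofComplex G h1
    rw [qExpansion_coeff_zero one_pos
      (ModularFormClass.analyticAt_cuspFunction_zero G one_pos h1) hper]
    exact hz.valueAtInfty_eq_zero
  have h2 : primOf1 M f = 0 := by
    apply Subtype.ext
    exact congrArg (fun g : ModularForm (Gamma1 M) 0 => (g : ℍ → ℂ)) hG
  have h3 : sl 2 1 (toGood1 M 2 f) = 0 := by
    apply prim_injective
    rw [map_zero]
    exact h2
  apply DFunLike.coe_injective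
  have h4 := congrArg (fun g : cuspLike => (g : ℍ → ℂ)) h3
  simp only [coe_sl, coe_toGood1, SlashAction.slash_one] at h4
  exact h4

/-! ### elements with `|trace| ≤ 2` -/

theorem perFun1_eq_zero {γ : Gamma1 M} (h : tr (γ : SL(2, ℤ)) ^ 2 ≤ 4) : perFun1 γ = 0 := by
  rcases lt_or_eq_of_le h with h | h
  · have h1 := pow_twelve_eq_one h
    have h2 : (γ : Gamma1 M) ^ 12 = 1 := Subtype.ext (by rw [Subgroup.coe_pow, h1]; rfl)
    have h3 : (12 : ℕ) • perHom1 M (Additive.ofMul γ) = 0 := by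
      rw [← map_nsmul, ← ofMul_pow, h2, ofMul_one, map_zero]
    rw [← Nat.cast_smul_eq_nsmul ℂ, smul_eq_zero] at h3
    rcases h3 with h3 | h3
    · norm_num at h3
    · exact h3
  · -- parabolic case
    obtain ⟨ε, hε, ht⟩ : ∃ ε : ℤ, ε * ε = 1 ∧ tr (γ : SL(2, ℤ)) = 2 * ε := by
      have h4 : (tr (γ : SL(2, ℤ)) - 2) * (tr (γ : SL(2, ℤ)) + 2) = 0 := by
        linear_combination h
      rcases mul_eq_zero.mp h4 with h5 | h5
      · exact ⟨1, by norm_num, by linarith⟩
      · exact ⟨-1, by norm_num, by linarith⟩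
    obtain ⟨δ, k, hδ⟩ := exists_conj_unipotent hε ht
    ext f
    rw [LinearMap.zero_apply]
    set F : ℍ → ℂ := (primOf1 M f : ℍ → ℂ) with hFdef
    have hF : IsPrim f F := isPrim_primOf1 f
    have h1 := isPrim_comp_smul (mapGL ℝ δ) (det_mapGL_pos _) hF
    set G : ℍ → ℂ := (prim (sl 2 δ (toGood1 M 2 f)) : ℍ → ℂ) with hG
    have h2 : IsPrim _ G := isPrim_prim (sl 2 δ (toGood1 M 2 f))
    obtain ⟨c, hc⟩ := eq_add_const_of_isPrim h1 h2
    have hc' : ∀ τ : ℍ, F (δ • τ) = G τ + c := hc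
    have hsmul : ∀ τ : ℍ, (δ⁻¹ * (γ : SL(2, ℤ)) * δ) • τ = ((ε * k : ℤ) : ℝ) +ᵥ τ := by
      intro τ
      ext
      have e00 : (δ⁻¹ * (γ : SL(2, ℤ)) * δ : SL(2, ℤ)) 0 0 = ε := by
        have := congrFun (congrFun hδ 0) 0
        simpa using this
      have e01 : (δ⁻¹ * (γ : SL(2, ℤ)) * δ : SL(2, ℤ)) 0 1 = k := by
        have := congrFun (congrFun hδ 0) 1
        simpa using this
      have e10 : (δ⁻¹ * (γ : SL(2, ℤ)) * δ : SL(2, ℤ)) 1 0 = 0 := by
        have := congrFun (congrFun hδ 1) 0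
        simpa using this
      have e11 : (δ⁻¹ * (γ : SL(2, ℤ)) * δ : SL(2, ℤ)) 1 1 = ε := by
        have := congrFun (congrFun hδ 1) 1
        simpa using this
      rw [UpperHalfPlane.coe_specialLinearGroup_apply, e00, e01, e10, e11, UpperHalfPlane.coe_vadd]
      have hεC : (ε : ℂ) * ε = 1 := by exact_mod_cast hε
      have hε0 : (ε : ℂ) ≠ 0 := fun h0 => by rw [h0, mul_zero] at hεC; exact zero_ne_one hεC
      simp only [algebraMap_int_eq, eq_intCast, Int.cast_zero, Complex.ofReal_zero, zero_mul,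
        zero_add, Complex.ofReal_intCast, Int.cast_mul, Complex.ofReal_mul]
      field_simp
      linear_combination (-(k : ℂ)) * hεC
    have hval : ∀ τ : ℍ, perFun1 γ f = G (((ε * k : ℤ) : ℝ) +ᵥ τ) - G τ := by
      intro τ
      rw [← sub_eq_perFun1 hF γ (δ • τ)]
      have h3 : (γ : SL(2, ℤ)) • δ • τ = δ • ((δ⁻¹ * (γ : SL(2, ℤ)) * δ) • τ) := by
        rw [← mul_smul, ← mul_smul]
        congr 1
        group
      rw [h3, hc', hc', hsmul]
      ring
    have hzero : Tendsto G atImInfty (𝓝 0) := (prim (sl 2 δ (toGood1 M 2 f))).2.zero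
    have hshift : Tendsto (fun τ : ℍ => ((ε * k : ℤ) : ℝ) +ᵥ τ) atImInfty atImInfty := by
      rw [atImInfty, tendsto_comap_iff]
      have : (UpperHalfPlane.im ∘ fun τ : ℍ => ((ε * k : ℤ) : ℝ) +ᵥ τ) = UpperHalfPlane.im := by
        funext τ
        simp
      rw [this]
      exact tendsto_comap
    have hlim : Tendsto (fun τ : ℍ => G (((ε * k : ℤ) : ℝ) +ᵥ τ) - G τ) atImInfty (𝓝 (0 - 0)) :=
      (hzero.comp hshift).sub hzero
    rw [sub_zero] at hlim
    have hconst : Tendsto (fun _ : ℍ => perFun1 γ f) atImInfty (𝓝 0) :=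
      hlim.congr fun τ => (hval τ).symm
    exact tendsto_nhds_unique tendsto_const_nhds hconst

/-! ### finite generation -/

instance instFIGamma1 : (Gamma1 M).FiniteIndex := (Gamma1_is_congruence M).finiteIndex

instance instFGGamma1 : Group.FG (Gamma1 M) := Subgroup.fg_of_index_ne_zero (Gamma1 M)

variable (M) in
/-- the period lattice -/
def perLat1 : Submodule ℤ (CuspForm (Gamma1 M) 2 →ₗ[ℂ] ℂ) :=
  AddSubgroup.toIntSubmodule (perHom1 M).range

instance : Module.Finite ℤ (perLat1 M) := by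
  have h1 : AddGroup.FG (Additive (Gamma1 M)) := inferInstance
  have h2 : AddGroup.FG (perHom1 M).range := AddGroup.fg_range (perHom1 M)
  have h3 : AddGroup.FG (perLat1 M) := h2
  exact Module.Finite.iff_addGroup_fg.mpr h3

instance : Module.IsTorsionFree ℤ (perLat1 M) := inferInstance

end Fermat.Agent.DS.X1
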