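import Mathlib
import Fermat.Agent.DS.X1.PerLat

/-!
# The support theorem for the Hecke algebra `T1 M 2`

If `W` is a module over the polynomial Hecke algebra `HAlg M` receiving an equivariant injection
from the characters `Γ₁(M) → ℤ/ℓ` trivial on parabolic and elliptic elements, then the
annihilator of `W` is killed by every homomorphism from `T1 M 2` to a field of characteristic `ℓ`.
-/

set_option autoImplicit false

noncomputable section

open UpperHalfPlane Matrix.SpecialLinearGroup CongruenceSubgroup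
open scoped MatrixGroups

namespace Fermat.Agent.DS.X1

open Fermat.Agent.DS.Hecke1 (pu coe_pu rep rep_mem dia coe_dia Tp coe_Tp T1 gens Tp_mem dia_mem)

/-- The polynomial Hecke algebra of level `M`. -/
abbrev HAlg (M : ℕ) : Type :=
  MvPolynomial ({p : ℕ // p.Prime ∧ ¬ p ∣ M} ⊕ (ZMod M)ˣ) ℤ

/-- the variable `T_p` -/
def HT {M p : ℕ} (hp : p.Prime) (hpM : ¬ p ∣ M) : HAlg M := MvPolynomial.X (Sum.inl ⟨p, hp, hpM⟩)

/-- the variable `⟨d⟩` -/
def HD {M : ℕ} (d : (ZMod M)ˣ) : HAlg M := MvPolynomial.X (Sum.inr d)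

/-- homomorphisms `Γ₁(M) → A` vanishing on all elements with `|trace| ≤ 2`
(parabolic and elliptic elements). -/
def parEll1 (M : ℕ) (A : Type*) [AddCommGroup A] : AddSubgroup (Additive (Gamma1 M) →+ A) where
  carrier := {φ | ∀ γ : Gamma1 M,
    ((γ : SL(2, ℤ)) : Matrix (Fin 2) (Fin 2) ℤ).trace ^ 2 ≤ 4 → φ (Additive.ofMul γ) = 0}
  zero_mem' := fun _ _ => rfl
  add_mem' := fun {φ ψ} hφ hψ γ h => by
    rw [AddMonoidHom.add_apply, hφ γ h, hψ γ h, add_zero]
  neg_mem' := fun {φ} hφ γ h => by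
    rw [AddMonoidHom.neg_apply, hφ γ h, neg_zero]

section Defs

variable (M : ℕ) [NeZero M]

/-- **Interface.** An injective homomorphism from the group of parabolic-and-elliptic-trivial
homomorphisms `Γ₁(M) → ℤ/n` to `W`, equivariant for the `T_p`, `p ∤ M` and the diamonds. -/
def HomSupport1 (n : ℕ) (W : Type*) [AddCommGroup W] [Module (HAlg M) W] : Prop :=
  ∃ Φ : parEll1 M (ZMod n) →+ W, Function.Injective Φ ∧
    (∀ (p : ℕ) (hp : p.Prime) (hpM : ¬ p ∣ M) (φ ψ : parEll1 M (ZMod n)),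
      (ψ : Additive (Gamma1 M) →+ ZMod n) = heckeHom1 hp hpM φ → Φ ψ = HT hp hpM • Φ φ) ∧
    (∀ (d : (ZMod M)ˣ) (φ ψ : parEll1 M (ZMod n)),
      (ψ : Additive (Gamma1 M) →+ ZMod n) = diaHom d φ → Φ ψ = HD d • Φ φ)

/-- evaluation of Hecke polynomials in the Hecke algebra -/
def evalT1 : HAlg M →+* T1 M 2 :=
  MvPolynomial.eval₂Hom (Int.castRingHom _) (Sum.elim (fun p => T1.T p.2.1 p.2.2) T1.D)

end Defs

variable {M : ℕ} [NeZero M]

theorem evalT1_HT {p : ℕ} (hp : p.Prime) (hpM : ¬ p ∣ M) :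
    evalT1 M (HT hp hpM) = T1.T hp hpM := by
  rw [evalT1, HT, MvPolynomial.eval₂Hom_X']
  rfl

theorem evalT1_HD (d : (ZMod M)ˣ) : evalT1 M (HD d) = T1.D d := by
  rw [evalT1, HD, MvPolynomial.eval₂Hom_X']
  rfl

theorem evalT1_C (c : ℤ) : evalT1 M (MvPolynomial.C c) = (c : T1 M 2) := by
  rw [evalT1, MvPolynomial.eval₂Hom_C]
  rfl

/-- periods vanish on parabolic and elliptic elements -/
theorem comp_perHom1_mem {A : Type*} [AddCommGroup A] (ψ : perLat1 M →+ A) :
    (ψ.comp (perHom1 M).rangeRestrict : Additive (Gamma1 M) →+ A) ∈ parEll1 M A := by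
  intro γ h
  have h1 : (perHom1 M).rangeRestrict (Additive.ofMul γ) = 0 := Subtype.ext (perFun1_eq_zero h)
  exact (congrArg ψ h1).trans (map_zero ψ)

/-- elements of the Hecke algebra preserve the period lattice. -/
theorem perLat1_stable {t : Module.End ℂ (CuspForm (Gamma1 M) 2)} (ht : t ∈ T1 M 2) :
    ∀ φ ∈ perLat1 M, φ ∘ₗ t ∈ perLat1 M := by
  induction ht using Algebra.adjoin_induction with
  | mem x hx =>
    rcases hx with ⟨p, hp, hpM, rfl⟩ | ⟨d, rfl⟩
    · rintro _ ⟨γ, rfl⟩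
      rw [perHom1_comp_Tp]
      obtain ⟨γ, rfl⟩ := Additive.ofMul.surjective γ
      rw [heckeHom1_apply]
      exact Submodule.sum_mem _ fun x _ => ⟨_, rfl⟩
    · rintro _ ⟨γ, rfl⟩
      rw [perHom1_comp_dia]
      obtain ⟨γ, rfl⟩ := Additive.ofMul.surjective γ
      rw [diaHom_apply]
      exact ⟨_, rfl⟩
  | algebraMap r =>
    intro φ hφ
    have : φ ∘ₗ (algebraMap ℤ (Module.End ℂ (CuspForm (Gamma1 M) 2)) r) = r • φ := by
      ext f
      simp
    rw [this]
    exact Submodule.smul_mem _ _ hφ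
  | add x y _ _ hx hy =>
    intro φ hφ
    rw [LinearMap.comp_add]
    exact add_mem (hx φ hφ) (hy φ hφ)
  | mul x y _ _ hx hy =>
    intro φ hφ
    have : φ ∘ₗ (x * y) = (φ ∘ₗ x) ∘ₗ y := rfl
    rw [this]
    exact hy _ (hx φ hφ)

/-- the action of the Hecke algebra on the period lattice -/
def actLat1 : T1 M 2 →+* Module.End ℤ (perLat1 M) where
  toFun t :=
    { toFun := fun φ => ⟨φ.1 ∘ₗ t.1, perLat1_stable t.2 _ φ.2⟩
      map_add' := fun φ ψ => Subtype.ext (LinearMap.add_comp _ _ _)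
      map_smul' := fun c φ => Subtype.ext (by ext f; simp) }
  map_zero' := by
    ext φ f
    show φ.1 ((0 : Module.End ℂ (CuspForm (Gamma1 M) 2)) f) = 0
    rw [LinearMap.zero_apply, map_zero]
  map_one' := by
    ext φ f
    rfl
  map_add' a b := by
    ext φ f
    show φ.1 ((a.1 + b.1) f) = φ.1 (a.1 f) + φ.1 (b.1 f)
    rw [LinearMap.add_apply, map_add]
  map_mul' a b := by
    ext φ f
    show φ.1 ((a * b).1 f) = φ.1 ((b.1 * a.1) f)
    have h : a * b = b * a := mul_comm a b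
    rw [h]
    rfl

theorem coe_actLat1 (t : T1 M 2) (φ : perLat1 M) :
    ((actLat1 t φ : perLat1 M) : CuspForm (Gamma1 M) 2 →ₗ[ℂ] ℂ) = φ.1 ∘ₗ t.1 := rfl

theorem actLat1_injective : Function.Injective (actLat1 (M := M)) := by
  rw [injective_iff_map_eq_zero]
  intro t ht
  apply Subtype.ext
  refine LinearMap.ext fun f => ?_
  show t.1 f = 0
  apply eq_zero_of_perHom1
  intro γ
  have h := congrArg (fun b : Module.End ℤ (perLat1 M) =>
    ((b ⟨perHom1 M γ, ⟨γ, rfl⟩⟩ : perLat1 M) : CuspForm (Gamma1 M) 2 →ₗ[ℂ] ℂ) f) ht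
  exact h

/-- the transfer of a homomorphism factoring through the period lattice -/
theorem heckeHom1_comp_rangeRestrict {p : ℕ} (hp : p.Prime) (hpM : ¬ p ∣ M)
    {A : Type*} [AddCommGroup A] (ψ : perLat1 M →+ A) :
    heckeHom1 hp hpM (ψ.comp (perHom1 M).rangeRestrict) =
      (ψ.comp (actLat1 (T1.T hp hpM)).toAddMonoidHom).comp (perHom1 M).rangeRestrict := by
  refine AddMonoidHom.ext fun γ => ?_
  have h1 : ((actLat1 (T1.T hp hpM)) ((perHom1 M).rangeRestrict γ)) =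
      heckeHom1 hp hpM (perHom1 M).rangeRestrict γ := by
    apply Subtype.ext
    have h2 : ((heckeHom1 hp hpM (perHom1 M).rangeRestrict γ : (perHom1 M).range) :
        CuspForm (Gamma1 M) 2 →ₗ[ℂ] ℂ) = heckeHom1 hp hpM (perHom1 M) γ :=
      (DFunLike.congr_fun (heckeHom1_comp hp hpM (perHom1 M).range.subtype
        (perHom1 M).rangeRestrict) γ).symm
    refine Eq.trans ?_ h2.symm
    exact perHom1_comp_Tp hp hpM γ
  have h3 := DFunLike.congr_fun (heckeHom1_comp hp hpM (A := (perHom1 M).range) ψ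
    (perHom1 M).rangeRestrict) γ
  refine h3.trans ?_
  show ψ _ = ψ _
  exact congrArg ψ h1.symm

/-- the diamond of a homomorphism factoring through the period lattice -/
theorem diaHom_comp_rangeRestrict (d : (ZMod M)ˣ) {A : Type*} [AddCommGroup A]
    (ψ : perLat1 M →+ A) :
    diaHom d (ψ.comp (perHom1 M).rangeRestrict) =
      (ψ.comp (actLat1 (T1.D d)).toAddMonoidHom).comp (perHom1 M).rangeRestrict := by
  refine AddMonoidHom.ext fun γ => ?_
  have h1 : ((actLat1 (T1.D d)) ((perHom1 M).rangeRestrict γ)) =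
      diaHom d (perHom1 M).rangeRestrict γ := by
    apply Subtype.ext
    exact perHom1_comp_dia d γ
  show ψ (diaHom d (perHom1 M).rangeRestrict γ) = ψ _
  exact congrArg ψ h1.symm

section main

variable {W : Type*} [AddCommGroup W] [Module (HAlg M) W]

/-- the character `ψ ∘ t ∘ per` -/
def lft {n : ℕ} (ψ : perLat1 M →+ ZMod n) (t : T1 M 2) : parEll1 M (ZMod n) :=
  ⟨(ψ.comp (actLat1 t).toAddMonoidHom).comp (perHom1 M).rangeRestrict, comp_perHom1_mem _⟩

theorem coe_lft {n : ℕ} (ψ : perLat1 M →+ ZMod n) (t : T1 M 2) (γ : Additive (Gamma1 M)) :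
    (lft ψ t : Additive (Gamma1 M) →+ ZMod n) γ = ψ (actLat1 t ((perHom1 M).rangeRestrict γ)) :=
  rfl

theorem lft_add {n : ℕ} (ψ : perLat1 M →+ ZMod n) (s t : T1 M 2) :
    lft ψ (s + t) = lft ψ s + lft ψ t := by
  apply Subtype.ext
  refine AddMonoidHom.ext fun γ => ?_
  show ψ _ = ψ _ + ψ _
  rw [← map_add]
  congr 1
  rw [map_add]
  rfl

theorem lft_intCast {n : ℕ} (ψ : perLat1 M →+ ZMod n) (c : ℤ) :
    lft ψ (c : T1 M 2) = c • lft ψ 1 := by
  apply Subtype.ext
  refine AddMonoidHom.ext fun γ => ?_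
  show ψ _ = c • ψ _
  rw [← map_zsmul]
  congr 1
  rw [map_intCast, map_one]
  rfl

theorem lft_mul_T {n : ℕ} (ψ : perLat1 M →+ ZMod n) (t : T1 M 2) {p : ℕ} (hp : p.Prime)
    (hpM : ¬ p ∣ M) : (lft ψ (t * T1.T hp hpM) : Additive (Gamma1 M) →+ ZMod n) =
      heckeHom1 hp hpM (lft ψ t : Additive (Gamma1 M) →+ ZMod n) := by
  have h1 : ((lft ψ t : parEll1 M (ZMod n)) : Additive (Gamma1 M) →+ ZMod n) =
      (ψ.comp (actLat1 t).toAddMonoidHom).comp (perHom1 M).rangeRestrict := rfl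
  rw [h1, heckeHom1_comp_rangeRestrict hp hpM]
  refine AddMonoidHom.ext fun γ => ?_
  rw [coe_lft]
  show ψ _ = ψ _
  congr 1
  rw [map_mul]
  rfl

theorem lft_mul_D {n : ℕ} (ψ : perLat1 M →+ ZMod n) (t : T1 M 2) (d : (ZMod M)ˣ) :
    (lft ψ (t * T1.D d) : Additive (Gamma1 M) →+ ZMod n) =
      diaHom d (lft ψ t : Additive (Gamma1 M) →+ ZMod n) := by
  have h1 : ((lft ψ t : parEll1 M (ZMod n)) : Additive (Gamma1 M) →+ ZMod n) =
      (ψ.comp (actLat1 t).toAddMonoidHom).comp (perHom1 M).rangeRestrict := rfl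
  rw [h1, diaHom_comp_rangeRestrict d]
  refine AddMonoidHom.ext fun γ => ?_
  rw [coe_lft]
  show ψ _ = ψ _
  congr 1
  rw [map_mul]
  rfl

/-- equivariance of `Φ` for all Hecke polynomials. -/
theorem map_actLat1 {n : ℕ} (Φ : parEll1 M (ZMod n) →+ W)
    (hΦ : ∀ (p : ℕ) (hp : p.Prime) (hpM : ¬ p ∣ M) (φ ψ : parEll1 M (ZMod n)),
      (ψ : Additive (Gamma1 M) →+ ZMod n) = heckeHom1 hp hpM φ → Φ ψ = HT hp hpM • Φ φ)
    (hΦ' : ∀ (d : (ZMod M)ˣ) (φ ψ : parEll1 M (ZMod n)),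
      (ψ : Additive (Gamma1 M) →+ ZMod n) = diaHom d φ → Φ ψ = HD d • Φ φ)
    (a : HAlg M) (ψ : perLat1 M →+ ZMod n) :
    Φ (lft ψ (evalT1 M a)) = a • Φ (lft ψ 1) := by
  induction a using MvPolynomial.induction_on with
  | C c =>
    have h1 : (MvPolynomial.C c : HAlg M) = (c : HAlg M) := by simp
    rw [evalT1_C, lft_intCast, h1, Int.cast_smul_eq_zsmul, map_zsmul]
  | add p q hp hq => rw [map_add, lft_add, map_add, hp, hq, _root_.add_smul]
  | mul_X q i hq =>
    rcases i with ⟨p, hp, hpM⟩ | d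
    · have h1 : (MvPolynomial.X (Sum.inl ⟨p, hp, hpM⟩) : HAlg M) = HT hp hpM := rfl
      rw [h1, map_mul, evalT1_HT, hΦ p hp hpM _ _ (lft_mul_T ψ _ hp hpM), hq, ← mul_smul,
        mul_comm]
    · have h1 : (MvPolynomial.X (Sum.inr d) : HAlg M) = HD d := rfl
      rw [h1, map_mul, evalT1_HD, hΦ' d _ _ (lft_mul_D ψ _ d), hq, ← mul_smul, mul_comm]

/-- an endomorphism of a finite free `ℤ`-module all of whose reductions to functionals mod `m`
vanish is divisible by `m`. -/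
theorem exists_eq_smul1 {P : Type*} [AddCommGroup P] [Module.Finite ℤ P] [Module.Free ℤ P]
    {m : ℕ} (b : Module.End ℤ P)
    (h : ∀ ψ : P →+ ZMod m, ψ.comp b.toAddMonoidHom = 0) :
    ∃ c : Module.End ℤ P, b = (m : ℤ) • c := by
  classical
  let B := Module.Free.chooseBasis ℤ P
  have hdvd : ∀ x i, (m : ℤ) ∣ B.repr (b x) i := by
    intro x i
    have h1 := DFunLike.congr_fun (h ((Int.castAddHom (ZMod m)).comp
      (B.coord i).toAddMonoidHom)) x
    have h2 : ((B.repr (b x) i : ℤ) : ZMod m) = 0 := h1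
    exact (ZMod.intCast_zmod_eq_zero_iff_dvd _ _).mp h2
  have hex : ∀ j, ∃ y : P, b (B j) = (m : ℤ) • y := by
    intro j
    choose q hq using hdvd (B j)
    refine ⟨B.equivFun.symm q, ?_⟩
    apply B.equivFun.injective
    rw [map_smul, LinearEquiv.apply_symm_apply]
    funext i
    rw [Module.Basis.equivFun_apply, hq i]
    rfl
  choose y hy using hex
  refine ⟨B.constr ℤ y, ?_⟩
  refine B.ext fun j => ?_
  rw [LinearMap.smul_apply, Module.Basis.constr_basis, hy]

/-- **Support theorem, lattice form.** -/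
theorem theta_eq_zero_of_forall {ℓ : ℕ} {k : Type*} [Field k] [CharP k ℓ]
    (θ : T1 M 2 →+* k) (t : T1 M 2)
    (h : ∀ ψ : perLat1 M →+ ZMod ℓ, ψ.comp (actLat1 t).toAddMonoidHom = 0) : θ t = 0 := by
  have hfree : Module.Free ℤ (perLat1 M) := inferInstance
  obtain ⟨b, hb⟩ := exists_eq_smul1 (actLat1 t) h
  have hbint : IsIntegral ℤ b := Algebra.IsIntegral.isIntegral b
  obtain ⟨q, hqmonic, hq⟩ := hbint
  have h1 : Polynomial.aeval (actLat1 t) (Polynomial.scaleRoots q (ℓ : ℤ)) = 0 := by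
    have h2 : actLat1 t = algebraMap ℤ (Module.End ℤ (perLat1 M)) (ℓ : ℤ) * b := by
      rw [hb, Algebra.smul_def]
    rw [h2]
    exact Polynomial.scaleRoots_aeval_eq_zero hq
  have h2 : Polynomial.aeval t (Polynomial.scaleRoots q (ℓ : ℤ)) = 0 := by
    apply actLat1_injective
    rw [map_zero, ← h1]
    have := Polynomial.hom_eval₂ (Polynomial.scaleRoots q (ℓ : ℤ))
      (algebraMap ℤ (T1 M 2)) actLat1 t
    rw [Polynomial.aeval_def, this, Polynomial.aeval_def]
    congr 1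
    exact Subsingleton.elim _ _
  have h3 : Polynomial.eval₂ (Int.castRingHom k) (θ t) (Polynomial.scaleRoots q (ℓ : ℤ)) = 0 := by
    have := Polynomial.hom_eval₂ (Polynomial.scaleRoots q (ℓ : ℤ))
      (algebraMap ℤ (T1 M 2)) θ t
    rw [← Polynomial.aeval_def, h2, map_zero] at this
    rw [this]
    congr 1
    exact Subsingleton.elim _ _
  have h4 : (Polynomial.scaleRoots q (ℓ : ℤ)).map (Int.castRingHom k) =
      Polynomial.X ^ q.natDegree := by
    rw [Polynomial.map_scaleRoots _ _ _ (by rw [hqmonic.leadingCoeff, map_one]; exact one_ne_zero)]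
    have h5 : (Int.castRingHom k) (ℓ : ℤ) = 0 := by
      rw [map_natCast]; exact CharP.cast_eq_zero k ℓ
    rw [h5, Polynomial.scaleRoots_zero, (hqmonic.map _).leadingCoeff, one_smul,
      hqmonic.natDegree_map]
  rw [← Polynomial.eval_map, h4, Polynomial.eval_pow, Polynomial.eval_X] at h3
  exact eq_zero_of_pow_eq_zero h3

/-- **Support theorem**: the annihilator of `W` is killed by all characters of the Hecke algebra
of characteristic `ℓ`. -/
theorem annihilator_le_ker {ℓ : ℕ} (hW : HomSupport1 M ℓ W) {k : Type*} [Field k] [CharP k ℓ]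
    (θ : T1 M 2 →+* k) :
    Module.annihilator (HAlg M) W ≤ RingHom.ker (θ.comp (evalT1 M)) := by
  obtain ⟨Φ, hinj, hΦ, hΦ'⟩ := hW
  intro a ha
  rw [RingHom.mem_ker, RingHom.comp_apply]
  refine theta_eq_zero_of_forall θ _ fun ψ => ?_
  have h1 := map_actLat1 Φ hΦ hΦ' a ψ
  rw [Module.mem_annihilator.mp ha, ← map_zero Φ] at h1
  have h3 := congrArg Subtype.val (hinj h1)
  refine AddMonoidHom.ext fun x => ?_
  obtain ⟨γ, hγ⟩ := (perHom1 M).rangeRestrict_surjective x
  rw [← hγ]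
  exact DFunLike.congr_fun h3 γ

end main

end Fermat.Agent.DS.X1
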