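import Mathlib
import Fermat.Agent.DS.X1.FinS48
import Fermat.Agent.DS.X1.PerSupport

/-!
# Final wiring: from the module `W = Sel_ℓ` to `GaloisT1` and S48
-/

set_option autoImplicit false

noncomputable section

open CongruenceSubgroup

namespace Fermat.Agent.DS.X1

open Fermat.Agent.DS Fermat.Agent.DS.Hecke1

local notation "Qbar" => AlgebraicClosure ℚ
local notation "Γℚ" => (AlgebraicClosure ℚ ≃ₐ[ℚ] AlgebraicClosure ℚ)

/-- **The geometric module.** A finite module over the polynomial Hecke algebra `HAlg M` with a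
commuting smooth action of the Galois group, receiving the characters of `Γ₁(M)` of order `ℓ`,
with the Eichler–Shimura relation at the primes `p ∤ M` with `GoodP M p`. -/
structure GeoMod (M ℓ : ℕ) [NeZero M] where
  /-- the module -/
  W : Type
  [grp : AddCommGroup W]
  [fin : Finite W]
  [mod : Module (HAlg M) W]
  [gal : DistribMulAction Γℚ W]
  [comm : SMulCommClass Γℚ (HAlg M) W]
  smooth : ∀ x : W, ∃ L : IntermediateField ℚ Qbar, FiniteDimensional ℚ L ∧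
    ∀ g : Γℚ, (∀ y ∈ L, g y = y) → g • x = x
  supp : HomSupport1 M ℓ W
  inertia : ∀ (p : ℕ), p.Prime → ¬ p ∣ M → GoodP M p → ∀ A : ValuationSubring Qbar,
    A.LiesOverPrime p → ∀ g ∈ A.inertiaSubgroupIn ℚ, ∀ w : W, g • w = w
  frob : ∀ (p : ℕ) (hp : p.Prime) (hpM : ¬ p ∣ M), GoodP M p → ∀ A : ValuationSubring Qbar,
    A.LiesOverPrime p → ∀ g : Γℚ, A.IsFrobeniusAt g p → ∀ w : W,
      g • g • w - HT hp hpM • g • w + p • HD (pu hp hpM) • w = 0

/-- **Wiring.** -/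
theorem galoisT1_of_geoMod (H : ∀ (M ℓ : ℕ) [NeZero M], ℓ.Prime → 5 ≤ ℓ → ℓ ∣ M → ¬ ℓ ^ 2 ∣ M →
    ¬ ℓ ∣ Nat.totient M → Nonempty (GeoMod M ℓ)) : GaloisT1 := by
  intro M ℓ _ hℓ hℓ5 hℓM hℓM2 hφ k _ _ _ θ
  obtain ⟨G⟩ := H M ℓ hℓ hℓ5 hℓM hℓM2 hφ
  obtain ⟨W, hs, hsupp, hur, hfr⟩ := G
  have : NeZero ℓ := ⟨hℓ.ne_zero⟩
  let T : ℕ → HAlg M := fun p => by
    classical
    exact if h : p.Prime ∧ ¬ p ∣ M then HT h.1 h.2 else 0
  let Sp : ℕ → HAlg M := fun p => by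
    classical
    exact if h : p.Prime ∧ ¬ p ∣ M then HD (pu h.1 h.2) else 0
  have hTp : ∀ (p : ℕ) (hp : p.Prime) (hpM : ¬ p ∣ M), T p = HT hp hpM := fun p hp hpM => by
    have h : p.Prime ∧ ¬ p ∣ M := ⟨hp, hpM⟩
    simp only [T]
    rw [dif_pos h]
  have hSp : ∀ (p : ℕ) (hp : p.Prime) (hpM : ¬ p ∣ M), Sp p = HD (pu hp hpM) :=
    fun p hp hpM => by
      have h : p.Prime ∧ ¬ p ∣ M := ⟨hp, hpM⟩
      simp only [Sp]
      rw [dif_pos h]
  obtain ⟨ρ, hlev, hρ⟩ := exists_rep_of_module (M := M) (ℓ := ℓ) hℓ (F := k) (R := HAlg M) (W := W)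
    hs (fun p => ¬ p ∣ M ∧ GoodP M p) (Finset.range (M + 5))
    (fun p hp hpS => by
      rw [Finset.mem_range, not_lt] at hpS
      exact ⟨fun h => by
        have := Nat.le_of_dvd (Nat.pos_of_ne_zero (NeZero.ne M)) h
        omega, Or.inl (by omega)⟩)
    (fun p h => h.1) (fun p h h' => h.1 (h' ▸ hℓM)) T Sp
    (fun p hp hg A hA g hgi w => hur p hp hg.1 hg.2 A hA g hgi w)
    (fun p hp hg A hA g hgf w => by
      rw [hTp p hp hg.1, hSp p hp hg.1]
      exact hfr p hp hg.1 hg.2 A hA g hgf w)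
    (θ.comp (evalT1 M)) (annihilator_le_ker hsupp θ)
    ({ toFun := fun d => θ (T1.D d)
       map_one' := by rw [T1.D_one, map_one]
       map_mul' := fun d e => by rw [T1.D_mul, map_mul] } : (ZMod M)ˣ →* k)
    (fun p hp h => by
      rw [hSp p hp h.1, RingHom.comp_apply, evalT1_HD]
      rfl)
  refine ⟨ρ, hlev, fun p hp hpM hg A hA => ?_⟩
  have h1 := hρ p hp ⟨hpM, hg⟩ A hA
  refine ⟨h1.1, fun σ hσ => ?_⟩
  have h2 := h1.2 σ hσ
  rw [hTp p hp hpM, hSp p hp hpM, RingHom.comp_apply, RingHom.comp_apply, evalT1_HT,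
    evalT1_HD] at h2
  exact h2

end Fermat.Agent.DS.X1
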