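import Mathlib
import Fermat.Agent.DS.X1.FinWire

/-!
# `GeoPre`: a weaker geometric input

The Hecke operators on `W` are not assumed to commute or to preserve the Selmer subgroup `S`, and
`W` is not assumed to be finite.
-/

set_option autoImplicit false

noncomputable section

open CongruenceSubgroup

namespace Fermat.Agent.DS.X1

open Fermat.Agent.DS Fermat.Agent.DS.Hecke1

local notation "Qbar" => AlgebraicClosure ℚ
local notation "Γℚ" => (AlgebraicClosure ℚ ≃ₐ[ℚ] AlgebraicClosure ℚ)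

/-- **The geometric input.** An abelian group `W` (think of `F^×` modulo `ℓ`-th powers) with a
Galois action, operators `T_p` and `⟨d⟩` commuting with the Galois action (but not assumed to
commute with each other), a Galois stable subgroup `S` (think of the Selmer group) containing the
image of the characters of `Γ₁(M)` of order `ℓ`, on which the action is smooth, with the
Eichler–Shimura relation at the primes `p ∤ M` with `GoodP M p`. The operators are not assumed
to preserve `S`. -/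
structure GeoPre (M ℓ : ℕ) [NeZero M] where
  /-- the group -/
  W : Type
  [grp : AddCommGroup W]
  [gal : DistribMulAction Γℚ W]
  /-- the Selmer subgroup -/
  S : AddSubgroup W
  S_gal : ∀ (g : Γℚ), ∀ w ∈ S, g • w ∈ S
  /-- the Hecke operators -/
  T : ∀ p : ℕ, p.Prime → ¬ p ∣ M → (W →+ W)
  /-- the diamond operators -/
  D : (ZMod M)ˣ → (W →+ W)
  T_gal : ∀ (p : ℕ) (hp : p.Prime) (hpM : ¬ p ∣ M) (g : Γℚ) (w : W),
    T p hp hpM (g • w) = g • T p hp hpM w
  D_gal : ∀ (d : (ZMod M)ˣ) (g : Γℚ) (w : W), D d (g • w) = g • D d w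
  smooth : ∀ x ∈ S, ∃ L : IntermediateField ℚ Qbar, FiniteDimensional ℚ L ∧
    ∀ g : Γℚ, (∀ y ∈ L, g y = y) → g • x = x
  /-- the map from characters -/
  Φ : parEll1 M (ZMod ℓ) →+ W
  Φ_mem : ∀ φ, Φ φ ∈ S
  inj : Function.Injective Φ
  Φ_T : ∀ (p : ℕ) (hp : p.Prime) (hpM : ¬ p ∣ M) (φ ψ : parEll1 M (ZMod ℓ)),
    (ψ : Additive (Gamma1 M) →+ ZMod ℓ) = heckeHom1 hp hpM φ → Φ ψ = T p hp hpM (Φ φ)
  Φ_D : ∀ (d : (ZMod M)ˣ) (φ ψ : parEll1 M (ZMod ℓ)),
    (ψ : Additive (Gamma1 M) →+ ZMod ℓ) = diaHom d φ → Φ ψ = D d (Φ φ)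
  inertia : ∀ (p : ℕ), p.Prime → ¬ p ∣ M → GoodP M p → ∀ A : ValuationSubring Qbar,
    A.LiesOverPrime p → ∀ g ∈ A.inertiaSubgroupIn ℚ, ∀ w ∈ S, g • w = w
  frob : ∀ (p : ℕ) (hp : p.Prime) (hpM : ¬ p ∣ M), GoodP M p → ∀ A : ValuationSubring Qbar,
    A.LiesOverPrime p → ∀ g : Γℚ, A.IsFrobeniusAt g p → ∀ w ∈ S, T p hp hpM w ∈ S →
      D (pu hp hpM) w ∈ S → g • g • w - T p hp hpM (g • w) + p • D (pu hp hpM) w = 0

/-- Characters to a finite group are finitely many. -/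
theorem finite_chars (M : ℕ) [NeZero M] (A : Type*) [AddCommGroup A] [Finite A] :
    Finite (Additive (Gamma1 M) →+ A) := by
  have h1 : AddGroup.FG (Additive (Gamma1 M)) := inferInstance
  obtain ⟨S, hS⟩ := h1.out
  refine Finite.of_injective (fun φ : Additive (Gamma1 M) →+ A => fun s : S => φ s) ?_
  intro φ ψ h
  refine AddMonoidHom.eq_of_eqOn_dense hS fun x hx => ?_
  exact congrFun h ⟨x, hx⟩

/-- Orbits under a smooth action are finite. -/
theorem finite_orbit {W : Type*} [AddCommGroup W] [DistribMulAction Γℚ W] {w : W}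
    (L : IntermediateField ℚ Qbar) [FiniteDimensional ℚ L]
    (hL : ∀ g : Γℚ, (∀ y ∈ L, g y = y) → g • w = w) : (MulAction.orbit Γℚ w).Finite := by
  let r : Γℚ → (L →ₐ[ℚ] Qbar) := fun g => (g : Qbar →ₐ[ℚ] Qbar).comp L.val
  have hfac : ∀ g h : Γℚ, r g = r h → g • w = h • w := by
    intro g h hgh
    have h1 : (g⁻¹ * h) • w = w := by
      refine hL _ fun y hy => ?_
      have h2 := DFunLike.congr_fun hgh ⟨y, hy⟩
      have h3 : g y = h y := h2
      rw [AlgEquiv.mul_apply, ← h3, ← AlgEquiv.mul_apply, inv_mul_cancel, AlgEquiv.one_apply]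
    rw [mul_smul, inv_smul_eq_iff] at h1
    exact h1.symm
  have hfin : Finite (L →ₐ[ℚ] Qbar) := inferInstance
  have h4 : (Set.range r).Finite := Set.toFinite _
  have h5 : MulAction.orbit Γℚ w =
      (fun ρ : L →ₐ[ℚ] Qbar => by
        classical
        exact if h : ∃ g, r g = ρ then h.choose • w else w) '' Set.range r := by
    ext x
    constructor
    · rintro ⟨g, rfl⟩
      refine ⟨r g, ⟨g, rfl⟩, ?_⟩
      have h : ∃ g', r g' = r g := ⟨g, rfl⟩
      simp only
      rw [dif_pos h]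
      exact hfac _ _ h.choose_spec
    · rintro ⟨_, ⟨g, rfl⟩, rfl⟩
      have h : ∃ g', r g' = r g := ⟨g, rfl⟩
      simp only
      rw [dif_pos h]
      exact ⟨h.choose, rfl⟩
  rw [h5]
  exact h4.image _

namespace GeoPre

variable {M ℓ : ℕ} [NeZero M] (G : GeoPre M ℓ)

attribute [local instance] GeoPre.grp GeoPre.gal

/-- the group generated by the Galois translates of the characters `ψ ∘ per`. -/
def gsub : AddSubgroup G.W :=
  AddSubgroup.closure {w | ∃ (g : Γℚ) (ψ : perLat1 M →+ ZMod ℓ) (t : T1 M 2),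
    w = g • G.Φ (lft ψ t)}

theorem lft_comp_T {n : ℕ} (ψ : perLat1 M →+ ZMod n) (t : T1 M 2) {p : ℕ} (hp : p.Prime)
    (hpM : ¬ p ∣ M) (G : GeoPre M n) :
    G.T p hp hpM (G.Φ (lft ψ t)) = G.Φ (lft ψ (t * T1.T hp hpM)) :=
  (G.Φ_T p hp hpM _ _ (lft_mul_T ψ t hp hpM)).symm

theorem lft_comp_D {n : ℕ} (ψ : perLat1 M →+ ZMod n) (t : T1 M 2) (d : (ZMod M)ˣ)
    (G : GeoPre M n) : G.D d (G.Φ (lft ψ t)) = G.Φ (lft ψ (t * T1.D d)) :=
  (G.Φ_D d _ _ (lft_mul_D ψ t d)).symm

theorem mem_gsub (g : Γℚ) (ψ : perLat1 M →+ ZMod ℓ) (t : T1 M 2) :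
    g • G.Φ (lft ψ t) ∈ G.gsub := AddSubgroup.subset_closure ⟨g, ψ, t, rfl⟩

theorem gsub_le : G.gsub ≤ G.S := by
  rw [gsub, AddSubgroup.closure_le]
  rintro _ ⟨g, ψ, t, rfl⟩
  exact G.S_gal g _ (G.Φ_mem _)

theorem smul_mem_gsub (g : Γℚ) {w : G.W} (hw : w ∈ G.gsub) : g • w ∈ G.gsub := by
  induction hw using AddSubgroup.closure_induction with
  | mem x hx =>
    obtain ⟨h, ψ, t, rfl⟩ := hx
    rw [← mul_smul]
    exact G.mem_gsub _ _ _
  | zero => rw [smul_zero]; exact zero_mem _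
  | add x y _ _ hx hy => rw [smul_add]; exact add_mem hx hy
  | neg x _ hx => rw [smul_neg]; exact neg_mem hx

theorem T_mem_gsub {p : ℕ} (hp : p.Prime) (hpM : ¬ p ∣ M) {w : G.W} (hw : w ∈ G.gsub) :
    G.T p hp hpM w ∈ G.gsub := by
  induction hw using AddSubgroup.closure_induction with
  | mem x hx =>
    obtain ⟨h, ψ, t, rfl⟩ := hx
    rw [G.T_gal, lft_comp_T]
    exact G.mem_gsub _ _ _
  | zero => rw [map_zero]; exact zero_mem _
  | add x y _ _ hx hy => rw [map_add]; exact add_mem hx hy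
  | neg x _ hx => rw [map_neg]; exact neg_mem hx

theorem D_mem_gsub (d : (ZMod M)ˣ) {w : G.W} (hw : w ∈ G.gsub) : G.D d w ∈ G.gsub := by
  induction hw using AddSubgroup.closure_induction with
  | mem x hx =>
    obtain ⟨h, ψ, t, rfl⟩ := hx
    rw [G.D_gal, lft_comp_D]
    exact G.mem_gsub _ _ _
  | zero => rw [map_zero]; exact zero_mem _
  | add x y _ _ hx hy => rw [map_add]; exact add_mem hx hy
  | neg x _ hx => rw [map_neg]; exact neg_mem hx

/-- index set of the operators -/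
abbrev Idx (M : ℕ) : Type := {p : ℕ // p.Prime ∧ ¬ p ∣ M} ⊕ (ZMod M)ˣ

/-- operators on `W` -/
def opW : Idx M → (G.W →+ G.W) :=
  Sum.elim (fun p => G.T p.1 p.2.1 p.2.2) G.D

/-- the corresponding elements of the Hecke algebra -/
def opT (M : ℕ) [NeZero M] : Idx M → T1 M 2 := Sum.elim (fun p => T1.T p.2.1 p.2.2) T1.D

theorem opW_gal (i : Idx M) (g : Γℚ) (w : G.W) : G.opW i (g • w) = g • G.opW i w := by
  rcases i with ⟨p, hp, hpM⟩ | d
  · exact G.T_gal p hp hpM g w
  · exact G.D_gal d g w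

theorem opW_lft (i : Idx M) (ψ : perLat1 M →+ ZMod ℓ) (t : T1 M 2) :
    G.opW i (G.Φ (lft ψ t)) = G.Φ (lft ψ (t * opT M i)) := by
  rcases i with ⟨p, hp, hpM⟩ | d
  · exact lft_comp_T ψ t hp hpM G
  · exact lft_comp_D ψ t d G

theorem opW_mem (i : Idx M) {w : G.W} (hw : w ∈ G.gsub) : G.opW i w ∈ G.gsub := by
  rcases i with ⟨p, hp, hpM⟩ | d
  · exact G.T_mem_gsub hp hpM hw
  · exact G.D_mem_gsub d hw

theorem opW_comm (i j : Idx M) {w : G.W} (hw : w ∈ G.gsub) :
    G.opW i (G.opW j w) = G.opW j (G.opW i w) := by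
  induction hw using AddSubgroup.closure_induction with
  | mem x hx =>
    obtain ⟨h, ψ, t, rfl⟩ := hx
    rw [opW_gal, opW_gal, opW_gal, opW_gal, opW_lft, opW_lft, opW_lft, opW_lft,
      mul_assoc, mul_assoc, mul_comm (opT M j)]
  | zero => simp only [map_zero]
  | add x y _ _ hx hy => simp only [map_add, hx, hy]
  | neg x _ hx => simp only [map_neg, hx]

/-- operators on the submodule -/
def opS (i : Idx M) : AddMonoid.End G.gsub where
  toFun w := ⟨G.opW i w, G.opW_mem i w.2⟩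
  map_zero' := Subtype.ext (map_zero _)
  map_add' x y := Subtype.ext (map_add (G.opW i) x.1 y.1)

theorem coe_opS (i : Idx M) (w : G.gsub) : ((G.opS i w : G.gsub) : G.W) = G.opW i w := rfl

theorem opS_comm (i j : Idx M) : G.opS i * G.opS j = G.opS j * G.opS i := by
  refine AddMonoidHom.ext fun w => Subtype.ext ?_
  exact G.opW_comm i j w.2

/-- the algebra generated by the operators -/
def alg : Subalgebra ℤ (AddMonoid.End G.gsub) := Algebra.adjoin ℤ (Set.range G.opS)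

instance instIsMulCommutativeAlg : IsMulCommutative G.alg :=
  Algebra.isMulCommutative_adjoin ℤ (by
    rintro _ ⟨i, rfl⟩ _ ⟨j, rfl⟩
    exact G.opS_comm i j)

open scoped IsMulCommutative in
instance instCommRingAlg : CommRing G.alg := inferInstance

/-- evaluation of Hecke polynomials -/
def evalS : HAlg M →+* AddMonoid.End G.gsub :=
  (G.alg.val : G.alg →+* AddMonoid.End G.gsub).comp
    (MvPolynomial.eval₂Hom (Int.castRingHom G.alg) fun i =>
      ⟨G.opS i, Algebra.subset_adjoin ⟨i, rfl⟩⟩)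

theorem evalS_X (i : Idx M) : G.evalS (MvPolynomial.X i) = G.opS i := by
  rw [evalS, RingHom.comp_apply, MvPolynomial.eval₂Hom_X']
  rfl

instance instModuleGsub : Module (HAlg M) G.gsub := Module.compHom G.gsub G.evalS

theorem smul_def (a : HAlg M) (w : G.gsub) : a • w = G.evalS a w := rfl

theorem X_smul (i : Idx M) (w : G.gsub) : ((MvPolynomial.X i : HAlg M) • w) = G.opS i w := by
  rw [smul_def, evalS_X]

instance instGalGsub : DistribMulAction Γℚ G.gsub where
  smul g w := ⟨g • (w : G.W), G.smul_mem_gsub g w.2⟩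
  one_smul _ := Subtype.ext (one_smul _ _)
  mul_smul _ _ _ := Subtype.ext (mul_smul _ _ _)
  smul_zero _ := Subtype.ext (smul_zero _)
  smul_add _ _ _ := Subtype.ext (smul_add _ _ _)

theorem coe_gal (g : Γℚ) (w : G.gsub) : ((g • w : G.gsub) : G.W) = g • (w : G.W) := rfl

theorem gal_smul (g : Γℚ) (a : HAlg M) (w : G.gsub) : g • a • w = a • g • w := by
  induction a using MvPolynomial.induction_on generalizing w with
  | C c =>
    have h1 : (MvPolynomial.C c : HAlg M) = (c : HAlg M) := by simp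
    rw [h1, Int.cast_smul_eq_zsmul, Int.cast_smul_eq_zsmul]
    exact map_zsmul (DistribSMul.toAddMonoidHom G.gsub g) c w
  | add p q hp hq => rw [_root_.add_smul, _root_.add_smul, smul_add, hp, hq]
  | mul_X q i hq =>
    rw [mul_smul, mul_smul, hq, X_smul, X_smul]
    congr 1
    apply Subtype.ext
    rw [coe_gal, coe_opS, coe_opS, coe_gal, opW_gal]

instance : SMulCommClass Γℚ (HAlg M) G.gsub := ⟨G.gal_smul⟩

theorem finite_gsub [NeZero ℓ] : Finite G.gsub := by
  have h1 := finite_chars M (ZMod ℓ)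
  have h2 : Finite (parEll1 M (ZMod ℓ)) := inferInstance
  set S : Set G.W := ⋃ φ : parEll1 M (ZMod ℓ), MulAction.orbit Γℚ (G.Φ φ) with hS
  have hSf : S.Finite := by
    refine Set.finite_iUnion fun φ => ?_
    obtain ⟨L, hL, h⟩ := G.smooth (G.Φ φ) (G.Φ_mem φ)
    exact finite_orbit L h
  have hfg : G.gsub.FG := by
    rw [AddSubgroup.fg_iff]
    refine ⟨_, rfl, hSf.subset ?_⟩
    rintro _ ⟨g, ψ, t, rfl⟩
    exact Set.mem_iUnion.mpr ⟨_, g, rfl⟩
  have htor : ∀ w : G.gsub, (ℓ : ℕ) • w = 0 := by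
    rintro ⟨w, hw⟩
    apply Subtype.ext
    show (ℓ : ℕ) • w = 0
    induction hw using AddSubgroup.closure_induction with
    | mem x hx =>
      obtain ⟨g, ψ, t, rfl⟩ := hx
      have e1 : (ℓ : ℕ) • g • G.Φ (lft ψ t) = g • (ℓ : ℕ) • G.Φ (lft ψ t) :=
        (map_nsmul (DistribSMul.toAddMonoidHom G.W g) ℓ _).symm
      rw [e1, ← map_nsmul]
      have : (ℓ : ℕ) • lft ψ t = 0 := by
        apply Subtype.ext
        refine AddMonoidHom.ext fun γ => ?_
        show ℓ • ψ _ = 0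
        rw [nsmul_eq_mul, ZMod.natCast_self, zero_mul]
      rw [this, map_zero, smul_zero]
    | zero => rw [smul_zero]
    | add x y _ _ hx hy => rw [smul_add, hx, hy, add_zero]
    | neg x _ hx => rw [smul_neg, hx, neg_zero]
  let _ : Module (ZMod ℓ) G.gsub := AddCommGroup.zmodModule htor
  have h3 : AddGroup.FG G.gsub := (AddGroup.fg_iff_addSubgroup_fg _).mpr hfg
  have h4 : Module.Finite ℤ G.gsub := Module.Finite.iff_addGroup_fg.mpr h3
  have h5 : IsScalarTower ℤ (ZMod ℓ) G.gsub := inferInstance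
  have h6 : Module.Finite (ZMod ℓ) G.gsub := Module.Finite.of_restrictScalars_finite ℤ (ZMod ℓ) _
  exact @Module.finite_of_finite (ZMod ℓ) G.gsub _ _ _ _ h6

/-- the image of the characters -/
def base (ψ : perLat1 M →+ ZMod ℓ) : G.gsub :=
  ⟨G.Φ (lft ψ 1), by simpa using G.mem_gsub 1 ψ 1⟩

theorem smul_base (a : HAlg M) (ψ : perLat1 M →+ ZMod ℓ) :
    ((a • G.base ψ : G.gsub) : G.W) = G.Φ (lft ψ (evalT1 M a)) := by
  induction a using MvPolynomial.induction_on with
  | C c =>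
    have h1 : (MvPolynomial.C c : HAlg M) = (c : HAlg M) := by simp
    rw [evalT1_C, lft_intCast, h1, Int.cast_smul_eq_zsmul, map_zsmul]
    rfl
  | add p q hp hq =>
    rw [map_add, lft_add, map_add, _root_.add_smul, AddSubgroup.coe_add, hp, hq]
  | mul_X q i hq =>
    rw [mul_comm, mul_smul, X_smul, coe_opS, hq, opW_lft, map_mul, mul_comm]
    congr 3
    rw [evalT1, MvPolynomial.eval₂Hom_X']
    rfl

theorem annihilator_le {k : Type*} [Field k] [CharP k ℓ] (θ : T1 M 2 →+* k) :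
    Module.annihilator (HAlg M) G.gsub ≤ RingHom.ker (θ.comp (evalT1 M)) := by
  intro a ha
  rw [RingHom.mem_ker, RingHom.comp_apply]
  refine theta_eq_zero_of_forall θ _ fun ψ => ?_
  have h1 := G.smul_base a ψ
  rw [Module.mem_annihilator.mp ha, AddSubgroup.coe_zero, ← map_zero G.Φ] at h1
  have h3 := congrArg Subtype.val (G.inj h1)
  refine AddMonoidHom.ext fun x => ?_
  obtain ⟨γ, hγ⟩ := (perHom1 M).rangeRestrict_surjective x
  rw [← hγ]
  exact (DFunLike.congr_fun h3 γ).symm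

end GeoPre

/-- **Wiring, final form.** -/
theorem galoisT1_of_geoPre (H : ∀ (M ℓ : ℕ) [NeZero M], ℓ.Prime → 5 ≤ ℓ → ℓ ∣ M → ¬ ℓ ^ 2 ∣ M →
    ¬ ℓ ∣ Nat.totient M → Nonempty (GeoPre M ℓ)) : GaloisT1 := by
  intro M ℓ _ hℓ hℓ5 hℓM hℓM2 hφ k _ _ _ θ
  obtain ⟨G⟩ := H M ℓ hℓ hℓ5 hℓM hℓM2 hφ
  have : NeZero ℓ := ⟨hℓ.ne_zero⟩
  let _ := G.grp
  let _ := G.gal
  have hfin : Finite G.gsub := G.finite_gsub
  let T : ℕ → HAlg M := fun p => by
    classical
    exact if h : p.Prime ∧ ¬ p ∣ M then HT h.1 h.2 else 0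
  let Sp : ℕ → HAlg M := fun p => by
    classical
    exact if h : p.Prime ∧ ¬ p ∣ M then HD (pu h.1 h.2) else 0
  have hTp : ∀ (p : ℕ) (hp : p.Prime) (hpM : ¬ p ∣ M), T p = HT hp hpM := fun p hp hpM => by
    have h : p.Prime ∧ ¬ p ∣ M := ⟨hp, hpM⟩
    simp only [T]
    rw [dif_pos h]
  have hSp : ∀ (p : ℕ) (hp : p.Prime) (hpM : ¬ p ∣ M), Sp p = HD (pu hp hpM) :=
    fun p hp hpM => by
      have h : p.Prime ∧ ¬ p ∣ M := ⟨hp, hpM⟩
      simp only [Sp]
      rw [dif_pos h]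
  obtain ⟨ρ, hlev, hρ⟩ := exists_rep_of_module (M := M) (ℓ := ℓ) hℓ (F := k) (R := HAlg M)
    (W := G.gsub)
    (fun x => by
      obtain ⟨L, hL, h⟩ := G.smooth x (G.gsub_le x.2)
      exact ⟨L, hL, fun g hg => Subtype.ext (h g hg)⟩)
    (fun p => ¬ p ∣ M ∧ GoodP M p) (Finset.range (M + 5))
    (fun p hp hpS => by
      rw [Finset.mem_range, not_lt] at hpS
      exact ⟨fun h => by
        have := Nat.le_of_dvd (Nat.pos_of_ne_zero (NeZero.ne M)) h
        omega, Or.inl (by omega)⟩)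
    (fun p h => h.1) (fun p h h' => h.1 (h' ▸ hℓM)) T Sp
    (fun p hp hg A hA g hgi w => Subtype.ext (G.inertia p hp hg.1 hg.2 A hA g hgi w
      (G.gsub_le w.2)))
    (fun p hp hg A hA g hgf w => by
      rw [hTp p hp hg.1, hSp p hp hg.1, HT, HD, G.X_smul, G.X_smul]
      apply Subtype.ext
      exact G.frob p hp hg.1 hg.2 A hA g hgf w (G.gsub_le w.2)
        (G.gsub_le (G.T_mem_gsub hp hg.1 w.2)) (G.gsub_le (G.D_mem_gsub _ w.2)))
    (θ.comp (evalT1 M)) (G.annihilator_le θ)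
    ({ toFun := fun d => θ (T1.D d)
       map_one' := by rw [T1.D_one, map_one]
       map_mul' := fun d e => by rw [T1.D_mul, map_mul] } : (ZMod M)ˣ →* k)
    (fun p hp h => by
      rw [hSp p hp h.1, RingHom.comp_apply, evalT1_HD]
      rfl)
  refine ⟨ρ, hlev, fun p hp hpM hg A hA => ?_⟩
  have h1 := hρ p hp ⟨hpM, hg⟩ A hA
  refine ⟨h1.1, fun σ hσ => ?_⟩
  have h2 := h1.2 σ hσ
  rw [hTp p hp hpM, hSp p hp hpM, RingHom.comp_apply, RingHom.comp_apply, evalT1_HT,
    evalT1_HD] at h2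
  exact h2

end Fermat.Agent.DS.X1
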