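import Fermat.Agent.DS.X1.Genus0
import Fermat.Agent.DS.X1.ApiFin

/-!
# The genus of `X₁(M)` over an algebraically closed subfield of `ℂ` (final form of P6-B1)
-/

set_option autoImplicit false

noncomputable section

open UpperHalfPlane CongruenceSubgroup ModularForm AlgebraicCurve FermatJ ModularCurve
open Fermat.Agent.JAN Fermat.Agent.JAN.MerField Fermat.Agent.JAN.AnFun
open IntermediateField
open scoped MatrixGroups

namespace Fermat.Agent.DS.X1

theorem toC_jqModC {K : Type*} [Field K] [Algebra K ℂ] : toC (jqModC K) = jqC := by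
  rw [toC, coeffMap_jqModC, jqC]
  have h : jq = jqModC ℚ := by
    rw [jq, jqModC, jNumQ, show Int.castRingHom ℚ = algebraMap ℤ ℚ from rfl]
  rw [h, coeffMap_jqModC]

/-- `j` on the upper half plane. -/
theorem anF_j1 {K : Type*} [Field K] [Algebra K ℂ] (M : ℕ) [NeZero M] :
    Gen0.anF K M (j1 K M) = jMer := by
  apply Gen0.anF_eq
  rw [coe_j1, toC_jqModC]
  exact hasQ_jMer

/-- **P6-B1.** The genus of the function field of `X₁(M)` over an algebraically closed subfield of
`ℂ` is at most the dimension of the space of cusp forms of weight 2. -/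
theorem genusFF_F1_le_finrank (K : Type*) [Field K] [IsAlgClosed K] [Algebra K ℂ] (M : ℕ)
    [NeZero M] : genusFF K (F1 K M) ≤
      Module.finrank ℂ (CuspForm (Gamma1 M : Subgroup (GL (Fin 2) ℝ)) 2) := by
  have : CharZero K := (algebraMap K ℂ).charZero
  have : FiniteDimensional K⟮j1 K M⟯ (F1 K M) := (finrank_F1_charZero K M).1
  exact Gen0.genusFF_F1_le (transcendental_j1 K M) (anF_j1 M)

end Fermat.Agent.DS.X1
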