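import Mathlib
import Fermat.Agent.JRED.BaseCheck
import Fermat.Agent.JRED.GenusWrap

/-!
# Regularity of differentials over a subfield of `k((q))` containing `F̄_N`

`F` an intermediate field of `k((q)) / k` containing `modularFunctionFieldFullC k N`;
`GoodBase k F`: a base function `x ∈ F` for which the genus bound can be proved.
-/

set_option autoImplicit false

open Polynomial ModularCurve

noncomputable section

namespace Fermat.Agent.DS.X1

open Fermat.Agent.FunField.MinpolyJ Fermat.Agent.JRED.GenusBound Fermat.Agent.JRED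
open Fermat.Agent.JRED.BaseCheck
open Fermat.Agent.FunField Fermat.Agent.JRED.LevelTwo Fermat.Agent.JRED.LevelThree

variable {k : Type} [Field k] (F : IntermediateField k (LaurentSeries k))

/-- a base function `x` on the curve which is good enough to prove the genus bound. -/
structure GoodBase where
  x : F
  j_mem : jqModC k ∈ F
  c : F
  c_ne : c ≠ 0
  transcendental : Transcendental k x
  jRed_mem : (⟨jqModC k, j_mem⟩ : F) ∈ IntermediateField.adjoin k {x}
  c_mul : (c : LaurentSeries k) * thetaD k (x : LaurentSeries k) = thetaD k (jqModC k)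
  reg : ∀ (y : F) (w : LaurentSeries k) (n : ℕ), 1 ≤ n →
    (y : LaurentSeries k) * thetaD k (jqModC k) = w →
    JInt k (n - 1) ((w ^ 6 / deltaL k) ^ n) →
    RegFinX k x (y * c) ∧ RegInfX k x (y * c)

variable {F}

theorem transcendental_j (hj : jqModC k ∈ F) : Transcendental k (⟨jqModC k, hj⟩ : F) := by
  intro h
  apply JRED.transcendental_jqModC k
  have h0 := h.algebraMap (A := LaurentSeries k)
  exact h0

/-- the main step, for a base `x` with `j x^r = B(x)` and `(c⁻¹ θ j)⁶ = D(x) Δ` -/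
theorem reg_of (hjF : jqModC k ∈ F) (x c : F) (hx : x ≠ 0) (θ : LaurentSeries k)
    (hc : (c : LaurentSeries k) * θ = thetaD k (jqModC k)) {r : ℕ} {B D : k[X]}
    (hj : (⟨jqModC k, hjF⟩ : F) * x ^ r = aeval x B) (hB : B.natDegree = r + 1)
    (hD7 : D.natDegree = 7)
    (hθ : θ ^ 6 = aeval (x : LaurentSeries k) D * deltaL k)
    (hD : ∀ n : ℕ, 1 ≤ n → ∀ a : k, ¬ (X - C a) ^ (6 * n) ∣ D ^ n * X ^ (r * (n - 1)))
    (y : F) (w : LaurentSeries k) (n : ℕ) (hn : 1 ≤ n)
    (hw : (y : LaurentSeries k) * thetaD k (jqModC k) = w)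
    (hJ : JInt k (n - 1) ((w ^ 6 / deltaL k) ^ n)) :
    RegFinX k x (y * c) ∧ RegInfX k x (y * c) := by
  have hval : ((aeval x D : F) : LaurentSeries k) = aeval (x : LaurentSeries k) D :=
    (aeval_algHom_apply F.val x D).symm
  have hg : w ^ 6 / deltaL k = (((y * c) ^ 6 * aeval x D : F) : LaurentSeries k) := by
    rw [div_eq_iff deltaL_ne_zero', ← hw, ← hc]
    push_cast
    rw [hval]
    linear_combination (y : LaurentSeries k) ^ 6 * (c : LaurentSeries k) ^ 6 * hθ
  have hX : XInt k (⟨jqModC k, hjF⟩ : F) (n - 1) (((y * c) ^ 6 * aeval x D) ^ n) := by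
    rw [← xInt_map_iff F.val]
    rw [hg] at hJ
    exact hJ
  exact ⟨regFin hj rfl hn hX (hD n hn), regInf hx hj hB hD7 rfl hn hX⟩

/-- base `j`, characteristic `≠ 2, 3` -/
def goodBaseJ (hjF : jqModC k ∈ F) (h1728 : (1728 : k) ≠ 0) : GoodBase F where
  x := ⟨jqModC k, hjF⟩
  j_mem := hjF
  c := 1
  c_ne := one_ne_zero
  transcendental := transcendental_j hjF
  jRed_mem := IntermediateField.mem_adjoin_simple_self k _
  c_mul := by
    rw [show ((1 : F) : LaurentSeries k) = 1 from rfl, one_mul]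
  reg := by
    intro y w n hn hw hJ
    refine reg_of (r := 0) (B := X) (D := X ^ 4 * (X - C 1728) ^ 3) hjF ⟨jqModC k, hjF⟩ 1 ?_
      (thetaD k (jqModC k)) ?_ ?_ ?_ ?_ ?_ ?_ y w n hn hw hJ
    · intro h0
      exact jqModC_ne_zero_of_nontrivial k (congrArg Subtype.val h0)
    · simp
    · simp
    · simp
    · rw [natDegree_mul (pow_ne_zero _ X_ne_zero) (pow_ne_zero _ (X_sub_C_ne_zero _)),
        natDegree_pow, natDegree_pow, natDegree_X, natDegree_X_sub_C]
    · rw [thetaD_jqModC_pow]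
      congr 1
      simp only [map_mul, map_pow, map_sub, aeval_X, map_ofNat]
    · intro n hn a
      rw [mul_pow, ← pow_mul, ← pow_mul, zero_mul, pow_zero, mul_one]
      exact not_dvd h1728 (by omega) (by omega) a

/-- assembling a base -/
theorem goodBase_of (hjF : jqModC k ∈ F) (x : F) (hx : x ≠ 0) {r : ℕ} {B D : k[X]}
    (hj : (⟨jqModC k, hjF⟩ : F) * x ^ r = aeval x B) (hB : B.natDegree = r + 1)
    (hD7 : D.natDegree = 7) (c : F)
    (hc : (c : LaurentSeries k) * thetaD k (x : LaurentSeries k) = thetaD k (jqModC k))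
    (hθ : thetaD k (x : LaurentSeries k) ^ 6 = aeval (x : LaurentSeries k) D * deltaL k)
    (hD : ∀ n : ℕ, 1 ≤ n → ∀ a : k, ¬ (X - C a) ^ (6 * n) ∣ D ^ n * X ^ (r * (n - 1))) :
    Nonempty (GoodBase F) := by
  obtain ⟨h1, h2⟩ := transcendental_of_rel hx (transcendental_j hjF) hj
  refine ⟨⟨x, hjF, c, ?_, h1, h2, hc,
    fun y w n hn hw hJ => reg_of hjF x c hx _ hc hj hB hD7 hθ hD y w n hn hw hJ⟩⟩
  rintro rfl
  rw [ZeroMemClass.coe_zero, zero_mul] at hc
  exact thetaJ_ne_zero hc.symm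

theorem coe_aevalF (x : F) (P : k[X]) :
    ((aeval x P : F) : LaurentSeries k) = aeval (x : LaurentSeries k) P :=
  (aeval_algHom_apply F.val x P).symm

variable {N : ℕ}

/-- base `t₂`, characteristic `3`, even level -/
theorem nonempty_goodBase_two [CharP k 3] (hF : modularFunctionFieldFullC k N ≤ F) (hN : 2 ∣ N) :
    Nonempty (GoodBase F) := by
  set x : F := ⟨t2 k, hF (t2_mem hN)⟩ with hxdef
  have hxc : (x : LaurentSeries k) = t2 k := rfl
  have hjF : jqModC k ∈ F := hF (jqModC_mem_full k N)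
  have hx : x ≠ 0 := fun h => t2_ne_zero (k := k) (congrArg Subtype.val h)
  have h1 := jq_mul_t2_sq k
  have h2 := congrArg (thetaD k) h1
  have h256 : thetaD k (256 : LaurentSeries k) = 0 := by
    have := thetaD_intCast (R := k) 256
    exact_mod_cast this
  rw [thetaD_mul, thetaD_pow, thetaD_pow, map_add, h256] at h2
  push_cast at h2
  simp only [pow_one, add_zero] at h2
  have h64 : (64 : k) ≠ 0 := by
    have h3 : (3 : k) = 0 := by exact_mod_cast CharP.cast_eq_zero k 3
    have : (64 : k) = 1 := by linear_combination 21 * h3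
    rw [this]
    exact one_ne_zero
  refine goodBase_of hjF (r := 2) (B := (X + C 256) ^ 3) (D := X ^ 4 * (X - C (-64)) ^ 3) x hx
    ?_ ?_ ?_ ((3 * (x + 256) ^ 2 - 2 * (⟨jqModC k, hjF⟩ : F) * x) / x ^ 2) ?_ ?_ ?_
  · apply Subtype.ext
    rw [coe_aevalF]
    push_cast
    rw [hxc]
    simp only [map_pow, map_add, aeval_X, map_ofNat]
    exact h1
  · rw [natDegree_pow, natDegree_X_add_C]
  · rw [natDegree_mul (pow_ne_zero _ X_ne_zero) (pow_ne_zero _ (X_sub_C_ne_zero _)),
      natDegree_pow, natDegree_pow, natDegree_X, natDegree_X_sub_C]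
  · push_cast
    rw [hxc, div_mul_eq_mul_div, div_eq_iff (pow_ne_zero _ t2_ne_zero)]
    change (3 * (t2 k + 256) ^ 2 - 2 * jqModC k * t2 k) * thetaD k (t2 k) = _
    linear_combination -h2
  · rw [hxc, thetaD_t2_pow]
    congr 1
    simp only [map_mul, map_pow, map_add, map_neg, aeval_X, map_ofNat, sub_neg_eq_add]
  · intro n hn a
    rw [mul_pow, ← pow_mul, ← pow_mul, mul_right_comm, ← pow_add]
    exact not_dvd (neg_ne_zero.mpr h64) (by omega) (by omega) a

/-- base `t₃`, characteristic `2`, level divisible by `3` -/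
theorem nonempty_goodBase_three [CharP k 2] (hF : modularFunctionFieldFullC k N ≤ F)
    (hN : 3 ∣ N) : Nonempty (GoodBase F) := by
  set x : F := ⟨t3 k, hF (t3_mem hN)⟩ with hxdef
  have hxc : (x : LaurentSeries k) = t3 k := rfl
  have hjF : jqModC k ∈ F := hF (jqModC_mem_full k N)
  have hx : x ≠ 0 := fun h => t3_ne_zero (k := k) (congrArg Subtype.val h)
  have h1 := jq_mul_t3 k
  have h2 := congrArg (thetaD k) h1
  have h27 : thetaD k (27 : LaurentSeries k) = 0 := by
    have := thetaD_intCast (R := k) 27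
    exact_mod_cast this
  have h243 : thetaD k (243 : LaurentSeries k) = 0 := by
    have := thetaD_intCast (R := k) 243
    exact_mod_cast this
  rw [thetaD_mul, thetaD_mul, thetaD_pow, thetaD_pow, map_add, map_add, h27, h243] at h2
  push_cast at h2
  simp only [add_zero] at h2
  have h27' : (27 : k) ≠ 0 := by
    have h3 : (2 : k) = 0 := by exact_mod_cast CharP.cast_eq_zero k 2
    have : (27 : k) = 1 := by linear_combination 13 * h3
    rw [this]
    exact one_ne_zero
  refine goodBase_of hjF (r := 3) (B := (X + C 27) * (X + C 243) ^ 3)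
    (D := X ^ 3 * (X - C (-27)) ^ 4) x hx ?_ ?_ ?_
    (((x + 243) ^ 3 + 3 * (x + 27) * (x + 243) ^ 2 - 3 * (⟨jqModC k, hjF⟩ : F) * x ^ 2) / x ^ 3)
    ?_ ?_ ?_
  · apply Subtype.ext
    rw [coe_aevalF]
    push_cast
    rw [hxc]
    simp only [map_pow, map_add, map_mul, aeval_X, map_ofNat]
    exact h1
  · rw [natDegree_mul (X_add_C_ne_zero _) (pow_ne_zero _ (X_add_C_ne_zero _)), natDegree_pow,
      natDegree_X_add_C, natDegree_X_add_C]
  · rw [natDegree_mul (pow_ne_zero _ X_ne_zero) (pow_ne_zero _ (X_sub_C_ne_zero _)),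
      natDegree_pow, natDegree_pow, natDegree_X, natDegree_X_sub_C]
  · push_cast
    rw [hxc, div_mul_eq_mul_div, div_eq_iff (pow_ne_zero _ t3_ne_zero)]
    change ((t3 k + 243) ^ 3 + 3 * (t3 k + 27) * (t3 k + 243) ^ 2 - 3 * jqModC k * t3 k ^ 2) *
      thetaD k (t3 k) = _
    linear_combination -h2
  · rw [hxc, thetaD_t3_pow]
    congr 1
    simp only [map_mul, map_pow, map_add, map_neg, aeval_X, map_ofNat, sub_neg_eq_add]
  · intro n hn a
    rw [mul_pow, ← pow_mul, ← pow_mul, mul_right_comm, ← pow_add]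
    exact not_dvd (neg_ne_zero.mpr h27') (by omega) (by omega) a

/-- **Main theorem**: a good base exists in characteristic `ℓ ≥ 5`, in characteristic `3` if
`2 ∣ N`, in characteristic `2` if `3 ∣ N`. -/
theorem nonempty_goodBase (hF : modularFunctionFieldFullC k N ≤ F) (ℓ : ℕ) [CharP k ℓ]
    (hℓ : ℓ.Prime) (h : 5 ≤ ℓ ∨ (ℓ = 3 ∧ 2 ∣ N) ∨ (ℓ = 2 ∧ 3 ∣ N)) :
    Nonempty (GoodBase F) := by
  rcases h with h | ⟨rfl, h⟩ | ⟨rfl, h⟩
  · refine ⟨goodBaseJ (hF (jqModC_mem_full k N)) ?_⟩
    intro h0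
    have h1 : ((1728 : ℕ) : k) = 0 := by exact_mod_cast h0
    rw [CharP.cast_eq_zero_iff k ℓ] at h1
    have h2 : (1728 : ℕ) = 2 ^ 6 * 3 ^ 3 := by norm_num
    rw [h2, hℓ.dvd_mul] at h1
    rcases h1 with h1 | h1
    · have := (Nat.prime_dvd_prime_iff_eq hℓ Nat.prime_two).mp (hℓ.dvd_of_dvd_pow h1)
      omega
    · have := (Nat.prime_dvd_prime_iff_eq hℓ Nat.prime_three).mp (hℓ.dvd_of_dvd_pow h1)
      omega
  · exact nonempty_goodBase_two hF h
  · exact nonempty_goodBase_three hF h

end Fermat.Agent.DS.X1
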