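import Mathlib
import Fermat.Agent.DS.X1.ApiC
import Fermat.Agent.FunField.Cusp

/-!
# Weight two cusp forms on `Γ₁(M)`: integral structure and integrality over `ℂ[j]`

* `CInt M k F`: `F ∈ ℤ[[q]]` is the expansion of a cusp form of weight `k` on `Γ₁(M)`;
* `CK K M k`: the `K`-span of these expansions, `finrank_CK`: of dimension at least
  `dim S_k(Γ₁(M))` over every field;
* `cusp_jInt1`: `(f⁶/Δ)^M` for `f ∈ S₂(Γ₁(M))` satisfies an integral relation over `ℂ[j]`.
-/

set_option autoImplicit false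
set_option linter.unusedSectionVars false

open UpperHalfPlane ModularForm MatrixGroups CongruenceSubgroup ModularCurve Filter
open Fermat.Agent.IntStr Fermat.Agent.MFF FermatJ
open scoped Manifold

noncomputable section

namespace Fermat.Agent.DS.X1

open Fermat.Agent.FunField (JInt T_zpow_mem_Gamma div_delta_slash)

section Lattice

variable {M : ℕ} [NeZero M] {k : ℤ} {F G : PowerSeries ℤ}

/-- `F` is the `q`-expansion of a cusp form of weight `k` on `Γ₁(M)`. -/
def CInt (M : ℕ) (k : ℤ) (F : PowerSeries ℤ) : Prop :=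
  ∃ f : CuspForm (Gamma1 M : Subgroup (GL (Fin 2) ℝ)) k,
    qExpansion 1 f = PowerSeries.map (Int.castRingHom ℂ) F

theorem CInt.intExp (h : CInt M k F) : IntExp M k F := by
  obtain ⟨f, hf⟩ := h
  exact ⟨f, IsCG.isMG ⟨f, rfl⟩, hf⟩

theorem anQ_cusp (f : CuspForm (Gamma1 M : Subgroup (GL (Fin 2) ℝ)) k) : AnQ (f : ℍ → ℂ) :=
  (IsCG.isMG (𝒢 := (Gamma1 M : Subgroup (GL (Fin 2) ℝ))) (k := k) ⟨f, rfl⟩).anQ

theorem qExp_smul_cusp (c : ℂ) (f : CuspForm (Gamma1 M : Subgroup (GL (Fin 2) ℝ)) k) :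
    qExpansion 1 (c • f : CuspForm (Gamma1 M : Subgroup (GL (Fin 2) ℝ)) k) =
      c • qExpansion 1 f := by
  have : ((c • f : CuspForm (Gamma1 M : Subgroup (GL (Fin 2) ℝ)) k) : ℍ → ℂ) = c • (f : ℍ → ℂ) := by
    ext z
    simp
  rw [this, UpperHalfPlane.qExpansion_smul (anQ_cusp f)]

theorem qExp_add_cusp (f g : CuspForm (Gamma1 M : Subgroup (GL (Fin 2) ℝ)) k) :
    qExpansion 1 (f + g : CuspForm (Gamma1 M : Subgroup (GL (Fin 2) ℝ)) k) =
      qExpansion 1 f + qExpansion 1 g :=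
  Fermat.Agent.IntStr.qExp_add (anQ_cusp f) (anQ_cusp g)

theorem CInt.add (hF : CInt M k F) (hG : CInt M k G) : CInt M k (F + G) := by
  obtain ⟨f, hf⟩ := hF
  obtain ⟨g, hg⟩ := hG
  exact ⟨f + g, by rw [qExp_add_cusp, hf, hg, map_add]⟩

theorem CInt.zero (M : ℕ) [NeZero M] (k : ℤ) : CInt M k 0 :=
  ⟨0, by rw [map_zero]; exact UpperHalfPlane.qExpansion_zero 1⟩

theorem CInt.smul (c : ℤ) (hF : CInt M k F) : CInt M k (c • F) := by
  obtain ⟨f, hf⟩ := hF
  refine ⟨(c : ℂ) • f, ?_⟩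
  rw [qExp_smul_cusp, hf]
  ext n
  rw [PowerSeries.coeff_smul, PowerSeries.coeff_map, PowerSeries.coeff_map, map_zsmul]
  simp

/-- saturation -/
theorem CInt.of_smul {c : ℤ} (hc : c ≠ 0) (h : CInt M k (c • F)) : CInt M k F := by
  obtain ⟨f, hf⟩ := h
  have hc' : (c : ℂ) ≠ 0 := by exact_mod_cast hc
  refine ⟨(c : ℂ)⁻¹ • f, ?_⟩
  rw [qExp_smul_cusp, hf]
  ext n
  rw [PowerSeries.coeff_smul, PowerSeries.coeff_map, PowerSeries.coeff_map, map_zsmul]
  simp only [smul_eq_mul, eq_intCast, Int.cast_mul, zsmul_eq_mul, Int.cast_id]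
  rw [inv_mul_cancel_left₀ hc']

/-- The lattice of integral cusp forms. -/
def CLat (M : ℕ) [NeZero M] (k : ℤ) : Submodule ℤ (PowerSeries ℤ) where
  carrier := {F | CInt M k F}
  add_mem' := CInt.add
  zero_mem' := CInt.zero M k
  smul_mem' c _ := CInt.smul c

theorem CLat_le : CLat M k ≤ Lat M k := fun _ h => CInt.intExp h

instance finite_CLat (M : ℕ) [NeZero M] (k : ℤ) : Module.Finite ℤ (CLat M k) :=
  Module.Finite.of_injective (Submodule.inclusion (CLat_le (M := M) (k := k)))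
    (Submodule.inclusion_injective _)

instance free_CLat (M : ℕ) [NeZero M] (k : ℤ) : Module.Free ℤ (CLat M k) := by
  have : Module.IsTorsionFree ℤ (CLat M k) :=
    Function.Injective.moduleIsTorsionFree (Submodule.inclusion (CLat_le (M := M) (k := k)))
      (Submodule.inclusion_injective _) (fun _ _ => rfl)
  exact Module.free_of_finite_type_torsion_free'

/-- rank of the lattice of cusp forms -/
def rkC (M : ℕ) [NeZero M] (k : ℤ) : ℕ := Module.finrank ℤ (CLat M k)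

/-- A `ℤ`-basis of the lattice. -/
def basC (M : ℕ) [NeZero M] (k : ℤ) (i : Fin (rkC M k)) : PowerSeries ℤ :=
  (Module.finBasis ℤ (CLat M k) i : CLat M k)

theorem cInt_basC (i : Fin (rkC M k)) : CInt M k (basC M k i) :=
  (Module.finBasis ℤ (CLat M k) i : CLat M k).2

theorem exists_eq_sum_basC (hF : CInt M k F) :
    ∃ c : Fin (rkC M k) → ℤ, F = ∑ i, c i • basC M k i := by
  have h1 := (Module.finBasis ℤ (CLat M k)).sum_repr ⟨F, hF⟩
  refine ⟨fun i => (Module.finBasis ℤ (CLat M k)).repr ⟨F, hF⟩ i, ?_⟩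
  have h2 := congrArg (fun x : CLat M k => (x : PowerSeries ℤ)) h1
  simp only [AddSubmonoidClass.coe_finset_sum, SetLike.val_smul] at h2
  exact h2.symm

theorem linearIndependent_basC : LinearIndependent ℤ (basC M k) :=
  (Module.finBasis ℤ (CLat M k)).linearIndependent.map' (CLat M k).subtype
    (Submodule.ker_subtype _)

theorem dvd_of_forall_dvd_C {m : ℤ} {c : Fin (rkC M k) → ℤ}
    (h : ∀ j, m ∣ ∑ i, c i * PowerSeries.coeff j (basC M k i)) (i : Fin (rkC M k)) : m ∣ c i := by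
  have hli := Fintype.linearIndependent_iff.mp (linearIndependent_basC (M := M) (k := k))
  rcases eq_or_ne m 0 with rfl | hm
  · refine zero_dvd_iff.mpr (hli c ?_ i)
    ext j
    rw [map_sum, map_zero]
    have h1 := zero_dvd_iff.mp (h j)
    rw [← h1]
    exact Finset.sum_congr rfl fun i _ => by rw [map_zsmul, smul_eq_mul]
  · choose g hg using h
    have h1 : m • PowerSeries.mk g = ∑ i, c i • basC M k i := by
      ext j
      rw [map_zsmul, map_sum, PowerSeries.coeff_mk, smul_eq_mul, ← hg j]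
      exact Finset.sum_congr rfl fun i _ => by rw [map_zsmul, smul_eq_mul]
    have h2 : CInt M k (∑ i, c i • basC M k i) :=
      (CLat M k).sum_mem fun i _ => (CLat M k).smul_mem _ (cInt_basC i)
    rw [← h1] at h2
    obtain ⟨d, hd⟩ := exists_eq_sum_basC (CInt.of_smul hm h2)
    have h3 : ∑ i, (c i - m * d i) • basC M k i = 0 := by
      rw [hd, Finset.smul_sum] at h1
      rw [← sub_eq_zero, ← Finset.sum_sub_distrib] at h1
      rw [← neg_eq_zero, ← Finset.sum_neg_distrib, ← h1]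
      exact Finset.sum_congr rfl fun i _ => by rw [sub_smul, mul_smul]; abel
    have h4 := hli _ h3 i
    exact ⟨d i, by linarith⟩

/-- Linear independence of the reductions, in prime characteristic. -/
theorem linearIndependent_toK_C (K : Type*) [Field K] {p : ℕ} [CharP K p] (hpp : p.Prime)
    (M : ℕ) [NeZero M] (k : ℤ) : LinearIndependent K (fun i => toK K (basC M k i)) := by
  rw [Fintype.linearIndependent_iff]
  intro c hc i
  have hcoef : ∀ j : ℕ, ∑ i, c i * ((PowerSeries.coeff j (basC M k i) : ℤ) : K) = 0 := by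
    intro j
    have h1 := congrArg (fun x => HahnSeries.coeff x (j : ℤ)) hc
    simp only [HahnSeries.coeff_sum, HahnSeries.coeff_smul, coeff_toK, smul_eq_mul,
      HahnSeries.coeff_zero] at h1
    exact h1
  by_contra hci
  have : Fact p.Prime := ⟨hpp⟩
  obtain ⟨lam, hlam⟩ := exists_addHom_ne_zero (p := p) hci
  choose d hd using fun i => ZMod.intCast_surjective (lam (c i))
  have h2 : ∀ j, (p : ℤ) ∣ ∑ i, d i * PowerSeries.coeff j (basC M k i) := by
    intro j
    rw [← ZMod.intCast_zmod_eq_zero_iff_dvd]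
    push_cast
    have h3 := congrArg lam (hcoef j)
    rw [map_sum, map_zero] at h3
    rw [← h3]
    refine Finset.sum_congr rfl fun i _ => ?_
    rw [hd, addHom_mul_int, zsmul_eq_mul, mul_comm]
  have h4 := dvd_of_forall_dvd_C h2 i
  rw [← ZMod.intCast_zmod_eq_zero_iff_dvd, hd] at h4
  exact hlam h4

/-- `dim S_k(Γ₁(M)) ≤ rank` of the integral lattice. -/
theorem finrank_cusp_le (M : ℕ) [NeZero M] (k : ℤ) :
    Module.finrank ℂ (CuspForm (Gamma1 M : Subgroup (GL (Fin 2) ℝ)) k) ≤ rkC M k := by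
  choose f hf using fun i => cInt_basC (M := M) (k := k) i
  have hspan : Submodule.span ℂ (Set.range f) = ⊤ := by
    rw [eq_top_iff, ← span_int_cusp (Gamma1 M : Subgroup (GL (Fin 2) ℝ)) k, Submodule.span_le]
    intro g hg
    obtain ⟨a, ha⟩ := IntQ.exists_map (f := (g : ℍ → ℂ)) hg
    obtain ⟨c, hc⟩ := exists_eq_sum_basC (M := M) (k := k) (F := a) ⟨g, ha.symm⟩
    have h1 : g = ∑ i, (c i : ℂ) • f i := by
      apply qSeqG_injective (𝒢 := (Gamma1 M : Subgroup (GL (Fin 2) ℝ))) (k := k)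
      rw [map_sum]
      funext n
      rw [qSeqG_apply, ← ha, hc, PowerSeries.coeff_map, map_sum, map_sum, Finset.sum_apply]
      refine Finset.sum_congr rfl fun i _ => ?_
      have e : qSeqG (Gamma1 M : Subgroup (GL (Fin 2) ℝ)) k ((c i : ℂ) • f i) n =
          (c i : ℂ) * ((PowerSeries.coeff n (basC M k i) : ℤ) : ℂ) := by
        rw [map_smul, Pi.smul_apply, qSeqG_apply, hf i, PowerSeries.coeff_map, smul_eq_mul]
        rfl
      rw [e, map_zsmul, smul_eq_mul, map_mul]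
      rfl
    rw [h1]
    exact Submodule.sum_mem _ fun i _ => Submodule.smul_mem _ _ (Submodule.subset_span ⟨i, rfl⟩)
  have h1 := finrank_range_le_card (R := ℂ) f
  rwa [Set.finrank, hspan, finrank_top, Fintype.card_fin] at h1

end Lattice

section CK

variable (K : Type*) [Field K] (M : ℕ) [NeZero M] (k : ℤ)

/-- The `K`-span of the expansions of integral cusp forms. -/
def CK : Submodule K (LaurentSeries K) := Submodule.span K {x | ∃ F, CInt M k F ∧ x = toK K F}

variable {K M k}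

theorem CK_le_MK : CK K M k ≤ MK K M k :=
  Submodule.span_mono (by rintro _ ⟨F, hF, rfl⟩; exact ⟨F, hF.intExp, rfl⟩)

variable (K M k) in
theorem span_toK_C :
    Submodule.span K (Set.range fun i => toK K (basC M k i)) = CK K M k := by
  apply le_antisymm
  · rw [Submodule.span_le]
    rintro _ ⟨i, rfl⟩
    exact Submodule.subset_span ⟨_, cInt_basC i, rfl⟩
  · rw [CK, Submodule.span_le]
    rintro _ ⟨F, hF, rfl⟩
    obtain ⟨c, rfl⟩ := exists_eq_sum_basC hF
    rw [toK_sum_zsmul]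
    exact Submodule.sum_mem _ fun i _ => Submodule.smul_mem _ _ (Submodule.subset_span ⟨i, rfl⟩)

instance finite_CK : FiniteDimensional K (CK K M k) := by
  rw [← span_toK_C]
  exact FiniteDimensional.span_of_finite K (Set.finite_range _)

variable (K M k) in
/-- **The reductions of the integral cusp forms span a space of dimension at least
`dim S_k(Γ₁(M))`** (in prime characteristic). -/
theorem finrank_cusp_le_CK {p : ℕ} [CharP K p] (hp : p.Prime) :
    Module.finrank ℂ (CuspForm (Gamma1 M : Subgroup (GL (Fin 2) ℝ)) k) ≤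
      Module.finrank K (CK K M k) := by
  rw [← span_toK_C, finrank_span_eq_card (linearIndependent_toK_C K hp M k), Fintype.card_fin]
  exact finrank_cusp_le M k

end CK

section JInt

open Fermat.Agent.FunField Polynomial

variable {M : ℕ} [NeZero M] {k : ℤ}

theorem anQ_Delta' : AnQ (⇑Delta : ℍ → ℂ) := Fermat.Agent.FunField.Delta_isL1.anQ

/-- For `G` a modular form of weight `12 m` on `Γ₁(M)`, `G / Δ ^ m` is `JInt`. -/
theorem jInt_of_isM1 {m : ℕ} {G : ℍ → ℂ} (hG : IsM1 M (12 * m) G) :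
    JInt ℂ m (LQ G / LQ Delta ^ m) := by
  obtain ⟨G, rfl⟩ := hG
  obtain ⟨n, c, hn, hc, h⟩ := exists_monic_relation_modG G
  have hc' : ∀ i ∈ Finset.Icc 1 n, IsL1 (12 * ((m * i : ℕ) : ℤ)) (c i) := fun i hi =>
    (hc i hi).cast (by push_cast; ring)
  have hex : ∀ i, ∃ P : ℂ[X], i ∈ Finset.Icc 1 n → P.natDegree ≤ m * i ∧
      LQ (c i) = aeval (jqModC ℂ) P * LQ Delta ^ (m * i) := by
    intro i
    by_cases hi : i ∈ Finset.Icc 1 n
    · obtain ⟨P, h1, -, h3, -⟩ := exists_poly_of_isL1 ⊤ (m * i) (c i) (hc' i hi)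
        (fun _ => Subring.mem_top _)
      exact ⟨P, fun _ => ⟨h1, h3⟩⟩
    · exact ⟨0, fun h => absurd h hi⟩
  choose P hP using hex
  refine ⟨n, P, hn, fun i hi => (hP i hi).1, ?_⟩
  have hGA : AnQ (⇑G : ℍ → ℂ) := IsMG.anQ ⟨G, rfl⟩
  have h1 : LQ G ^ n + ∑ i ∈ Finset.Icc 1 n, LQ (c i) * LQ G ^ (n - i) = 0 := by
    have h2 := congrArg LQ h
    rw [LQ_zero, LQ_add (hGA.pow n) (AnQ.sum fun i hi => (IsL1.anQ (hc i hi)).mul (hGA.pow _)),
      LQ_pow hGA, LQ_sum (fun i hi => (IsL1.anQ (hc i hi)).mul (hGA.pow _))] at h2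
    rw [← h2]
    congr 1
    refine Finset.sum_congr rfl fun i hi => ?_
    rw [LQ_mul (IsL1.anQ (hc i hi)) (hGA.pow _), LQ_pow hGA]
  have hD := Fermat.Agent.FunField.LQ_Delta_ne_zero
  have h2 : (LQ G / LQ Delta ^ m) ^ n + ∑ i ∈ Finset.Icc 1 n,
      aeval (jqModC ℂ) (P i) * (LQ G / LQ Delta ^ m) ^ (n - i) =
      (LQ G ^ n + ∑ i ∈ Finset.Icc 1 n, LQ (c i) * LQ G ^ (n - i)) / LQ Delta ^ (m * n) := by
    rw [add_div, Finset.sum_div]
    congr 1
    · rw [div_pow, ← pow_mul]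
    · refine Finset.sum_congr rfl fun i hi => ?_
      rw [(hP i hi).2, div_pow, ← pow_mul]
      have hi' := Finset.mem_Icc.mp hi
      have : m * n = m * i + m * (n - i) := by
        rw [← mul_add]; congr 1; omega
      rw [this, pow_add]
      field_simp
  rw [h2, h1, zero_div]

omit [NeZero M] in
theorem slash_T_pow1 (f : CuspForm (Gamma1 M : Subgroup (GL (Fin 2) ℝ)) k) (γ : SL(2, ℤ)) :
    (⇑f ∣[k] γ) ∣[k] (ModularGroup.T ^ (M : ℤ)) = ⇑f ∣[k] γ := by
  have h1 : γ * ModularGroup.T ^ (M : ℤ) * γ⁻¹ ∈ Gamma1 M := by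
    have h2 : γ * ModularGroup.T ^ (M : ℤ) * γ⁻¹ ∈ Gamma M :=
      (Gamma_normal M).conj_mem _ (T_zpow_mem_Gamma M) γ
    rw [Gamma_mem] at h2
    rw [Gamma1_mem]
    exact ⟨h2.1, h2.2.2.2, h2.2.2.1⟩
  have h3 : ⇑f ∣[k] (γ * ModularGroup.T ^ (M : ℤ) * γ⁻¹) = ⇑f :=
    f.slash_action_eq' _ ⟨_, h1, rfl⟩
  rw [← SlashAction.slash_mul]
  nth_rw 2 [← h3]
  rw [← SlashAction.slash_mul, inv_mul_cancel_right]

omit [NeZero M] in
theorem periodic_slash1 (f : CuspForm (Gamma1 M : Subgroup (GL (Fin 2) ℝ)) k) (γ : SL(2, ℤ)) :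
    Function.Periodic ((⇑f ∣[k] γ) ∘ ofComplex) (M : ℝ) := by
  apply FermatJ.periodic_of_forall
  intro τ
  have h := congrFun (slash_T_pow1 f γ) τ
  rw [ModularForm.SL_slash_apply] at h
  have h1 : (ModularGroup.T ^ (M : ℤ) : SL(2, ℤ)) • τ = (M : ℝ) +ᵥ τ := by
    rw [modular_T_zpow_smul]
    simp
  have h2 : denom (ModularGroup.T ^ (M : ℤ) : SL(2, ℤ)) τ = 1 := by
    rw [ModularGroup.denom_apply, ModularGroup.coe_T_zpow]
    simp
  rw [h1, h2, one_zpow, mul_one] at h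
  exact h

theorem slash_decay1 (f : CuspForm (Gamma1 M : Subgroup (GL (Fin 2) ℝ)) k) (γ : SL(2, ℤ)) :
    (⇑f ∣[k] γ) =O[atImInfty] fun τ => Real.exp (-2 * Real.pi * τ.im / (M : ℝ)) := by
  have hz : IsZeroAtImInfty (⇑f ∣[k] γ) := CuspFormClass.zero_at_infty_slash f γ
  exact hz.exp_decay_atImInfty (by exact_mod_cast Nat.pos_of_ne_zero (NeZero.ne M))
    (periodic_slash1 f γ) (MDifferentiable.slash f.holo' k _) hz.isBoundedAtImInfty

theorem slash_pow_isBigO1 (f : CuspForm (Gamma1 M : Subgroup (GL (Fin 2) ℝ)) k) (γ : SL(2, ℤ))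
    {n : ℕ} (hn : M ≤ n) : (fun τ => (⇑f ∣[k] γ) τ ^ n) =O[atImInfty] discriminant := by
  have h1 := (slash_decay1 f γ).pow n
  have hN : (0 : ℝ) < M := by exact_mod_cast Nat.pos_of_ne_zero (NeZero.ne M)
  have h2 : (fun τ : ℍ => Real.exp (-2 * Real.pi * τ.im / (M : ℝ)) ^ n) =O[atImInfty]
      fun τ : ℍ => Real.exp (-2 * Real.pi * τ.im) := by
    refine Asymptotics.IsBigO.of_bound 1 (Eventually.of_forall fun τ => ?_)
    rw [Real.norm_of_nonneg (by positivity), Real.norm_of_nonneg (Real.exp_pos _).le, one_mul,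
      ← Real.exp_nat_mul, Real.exp_le_exp]
    have h3 : (1 : ℝ) ≤ n / M := by
      rw [le_div_iff₀ hN, one_mul]
      exact_mod_cast hn
    have h4 : (n : ℝ) * (-2 * Real.pi * τ.im / M) = (n / M) * (-2 * Real.pi * τ.im) := by ring
    rw [h4]
    have h5 : -2 * Real.pi * τ.im ≤ 0 := by
      have := mul_pos Real.pi_pos τ.im_pos
      linarith
    nlinarith
  exact (h1.trans h2).trans exp_isBigO_discriminant

/-- `f ^ n / Δ` is a modular form for `n ≥ M`. -/
theorem exists_div_delta1 (f : CuspForm (Gamma1 M : Subgroup (GL (Fin 2) ℝ)) k) {n : ℕ}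
    (hn : M ≤ n) : ∃ G : ModularForm (Gamma1 M : Subgroup (GL (Fin 2) ℝ)) (n * k - 12),
      (⇑G : ℍ → ℂ) * discriminant = (⇑f : ℍ → ℂ) ^ n := by
  have hmdiff : MDiff (fun τ => f τ ^ n / discriminant τ) := by
    have h1 := f.holo'
    have h2 := FermatJ.mdifferentiable_discriminant
    rw [UpperHalfPlane.mdifferentiable_iff] at *
    exact (h1.pow n).div h2 fun z _ => discriminant_ne_zero _
  refine ⟨⟨⟨fun τ => f τ ^ n / discriminant τ, ?_⟩, hmdiff, ?_⟩, ?_⟩
  · rintro _ ⟨γ, hγ, rfl⟩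
    have h1 : ⇑f ∣[k] γ = ⇑f := f.slash_action_eq' _ ⟨γ, hγ, rfl⟩
    funext τ
    change ((fun τ => f τ ^ n / discriminant τ) ∣[(n * k - 12 : ℤ)] γ) τ = _
    rw [div_delta_slash, h1]
  · intro x hx
    rw [Subgroup.IsArithmetic.isCusp_iff_isCusp_SL2Z] at hx
    rw [OnePoint.isBoundedAt_iff_forall_SL2Z hx]
    intro γ _
    have h1 := (slash_pow_isBigO1 f γ hn).mul
      (Asymptotics.isBigO_refl (fun τ : ℍ => (discriminant τ)⁻¹) atImInfty)
    unfold IsBoundedAtImInfty BoundedAtFilter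
    refine Asymptotics.IsBigO.congr' (h1.trans (Asymptotics.isBigO_of_le _ (g := 1) fun τ => ?_))
      (Eventually.of_forall fun τ => ?_) (Eventually.of_forall fun τ => rfl)
    · rw [mul_inv_cancel₀ (discriminant_ne_zero τ)]
      simp
    · exact (div_delta_slash f n k γ τ).symm
  · funext τ
    exact div_mul_cancel₀ _ (discriminant_ne_zero τ)

/-- For `f ∈ S₂(Γ₁(M))`: `(f⁶/Δ)^M` is of the form `G/Δ^{M-1}`. -/
theorem cusp_jInt1 (f : CuspForm (Gamma1 M : Subgroup (GL (Fin 2) ℝ)) 2) :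
    JInt ℂ (M - 1) ((LQ f ^ 6 / LQ Delta) ^ M) := by
  obtain ⟨G, hG⟩ := exists_div_delta1 f (n := 6 * M) (by omega)
  have hN : 1 ≤ M := Nat.one_le_iff_ne_zero.mpr (NeZero.ne M)
  have hG' : IsM1 M (12 * (M - 1 : ℕ)) (⇑G : ℍ → ℂ) :=
    IsMG.cast ⟨G, rfl⟩ (by push_cast [Nat.cast_sub hN]; ring)
  have hfA : AnQ (⇑f : ℍ → ℂ) := anQ_cusp f
  have h1 := congrArg LQ hG
  rw [← coe_Delta, LQ_mul hG'.anQ Delta_isL1.anQ, LQ_pow hfA] at h1
  have h2 := jInt_of_isM1 hG'
  have hD := Fermat.Agent.FunField.LQ_Delta_ne_zero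
  have h3 : (LQ f ^ 6 / LQ Delta) ^ M = LQ G / LQ Delta ^ (M - 1) := by
    rw [div_pow, ← pow_mul, ← h1, div_eq_div_iff (pow_ne_zero _ hD) (pow_ne_zero _ hD), mul_assoc,
      ← pow_succ']
    congr 2
    omega
  rw [h3]
  exact h2

end JInt

end Fermat.Agent.DS.X1
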