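import Mathlib
import Fermat.Agent.DS.X1.GenusPBase
import Fermat.Agent.DS.X1.GenusPCusp
import Fermat.Agent.DS.X1.ApiRed

/-!
# Lower bound for the genus of the reduction of `X₁(M)`

`finrank_cusp_le_genusFF`: `dim S₂(Γ₁(M)) ≤ genusFF κ (F1 κ M)`.
-/

set_option autoImplicit false
set_option linter.unusedSectionVars false

open UpperHalfPlane ModularForm MatrixGroups CongruenceSubgroup ModularCurve AlgebraicCurve
open IntermediateField Polynomial
open Fermat.Agent.IntStr Fermat.Agent.MFF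

noncomputable section

namespace Fermat.Agent.DS.X1

open Fermat.Agent.FunField Fermat.Agent.FunField.MinpolyJ Fermat.Agent.FunField.GaussInt
open Fermat.Agent.JRED.GenusBound
open Fermat.Agent.JRED (ConstRed RedDatum GRed)

section LevelOne

variable (M : ℕ) [NeZero M]

theorem intExp_deltaZ : IntExp M 12 deltaZ :=
  ⟨Delta, IsMG.of_isL1 Delta_isL1, qExpansion_delta⟩

theorem intExp_E4 : IntExp M 4 eisenstein4 :=
  ⟨(ModularForm.E₄ : ModularForm _ 4), IsMG.of_isL1 isL1_E₄,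
    HahnSeries.ofPowerSeries_injective (by rw [← LQ, LQ_E4, E4L])⟩

theorem intExp_E6 : IntExp M 6 eisenstein6 :=
  ⟨(ModularForm.E₆ : ModularForm _ 6), IsMG.of_isL1 isL1_E₆,
    HahnSeries.ofPowerSeries_injective (by rw [← LQ, LQ_E6, E6L])⟩

variable (K : Type*) [Field K]

theorem deltaL_mem : deltaL K ∈ MK K M 12 := mem_MK_of_intExp (K := K) (intExp_deltaZ M)

theorem E14_mem : E4L K ^ 2 * E6L K ∈ MK K M 14 := by
  have h4 : E4L K ∈ MK K M 4 := mem_MK_of_intExp (K := K) (intExp_E4 M)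
  have h6 : E6L K ∈ MK K M 6 := mem_MK_of_intExp (K := K) (intExp_E6 M)
  rw [pow_two]
  exact cast_mem_MK (mul_mem_MK (mul_mem_MK h4 h4) h6) (by norm_num)

variable {K M}

theorem div_theta_mem_F1 {w : LaurentSeries K} (hw : w ∈ MK K M 2) :
    w / thetaD K (jqModC K) ∈ F1 K M := by
  have hD := deltaL_ne_zero K
  have h1 : thetaD K (jqModC K) * deltaL K = - (E4L K ^ 2 * E6L K) := by
    rw [thetaD_jqModC_eq, div_mul_cancel₀ _ hD]
  have hth : thetaD K (jqModC K) ≠ 0 := thetaD_jqModC_ne_zero' K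
  have h14 : E4L K ^ 2 * E6L K ≠ 0 := by
    rw [← neg_ne_zero, ← h1]
    exact mul_ne_zero hth hD
  refine ⟨14, -(w * deltaL K), ?_, E4L K ^ 2 * E6L K, E14_mem M K, h14, ?_⟩
  · exact neg_mem (cast_mem_MK (mul_mem_MK hw (deltaL_mem M K)) (by norm_num))
  · rw [div_mul_eq_mul_div, div_eq_iff hth]
    linear_combination w * h1

end LevelOne

section Red

variable {K : Type*} [Field K] {A : ValuationSubring K} {κ : Type} [Field κ] {π : A →+* κ}
  {M : ℕ} [NeZero M]

/-- Lifts of elements of `CK κ M 2` to `A`-integral expansions of cusp forms. -/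
theorem exists_lift_CK [Algebra K ℂ] (hπ : Function.Surjective π) {w : LaurentSeries κ}
    (hw : w ∈ CK κ M 2) :
    ∃ (G : LaurentSeries A) (f : CuspForm (Gamma1 M : Subgroup (GL (Fin 2) ℝ)) 2),
      coeffMap π G = w ∧ coeffMap A.subtype G ∈ MK K M 2 ∧
      emb K ℂ (coeffMap A.subtype G) = LQ f := by
  induction hw using Submodule.span_induction with
  | mem x hx =>
    obtain ⟨F, ⟨f, hf⟩, rfl⟩ := hx
    refine ⟨coeffMap (Int.castRingHom A) (HahnSeries.ofPowerSeries ℤ ℤ F), f, ?_, ?_, ?_⟩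
    · rw [coeffMap_coeffMap, toK_eq]
      exact coeffMap_congr (RingHom.ext_int _ _) _
    · have h1 : coeffMap A.subtype (coeffMap (Int.castRingHom A)
          (HahnSeries.ofPowerSeries ℤ ℤ F)) = toK K F := by
        rw [coeffMap_coeffMap, toK_eq]
        exact coeffMap_congr (RingHom.ext_int _ _) _
      rw [h1]
      exact mem_MK_of_intExp (IsCG.isMG ⟨f, rfl⟩ |> fun h => ⟨f, h, hf⟩)
    · have h1 : coeffMap A.subtype (coeffMap (Int.castRingHom A)
          (HahnSeries.ofPowerSeries ℤ ℤ F)) = toK K F := by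
        rw [coeffMap_coeffMap, toK_eq]
        exact coeffMap_congr (RingHom.ext_int _ _) _
      rw [h1, emb, coeffMap_toK, LQ_of_intExp hf]
  | zero =>
    refine ⟨0, 0, map_zero _, by rw [map_zero]; exact zero_mem _, ?_⟩
    rw [map_zero, map_zero]
    exact LQ_zero.symm
  | add x y _ _ hx hy =>
    obtain ⟨G, f, h1, h2, h3⟩ := hx
    obtain ⟨G', f', h1', h2', h3'⟩ := hy
    refine ⟨G + G', f + f', by rw [map_add, h1, h1'], by rw [map_add]; exact add_mem h2 h2', ?_⟩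
    rw [map_add, map_add, h3, h3']
    exact (LQ_add (anQ_cusp f) (anQ_cusp f')).symm
  | smul c x _ hx =>
    obtain ⟨G, f, h1, h2, h3⟩ := hx
    obtain ⟨a, rfl⟩ := hπ c
    refine ⟨HahnSeries.C a * G, (algebraMap K ℂ a) • f, ?_, ?_, ?_⟩
    · rw [map_mul, HahnSeries.C_apply, coeffMap_single, h1, smul_eq_mul_MK, algebraMap_laurent]
    · rw [map_mul, HahnSeries.C_apply, coeffMap_single, ← algebraMap_laurent, ← smul_eq_mul_MK]
      exact Submodule.smul_mem _ _ h2
    · rw [map_mul, map_mul, HahnSeries.C_apply, coeffMap_single, emb, coeffMap_single,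
        ← algebraMap_laurent, h3]
      have h4 : ((((algebraMap K ℂ) (a : K)) • f :
          CuspForm (Gamma1 M : Subgroup (GL (Fin 2) ℝ)) 2) : ℍ → ℂ) =
          (algebraMap K ℂ (a : K)) • (f : ℍ → ℂ) := by
        ext z
        simp
      rw [h4, LQ_smul' _ (anQ_cusp f)]
      rfl

/-- The constant reduction of `X₁(M)`. -/
def constRed1 (hπ : Function.Surjective π) (M : ℕ) [NeZero M]
    [FiniteDimensional K⟮j1 K M⟯ (F1 K M)]
    (hdeg : Module.finrank K⟮j1 K M⟯ (F1 K M) ≤ Module.finrank κ⟮j1 κ M⟯ (F1 κ M)) :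
    ConstRed A π (F1 K M) (F1 κ M) :=
  (redF1 hπ M).toConstRed hπ (redF1_surjective hπ) fun W hW =>
    RedDatum.hasOrtho_of_finrank (R := redF1 hπ M) (x := j1 K M) (xbar := j1 κ M) hπ
      (redF1_surjective hπ) (red_j1 hπ M) (transcendental_j1 κ M) hdeg W

section Main

variable (hπ : Function.Surjective π) [FiniteDimensional K⟮j1 K M⟯ (F1 K M)]
  (hdeg : Module.finrank K⟮j1 K M⟯ (F1 K M) ≤ Module.finrank κ⟮j1 κ M⟯ (F1 κ M))

theorem constRed1_mem {f : F1 K M} {u : F1 κ M} (h : (redF1 hπ M).Red f u) :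
    f ∈ (constRed1 hπ M hdeg).O := ⟨u, h⟩

theorem constRed1_res {f : F1 K M} {u : F1 κ M} (h : (redF1 hπ M).Red f u) :
    (constRed1 hπ M hdeg).res ⟨f, constRed1_mem hπ hdeg h⟩ = u :=
  (redF1 hπ M).unique (Exists.choose_spec (⟨u, h⟩ : ∃ u, (redF1 hπ M).Red f u)) h

include hπ hdeg in
/-- **INT**: an `A`-integral `q`-expansion in `F1 K M` satisfying an integral relation over `K[j]`
has a reduction satisfying one over `κ[j]`. -/
theorem jInt_red1 {m : ℕ} {y : LaurentSeries A} (hy : coeffMap A.subtype y ∈ F1 K M)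
    (hJ : JInt K m (coeffMap A.subtype y)) :
    coeffMap π y ∈ F1 κ M ∧ JInt κ m (coeffMap π y) := by
  have hg : GRed π (coeffMap A.subtype y) (coeffMap π y) := GRed.of_integral y
  have hmem : coeffMap π y ∈ F1 κ M := mem_F1_of_GRed hπ hy hg
  refine ⟨hmem, ?_⟩
  have hred : (redF1 hπ M).Red ⟨_, hy⟩ ⟨_, hmem⟩ := hg
  have hx := constRed1_mem hπ hdeg (red_j1 (K := K) (κ := κ) (A := A) hπ M)
  have hxr := constRed1_res hπ hdeg (red_j1 (K := K) (κ := κ) (A := A) hπ M)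
  have htr : Transcendental κ ((constRed1 hπ M hdeg).res ⟨j1 K M, hx⟩) := by
    rw [hxr]; exact transcendental_j1 κ M
  have hdeg' : Module.finrank K⟮j1 K M⟯ (F1 K M) ≤
      Module.finrank κ⟮(constRed1 hπ M hdeg).res ⟨j1 K M, hx⟩⟯ (F1 κ M) := by
    rw [hxr]; exact hdeg
  have hX : XInt K (j1 K M) m (⟨_, hy⟩ : F1 K M) := by
    rw [← xInt_map_iff (F1 K M).val]
    exact hJ
  have h2 := xInt_res (constRed1 hπ M hdeg) hx hπ htr hdeg' (constRed1_mem hπ hdeg hred) hX
  rw [constRed1_res hπ hdeg hred, hxr, ← xInt_map_iff (F1 κ M).val] at h2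
  exact h2

include hπ hdeg in
/-- Reductions of cusp forms of weight two. -/
theorem jInt_of_mem_CK [Algebra K ℂ] {w : LaurentSeries κ} (hw : w ∈ CK κ M 2) :
    JInt κ (M - 1) ((w ^ 6 / deltaL κ) ^ M) := by
  obtain ⟨G, f, hGw, hGM, hGf⟩ := exists_lift_CK hπ hw
  obtain ⟨u, hu⟩ := isUnit_deltaL A
  set y : LaurentSeries A := G ^ 6 * (u⁻¹ : (LaurentSeries A)ˣ) with hy
  have hyu : y * deltaL A = G ^ 6 := by rw [hy, ← hu, Units.inv_mul_cancel_right]
  have hred : coeffMap π y = w ^ 6 / deltaL κ := by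
    rw [eq_div_iff (deltaL_ne_zero κ), ← hGw]
    have := congrArg (coeffMap π) hyu
    rwa [map_mul, map_pow, coeffMap_deltaL] at this
  have hK : coeffMap A.subtype y * deltaL K = coeffMap A.subtype G ^ 6 := by
    have := congrArg (coeffMap A.subtype) hyu
    rwa [map_mul, map_pow, coeffMap_deltaL] at this
  have hsub : emb K ℂ (coeffMap A.subtype y) = LQ f ^ 6 / LQ Delta := by
    rw [eq_div_iff Fermat.Agent.FunField.LQ_Delta_ne_zero, LQ_Delta, ← hGf, ← map_pow, ← hK]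
    have h5 := (coeffMap_deltaL (algebraMap K ℂ)).symm
    rw [h5]
    exact (map_mul _ _ _).symm
  have hG6 : coeffMap A.subtype G ^ 6 ∈ MK K M 12 := by
    have h2 := mul_mem_MK hGM hGM
    have h4 := mul_mem_MK h2 h2
    have h6 := mul_mem_MK h4 h2
    have e : coeffMap A.subtype G ^ 6 =
      coeffMap A.subtype G * coeffMap A.subtype G * (coeffMap A.subtype G * coeffMap A.subtype G) *
        (coeffMap A.subtype G * coeffMap A.subtype G) := by ring
    rw [e]
    exact cast_mem_MK h6 (by norm_num)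
  have hmem : coeffMap A.subtype y ∈ F1 K M :=
    ⟨12, _, hG6, deltaL K, deltaL_mem M K, deltaL_ne_zero K, hK⟩
  have hmemM : coeffMap A.subtype (y ^ M) ∈ F1 K M := by
    rw [map_pow]
    exact pow_mem hmem M
  have hJ : JInt K (M - 1) (coeffMap A.subtype (y ^ M)) := by
    apply JInt.descend (L := ℂ)
    rw [map_pow, map_pow, hsub]
    exact cusp_jInt1 f
  have h1 := (jInt_red1 hπ hdeg hmemM hJ).2
  rwa [map_pow, hred] at h1

include hπ hdeg in
/-- **Lower bound for the genus of the reduction of `X₁(M)`.** -/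
theorem finrank_cusp_le_genusFF_of_goodBase [Algebra K ℂ] [IsAlgClosed κ]
    [Fermat.FF.IsFF1 κ (F1 κ M)] {ℓ : ℕ} [CharP κ ℓ] (hℓ : ℓ.Prime) (B : GoodBase (F1 κ M)) :
    Module.finrank ℂ (CuspForm (Gamma1 M : Subgroup (GL (Fin 2) ℝ)) 2) ≤
      genusFF κ (F1 κ M) := by
  refine (finrank_cusp_le_CK κ M 2 hℓ).trans ?_
  have ht : thetaD κ ((j1 κ M : F1 κ M) : LaurentSeries κ) ≠ 0 := thetaD_jqModC_ne_zero' κ
  have hx : thetaD κ (B.x : LaurentSeries κ) ≠ 0 := by
    intro h0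
    have h1 := B.c_mul
    rw [h0, mul_zero] at h1
    exact thetaD_jqModC_ne_zero' κ h1.symm
  have hmem : ∀ f ∈ CK κ M 2, ∃ y : F1 κ M,
      f = (y : LaurentSeries κ) * thetaD κ ((j1 κ M : F1 κ M) : LaurentSeries κ) := fun f hf =>
    ⟨⟨_, div_theta_mem_F1 (CK_le_MK hf)⟩, (div_mul_cancel₀ f ht).symm⟩
  have hM : 1 ≤ M := Nat.one_le_iff_ne_zero.mpr (NeZero.ne M)
  have hreg : ∀ f ∈ CK κ M 2, ∀ y : F1 κ M,
      f = (y : LaurentSeries κ) * thetaD κ (B.x : LaurentSeries κ) →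
      RegFinX κ B.x y ∧ RegInfX κ B.x y := by
    intro f hf y hy
    obtain ⟨y₀, hy₀⟩ := hmem f hf
    have h1 := B.reg y₀ f M hM hy₀.symm (jInt_of_mem_CK hπ hdeg hf)
    have h2 : y = y₀ * B.c := by
      apply Subtype.ext
      apply mul_right_cancel₀ hx
      rw [← hy, hy₀, show ((y₀ * B.c : F1 κ M) : LaurentSeries κ) =
        (y₀ : LaurentSeries κ) * (B.c : LaurentSeries κ) from rfl, mul_assoc, B.c_mul]
      rfl
    rw [h2]
    exact h1
  exact finrank_le_genusFF_of_laurent ht hx (CK κ M 2) hmem (fun f hf y hy => (hreg f hf y hy).1)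
    (fun f hf y hy => (hreg f hf y hy).2)

include hπ hdeg in
/-- **B2**: `dim S₂(Γ₁(M)) ≤ genus of F1 κ M` in characteristic `≥ 5`, characteristic `3` with `M`
even, characteristic `2` with `3 ∣ M`. -/
theorem finrank_cusp_le_genusFF [Algebra K ℂ] [IsAlgClosed κ]
    [Fermat.FF.IsFF1 κ (F1 κ M)] {ℓ : ℕ} [CharP κ ℓ] (hℓ : ℓ.Prime)
    (h : 5 ≤ ℓ ∨ (ℓ = 3 ∧ 2 ∣ M) ∨ (ℓ = 2 ∧ 3 ∣ M)) :
    Module.finrank ℂ (CuspForm (Gamma1 M : Subgroup (GL (Fin 2) ℝ)) 2) ≤
      genusFF κ (F1 κ M) := by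
  obtain ⟨B⟩ := nonempty_goodBase (full_le_F1 κ M) ℓ hℓ h
  exact finrank_cusp_le_genusFF_of_goodBase hπ hdeg hℓ B

end Main

end Red

end Fermat.Agent.DS.X1
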