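import Fermat.Agent.DS.X1.RedGal
import Fermat.Agent.DR.Mod.Kronecker

set_option autoImplicit false
set_option linter.unusedSectionVars false
set_option linter.style.haveILetI false

/-!
# The Hecke operator `T_p` on functions through `q`-expansions

* `nrmQ K p x`: the product of the conjugates `x(ζ^b q^{1/p})`, characterised by
  `qExpand K p (nrmQ K p x) = ∏_b twist (ζ^b) x`;
* `TMs K p d x = d(q^p) * nrmQ K p x`: `T_p` on the function `x`, where `d` is the image of `x`
  under the diamond `⟨p⟩`;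
* `gred_nrmQ`, `gred_TMs`: reduction modulo `p`.
-/

noncomputable section

open ModularCurve AlgebraicCurve

namespace Fermat.Agent.DS.X1

open Fermat.Agent.JRED Fermat.Agent.JRED.ES Fermat.Agent.S28

section Nrm

variable {K : Type*} [Field K] {p : ℕ} [NeZero p]

/-- The product over the powers of a primitive root does not depend on the root. -/
theorem prod_twist_eq {ζ : Kˣ} (hζ : IsPrimitiveRoot ζ p) (x : LaurentSeries K) :
    haveI : Finite (rootsOfUnity p K) := inferInstance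
    letI := Fintype.ofFinite (rootsOfUnity p K)
    ∏ b : Fin p, twist (ζ ^ (b : ℕ)) x = ∏ u : rootsOfUnity p K, twist (u : Kˣ) x := by
  letI := Fintype.ofFinite (rootsOfUnity p K)
  have hmem : ∀ b : Fin p, ζ ^ (b : ℕ) ∈ rootsOfUnity p K := fun b => by
    rw [mem_rootsOfUnity, ← pow_mul, mul_comm, pow_mul, hζ.pow_eq_one, one_pow]
  let e : Fin p → rootsOfUnity p K := fun b => ⟨ζ ^ (b : ℕ), hmem b⟩
  have hinj : Function.Injective e := by
    intro b c h
    exact Fin.ext (hζ.pow_inj b.2 c.2 (congrArg Subtype.val h))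
  have hbij : Function.Bijective e := by
    rw [Fintype.bijective_iff_injective_and_card]
    refine ⟨hinj, ?_⟩
    rw [Fintype.card_fin, ← Nat.card_eq_fintype_card, hζ.card_rootsOfUnity']
  exact Fintype.prod_bijective e hbij _ _ fun b => rfl

theorem exists_nrmQ {ζ : Kˣ} (hζ : IsPrimitiveRoot ζ p) (x : LaurentSeries K) :
    ∃ n, qExpand K p n = ∏ b : Fin p, twist (ζ ^ (b : ℕ)) x :=
  exists_qExpand_eq_twistProd p hζ x

variable (K p) in
/-- The product of the conjugates `x(ζ^b q^{1/p})`. -/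
def nrmQ (x : LaurentSeries K) : LaurentSeries K := by
  classical
  exact if h : ∃ ζ : Kˣ, IsPrimitiveRoot ζ p then (exists_nrmQ h.choose_spec x).choose else 1

theorem qExpand_nrmQ {ζ : Kˣ} (hζ : IsPrimitiveRoot ζ p) (x : LaurentSeries K) :
    qExpand K p (nrmQ K p x) = ∏ b : Fin p, twist (ζ ^ (b : ℕ)) x := by
  have h : ∃ ζ : Kˣ, IsPrimitiveRoot ζ p := ⟨ζ, hζ⟩
  rw [nrmQ, dif_pos h, (exists_nrmQ h.choose_spec x).choose_spec, prod_twist_eq h.choose_spec,
    prod_twist_eq hζ]

theorem nrmQ_unique {ζ : Kˣ} (hζ : IsPrimitiveRoot ζ p) {x n : LaurentSeries K}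
    (h : qExpand K p n = ∏ b : Fin p, twist (ζ ^ (b : ℕ)) x) : n = nrmQ K p x :=
  qExpand_injective p (h.trans (qExpand_nrmQ hζ x).symm)

theorem nrmQ_mul (x y : LaurentSeries K) : nrmQ K p (x * y) = nrmQ K p x * nrmQ K p y := by
  by_cases h : ∃ ζ : Kˣ, IsPrimitiveRoot ζ p
  · obtain ⟨ζ, hζ⟩ := h
    symm
    apply nrmQ_unique hζ
    rw [map_mul, qExpand_nrmQ hζ, qExpand_nrmQ hζ, ← Finset.prod_mul_distrib]
    exact Finset.prod_congr rfl fun b _ => (map_mul _ _ _).symm
  · rw [nrmQ, nrmQ, nrmQ, dif_neg h, dif_neg h, dif_neg h, one_mul]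

theorem nrmQ_one : nrmQ K p (1 : LaurentSeries K) = 1 := by
  by_cases h : ∃ ζ : Kˣ, IsPrimitiveRoot ζ p
  · obtain ⟨ζ, hζ⟩ := h
    symm
    apply nrmQ_unique hζ
    simp
  · rw [nrmQ, dif_neg h]

theorem nrmQ_algebraMap {ζ : Kˣ} (hζ : IsPrimitiveRoot ζ p) (c : K) :
    nrmQ K p (algebraMap K (LaurentSeries K) c) = algebraMap K (LaurentSeries K) (c ^ p) := by
  symm
  apply nrmQ_unique hζ
  rw [algebraMap_laurentSeries_eq_single, qExpand_single, mul_zero,
    ← algebraMap_laurentSeries_eq_single, map_pow]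
  simp only [algebraMap_eq_C, twist_C, Finset.prod_const, Finset.card_univ, Fintype.card_fin]

theorem nrmQ_ne_zero {ζ : Kˣ} (hζ : IsPrimitiveRoot ζ p) {x : LaurentSeries K} (hx : x ≠ 0) :
    nrmQ K p x ≠ 0 := by
  intro h
  have h1 := qExpand_nrmQ hζ x
  rw [h, map_zero] at h1
  obtain ⟨b, -, hb⟩ := Finset.prod_eq_zero_iff.mp h1.symm
  exact hx (twist_injective _ (by rw [hb, map_zero]))

/-- Equivariance. -/
theorem coeffMap_nrmQ {K' : Type*} [Field K'] (σ : K →+* K') {ζ : Kˣ}
    (hζ : IsPrimitiveRoot ζ p) (x : LaurentSeries K) :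
    coeffMap σ (nrmQ K p x) = nrmQ K' p (coeffMap σ x) := by
  have hζ' : IsPrimitiveRoot (Units.map (σ : K →* K') ζ) p :=
    hζ.map_of_injective (f := Units.map (σ : K →* K')) (Units.map_injective σ.injective)
  apply nrmQ_unique hζ'
  rw [← coeffMap_qExpand, qExpand_nrmQ hζ, map_prod]
  refine Finset.prod_congr rfl fun b _ => ?_
  rw [ES.coeffMap_twist, map_pow]
  rfl

/-- `T_p` on functions: `d` is the image of `x` under the diamond operator `⟨p⟩`. -/
def TMs (K : Type*) [Field K] (p : ℕ) [NeZero p] (d x : LaurentSeries K) : LaurentSeries K :=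
  qExpand K p d * nrmQ K p x

theorem TMs_mul (d d' x x' : LaurentSeries K) :
    TMs K p (d * d') (x * x') = TMs K p d x * TMs K p d' x' := by
  rw [TMs, TMs, TMs, nrmQ_mul, map_mul]
  ring

theorem TMs_algebraMap {ζ : Kˣ} (hζ : IsPrimitiveRoot ζ p) (c : K) :
    TMs K p (algebraMap K (LaurentSeries K) c) (algebraMap K (LaurentSeries K) c) =
      algebraMap K (LaurentSeries K) (c ^ (p + 1)) := by
  rw [TMs, nrmQ_algebraMap hζ, algebraMap_laurentSeries_eq_single, qExpand_single, mul_zero,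
    ← algebraMap_laurentSeries_eq_single, ← map_mul, pow_succ']

theorem TMs_ne_zero {ζ : Kˣ} (hζ : IsPrimitiveRoot ζ p) {d x : LaurentSeries K} (hd : d ≠ 0)
    (hx : x ≠ 0) : TMs K p d x ≠ 0 := by
  refine mul_ne_zero ?_ (nrmQ_ne_zero hζ hx)
  intro h
  exact hd (qExpand_injective p (by rw [h, map_zero]))

theorem coeffMap_TMs {K' : Type*} [Field K'] (σ : K →+* K') {ζ : Kˣ}
    (hζ : IsPrimitiveRoot ζ p) (d x : LaurentSeries K) :
    coeffMap σ (TMs K p d x) = TMs K' p (coeffMap σ d) (coeffMap σ x) := by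
  rw [TMs, TMs, map_mul, coeffMap_qExpand, coeffMap_nrmQ σ hζ]

end Nrm

section Red

variable {L : Type*} [Field L] [Algebra ℚ L] {κ : Type*} [Field κ] {A : ValuationSubring L}
  {π : A →+* κ} {p : ℕ} [NeZero p] [ExpChar κ p]

open Fermat.Agent.DR.Mod in
/-- **Reduction of `nrmQ`**: the coefficientwise Frobenius. -/
theorem gred_nrmQ {ζ : Aˣ} (hζ : IsPrimitiveRoot ζ p) {x : LaurentSeries L}
    {u : LaurentSeries κ} (h : GRed π x u) :
    GRed π (nrmQ L p x) (coeffMap (frobenius κ p) u) := by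
  have h1 : GRed π (algebraMap L (LaurentSeries L) 1 * (1 : LaurentSeries L)) 1 := by
    rw [map_one, one_mul]
    exact GRed.one
  have h2 : GRed π (algebraMap L (LaurentSeries L) 1 * x) u := by
    rwa [map_one, one_mul]
  have h3 := gauss_norm hζ h1 h2 (N := nrmQ L p x) (by
    rw [map_one, one_mul, qExpand_nrmQ (map_root hζ)])
  rwa [one_pow, mul_one, map_one, one_mul, one_mul] at h3

open Fermat.Agent.DR.Mod in
theorem gred_TMs {ζ : Aˣ} (hζ : IsPrimitiveRoot ζ p) {d x : LaurentSeries L}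
    {u v : LaurentSeries κ} (hd : GRed π d u) (hx : GRed π x v) :
    GRed π (TMs L p d x) (qExpand κ p u * coeffMap (frobenius κ p) v) :=
  (GRed.qExpand hd p).mul (gred_nrmQ hζ hx)

end Red

end Fermat.Agent.DS.X1
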