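import Fermat.Agent.DS.X1.RedPow
import Fermat.Agent.DS.X1.RedHecke

set_option autoImplicit false
set_option linter.unusedSectionVars false
set_option linter.style.haveILetI false

/-!
# Inertia and Frobenius on `l`-Selmer classes of the function field of `X₁(M)`

* `inertia_fun`: `σ f = f g^l` for `σ` in the inertia group;
* `frob_fun`: `σ² f ⟨p⟩(f)^p = T_p(σ f) g^l` for a Frobenius `σ`.
-/

noncomputable section

open ModularCurve AlgebraicCurve IntermediateField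

namespace Fermat.Agent.DS.X1

open Fermat.Agent.JRED Fermat.Agent.JRED.ES Fermat.Agent.S28 Fermat.Agent.JRED.ESGalois

local notation "Qbar" => AlgebraicClosure ℚ

section Const

variable {K F : Type*} [Field K] [Field F] [Algebra K F] [IsAlgClosed K]

/-- Constants are `l`-th powers. -/
theorem exists_eq_mul_pow_of_const {l : ℕ} (hl : l ≠ 0) {a b : K} (ha : a ≠ 0) {X Y g : F}
    (h : algebraMap K F a * X = algebraMap K F b * Y * g ^ l) : ∃ g' : F, X = Y * g' ^ l := by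
  obtain ⟨d, hd⟩ := IsAlgClosed.exists_pow_nat_eq (b / a) (Nat.pos_of_ne_zero hl)
  refine ⟨algebraMap K F d * g, ?_⟩
  have ha' : algebraMap K F a ≠ 0 := (map_ne_zero _).mpr ha
  apply mul_left_cancel₀ ha'
  rw [h, mul_pow, ← map_pow, hd, map_div₀]
  field_simp

end Const

section Ord

variable {K F : Type*} [Field K] [Field F] [Algebra K F]

theorem dvd_ord_smul {l : ℤ} (g : SemilinearAut K F) {f : F} (h : ∀ P : Place K F, l ∣ P.ord f)
    (P : Place K F) : l ∣ P.ord (g • f) := by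
  have h1 := SemilinearAut.ord_smul g (g⁻¹ • P) f
  rw [smul_inv_smul] at h1
  rw [h1]
  exact h _

theorem dvd_ord_algEquiv {l : ℤ} (e : F ≃ₐ[K] F) {f : F} (h : ∀ P : Place K F, l ∣ P.ord f)
    (P : Place K F) : l ∣ P.ord (e f) := dvd_ord_smul (SemilinearAut.ofAlgAut e) h P

theorem dvd_ord_mul {l : ℤ} {f g : F} (hf : f ≠ 0) (hg : g ≠ 0)
    (h : ∀ P : Place K F, l ∣ P.ord f) (h' : ∀ P : Place K F, l ∣ P.ord g) (P : Place K F) :
    l ∣ P.ord (f * g) := by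
  rw [P.ord_mul hf hg]
  exact dvd_add (h P) (h' P)

theorem dvd_ord_inv {l : ℤ} {f : F} (h : ∀ P : Place K F, l ∣ P.ord f) (P : Place K F) :
    l ∣ P.ord f⁻¹ := by
  rw [P.ord_inv]
  exact (dvd_neg).mpr (h P)

theorem dvd_ord_pow {l : ℤ} {f : F} (h : ∀ P : Place K F, l ∣ P.ord f) (n : ℕ)
    (P : Place K F) : l ∣ P.ord (f ^ n) := by
  rw [← zpow_natCast, P.ord_zpow]
  exact Dvd.dvd.mul_left (h P) _

end Ord

section Main

variable {M : ℕ} [NeZero M] {κ : Type*} [Field κ] {A : ValuationSubring Qbar} {π : A →+* κ}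
  (hπ : Function.Surjective π) {x : F1 Qbar M} {t : F1 κ M} (hx : (redF1 hπ M).Red x t)
  (htr : Transcendental κ t) [FiniteDimensional Qbar⟮x⟯ (F1 Qbar M)]
  (hdeg : Module.finrank Qbar⟮x⟯ (F1 Qbar M) ≤ Module.finrank κ⟮t⟯ (F1 κ M))
  (hg : genusFF Qbar (F1 Qbar M) ≤ genusFF κ (F1 κ M)) {l : ℕ} (hl : (l : κ) ≠ 0)

include hx htr hdeg hg hl in
/-- Functions with trivial reduction. -/
theorem exists_eq_pow_of_red_one {f : F1 Qbar M} (hf : (redF1 hπ M).Red f 1)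
    (hdiv : ∀ P : Place Qbar (F1 Qbar M), (l : ℤ) ∣ P.ord f) : ∃ g : F1 Qbar M, f = g ^ l :=
  exists_eq_pow_of_red hπ (redF1_surjective hπ) hx htr hdeg hg hl (v := 1) one_ne_zero
    (by rwa [one_pow]) hdiv

include hx htr hdeg hg hl in
/-- Two functions with the same nonzero reduction. -/
theorem exists_eq_mul_pow_of_red {f f' : F1 Qbar M} {u : F1 κ M} (hu : u ≠ 0)
    (hf : (redF1 hπ M).Red f u) (hf' : (redF1 hπ M).Red f' u)
    (hdiv : ∀ P : Place Qbar (F1 Qbar M), (l : ℤ) ∣ P.ord f)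
    (hdiv' : ∀ P : Place Qbar (F1 Qbar M), (l : ℤ) ∣ P.ord f') :
    ∃ g : F1 Qbar M, f = f' * g ^ l := by
  have h0 : f ≠ 0 := RedDatum.ne_zero_of_red hf hu
  have h0' : f' ≠ 0 := RedDatum.ne_zero_of_red hf' hu
  have h1 : (redF1 hπ M).Red (f * f'⁻¹) 1 := by
    have := (redF1 hπ M).mul hf (RedDatum.inv hπ hf' hu)
    rwa [mul_inv_cancel₀ hu] at this
  obtain ⟨g, hg⟩ := exists_eq_pow_of_red_one hπ hx htr hdeg hg hl h1
    (dvd_ord_mul h0 (inv_ne_zero h0') hdiv (dvd_ord_inv hdiv'))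
  refine ⟨g, ?_⟩
  rw [← hg]
  field_simp

theorem galF1_algebraMap_mul (σ : Qbar ≃ₐ[ℚ] Qbar) (c : Qbar) (f : F1 Qbar M) :
    galF1 Qbar M σ • (algebraMap Qbar (F1 Qbar M) c * f) =
      algebraMap Qbar (F1 Qbar M) (σ c) * (galF1 Qbar M σ • f) := by
  rw [smul_mul', SemilinearAut.smul_algebraMap]
  rfl

theorem red_galF1 {σ : Qbar ≃ₐ[ℚ] Qbar} {τ : κ ≃+* κ} (hτ : IsResidual π σ τ) {f : F1 Qbar M}
    {u : F1 κ M} (h : (redF1 hπ M).Red f u) :
    (redF1 hπ M).Red (galF1 Qbar M σ • f) (coeffSemi1 M τ • u) := gred_coeffMap hτ h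

include hx htr hdeg hg hl in
/-- **Inertia acts trivially on Selmer classes.** -/
theorem inertia_fun {σ : Qbar ≃ₐ[ℚ] Qbar} (hσ : σ ∈ A.inertiaSubgroupIn ℚ) {f : F1 Qbar M}
    (hf : f ≠ 0) (hdiv : ∀ P : Place Qbar (F1 Qbar M), (l : ℤ) ∣ P.ord f) :
    ∃ g : F1 Qbar M, galF1 Qbar M σ • f = f * g ^ l := by
  have hl0 : l ≠ 0 := by
    rintro rfl
    exact hl (by rw [Nat.cast_zero])
  obtain ⟨c, hc, u, hu, h⟩ := (redF1 hπ M).normalize f hf
  have hc' : algebraMap Qbar (F1 Qbar M) c ≠ 0 := (map_ne_zero _).mpr hc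
  have hdivc : ∀ P : Place Qbar (F1 Qbar M), (l : ℤ) ∣ P.ord (algebraMap Qbar (F1 Qbar M) c) :=
    fun P => by
      rw [show P.ord (algebraMap Qbar (F1 Qbar M) c) = 0 from Fermat.FF.ord_algebraMap P c]
      exact dvd_zero _
  have h1 := red_galF1 hπ (isResidual_one_of_inertia hπ hσ) h
  have h2 : coeffSemi1 M (1 : κ ≃+* κ) • u = u := by rw [map_one, one_smul]
  rw [h2] at h1
  have hdf := dvd_ord_mul hc' hf hdivc hdiv
  obtain ⟨g, hgg⟩ := exists_eq_mul_pow_of_red hπ hx htr hdeg hg hl hu h1 h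
    (dvd_ord_smul _ hdf) hdf
  rw [galF1_algebraMap_mul] at hgg
  exact exists_eq_mul_pow_of_const hl0 (σ.map_ne_zero_iff.mpr hc) hgg

set_option maxHeartbeats 2000000 in
/-- **The Eichler–Shimura relation on Selmer classes.** -/
theorem frob_fun (hx : (redF1 hπ M).Red x t) (htr : Transcendental κ t)
    (hdeg : Module.finrank Qbar⟮x⟯ (F1 Qbar M) ≤ Module.finrank κ⟮t⟯ (F1 κ M))
    (hg : genusFF Qbar (F1 Qbar M) ≤ genusFF κ (F1 κ M)) (hl : (l : κ) ≠ 0)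
    {p : ℕ} [NeZero p] [CharP κ p] (hp : p.Prime)
    (dia : F1 Qbar M ≃ₐ[Qbar] F1 Qbar M)
    (hdr : ∀ (f : F1 Qbar M) (u : F1 κ M), u ≠ 0 → (redF1 hπ M).Red f u →
      ∃ u' : F1 κ M, u' ≠ 0 ∧ (redF1 hπ M).Red (dia f) u')
    (hdg : ∀ (σ : Qbar ≃ₐ[ℚ] Qbar) (f : F1 Qbar M),
      dia (galF1 Qbar M σ • f) = galF1 Qbar M σ • dia f)
    (T : F1 Qbar M → F1 Qbar M)
    (hT : ∀ f : F1 Qbar M, ((T f : F1 Qbar M) : LaurentSeries Qbar) =
      TMs Qbar p (dia f : F1 Qbar M) (f : LaurentSeries Qbar))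
    {σ : Qbar ≃ₐ[ℚ] Qbar} (hσ : A.IsFrobeniusAt σ p) {f : F1 Qbar M}
    (hf : f ≠ 0) (hdiv : ∀ P : Place Qbar (F1 Qbar M), (l : ℤ) ∣ P.ord f)
    (hTdiv : ∀ P : Place Qbar (F1 Qbar M), (l : ℤ) ∣ P.ord (T f)) :
    ∃ g : F1 Qbar M, (galF1 Qbar M σ • galF1 Qbar M σ • f) * dia f ^ p =
      T (galF1 Qbar M σ • f) * g ^ l := by
  have hl0 : l ≠ 0 := by
    rintro rfl
    exact hl (by rw [Nat.cast_zero])
  haveI : ExpChar κ p := ExpChar.prime hp
  haveI : Fact p.Prime := ⟨hp⟩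
  haveI : IsAlgClosed κ := isAlgClosed_of_surjective hπ
  haveI : PerfectRing κ p := inferInstance
  obtain ⟨ζ, hζ⟩ := exists_primitiveRoot_unit A p
  have hζ' := Fermat.Agent.DR.Mod.map_root hζ
  have hres := isResidual_of_frobenius hπ hσ (frobeniusEquiv κ p) (fun y => rfl)
  set g₁ := galF1 Qbar M σ with hg₁
  obtain ⟨c, hc, u, hu, h⟩ := (redF1 hπ M).normalize f hf
  set f' := algebraMap Qbar (F1 Qbar M) c * f with hf'
  have hc' : algebraMap Qbar (F1 Qbar M) c ≠ 0 := (map_ne_zero _).mpr hc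
  have hf0' : f' ≠ 0 := mul_ne_zero hc' hf
  have hdivc : ∀ P : Place Qbar (F1 Qbar M), (l : ℤ) ∣ P.ord (algebraMap Qbar (F1 Qbar M) c) :=
    fun P => by
      rw [show P.ord (algebraMap Qbar (F1 Qbar M) c) = 0 from Fermat.FF.ord_algebraMap P c]
      exact dvd_zero _
  have hdf := dvd_ord_mul hc' hf hdivc hdiv
  obtain ⟨u', hu', h'⟩ := hdr _ _ hu h
  -- the reductions
  have h1 : (redF1 hπ M).Red (g₁ • f') (coeffSemi1 M (frobeniusEquiv κ p) • u) :=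
    red_galF1 hπ hres h
  have h2 : (redF1 hπ M).Red (g₁ • g₁ • f')
      (coeffSemi1 M (frobeniusEquiv κ p) • coeffSemi1 M (frobeniusEquiv κ p) • u) :=
    red_galF1 hπ hres h1
  have h3 : (redF1 hπ M).Red (dia (g₁ • f')) (coeffSemi1 M (frobeniusEquiv κ p) • u') := by
    rw [hdg]
    exact red_galF1 hπ hres h'
  have h4 : (redF1 hπ M).Red (T (g₁ • f')) (u' ^ p *
      (coeffSemi1 M (frobeniusEquiv κ p) • coeffSemi1 M (frobeniusEquiv κ p) • u)) := by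
    rw [redF1_red, hT]
    have h5 := gred_TMs hζ (π := π) h3 h1
    convert h5 using 1
    rw [MulMemClass.coe_mul, SubmonoidClass.coe_pow, laurent_pow_char p]
    rfl
  have h6 : (redF1 hπ M).Red ((g₁ • g₁ • f') * dia f' ^ p) (u' ^ p *
      (coeffSemi1 M (frobeniusEquiv κ p) • coeffSemi1 M (frobeniusEquiv κ p) • u)) := by
    rw [mul_comm (u' ^ p)]
    exact (redF1 hπ M).mul h2 (RedDatum.pow h' p)
  have hne : u' ^ p *
      (coeffSemi1 M (frobeniusEquiv κ p) • coeffSemi1 M (frobeniusEquiv κ p) • u) ≠ 0 := by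
    refine mul_ne_zero (pow_ne_zero p hu') ?_
    rw [Ne, smul_eq_zero_iff_eq, smul_eq_zero_iff_eq]
    exact hu
  have hs1 : g₁ • f' ≠ 0 := by rw [Ne, smul_eq_zero_iff_eq]; exact hf0'
  have hs2 : g₁ • g₁ • f' ≠ 0 := by rw [Ne, smul_eq_zero_iff_eq]; exact hs1
  have hd0 : dia f' ≠ 0 := (map_ne_zero dia).mpr hf0'
  -- remove the constants
  have e1 : g₁ • g₁ • f' = algebraMap Qbar (F1 Qbar M) (σ (σ c)) * (g₁ • g₁ • f) := by
    rw [hf', galF1_algebraMap_mul, galF1_algebraMap_mul]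
  have e2 : dia f' = algebraMap Qbar (F1 Qbar M) c * dia f := by
    rw [hf', map_mul, AlgEquiv.commutes]
  have e3 : T (g₁ • f') = algebraMap Qbar (F1 Qbar M) ((σ c) ^ (p + 1)) * T (g₁ • f) := by
    apply Subtype.ext
    rw [hT, hf', galF1_algebraMap_mul, map_mul, AlgEquiv.commutes, MulMemClass.coe_mul,
      MulMemClass.coe_mul, MulMemClass.coe_mul, hT]
    change TMs Qbar p (algebraMap Qbar (LaurentSeries Qbar) (σ c) * _)
      (algebraMap Qbar (LaurentSeries Qbar) (σ c) * _) =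
        algebraMap Qbar (LaurentSeries Qbar) ((σ c) ^ (p + 1)) * _
    rw [TMs_mul, TMs_algebraMap hζ']
  have e4 : T (g₁ • f) = g₁ • T f := by
    apply Subtype.ext
    rw [hT, hdg, coe_galF1_smul, coe_galF1_smul, coe_galF1_smul, hT, coeffMap_TMs _ hζ']
  have hT0 : T f ≠ 0 := by
    intro h0
    have h7 := hT f
    rw [h0, ZeroMemClass.coe_zero] at h7
    refine TMs_ne_zero hζ' ?_ ?_ h7.symm
    · exact fun h => (map_ne_zero dia).mpr hf (Subtype.ext h)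
    · exact fun h => hf (Subtype.ext h)
  have hTd : ∀ P : Place Qbar (F1 Qbar M), (l : ℤ) ∣ P.ord (T (g₁ • f')) := by
    rw [e3, e4]
    have hs3 : g₁ • T f ≠ 0 := by rw [Ne, smul_eq_zero_iff_eq]; exact hT0
    refine dvd_ord_mul ((map_ne_zero _).mpr (pow_ne_zero _ (σ.map_ne_zero_iff.mpr hc))) hs3
      (fun P => ?_) (dvd_ord_smul _ hTdiv)
    rw [show P.ord (algebraMap Qbar (F1 Qbar M) ((σ c) ^ (p + 1))) = 0 from
      Fermat.FF.ord_algebraMap P _]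
    exact dvd_zero _
  obtain ⟨g, hgg⟩ := exists_eq_mul_pow_of_red hπ hx htr hdeg hg hl hne h6 h4
    (dvd_ord_mul hs2 (pow_ne_zero p hd0) (dvd_ord_smul _ (dvd_ord_smul _ hdf))
      (dvd_ord_pow (dvd_ord_algEquiv dia hdf) p)) hTd
  refine exists_eq_mul_pow_of_const hl0 (a := σ (σ c) * c ^ p) (b := (σ c) ^ (p + 1)) ?_ (g := g) ?_
  · exact mul_ne_zero (σ.map_ne_zero_iff.mpr (σ.map_ne_zero_iff.mpr hc)) (pow_ne_zero p hc)
  · rw [e1, e2, e3] at hgg
    rw [← hgg, map_mul, map_pow]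
    ring

end Main

end Fermat.Agent.DS.X1
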