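import Fermat.Agent.DS.X1.SelDesc
import Fermat.Agent.DS.X1.ApiFin

/-!
# The genus of `X₁(M)` does not increase under extension of algebraically closed constants
-/

set_option autoImplicit false

noncomputable section

open AlgebraicCurve

namespace Fermat.Agent.DS.X1.SelDesc

/-- **The genus hypothesis of D3.** -/
theorem genusFF_F1_le_of_algebra (K K' : Type*) [Field K] [Field K'] [Algebra K K']
    [IsAlgClosed K] [IsAlgClosed K'] (M : ℕ) [NeZero M] :
    genusFF K' (F1 K' M) ≤ genusFF K (F1 K M) :=
  genusFF_le (constExt_incF K K' M)

end Fermat.Agent.DS.X1.SelDesc
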