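import Mathlib
import Fermat.Prelude.Def_AlgebraicCurve_BaseChangeGalois
import Fermat.Agent.RR.Basic

/-!
# The Selmer group `Sel K F l` of a function field

`Sel K F l` is the group of nonzero functions all of whose orders are divisible by `l`, modulo
`l`-th powers.
-/

set_option autoImplicit false

noncomputable section

namespace Fermat.Agent.DS.X1

open AlgebraicCurve

section Generic

variable (K F : Type*) [Field K] [Field F] [Algebra K F] (l : ℕ)

/-- The functions all of whose orders are divisible by `l`. -/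
def SelU : Subgroup Fˣ where
  carrier := {f | ∀ v : Place K F, (l : ℤ) ∣ v.ord (f : F)}
  one_mem' := fun v => by rw [Units.val_one, v.ord_one]; exact dvd_zero _
  mul_mem' := fun {f g} hf hg v => by
    rw [Units.val_mul, v.ord_mul f.ne_zero g.ne_zero]
    exact dvd_add (hf v) (hg v)
  inv_mem' := fun {f} hf v => by
    rw [Units.val_inv_eq_inv_val, v.ord_inv]
    exact (dvd_neg).mpr (hf v)

/-- The `l`-th powers. -/
def SelP : Subgroup (SelU K F l) := ((powMonoidHom l : Fˣ →* Fˣ).range).subgroupOf (SelU K F l)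

/-- **The Selmer group.** -/
def Sel : Type _ := Additive (SelU K F l ⧸ SelP K F l)

instance : AddCommGroup (Sel K F l) :=
  inferInstanceAs (AddCommGroup (Additive (SelU K F l ⧸ SelP K F l)))

variable {F}

/-- All orders of `f` are divisible by `l`. -/
def OrdDvd (f : F) : Prop := ∀ v : Place K F, (l : ℤ) ∣ v.ord f

variable {K l}

theorem ordDvd_one : OrdDvd K l (1 : F) := fun v => by rw [v.ord_one]; exact dvd_zero _

theorem OrdDvd.mul {f g : F} (hf0 : f ≠ 0) (hg0 : g ≠ 0) (hf : OrdDvd K l f)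
    (hg : OrdDvd K l g) : OrdDvd K l (f * g) := fun v => by
  rw [v.ord_mul hf0 hg0]
  exact dvd_add (hf v) (hg v)

theorem OrdDvd.inv {f : F} (hf : OrdDvd K l f) : OrdDvd K l f⁻¹ := fun v => by
  rw [v.ord_inv]
  exact (dvd_neg).mpr (hf v)

theorem ordDvd_pow (f : F) : OrdDvd K l (f ^ l) := fun v => by
  rw [RR.ord_pow]
  exact dvd_mul_right _ _

theorem OrdDvd.mul_pow {f g : F} (hf0 : f ≠ 0) (hg0 : g ≠ 0) (hf : OrdDvd K l f) :
    OrdDvd K l (f * g ^ l) := hf.mul hf0 (pow_ne_zero l hg0) (ordDvd_pow g)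

/-- The class of a function. -/
def Sel.mk (f : F) (hf : f ≠ 0) (h : OrdDvd K l f) : Sel K F l :=
  Additive.ofMul (QuotientGroup.mk (s := SelP K F l) ⟨Units.mk0 f hf, h⟩)

theorem Sel.exists_mk (x : Sel K F l) : ∃ (f : F) (hf : f ≠ 0) (h : OrdDvd K l f),
    x = Sel.mk f hf h := by
  obtain ⟨x, rfl⟩ := Additive.ofMul.surjective x
  obtain ⟨⟨f, hf⟩, rfl⟩ := QuotientGroup.mk_surjective x
  refine ⟨f, f.ne_zero, hf, ?_⟩
  have h1 : (⟨f, hf⟩ : SelU K F l) = ⟨Units.mk0 (f : F) f.ne_zero, hf⟩ :=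
    Subtype.ext (Units.ext rfl)
  rw [h1]
  rfl

theorem Sel.mk_eq_iff {f g : F} {hf : f ≠ 0} {hg : g ≠ 0} {hf' : OrdDvd K l f}
    {hg' : OrdDvd K l g} : Sel.mk f hf hf' = Sel.mk g hg hg' ↔ ∃ h : F, h ≠ 0 ∧ g = f * h ^ l := by
  have h0 : Sel.mk f hf hf' = Sel.mk g hg hg' ↔
      (QuotientGroup.mk (s := SelP K F l) ⟨Units.mk0 f hf, hf'⟩) =
        QuotientGroup.mk (s := SelP K F l) ⟨Units.mk0 g hg, hg'⟩ := Iff.rfl
  rw [h0, QuotientGroup.eq, SelP, Subgroup.mem_subgroupOf]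
  constructor
  · rintro ⟨u, hu⟩
    refine ⟨u, u.ne_zero, ?_⟩
    have h1 := congrArg (fun x : Fˣ => (x : F)) hu
    simp only [powMonoidHom_apply, Units.val_pow_eq_pow_val, Subgroup.coe_mul, Subgroup.coe_inv,
      Units.val_mul, Units.val_inv_eq_inv_val, Units.val_mk0] at h1
    rw [h1, mul_inv_cancel_left₀ hf]
  · rintro ⟨h, hh, rfl⟩
    refine ⟨Units.mk0 h hh, ?_⟩
    apply Units.ext
    simp only [powMonoidHom_apply, Units.val_pow_eq_pow_val, Subgroup.coe_mul, Subgroup.coe_inv,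
      Units.val_mul, Units.val_inv_eq_inv_val, Units.val_mk0]
    rw [inv_mul_cancel_left₀ hf]

theorem Sel.mk_congr {f g : F} {hf : f ≠ 0} {hf' : OrdDvd K l f} (h : f = g) :
    Sel.mk f hf hf' = Sel.mk g (h ▸ hf) (h ▸ hf') := by
  subst h; rfl

theorem Sel.mk_add {f g : F} {hf : f ≠ 0} {hg : g ≠ 0} {hf' : OrdDvd K l f}
    {hg' : OrdDvd K l g} : Sel.mk f hf hf' + Sel.mk g hg hg' =
      Sel.mk (f * g) (mul_ne_zero hf hg) (hf'.mul hf hg hg') := by
  have h1 : (⟨Units.mk0 (f * g) (mul_ne_zero hf hg), hf'.mul hf hg hg'⟩ : SelU K F l) =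
      ⟨Units.mk0 f hf, hf'⟩ * ⟨Units.mk0 g hg, hg'⟩ := Subtype.ext (Units.ext rfl)
  unfold Sel.mk
  rw [h1]
  rfl

theorem Sel.mk_one : Sel.mk (1 : F) one_ne_zero ordDvd_one = (0 : Sel K F l) := by
  have h1 : (⟨Units.mk0 (1 : F) one_ne_zero, ordDvd_one⟩ : SelU K F l) = 1 :=
    Subtype.ext (Units.ext rfl)
  unfold Sel.mk
  rw [h1]
  rfl

theorem Sel.mk_eq_zero_iff {f : F} {hf : f ≠ 0} {hf' : OrdDvd K l f} :
    Sel.mk f hf hf' = 0 ↔ ∃ h : F, f = h ^ l := by
  rw [← Sel.mk_one, eq_comm, Sel.mk_eq_iff]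
  constructor
  · rintro ⟨h, -, rfl⟩
    exact ⟨h, one_mul _⟩
  · rintro ⟨h, rfl⟩
    by_cases hh : h = 0
    · subst hh
      have hl : l = 0 := by
        by_contra hl
        exact hf (zero_pow hl)
      subst hl
      exact ⟨1, one_ne_zero, by simp⟩
    · exact ⟨h, hh, (one_mul _).symm⟩

theorem Sel.mk_sub_mk {f g : F} {hf : f ≠ 0} {hg : g ≠ 0} {hf' : OrdDvd K l f}
    {hg' : OrdDvd K l g} : Sel.mk f hf hf' - Sel.mk g hg hg' =
      Sel.mk (f * g⁻¹) (mul_ne_zero hf (inv_ne_zero hg)) (hf'.mul hf (inv_ne_zero hg) hg'.inv) := by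
  rw [sub_eq_iff_eq_add, Sel.mk_add]
  exact (Sel.mk_congr (by rw [inv_mul_cancel_right₀ hg])).symm

theorem OrdDvd.pow {f : F} (hf0 : f ≠ 0) (hf : OrdDvd K l f) (n : ℕ) : OrdDvd K l (f ^ n) := by
  induction n with
  | zero => rw [pow_zero]; exact ordDvd_one
  | succ n ih => rw [pow_succ]; exact ih.mul (pow_ne_zero n hf0) hf0 hf

theorem Sel.nsmul_mk {f : F} {hf : f ≠ 0} {hf' : OrdDvd K l f} (n : ℕ) :
    n • Sel.mk f hf hf' = Sel.mk (f ^ n) (pow_ne_zero n hf) (hf'.pow hf n) := by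
  induction n with
  | zero =>
    rw [zero_smul, ← Sel.mk_one]
    exact Sel.mk_congr (pow_zero f).symm
  | succ n ih =>
    rw [succ_nsmul, ih, Sel.mk_add]
    exact Sel.mk_congr (pow_succ f n).symm

theorem Sel.nsmul_eq_zero (x : Sel K F l) : l • x = 0 := by
  obtain ⟨f, hf, h, rfl⟩ := x.exists_mk
  rw [Sel.nsmul_mk, Sel.mk_eq_zero_iff]
  exact ⟨f, rfl⟩

end Generic

/-! ### Functoriality -/

section Map

variable {K F K' F' : Type*} [Field K] [Field F] [Algebra K F] [Field K'] [Field F']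
  [Algebra K' F'] {l : ℕ}

theorem monoidHom_ne_zero (T : F →* F') {f : F} (hf : f ≠ 0) : T f ≠ 0 := fun h => by
  have h1 := T.map_mul f f⁻¹
  rw [mul_inv_cancel₀ hf, map_one, h, zero_mul] at h1
  exact one_ne_zero h1

/-- The map induced on functions. -/
def SelU.map (T : F →* F') (hT : ∀ f : F, f ≠ 0 → OrdDvd K l f → OrdDvd K' l (T f)) :
    SelU K F l →* SelU K' F' l where
  toFun f := ⟨Units.map T f, hT (f : Fˣ) (f : Fˣ).ne_zero f.2⟩
  map_one' := Subtype.ext (map_one _)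
  map_mul' _ _ := Subtype.ext (map_mul _ _ _)

/-- The map induced by a multiplicative map of functions. -/
def Sel.map (T : F →* F') (hT : ∀ f : F, f ≠ 0 → OrdDvd K l f → OrdDvd K' l (T f)) :
    Sel K F l →+ Sel K' F' l :=
  MonoidHom.toAdditive (QuotientGroup.map (SelP K F l) (SelP K' F' l) (SelU.map T hT) (by
    rintro f ⟨u, hu⟩
    refine ⟨Units.map T u, ?_⟩
    show (Units.map T u) ^ l = Units.map T f
    rw [← map_pow]
    exact congrArg (Units.map T) hu))

theorem Sel.map_mk (T : F →* F') (hT : ∀ f : F, f ≠ 0 → OrdDvd K l f → OrdDvd K' l (T f))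
    {f : F} {hf : f ≠ 0} {hf' : OrdDvd K l f} :
    Sel.map T hT (Sel.mk f hf hf') = Sel.mk (T f) (monoidHom_ne_zero T hf) (hT f hf hf') := by
  have h1 : SelU.map T hT ⟨Units.mk0 f hf, hf'⟩ =
      ⟨Units.mk0 (T f) (monoidHom_ne_zero T hf), hT f hf hf'⟩ := Subtype.ext (Units.ext rfl)
  have h2 : Sel.map T hT (Sel.mk f hf hf') = Additive.ofMul (QuotientGroup.mk (s := SelP K' F' l)
      (SelU.map T hT ⟨Units.mk0 f hf, hf'⟩)) := rfl
  rw [h2, h1]
  rfl

end Map

/-! ### Semilinear action -/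

section Act

variable {K F : Type*} [Field K] [Field F] [Algebra K F] {l : ℕ}

theorem OrdDvd.smul {f : F} (hf : OrdDvd K l f) (g : SemilinearAut K F) :
    OrdDvd K l (g • f) := fun v => by
  have h1 := SemilinearAut.ord_smul g (g⁻¹ • v) f
  rw [smul_inv_smul] at h1
  rw [h1]
  exact hf _

/-- The map induced by a semilinear automorphism. -/
def Sel.actHom (g : SemilinearAut K F) : Sel K F l →+ Sel K F l :=
  Sel.map (MulSemiringAction.toRingHom _ F g : F →* F) fun _ _ h => h.smul g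

theorem Sel.actHom_mk (g : SemilinearAut K F) {f : F} {hf : f ≠ 0} {hf' : OrdDvd K l f} :
    Sel.actHom g (Sel.mk f hf hf' : Sel K F l) =
      Sel.mk (g • f) ((smul_ne_zero_iff_ne g).mpr hf) (hf'.smul g) := Sel.map_mk _ _

/-- Semilinear automorphisms act on `Sel`. -/
instance Sel.instAct : DistribMulAction (SemilinearAut K F) (Sel K F l) where
  smul g := Sel.actHom g
  one_smul x := by
    obtain ⟨f, hf, h, rfl⟩ := x.exists_mk
    refine (Sel.actHom_mk 1).trans ?_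
    exact Sel.mk_congr (one_smul _ f)
  mul_smul g g' x := by
    obtain ⟨f, hf, h, rfl⟩ := x.exists_mk
    refine (Sel.actHom_mk (g * g')).trans ?_
    refine Eq.trans ?_ (congrArg (Sel.actHom g) (Sel.actHom_mk g')).symm
    refine Eq.trans ?_ (Sel.actHom_mk g).symm
    exact Sel.mk_congr (mul_smul g g' f)
  smul_zero g := map_zero (Sel.actHom g)
  smul_add g := map_add (Sel.actHom g)

theorem Sel.smul_mk (g : SemilinearAut K F) {f : F} {hf : f ≠ 0} {hf' : OrdDvd K l f} :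
    g • (Sel.mk f hf hf' : Sel K F l) =
      Sel.mk (g • f) ((smul_ne_zero_iff_ne g).mpr hf) (hf'.smul g) := Sel.actHom_mk g

end Act

end Fermat.Agent.DS.X1
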