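import Mathlib
import Fermat.Agent.JAN.RelBasic
import Fermat.Agent.JAN.PlacesConst

/-!
# Forms with character on a subgroup `Γ` of `SL(2, ℤ)`

Port of `JAN/CharForm` and `JAN/PlacesConst` from `Γ₀(N)` to a general subgroup of finite index.
-/

set_option autoImplicit false
set_option linter.unusedSectionVars false

noncomputable section

open UpperHalfPlane CongruenceSubgroup ModularCurve FermatJ Filter
open scoped MatrixGroups ModularForm Manifold Topology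

namespace Fermat.Agent.DS.X1.Sel

open Fermat.Agent.JAN

/-- Holomorphic forms of weight `k` and character `χ` on `Γ`, bounded at all cusps. -/
structure IsCF (Γ : Subgroup SL(2, ℤ)) (k : ℤ) (χ : Γ →* ℂˣ) (E : ℍ → ℂ) : Prop where
  holo : MDiff E
  slash : ∀ γ : Γ, E ∣[k] (γ : SL(2, ℤ)) = (χ γ : ℂ) • E
  bdd : ∀ g : SL(2, ℤ), IsBoundedAtImInfty (E ∣[k] g)

namespace IsCF

variable {Γ : Subgroup SL(2, ℤ)} {k l : ℤ} {χ ψ : Γ →* ℂˣ} {E F : ℍ → ℂ}

theorem cast (hE : IsCF Γ k χ E) (h : k = l) : IsCF Γ l χ E := h ▸ hE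

theorem congr_char (hE : IsCF Γ k χ E) (h : χ = ψ) : IsCF Γ k ψ E := h ▸ hE

theorem one (Γ : Subgroup SL(2, ℤ)) : IsCF Γ 0 1 (1 : ℍ → ℂ) where
  holo := mdifferentiable_const
  slash γ := by
    funext τ
    rw [slash_apply_eq]
    simp
  bdd g := by
    have : (1 : ℍ → ℂ) ∣[(0 : ℤ)] g = 1 := by
      funext τ
      rw [slash_apply_eq]
      simp
    rw [this]
    exact Filter.const_boundedAtFilter _ _

theorem zero (Γ : Subgroup SL(2, ℤ)) (k : ℤ) (χ : Γ →* ℂˣ) : IsCF Γ k χ (0 : ℍ → ℂ) where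
  holo := mdifferentiable_const
  slash γ := by
    rw [SlashAction.zero_slash, smul_zero]
  bdd g := by
    rw [SlashAction.zero_slash]
    exact Filter.zero_zeroAtFilter _ |>.boundedAtFilter

theorem mul (hE : IsCF Γ k χ E) (hF : IsCF Γ l ψ F) :
    IsCF Γ (k + l) (χ * ψ) (E * F) where
  holo := hE.holo.mul hF.holo
  slash γ := by
    rw [ModularForm.mul_slash_SL2, hE.slash, hF.slash]
    funext τ
    simp only [Pi.mul_apply, Pi.smul_apply, smul_eq_mul, MonoidHom.mul_apply, Units.val_mul]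
    ring
  bdd g := by
    rw [ModularForm.mul_slash_SL2]
    exact (hE.bdd g).mul (hF.bdd g)

theorem mul_one' (hE : IsCF Γ k 1 E) (hF : IsCF Γ l 1 F) : IsCF Γ (k + l) 1 (E * F) :=
  (hE.mul hF).congr_char (by ext; simp)

theorem pow (hE : IsCF Γ k χ E) (n : ℕ) : IsCF Γ (n * k) (χ ^ n) (E ^ n) where
  holo := mdiff_pow hE.holo n
  slash γ := by
    rw [pow_slash, hE.slash]
    funext τ
    simp [mul_pow]
  bdd g := by
    rw [pow_slash]
    induction n with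
    | zero => rw [pow_zero]; exact Filter.const_boundedAtFilter _ _
    | succ n ih => rw [pow_succ]; exact ih.mul (hE.bdd g)

theorem smul (hE : IsCF Γ k χ E) (c : ℂ) : IsCF Γ k χ (c • E) where
  holo := hE.holo.const_smul c
  slash γ := by
    rw [ModularForm.SL_smul_slash, hE.slash, smul_comm]
  bdd g := by
    rw [ModularForm.SL_smul_slash]
    exact (hE.bdd g).smul c

theorem add (hE : IsCF Γ k χ E) (hF : IsCF Γ k χ F) : IsCF Γ k χ (E + F) where
  holo := hE.holo.add hF.holo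
  slash γ := by
    rw [SlashAction.add_slash, hE.slash, hF.slash, smul_add]
  bdd g := by
    rw [SlashAction.add_slash]
    exact (hE.bdd g).add (hF.bdd g)

theorem apply_smul (hE : IsCF Γ k χ E) (γ : Γ) (τ : ℍ) :
    E ((γ : SL(2, ℤ)) • τ) = (χ γ : ℂ) * denom (γ : SL(2, ℤ)) τ ^ k * E τ :=
  smul_apply_of_slash (hE.slash γ) τ

/-! ### relation with `ModularForm` -/

theorem of_modularForm [Γ.FiniteIndex] (f : ModularForm (Γ : Subgroup (GL (Fin 2) ℝ)) k) :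
    IsCF Γ k 1 f where
  holo := f.holo'
  slash γ := by
    rw [MonoidHom.one_apply, Units.val_one, one_smul]
    exact f.slash_action_eq' _ ⟨γ, γ.2, rfl⟩
  bdd g := ModularFormClass.bdd_at_infty_slash f g

/-- A form of trivial character as a `ModularForm`. -/
def toModularForm [Γ.FiniteIndex] (hE : IsCF Γ k 1 E) :
    ModularForm (Γ : Subgroup (GL (Fin 2) ℝ)) k where
  toFun := E
  slash_action_eq' := by
    rintro _ ⟨γ, hγ, rfl⟩
    have := hE.slash ⟨γ, hγ⟩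
    rwa [MonoidHom.one_apply, Units.val_one, one_smul] at this
  holo' := hE.holo
  bdd_at_cusps' := by
    intro c hc
    rw [Subgroup.IsArithmetic.isCusp_iff_isCusp_SL2Z] at hc
    rw [OnePoint.isBoundedAt_iff_forall_SL2Z hc]
    intro γ _
    exact hE.bdd γ

@[simp] theorem coe_toModularForm [Γ.FiniteIndex] (hE : IsCF Γ k 1 E) :
    ⇑hE.toModularForm = E := rfl

theorem slash_T (hT : ModularGroup.T ∈ Γ) (hE : IsCF Γ k 1 E) :
    E ∣[k] (ModularGroup.T ^ ((1 : ℕ) : ℤ) : SL(2, ℤ)) = E := by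
  have := hE.slash ⟨ModularGroup.T, hT⟩
  rw [MonoidHom.one_apply, Units.val_one, one_smul] at this
  simpa using this

theorem hasPS (hT : ModularGroup.T ∈ Γ) (hE : IsCF Γ k 1 E) :
    HasPS (qc 1) E (qExpansion 1 E) := by
  have h1 : IsBoundedAtImInfty E := by
    have := hE.bdd 1
    rwa [SlashAction.slash_one] at this
  have := hasPS_of_slash_T (hE.slash_T hT) hE.holo h1
  simpa using this

theorem hasExp (hT : ModularGroup.T ∈ Γ) (hE : IsCF Γ k 1 E) : HasExp (qc 1) E (MFF.LQ E) :=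
  HasExp.of_hasPS (hE.hasPS hT)

theorem exp_eq (hT : ModularGroup.T ∈ Γ) (hE : IsCF Γ k 1 E) {φ : LaurentSeries ℂ}
    (h : HasExp (qc 1) E φ) : φ = MFF.LQ E :=
  h.unique (eventually_mem_range_qc 1) (hE.hasExp hT)

theorem slash_conj (hE : IsCF Γ k χ E) {g t : SL(2, ℤ)} (hmem : g * t * g⁻¹ ∈ Γ) :
    (E ∣[k] g) ∣[k] t = (χ ⟨_, hmem⟩ : ℂ) • (E ∣[k] g) := by
  have h1 : (E ∣[k] g) ∣[k] t = (E ∣[k] (g * t * g⁻¹)) ∣[k] g := by
    rw [← SlashAction.slash_mul, ← SlashAction.slash_mul]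
    congr 1
    group
  have h2 := hE.slash ⟨_, hmem⟩
  rw [h1, h2, ModularForm.SL_smul_slash]

/-- Expansions of forms at the cusps where the character is trivial. -/
theorem hasPS_slash' (hE : IsCF Γ k χ E) {g : SL(2, ℤ)} {h : ℕ} [NeZero h]
    (hg : g * ModularGroup.T ^ h * g⁻¹ ∈ Γ) (hχ : χ ⟨_, hg⟩ = 1) :
    HasPS (qc h) (E ∣[k] g) (qExpansion h (E ∣[k] g)) := by
  refine hasPS_of_slash_T (k := k) ?_ (mdiff_slash hE.holo g) (hE.bdd g)
  have h2 := hE.slash_conj hg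
  rw [hχ, Units.val_one, one_smul] at h2
  rw [zpow_natCast]
  exact h2

theorem hasPS_slash (hE : IsCF Γ k 1 E) {g : SL(2, ℤ)} {h : ℕ} [NeZero h]
    (hg : g * ModularGroup.T ^ h * g⁻¹ ∈ Γ) :
    HasPS (qc h) (E ∣[k] g) (qExpansion h (E ∣[k] g)) :=
  hE.hasPS_slash' hg rfl

end IsCF

/-! ### Quotients of forms -/

/-- `f` is the quotient of the two forms `A`, `B` of trivial character. -/
structure IsQ (Γ : Subgroup SL(2, ℤ)) {L : Type*} [Field L] [Algebra L ℂ] (f : LaurentSeries L)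
    (k : ℤ) (A B : ℍ → ℂ) : Prop where
  num : IsCF Γ k 1 A
  den : IsCF Γ k 1 B
  den_ne : B ≠ 0
  exp : ∃ β, HasExp (qc 1) B β ∧ HasExp (qc 1) A (toC f * β)

section Quot

variable {L : Type*} [Field L] [Algebra L ℂ] {Γ : Subgroup SL(2, ℤ)} {k l : ℤ}
  {A B C D : ℍ → ℂ} {f g : LaurentSeries L}

theorem IsQ.mul (hf : IsQ Γ f k A B) (hg : IsQ Γ g l C D) :
    IsQ Γ (f * g) (k + l) (A * C) (B * D) := by
  obtain ⟨β, hβ, hα⟩ := hf.exp
  obtain ⟨δ, hδ, hγ⟩ := hg.exp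
  refine ⟨hf.num.mul_one' hg.num, hf.den.mul_one' hg.den,
    mdiff_mul_ne_zero hf.den.holo hg.den.holo hf.den_ne hg.den_ne, β * δ, hβ.mul hδ, ?_⟩
  have h1 : toC (f * g) * (β * δ) = (toC f * β) * (toC g * δ) := by
    rw [toC, map_mul]
    ring
  rw [h1]
  exact hα.mul hγ

theorem IsQ.add (hf : IsQ Γ f k A B) (hg : IsQ Γ g l C D) :
    IsQ Γ (f + g) (k + l) (A * D + B * C) (B * D) := by
  obtain ⟨β, hβ, hα⟩ := hf.exp
  obtain ⟨δ, hδ, hγ⟩ := hg.exp
  refine ⟨(hf.num.mul_one' hg.den).add (hf.den.mul_one' hg.num),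
    hf.den.mul_one' hg.den,
    mdiff_mul_ne_zero hf.den.holo hg.den.holo hf.den_ne hg.den_ne, β * δ, hβ.mul hδ, ?_⟩
  have h1 : toC (f + g) * (β * δ) = (toC f * β) * δ + β * (toC g * δ) := by
    rw [toC, map_add]
    ring
  rw [h1]
  exact (hα.mul hδ).add (hβ.mul hγ)

theorem IsQ.const (c : L) :
    IsQ Γ (HahnSeries.C c) 0 (algebraMap L ℂ c • (1 : ℍ → ℂ)) 1 := by
  refine ⟨(IsCF.one Γ).smul _, IsCF.one Γ, one_ne_zero, 1, HasExp.one _, ?_⟩
  have h1 : toC (HahnSeries.C c : LaurentSeries L) = HahnSeries.C (algebraMap L ℂ c) := by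
    rw [toC, HahnSeries.C_apply, coeffMap_single, HahnSeries.C_apply]
  rw [h1, mul_one]
  refine (HasExp.const (qc 1) (algebraMap L ℂ c)).congr fun τ => ?_
  simp

theorem IsQ.num_ne_zero (h : IsQ Γ f k A B) (hf : f ≠ 0) : A ≠ 0 := by
  obtain ⟨β, hβ, hα⟩ := h.exp
  rw [Ne, ← hasExp_qc_eq_zero_iff hα, mul_eq_zero, hasExp_qc_eq_zero_iff hβ]
  exact fun h' => h'.elim (toC_ne_zero hf) h.den_ne

/-- Two presentations of `f` as a quotient. -/
theorem IsQ.cross (hf : IsQ Γ f k A B) (hf' : IsQ Γ f l C D) : A * D = C * B := by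
  obtain ⟨β, hβ, hα⟩ := hf.exp
  obtain ⟨δ, hδ, hγ⟩ := hf'.exp
  refine eq_of_hasExp (hα.mul hδ) ?_
  have h1 : toC f * β * δ = (toC f * δ) * β := by ring
  rw [h1]
  exact hγ.mul hβ

theorem IsQ.inv (hf : IsQ Γ f k A B) (hf0 : f ≠ 0) : IsQ Γ f⁻¹ k B A := by
  obtain ⟨β, hβ, hα⟩ := hf.exp
  refine ⟨hf.den, hf.num, hf.num_ne_zero hf0, toC f * β, hα, ?_⟩
  have h1 : toC f⁻¹ * (toC f * β) = β := by
    rw [← mul_assoc, toC, toC, ← map_mul, inv_mul_cancel₀ hf0, map_one, one_mul]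
  rw [h1]
  exact hβ

end Quot

/-! ### Quotients without poles are constant -/

open PlacesConst in
/-- A quotient of two forms of the same weight without poles on `ℍ` and at the cusps is
constant. -/
theorem exists_const {Γ : Subgroup SL(2, ℤ)} [Γ.FiniteIndex] {k : ℤ} {A B : ℍ → ℂ}
    (hA : IsCF Γ k 1 A) (hB : IsCF Γ k 1 B) (hB0 : B ≠ 0)
    (hH : A ≠ 0 → ∀ τ, ordH B τ ≤ ordH A τ)
    (hc : A ≠ 0 → ∀ g : SL(2, ℤ), ∃ (h : ℕ) (_ : NeZero h),
      g * ModularGroup.T ^ h * g⁻¹ ∈ Γ ∧ ∀ P Q : PowerSeries ℂ,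
      HasPS (qc h) (A ∣[k] g) P → HasPS (qc h) (B ∣[k] g) Q → Q.order ≤ P.order) :
    ∃ c : ℂ, A = c • B := by
  by_cases hA0 : A = 0
  · exact ⟨0, by rw [hA0, zero_smul]⟩
  obtain ⟨C, hC, hABC⟩ := exists_div hA.holo hB.holo hA0 hB0 (hH hA0)
  have hslash : ∀ g : SL(2, ℤ), A ∣[k] g = (B ∣[k] g) * (C ∣[(0 : ℤ)] g) := fun g => by
    rw [← ModularForm.mul_slash_SL2, add_zero, ← hABC]
  have hCform : IsCF Γ 0 1 C := by
    refine ⟨hC, fun γ => ?_, fun g => ?_⟩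
    · have h1 := hslash γ
      have h2 := hA.slash γ
      have h3 := hB.slash γ
      rw [MonoidHom.one_apply, Units.val_one, one_smul] at h2 h3
      rw [h2, h3, hABC] at h1
      rw [MonoidHom.one_apply, Units.val_one, one_smul]
      exact (mdiff_mul_left_cancel hB.holo hC (mdiff_slash hC _) hB0 h1).symm
    · obtain ⟨h, _, hg, hgc⟩ := hc hA0 g
      have h1 := hA.hasPS_slash hg
      have h2 := hB.hasPS_slash hg
      refine isBounded_of_order_le h1 h2 ?_ (hgc _ _ h1 h2) (hslash g)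
      rw [Ne, hasPS_qc_eq_zero_iff h2]
      exact slash_ne_zero hB0 g
  obtain ⟨c, hc⟩ := ModularForm.eq_const_of_weight_zero hCform.toModularForm
  refine ⟨c, ?_⟩
  have h1 : C = Function.const ℍ c := hc
  rw [hABC, h1]
  funext τ
  simp [mul_comm]

/-- An element of the function field all of whose orders at analytic places are nonnegative is
constant. -/
theorem exists_eq_algebraMap {L : Type*} [Field L] [Algebra L ℂ] {Γ : Subgroup SL(2, ℤ)}
    [Γ.FiniteIndex] {k : ℤ}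
    {A B : ℍ → ℂ} {f : LaurentSeries L} (hf : IsQ Γ f k A B)
    (hH : A ≠ 0 → ∀ τ, ordH B τ ≤ ordH A τ)
    (hc : A ≠ 0 → ∀ g : SL(2, ℤ), ∃ (h : ℕ) (_ : NeZero h),
      g * ModularGroup.T ^ h * g⁻¹ ∈ Γ ∧ ∀ P Q : PowerSeries ℂ,
      HasPS (qc h) (A ∣[k] g) P → HasPS (qc h) (B ∣[k] g) Q → Q.order ≤ P.order) :
    ∃ c : L, f = HahnSeries.C c := by
  obtain ⟨c, hAB⟩ := exists_const hf.num hf.den hf.den_ne hH hc
  obtain ⟨β, hβ, hα⟩ := hf.exp
  have hβ0 : β ≠ 0 := by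
    rw [Ne, hasExp_qc_eq_zero_iff hβ]
    exact hf.den_ne
  have h1 : HasExp (qc 1) A (HahnSeries.C c * β) := by
    have := (HasExp.const (qc 1) c).mul hβ
    refine this.congr fun τ => ?_
    rw [hAB]
    rfl
  have h2 := hα.unique (eventually_mem_range_qc 1) h1
  have h3 : toC f = HahnSeries.C c := mul_right_cancel₀ hβ0 h2
  refine ⟨f.coeff 0, ?_⟩
  ext n
  have h4 : algebraMap L ℂ (f.coeff n) = (HahnSeries.C c : LaurentSeries ℂ).coeff n := by
    rw [← h3, coeffMap_coeff]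
  rcases eq_or_ne n 0 with rfl | hn
  · simp
  · rw [HahnSeries.C_apply, HahnSeries.coeff_single_of_ne hn] at h4 ⊢
    rwa [map_eq_zero] at h4

end Fermat.Agent.DS.X1.Sel
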