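import Mathlib
import Fermat.Agent.DS.X1.SelForm

/-!
# The character of an `n`-th root of a form on `Γ`

Port of `JAN/KummerChar`: `Γ` is a subgroup without elements of trace `-2, -1, 0, 1`, such as
`Γ₁(M)`, `M ≥ 5`.
-/

set_option autoImplicit false
set_option linter.unusedSectionVars false

noncomputable section

open UpperHalfPlane CongruenceSubgroup ModularCurve FermatJ Filter
open scoped MatrixGroups ModularForm Manifold Topology

namespace Fermat.Agent.DS.X1.Sel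

open Fermat.Agent.JAN

/-- Elements with `trace ^ 2 ≤ 4` have trace `2`. -/
def NoEll (Γ : Subgroup SL(2, ℤ)) : Prop :=
  ∀ γ ∈ Γ, ((γ : SL(2, ℤ)) : Matrix (Fin 2) (Fin 2) ℤ).trace ^ 2 ≤ 4 →
    ((γ : SL(2, ℤ)) : Matrix (Fin 2) (Fin 2) ℤ).trace = 2

/-- `χ` kills the elements with `trace ^ 2 ≤ 4`. -/
def Par {Γ : Subgroup SL(2, ℤ)} (χ : Γ →* ℂˣ) : Prop :=
  ∀ γ : Γ, ((γ : SL(2, ℤ)) : Matrix (Fin 2) (Fin 2) ℤ).trace ^ 2 ≤ 4 → χ γ = 1

/-- Divisibility of all local orders of `A / B` by `n`. -/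
structure LocDvd (Γ : Subgroup SL(2, ℤ)) (n : ℕ) (k : ℤ) (A B : ℍ → ℂ) : Prop where
  pt : ∀ τ : ℍ, (n : ℤ) ∣ (ordH A τ : ℤ) - ordH B τ
  cusp : ∀ (g : SL(2, ℤ)) (h : ℕ) [NeZero h], g * ModularGroup.T ^ h * g⁻¹ ∈ Γ →
    ∀ P Q : PowerSeries ℂ, HasPS (qc h) (A ∣[k] g) P → HasPS (qc h) (B ∣[k] g) Q →
      (n : ℤ) ∣ (P.order.toNat : ℤ) - Q.order.toNat

section Root

variable {Γ : Subgroup SL(2, ℤ)} {n : ℕ} {k : ℤ} {χ : Γ →* ℂˣ} {A B E : ℍ → ℂ}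

theorem pow_ne_zero_fun {B : ℍ → ℂ} (hB0 : B ≠ 0) (n : ℕ) : B ^ n ≠ 0 := by
  obtain ⟨τ, hτ⟩ := ne_zero_iff_exists.mp hB0
  exact ne_zero_iff_exists.mpr ⟨τ, pow_ne_zero n hτ⟩

theorem root_ne_zero (hn : n ≠ 0) (hA : MDiff A) (hB : MDiff B)
    (hA0 : A ≠ 0) (hB0 : B ≠ 0) (hpow : E ^ n = A * B ^ (n - 1)) : E ≠ 0 := by
  rintro rfl
  rw [zero_pow hn] at hpow
  exact mdiff_mul_ne_zero hA (mdiff_pow hB _) hA0 (pow_ne_zero_fun hB0 _) hpow.symm

/-- The character of the root is trivial on `g T ^ h g⁻¹`. -/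
theorem char_parabolic (hn : n ≠ 0) (hA : IsCF Γ k 1 A) (hB : IsCF Γ k 1 B)
    (hE : IsCF Γ k χ E) (hA0 : A ≠ 0) (hB0 : B ≠ 0) (hpow : E ^ n = A * B ^ (n - 1))
    (hχ : χ ^ n = 1) (hloc : LocDvd Γ n k A B) (g : SL(2, ℤ)) (h : ℕ) [NeZero h]
    (hmem : g * ModularGroup.T ^ h * g⁻¹ ∈ Γ) : χ ⟨_, hmem⟩ = 1 := by
  have hE0 := root_ne_zero hn hA.holo hB.holo hA0 hB0 hpow
  set ζ : ℂ := (χ ⟨_, hmem⟩ : ℂ) with hζ
  have hζn : ζ ^ n = 1 := by
    rw [hζ, ← Units.val_pow_eq_pow_val, ← MonoidHom.pow_apply, hχ]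
    simp
  have hu : ∀ τ : ℍ, (E ∣[k] g) ((h : ℝ) +ᵥ τ) = ζ * (E ∣[k] g) τ := by
    intro τ
    have h1 := congrFun (hE.slash_conj hmem) τ
    have h2 := slash_T_zpow (k := k) (E ∣[k] g) (h : ℤ) τ
    rw [zpow_natCast, Int.cast_natCast] at h2
    rw [← h2, h1]
    rfl
  have haP := hA.hasPS_slash hmem
  have hbP := hB.hasPS_slash hmem
  set P := qExpansion h (A ∣[k] g)
  set Q := qExpansion h (B ∣[k] g)
  have hP0 : P ≠ 0 := by
    rw [Ne, hasPS_qc_eq_zero_iff haP]; exact slash_ne_zero hA0 g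
  have hQ0 : Q ≠ 0 := by
    rw [Ne, hasPS_qc_eq_zero_iff hbP]; exact slash_ne_zero hB0 g
  have hdvd := hloc.cusp g h hmem P Q haP hbP
  obtain ⟨m, hm⟩ := hdvd
  -- the root is periodic of period `h * n`
  have hun : ∀ (i : ℕ) (τ : ℍ), (E ∣[k] g) (((h * i : ℕ) : ℝ) +ᵥ τ) = ζ ^ i * (E ∣[k] g) τ := by
    intro i
    induction i with
    | zero => intro τ; simp
    | succ i ih =>
      intro τ
      have h1 : (((h * (i + 1) : ℕ) : ℝ) +ᵥ τ) = ((h : ℝ) +ᵥ ((((h * i : ℕ) : ℝ)) +ᵥ τ) : ℍ) := by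
        rw [vadd_vadd]
        congr 1
        push_cast
        ring
      rw [h1, hu, ih, pow_succ]
      ring
  have : NeZero (h * n) := ⟨Nat.mul_ne_zero (NeZero.ne h) hn⟩
  have huP : HasPS (qc (h * n)) (E ∣[k] g) (qExpansion ((h * n : ℕ) : ℝ) (E ∣[k] g)) := by
    refine hasPS_of_bounded (fun τ => ?_) (mdiff_slash hE.holo g) (hE.bdd g)
    rw [hun n τ, hζn, one_mul]
  have hR0 : qExpansion ((h * n : ℕ) : ℝ) (E ∣[k] g) ≠ 0 := by
    rw [Ne, hasPS_qc_eq_zero_iff huP]; exact slash_ne_zero hE0 g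
  have ou := ordInf_of_hasPS huP hR0
  set r : ℝ := ((qExpansion ((h * n : ℕ) : ℝ) (E ∣[k] g)).order.toNat : ℝ) / ((h * n : ℕ) : ℝ) with hr
  have oa := ordInf_of_hasPS haP hP0
  have ob := ordInf_of_hasPS hbP hQ0
  have o1 := ou.pow n
  have o2 := oa.mul (ob.pow (n - 1))
  rw [← slash_root hn hpow g] at o2
  have h2 := o1.unique o2
  have hh0 : (h : ℝ) ≠ 0 := by exact_mod_cast NeZero.ne h
  have hn0 : (n : ℝ) ≠ 0 := by exact_mod_cast hn
  have hcast : ((n - 1 : ℕ) : ℝ) = (n : ℝ) - 1 := by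
    rw [Nat.cast_sub (Nat.one_le_iff_ne_zero.mpr hn)]
    simp
  have hmR : (P.order.toNat : ℝ) - Q.order.toNat = n * m := by exact_mod_cast hm
  have h3 : r * h = ((m + Q.order.toNat : ℤ) : ℝ) := by
    apply mul_left_cancel₀ hn0
    rw [hcast] at h2
    have h4 : (n : ℝ) * r * h = P.order.toNat + (n - 1) * Q.order.toNat := by
      rw [h2]
      field_simp
    push_cast
    rw [← mul_assoc, h4]
    linear_combination hmR
  have h5 := ou.translate hu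
  rw [h3] at h5
  have h6 : ζ = 1 := by
    rw [h5, Complex.exp_eq_one_iff]
    exact ⟨m + Q.order.toNat, by push_cast; ring⟩
  exact Units.ext h6

/-- Elements of trace `2` are conjugate to powers of `T`. -/
theorem exists_T_conj {γ : SL(2, ℤ)} (h : (γ : Matrix (Fin 2) (Fin 2) ℤ).trace = 2) :
    ∃ (g : SL(2, ℤ)) (m : ℤ), γ = g * ModularGroup.T ^ m * g⁻¹ := by
  obtain ⟨g, m, hm⟩ := exists_T_form γ (by rw [h]; norm_num)
  rcases hm with hm | hm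
  · exact ⟨g, m, hm⟩
  · exfalso
    have h1 : ((g * ModularGroup.T ^ m * g⁻¹ : SL(2, ℤ)) : Matrix (Fin 2) (Fin 2) ℤ).trace = 2 := by
      rw [Matrix.SpecialLinearGroup.coe_mul, Matrix.trace_mul_comm,
        ← Matrix.SpecialLinearGroup.coe_mul, inv_mul_cancel_left,
        ModularGroup.coe_T_zpow, Matrix.trace_fin_two]
      simp
    rw [hm, Matrix.SpecialLinearGroup.coe_mul, Matrix.SpecialLinearGroup.coe_neg,
      Matrix.SpecialLinearGroup.coe_one, neg_mul, one_mul, Matrix.trace_neg, h1] at h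
    norm_num at h

/-- A character trivial on `g T ^ h g⁻¹ ∈ Γ`, `h > 0`, kills the elements with `trace ^ 2 ≤ 4`. -/
theorem par_of_conj (hΓ : NoEll Γ)
    (H : ∀ (g : SL(2, ℤ)) (h : ℕ) [NeZero h] (hmem : g * ModularGroup.T ^ h * g⁻¹ ∈ Γ),
      χ ⟨_, hmem⟩ = 1) : Par χ := by
  intro γ hγ
  obtain ⟨g, m, hm⟩ := exists_T_conj (hΓ _ γ.2 hγ)
  have hmem : g * ModularGroup.T ^ m * g⁻¹ ∈ Γ := by
    rw [← hm]; exact γ.2
  have hT : χ ⟨_, hmem⟩ = 1 := by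
    rcases lt_trichotomy m 0 with hm0 | hm0 | hm0
    · obtain ⟨h, rfl⟩ : ∃ h : ℕ, m = -(h : ℤ) := ⟨m.natAbs, by omega⟩
      have hh : NeZero h := ⟨by rintro rfl; simp at hm0⟩
      have hinv : (g * ModularGroup.T ^ (-(h : ℤ)) * g⁻¹)⁻¹ = g * ModularGroup.T ^ h * g⁻¹ := by
        rw [zpow_neg, zpow_natCast]
        group
      have hmem' : g * ModularGroup.T ^ h * g⁻¹ ∈ Γ := by
        rw [← hinv]; exact inv_mem hmem
      have h1 := H g h hmem'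
      have h2 : (⟨_, hmem⟩ : Γ) = (⟨_, hmem'⟩ : Γ)⁻¹ := by
        apply Subtype.ext
        show _ = (g * ModularGroup.T ^ h * g⁻¹)⁻¹
        rw [← hinv, inv_inv]
      rw [h2, map_inv, h1, inv_one]
    · subst hm0
      have : (⟨_, hmem⟩ : Γ) = 1 := by
        apply Subtype.ext
        show g * ModularGroup.T ^ (0 : ℤ) * g⁻¹ = 1
        simp
      rw [this, map_one]
    · obtain ⟨h, rfl⟩ : ∃ h : ℕ, m = (h : ℤ) := ⟨m.natAbs, by omega⟩
      have hh : NeZero h := ⟨by rintro rfl; simp at hm0⟩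
      have hmem' : g * ModularGroup.T ^ h * g⁻¹ ∈ Γ := by
        rw [← zpow_natCast]; exact hmem
      have h1 := H g h hmem'
      rw [← h1]
      congr 1
      apply Subtype.ext
      show g * ModularGroup.T ^ (h : ℤ) * g⁻¹ = g * ModularGroup.T ^ h * g⁻¹
      rw [zpow_natCast]
  rw [← hT]
  congr 1
  exact Subtype.ext hm

/-- an `n`-th root of a form of weight `n k` and trivial character is a form of weight `k` with
character -/
theorem exists_char (hn : n ≠ 0) {G : ℍ → ℂ} (hG : IsCF Γ (n * k) 1 G)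
    (hE : MDiff E) (hE0 : E ≠ 0) (hpow : E ^ n = G) :
    ∃ χ : Γ →* ℂˣ, IsCF Γ k χ E ∧ χ ^ n = 1 := by
  have key : ∀ γ : Γ, ∃ ζ : ℂ, ζ ^ n = 1 ∧ E ∣[k] (γ : SL(2, ℤ)) = ζ • E := by
    intro γ
    refine eq_const_mul_of_pow_eq hn (mdiff_slash hE _) hE ?_
    rw [← pow_slash, hpow, hG.slash]
    simp
  choose ζ hζ1 hζ2 using key
  have hζ0 : ∀ γ, ζ γ ≠ 0 := by
    intro γ h0
    have := hζ1 γ
    rw [h0, zero_pow hn] at this
    exact zero_ne_one this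
  have hinj : ∀ a b : ℂ, a • E = b • E → a = b := by
    intro a b hab
    obtain ⟨τ, hτ⟩ := ne_zero_iff_exists.mp hE0
    have := congrFun hab τ
    simpa [hτ] using this
  let χ : Γ →* ℂˣ :=
    { toFun := fun γ => Units.mk0 (ζ γ) (hζ0 γ)
      map_one' := by
        apply Units.ext
        apply hinj
        show ζ 1 • E = (1 : ℂ) • E
        rw [← hζ2 1]
        simp
      map_mul' := by
        intro γ δ
        apply Units.ext
        apply hinj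
        show ζ (γ * δ) • E = (ζ γ * ζ δ) • E
        rw [← hζ2 (γ * δ), Subgroup.coe_mul, SlashAction.slash_mul, hζ2 γ,
          ModularForm.SL_smul_slash, hζ2 δ, smul_smul] }
  refine ⟨χ, ⟨hE, fun γ => hζ2 γ, fun g => ?_⟩, ?_⟩
  · apply bdd_of_pow_bdd hn
    rw [← pow_slash, hpow]
    exact hG.bdd g
  · ext γ
    show ζ γ ^ n = 1
    exact hζ1 γ

/-- **The root form**: the Kummer character of `A / B`. -/
theorem exists_root_form (hΓ : NoEll Γ) (hn : n ≠ 0) (hA : IsCF Γ k 1 A) (hB : IsCF Γ k 1 B)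
    (hA0 : A ≠ 0) (hB0 : B ≠ 0) (hloc : LocDvd Γ n k A B) :
    ∃ (χ : Γ →* ℂˣ) (E : ℍ → ℂ), IsCF Γ k χ E ∧ E ≠ 0 ∧ E ^ n = A * B ^ (n - 1) ∧
      χ ^ n = 1 ∧ Par χ := by
  have hB1 : B ^ (n - 1) ≠ 0 := pow_ne_zero_fun hB0 _
  have hB2 := mdiff_pow hB.holo (n - 1)
  have hG0 : A * B ^ (n - 1) ≠ 0 := mdiff_mul_ne_zero hA.holo hB2 hA0 hB1
  obtain ⟨E, hE, hpow⟩ := exists_root' hn (hA.holo.mul hB2) hG0 (by
    intro τ
    rw [ordH_mul hA.holo hB2 hA0 hB1, ordH_pow hB.holo]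
    obtain ⟨m, hm⟩ := hloc.pt τ
    have h4 : ((n - 1 : ℕ) : ℤ) = (n : ℤ) - 1 := by
      rw [Nat.cast_sub (Nat.one_le_iff_ne_zero.mpr hn)]
      simp
    have h5 : (n : ℤ) ∣ ((ordH A τ + (n - 1) * ordH B τ : ℕ) : ℤ) := by
      refine ⟨m + ordH B τ, ?_⟩
      rw [Nat.cast_add, Nat.cast_mul, h4]
      linear_combination hm
    exact_mod_cast h5)
  have hE0 := root_ne_zero hn hA.holo hB.holo hA0 hB0 hpow
  have hG : IsCF Γ (n * k) 1 (A * B ^ (n - 1)) := by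
    have h1 : (1 : Γ →* ℂˣ) * 1 ^ (n - 1) = 1 := by
      ext γ
      simp
    refine ((hA.mul (hB.pow (n - 1))).cast ?_).congr_char h1
    obtain ⟨m, rfl⟩ := Nat.exists_eq_succ_of_ne_zero hn
    rw [Nat.succ_sub_one]
    push_cast
    ring
  obtain ⟨χ, hχ, hχn⟩ := exists_char hn hG hE hE0 hpow
  exact ⟨χ, E, hχ, hE0, hpow, hχn, par_of_conj hΓ fun g h _ hmem =>
    char_parabolic hn hA hB hχ hA0 hB0 hpow hχn hloc g h hmem⟩

end Root

/-! ### `Γ₁(M)` -/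

theorem noEll_Gamma1 {M : ℕ} (hM : 5 ≤ M) : NoEll (Gamma1 M) := by
  intro γ hγ htr
  rw [Gamma1_mem] at hγ
  obtain ⟨h0, h1, -⟩ := hγ
  rw [Matrix.trace_fin_two] at htr ⊢
  have h2 : ((((γ : SL(2, ℤ)) 0 0 + (γ : SL(2, ℤ)) 1 1 - 2 : ℤ)) : ZMod M) = 0 := by
    push_cast
    rw [h0, h1]
    ring
  rw [ZMod.intCast_zmod_eq_zero_iff_dvd] at h2
  set t : ℤ := (γ : SL(2, ℤ)) 0 0 + (γ : SL(2, ℤ)) 1 1 with ht
  have h3 : t ≤ 2 := by nlinarith
  have h4 : -2 ≤ t := by nlinarith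
  by_contra h5
  have h6 : (M : ℤ) ≤ 2 - t := by
    have h7 : (M : ℤ) ∣ 2 - t := by
      have := (dvd_neg (a := (M : ℤ)) (b := t - 2)).mpr h2
      simpa using this
    exact Int.le_of_dvd (by omega) h7
  omega

theorem T_mem_Gamma1 (M : ℕ) : ModularGroup.T ∈ Gamma1 M := by
  rw [Gamma1_mem]
  simp [ModularGroup.coe_T]

end Fermat.Agent.DS.X1.Sel
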