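import Mathlib
import Fermat.Agent.DS.X1.SelChar

/-!
# The relation between functions and characters on `Γ`

`Rl Γ n χ f`: the Laurent series `f` is `(E / B) ^ n` on the upper half plane, `E` of character
`χ`, `B` of trivial character.
-/

set_option autoImplicit false
set_option linter.unusedSectionVars false

noncomputable section

open UpperHalfPlane CongruenceSubgroup ModularCurve FermatJ Filter AlgebraicCurve
open scoped MatrixGroups ModularForm Manifold Topology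

namespace Fermat.Agent.DS.X1.Sel

open Fermat.Agent.JAN

section Chi

variable {G : Type*} [Group G]

theorem ch_one_mul (χ : G →* ℂˣ) : 1 * χ = χ := by ext; simp

theorem ch_mul_one (χ : G →* ℂˣ) : χ * 1 = χ := by ext; simp

theorem ch_one_pow (m : ℕ) : (1 : G →* ℂˣ) ^ m = 1 := by ext; simp

theorem ch_pow_zero (χ : G →* ℂˣ) : χ ^ 0 = 1 := by ext; simp

theorem ch_pow_succ (χ : G →* ℂˣ) (m : ℕ) : χ ^ (m + 1) = χ ^ m * χ := by
  ext; simp [pow_succ]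

theorem ch_inv_eq (χ : G →* ℂˣ) {m : ℕ} (h : χ ^ (m + 1) = 1) : χ⁻¹ = χ ^ m := by
  ext γ
  have h1 := DFunLike.congr_fun h γ
  rw [MonoidHom.pow_apply, MonoidHom.one_apply, pow_succ] at h1
  have h2 : (χ γ)⁻¹ = χ γ ^ m := inv_eq_of_mul_eq_one_left h1
  show (((χ γ)⁻¹ : ℂˣ) : ℂ) = _
  rw [h2, MonoidHom.pow_apply]

theorem ch_mul_inv (χ : G →* ℂˣ) : χ * χ⁻¹ = 1 := by
  ext γ
  rw [MonoidHom.mul_apply, MonoidHom.inv_apply, mul_inv_cancel, MonoidHom.one_apply]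

end Chi

/-- `f = (E / B) ^ n` on the upper half plane, `E` of character `χ`, `B` of trivial character. -/
def Rl (Γ : Subgroup SL(2, ℤ)) (n : ℕ) {L : Type*} [Field L] [Algebra L ℂ] (χ : Γ →* ℂˣ)
    (f : LaurentSeries L) : Prop :=
  ∃ (k : ℤ) (B E : ℍ → ℂ) (β : LaurentSeries ℂ),
    IsCF Γ k 1 B ∧ IsCF Γ k χ E ∧ B ≠ 0 ∧ E ≠ 0 ∧
    HasExp (qc 1) B β ∧ HasExp (qc 1) (E ^ n) (toC f * β ^ n)

section Rel

variable {Γ : Subgroup SL(2, ℤ)} {n : ℕ} {L : Type*} [Field L] [Algebra L ℂ] {χ ψ : Γ →* ℂˣ}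
  {f g : LaurentSeries L}

theorem Rl.ne_zero (h : Rl Γ n χ f) : f ≠ 0 := by
  obtain ⟨k, B, E, β, hB, hE, hB0, hE0, hβ, hf⟩ := h
  rintro rfl
  rw [toC_zero, zero_mul] at hf
  exact pow_ne_zero_fun hE0 n ((hasExp_qc_eq_zero_iff hf).mp rfl)

theorem Rl.one : Rl Γ n 1 (1 : LaurentSeries L) := by
  refine ⟨0, 1, 1, 1, IsCF.one Γ, IsCF.one Γ, one_ne_zero, one_ne_zero,
    HasExp.one _, ?_⟩
  rw [toC_one, one_pow, one_pow, mul_one]
  exact HasExp.one _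

theorem Rl.mul (hf : Rl Γ n χ f) (hg : Rl Γ n ψ g) : Rl Γ n (χ * ψ) (f * g) := by
  obtain ⟨k, B, E, β, hB, hE, hB0, hE0, hβ, hf⟩ := hf
  obtain ⟨k', B', E', β', hB', hE', hB0', hE0', hβ', hg⟩ := hg
  refine ⟨k + k', B * B', E * E', β * β', (hB.mul hB').congr_char (ch_one_mul 1),
    hE.mul hE', mdiff_mul_ne_zero hB.holo hB'.holo hB0 hB0',
    mdiff_mul_ne_zero hE.holo hE'.holo hE0 hE0', hβ.mul hβ', ?_⟩
  have h1 := hf.mul hg
  rw [toC_mul, mul_pow, mul_pow]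
  rw [show toC f * toC g * (β ^ n * β' ^ n) = toC f * β ^ n * (toC g * β' ^ n) by ring]
  exact h1

/-- the character is unique -/
theorem Rl.char_unique (hn : n ≠ 0) (hf : Rl Γ n χ f) (hg : Rl Γ n ψ f) : χ = ψ := by
  obtain ⟨k, B, E, β, hB, hE, hB0, hE0, hβ, hf⟩ := hf
  obtain ⟨k', B', E', β', hB', hE', hB0', hE0', hβ', hg⟩ := hg
  have h1 : (E * B') ^ n = (E' * B) ^ n := by
    have h2 := hf.mul (hβ'.pow n)
    have h3 := hg.mul (hβ.pow n)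
    rw [show toC f * β' ^ n * β ^ n = toC f * β ^ n * β' ^ n by ring] at h3
    have h4 := eq_of_hasExp h2 h3
    rw [mul_pow, mul_pow]
    exact h4
  obtain ⟨ζ, hζ, h5⟩ := eq_const_mul_of_pow_eq hn (hE.holo.mul hB'.holo) (hE'.holo.mul hB.holo) h1
  have h6 : IsCF Γ (k + k') χ (E * B') := (hE.mul hB').congr_char (ch_mul_one χ)
  have h7 : IsCF Γ (k + k') ψ (E * B') := by
    rw [h5]
    exact (((hE'.mul hB).cast (add_comm _ _)).congr_char (ch_mul_one ψ)).smul ζ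
  obtain ⟨τ, hτ⟩ := ne_zero_iff_exists.mp (mdiff_mul_ne_zero hE.holo hB'.holo hE0 hB0')
  ext γ
  have h8 := (h6.slash γ).symm.trans (h7.slash γ)
  have h9 := congrFun h8 τ
  simp only [Pi.smul_apply, smul_eq_mul] at h9
  exact mul_right_cancel₀ hτ h9

theorem Rl.pow (hf : Rl Γ n χ f) (m : ℕ) : Rl Γ n (χ ^ m) (f ^ m) := by
  induction m with
  | zero => rw [ch_pow_zero, pow_zero]; exact Rl.one
  | succ m ih => rw [ch_pow_succ, pow_succ]; exact ih.mul hf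

theorem Rl.inv (hT : ModularGroup.T ∈ Γ) (hf : Rl Γ n χ f) {m : ℕ} (hm : m ≠ 0)
    (hχ : χ ^ m = 1) : Rl Γ n χ⁻¹ f⁻¹ := by
  have hf0 := hf.ne_zero
  obtain ⟨k, B, E, β, hB, hE, hB0, hE0, hβ, hf⟩ := hf
  obtain ⟨m, rfl⟩ := Nat.exists_eq_succ_of_ne_zero hm
  -- `f⁻¹ = (B E ^ m / E ^ (m + 1)) ^ n`
  have hχ' : χ⁻¹ = χ ^ m := ch_inv_eq χ hχ
  have hEm : IsCF Γ (m * k) (χ ^ m) (E ^ m) := hE.pow m
  have hEm1 : IsCF Γ ((m + 1 : ℕ) * k) 1 (E ^ (m + 1)) := (hE.pow (m + 1)).congr_char hχ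
  have hnum : IsCF Γ ((m + 1 : ℕ) * k) χ⁻¹ (B * E ^ m) := by
    refine ((hB.mul hEm).cast ?_).congr_char ?_
    · push_cast; ring
    · rw [ch_one_mul, hχ']
  have hexpE := hEm1.hasExp hT
  set ε := MFF.LQ (E ^ (m + 1)) with hε
  have hεn : ε ^ n = (toC f * β ^ n) ^ (m + 1) := by
    refine (hexpE.pow n).unique (eventually_mem_range_qc 1) ((hf.pow (m + 1)).congr fun τ => ?_)
    simp only [Pi.pow_apply]
    ring
  refine ⟨_, E ^ (m + 1), B * E ^ m, ε, hEm1, hnum, pow_ne_zero_fun hE0 _,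
    mdiff_mul_ne_zero hB.holo hEm.holo hB0 (pow_ne_zero_fun hE0 _), hexpE, ?_⟩
  have h1 : HasExp (qc 1) ((B * E ^ m) ^ n) (β ^ n * (toC f * β ^ n) ^ m) := by
    refine ((hβ.pow n).mul (hf.pow m)).congr fun τ => ?_
    simp only [Pi.pow_apply, Pi.mul_apply]
    ring
  rw [hεn, toC_inv]
  have hf0' : toC f ≠ 0 := toC_ne_zero hf0
  rw [pow_succ (toC f * β ^ n) m, show (toC f)⁻¹ * ((toC f * β ^ n) ^ m * (toC f * β ^ n)) =
    ((toC f)⁻¹ * toC f) * (β ^ n * (toC f * β ^ n) ^ m) by ring, inv_mul_cancel₀ hf0', one_mul]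
  exact h1

theorem Rl.div (hT : ModularGroup.T ∈ Γ) (hf : Rl Γ n χ f) (hg : Rl Γ n ψ g) {m : ℕ}
    (hm : m ≠ 0) (hψ : ψ ^ m = 1) : Rl Γ n (χ * ψ⁻¹) (f / g) := by
  rw [div_eq_mul_inv]
  exact hf.mul (hg.inv hT hm hψ)

/-! ### relation with quotients -/

/-- `E ^ n * B' = A * B ^ n`. -/
theorem Rl.mul_eq {k' : ℤ} {B E A B' : ℍ → ℂ} {β : LaurentSeries ℂ}
    (hβ : HasExp (qc 1) B β) (hf : HasExp (qc 1) (E ^ n) (toC f * β ^ n))
    (hq : IsQ Γ f k' A B') : E ^ n * B' = A * B ^ n := by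
  obtain ⟨β', hβ', hα⟩ := hq.exp
  have h1 := hf.mul hβ'
  have h2 := hα.mul (hβ.pow n)
  rw [show toC f * β' * β ^ n = toC f * β ^ n * β' by ring] at h2
  exact eq_of_hasExp h1 h2

/-- The character in the relation has order dividing `n` for `f` a quotient of forms. -/
theorem Rl.char_pow (hf : Rl Γ n χ f) {k' : ℤ} {A B' : ℍ → ℂ} (hq : IsQ Γ f k' A B') :
    χ ^ n = 1 := by
  have hf0 := hf.ne_zero
  obtain ⟨k, B, E, β, hB, hE, hB0, hE0, hβ, hf⟩ := hf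
  have h1 : E ^ n * B' = A * B ^ n := Rl.mul_eq hβ hf hq
  have h2 : IsCF Γ (n * k + k') (χ ^ n) (E ^ n * B') :=
    ((hE.pow n).mul hq.den).congr_char (ch_mul_one _)
  have h3 : IsCF Γ (n * k + k') 1 (E ^ n * B') := by
    rw [h1]
    refine ((hq.num.mul (hB.pow n)).cast (add_comm _ _)).congr_char ?_
    rw [ch_one_mul, ch_one_pow]
  obtain ⟨τ, hτ⟩ := ne_zero_iff_exists.mp
    (mdiff_mul_ne_zero (hE.pow n).holo hq.den.holo (pow_ne_zero_fun hE0 n) hq.den_ne)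
  ext γ
  have h8 := (h2.slash γ).symm.trans (h3.slash γ)
  have h9 := congrFun h8 τ
  simp only [Pi.smul_apply, smul_eq_mul] at h9
  exact mul_right_cancel₀ hτ h9

/-- (a) **The Kummer character** of a function whose divisor is divisible by `n`. -/
theorem exists_rl_of_locDvd (hΓ : NoEll Γ) (hn : n ≠ 0) (hf : f ≠ 0) {k : ℤ} {A B : ℍ → ℂ}
    (hq : IsQ Γ f k A B) (hloc : LocDvd Γ n k A B) :
    ∃ χ : Γ →* ℂˣ, χ ^ n = 1 ∧ Par χ ∧ Rl Γ n χ f := by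
  obtain ⟨χ, E, hE, hE0, hpow, hχn, hχ⟩ := exists_root_form hΓ hn hq.num hq.den
    (hq.num_ne_zero hf) hq.den_ne hloc
  refine ⟨χ, hχn, hχ, ?_⟩
  obtain ⟨β, hβ, hα⟩ := hq.exp
  refine ⟨k, B, E, β, hq.den, hE, hq.den_ne, hE0, hβ, ?_⟩
  rw [hpow]
  have h1 := hα.mul (hβ.pow (n - 1))
  rw [mul_assoc, ← pow_succ', Nat.sub_add_cancel (Nat.one_le_iff_ne_zero.mpr hn)] at h1
  exact h1

/-- `n`-th powers of nonzero functions are related to the trivial character. -/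
theorem Rl.pow_self {k : ℤ} {A B : ℍ → ℂ} (hf : f ≠ 0) (hq : IsQ Γ f k A B) (n : ℕ) :
    Rl Γ n 1 (f ^ n) := by
  obtain ⟨β, hβ, hα⟩ := hq.exp
  refine ⟨k, B, A, β, hq.den, hq.num, hq.den_ne, hq.num_ne_zero hf, hβ, ?_⟩
  rw [toC_pow, ← _root_.mul_pow]
  exact hα.pow n

/-- (b) Functions related to the trivial character are `n`-th powers. -/
theorem Rl.exists_root_one (hT : ModularGroup.T ∈ Γ) [IsAlgClosed L] (hn : n ≠ 0)
    (hf : Rl Γ n 1 f) : ∃ (h : LaurentSeries L) (k : ℤ) (A B : ℍ → ℂ), IsQ Γ h k A B ∧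
      f = h ^ n := by
  obtain ⟨k, B, E, β, hB, hE, hB0, hE0, hβ, hf⟩ := hf
  have hβ0 : β ≠ 0 := by rwa [Ne, hasExp_qc_eq_zero_iff hβ]
  have hε := hE.hasExp hT
  set ε := MFF.LQ E
  have h1 : ε ^ n = toC f * β ^ n :=
    (hε.pow n).unique (eventually_mem_range_qc 1) hf
  have h2 : (ε / β) ^ n = toC f := by
    rw [div_pow, h1, mul_div_cancel_right₀ _ (pow_ne_zero n hβ0)]
  obtain ⟨y, hy⟩ := exists_coeffs_of_pow hn h2
  have hq : IsQ Γ y k E B := ⟨hE, hB, hB0, β, hβ, by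
    rw [hy, div_mul_cancel₀ _ hβ0]
    exact hε⟩
  refine ⟨y, k, E, B, hq, toC_injective ?_⟩
  rw [toC_pow, hy, h2]

/-- (b) Functions with the same Kummer character differ by an `n`-th power. -/
theorem Rl.exists_root (hT : ModularGroup.T ∈ Γ) [IsAlgClosed L] (hn : n ≠ 0)
    (hf : Rl Γ n χ f) (hg : Rl Γ n χ g) {m : ℕ} (hm : m ≠ 0) (hχ : χ ^ m = 1) :
    ∃ (h : LaurentSeries L) (k : ℤ) (A B : ℍ → ℂ), IsQ Γ h k A B ∧ f = g * h ^ n := by
  have h1 := hf.div hT hg hm hχ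
  rw [ch_mul_inv] at h1
  obtain ⟨h, k, A, B, hq, he⟩ := h1.exists_root_one hT hn
  refine ⟨h, k, A, B, hq, ?_⟩
  rw [← he, mul_div_cancel₀ _ hg.ne_zero]

/-- Base change of the relation. -/
theorem rl_toC_iff : Rl Γ n χ (toC f) ↔ Rl Γ n χ f := by
  have h : toC (K := ℂ) (toC f) = toC f := by
    have : (algebraMap ℂ ℂ) = RingHom.id ℂ := rfl
    rw [toC, this, coeffMap_id]
  unfold Rl
  rw [h]

end Rel

end Fermat.Agent.DS.X1.Sel
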