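import Mathlib
import Fermat.Agent.DS.X1.SelRel
import Fermat.Agent.JAN.PlacesVal

/-!
# Analytic valuations of fields of quotients of forms on `Γ`

Port of `JAN/PlacesVal`.  If `F ⊆ L((q))` is a function field over an algebraically closed
`L ⊆ ℂ` all of whose elements are quotients of forms on `Γ`, then every place of `F` is given by
a point of the upper half plane or a cusp.
-/

set_option autoImplicit false
set_option linter.unusedSectionVars false

noncomputable section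

open UpperHalfPlane CongruenceSubgroup ModularCurve FermatJ Filter AlgebraicCurve
open scoped MatrixGroups ModularForm Manifold Topology

namespace Fermat.Agent.DS.X1.Sel

open Fermat.Agent.JAN Fermat.Agent.JAN.Orders

/-! ### Valuations of forms -/

/-- A valuation on forms of trivial character. -/
structure FVal (Γ : Subgroup SL(2, ℤ)) (ν : ℤ → (ℍ → ℂ) → ℤ) : Prop where
  mul : ∀ {k l : ℤ} {A B : ℍ → ℂ}, IsCF Γ k 1 A → IsCF Γ l 1 B → A ≠ 0 → B ≠ 0 →
    ν (k + l) (A * B) = ν k A + ν l B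
  add : ∀ {k : ℤ} {A B : ℍ → ℂ}, IsCF Γ k 1 A → IsCF Γ k 1 B → A ≠ 0 → B ≠ 0 →
    A + B ≠ 0 → min (ν k A) (ν k B) ≤ ν k (A + B)
  const : ∀ c : ℂ, c ≠ 0 → ν 0 (c • (1 : ℍ → ℂ)) = 0

/-- The value of a Laurent series, a quotient of forms, at a valuation of forms. -/
def vQ (Γ : Subgroup SL(2, ℤ)) {L : Type*} [Field L] [Algebra L ℂ] (ν : ℤ → (ℍ → ℂ) → ℤ)
    (f : LaurentSeries L) : ℤ :=
  open Classical in
  if h : ∃ (k : ℤ) (A B : ℍ → ℂ), IsQ Γ f k A B then
    ν h.choose h.choose_spec.choose - ν h.choose h.choose_spec.choose_spec.choose else 0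

section FVal

variable {L : Type*} [Field L] [Algebra L ℂ] {Γ : Subgroup SL(2, ℤ)} {k : ℤ} {A B : ℍ → ℂ}
  {f : LaurentSeries L} {ν : ℤ → (ℍ → ℂ) → ℤ}

theorem vQ_eq (hν : FVal Γ ν) (hf : IsQ Γ f k A B) (hf0 : f ≠ 0) :
    vQ Γ ν f = ν k A - ν k B := by
  have h : ∃ (k : ℤ) (A B : ℍ → ℂ), IsQ Γ f k A B := ⟨k, A, B, hf⟩
  unfold vQ
  rw [dif_pos h]
  have hq := h.choose_spec.choose_spec.choose_spec
  set l := h.choose
  set C := h.choose_spec.choose
  set D := h.choose_spec.choose_spec.choose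
  have hA0 := hf.num_ne_zero hf0
  have hC0 := hq.num_ne_zero hf0
  have h1 := hν.mul hf.num hq.den hA0 hq.den_ne
  have h2 := hν.mul hq.num hf.den hC0 hf.den_ne
  rw [hf.cross hq, add_comm k l] at h1
  have h3 := h1.symm.trans h2
  linarith

/-- The valuation of a field of quotients of forms. -/
theorem intVal_vQ (hν : FVal Γ ν) {F : Type*} [Field F] (ι : F →+* LaurentSeries L)
    (hF : ∀ f : F, ∃ (k : ℤ) (A B : ℍ → ℂ), IsQ Γ (ι f) k A B) :
    IntVal (fun f : F => vQ Γ ν (ι f)) where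
  mul x y hx hy := by
    obtain ⟨k, A, B, hxq⟩ := hF x
    obtain ⟨l, C, D, hyq⟩ := hF y
    have hx' : ι x ≠ 0 := (map_ne_zero ι).mpr hx
    have hy' : ι y ≠ 0 := (map_ne_zero ι).mpr hy
    have h1 := hxq.mul hyq
    rw [map_mul, vQ_eq hν h1 (mul_ne_zero hx' hy'), vQ_eq hν hxq hx', vQ_eq hν hyq hy',
      hν.mul hxq.num hyq.num (hxq.num_ne_zero hx') (hyq.num_ne_zero hy'),
      hν.mul hxq.den hyq.den hxq.den_ne hyq.den_ne]
    ring
  add x y hx hy hxy := by
    obtain ⟨k, A, B, hxq⟩ := hF x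
    obtain ⟨l, C, D, hyq⟩ := hF y
    have hx' : ι x ≠ 0 := (map_ne_zero ι).mpr hx
    have hy' : ι y ≠ 0 := (map_ne_zero ι).mpr hy
    have hxy' : ι x + ι y ≠ 0 := by
      rw [← map_add]
      exact (map_ne_zero ι).mpr hxy
    have h1 := hxq.add hyq
    have hA0 := hxq.num_ne_zero hx'
    have hC0 := hyq.num_ne_zero hy'
    have hAD := mdiff_mul_ne_zero hxq.num.holo hyq.den.holo hA0 hyq.den_ne
    have hBC := mdiff_mul_ne_zero hxq.den.holo hyq.num.holo hxq.den_ne hC0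
    have hsum := h1.num_ne_zero hxy'
    rw [map_add, vQ_eq hν h1 hxy', vQ_eq hν hxq hx', vQ_eq hν hyq hy',
      hν.mul hxq.den hyq.den hxq.den_ne hyq.den_ne]
    have h2 := hν.add (hxq.num.mul_one' hyq.den) (hxq.den.mul_one' hyq.num)
      hAD hBC hsum
    rw [hν.mul hxq.num hyq.den hA0 hyq.den_ne, hν.mul hxq.den hyq.num hxq.den_ne hC0] at h2
    omega

theorem vQ_const (hν : FVal Γ ν) {c : L} (hc : c ≠ 0) :
    vQ Γ ν (HahnSeries.C c : LaurentSeries L) = 0 := by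
  have h1 : (HahnSeries.C c : LaurentSeries L) ≠ 0 := by
    rwa [Ne, map_eq_zero]
  rw [vQ_eq hν (IsQ.const c) h1, hν.const _ (by rwa [Ne, map_eq_zero]),
    show (1 : ℍ → ℂ) = (1 : ℂ) • (1 : ℍ → ℂ) by rw [one_smul], hν.const _ one_ne_zero, sub_zero]

end FVal

/-! ### Points of the upper half plane -/

theorem fVal_pt (Γ : Subgroup SL(2, ℤ)) (τ : ℍ) : FVal Γ (PlacesVal.ptVal τ) where
  mul hA hB hA0 hB0 := by
    unfold PlacesVal.ptVal
    rw [PlacesVal.ordH_mul hA.holo hB.holo hA0 hB0]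
    push_cast
    rfl
  add hA hB hA0 hB0 hAB := by
    unfold PlacesVal.ptVal
    exact_mod_cast PlacesVal.ordH_add hA.holo hB.holo hA0 hB0 hAB τ
  const c hc := by
    unfold PlacesVal.ptVal
    rw [PlacesVal.ordH_smul (A := (1 : ℍ → ℂ)) mdifferentiable_const hc, PlacesVal.ordH_one]
    rfl

/-! ### Cusps -/

theorem cuspVal_eq' {Γ : Subgroup SL(2, ℤ)} {g : SL(2, ℤ)} {h : ℕ} [NeZero h]
    (hg : g * ModularGroup.T ^ h * g⁻¹ ∈ Γ) {k : ℤ} {A : ℍ → ℂ} (hA : IsCF Γ k 1 A)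
    {P : PowerSeries ℂ} (hP : HasPS (qc h) (A ∣[k] g) P) :
    PlacesVal.cuspVal g h k A = (P.order.toNat : ℤ) := by
  unfold PlacesVal.cuspVal
  rw [(hA.hasPS_slash hg).unique (eventually_mem_range_qc h) hP]

theorem fVal_cusp {Γ : Subgroup SL(2, ℤ)} {g : SL(2, ℤ)} {h : ℕ} [NeZero h]
    (hg : g * ModularGroup.T ^ h * g⁻¹ ∈ Γ) : FVal Γ (PlacesVal.cuspVal g h) where
  mul {k l A B} hA hB hA0 hB0 := by
    have h1 := hA.hasPS_slash hg
    have h2 := hB.hasPS_slash hg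
    have h3 : HasPS (qc h) ((A * B) ∣[k + l] g) (qExpansion h (A ∣[k] g) * qExpansion h (B ∣[l] g)) := by
      rw [ModularForm.mul_slash_SL2]
      exact h1.mul h2
    rw [cuspVal_eq' hg (hA.mul_one' hB) h3, cuspVal_eq' hg hA h1, cuspVal_eq' hg hB h2,
      PowerSeries.order_mul, ENat.toNat_add (PlacesVal.order_ne_top hA0 h1)
        (PlacesVal.order_ne_top hB0 h2)]
    push_cast
    rfl
  add {k A B} hA hB hA0 hB0 hAB := by
    have h1 := hA.hasPS_slash hg
    have h2 := hB.hasPS_slash hg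
    have h3 : HasPS (qc h) ((A + B) ∣[k] g) (qExpansion h (A ∣[k] g) + qExpansion h (B ∣[k] g)) := by
      rw [SlashAction.add_slash]
      exact h1.add h2
    rw [cuspVal_eq' hg (hA.add hB) h3, cuspVal_eq' hg hA h1, cuspVal_eq' hg hB h2]
    have h4 := PowerSeries.min_order_le_order_add (qExpansion h (A ∣[k] g)) (qExpansion h (B ∣[k] g))
    rw [← ENat.natCast_toNat (PlacesVal.order_ne_top hA0 h1),
      ← ENat.natCast_toNat (PlacesVal.order_ne_top hB0 h2),
      ← ENat.natCast_toNat (PlacesVal.order_ne_top hAB h3), min_le_iff] at h4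
    rw [min_le_iff]
    exact_mod_cast h4
  const c hc := by
    have h1 : HasPS (qc h) ((c • (1 : ℍ → ℂ)) ∣[(0 : ℤ)] g) (PowerSeries.C c) := by
      refine (HasPS.C (qc h) c).congr fun τ => ?_
      rw [slash_apply_eq]
      simp
    rw [cuspVal_eq' hg ((IsCF.one Γ).smul c) h1]
    have h2 : (PowerSeries.C c : PowerSeries ℂ).order = ((0 : ℕ) : ℕ∞) := by
      rw [PowerSeries.order_eq_nat]
      simpa using hc
    rw [h2]
    rfl

/-! ### Fields of quotients of forms -/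

section Field

variable {L : Type*} [Field L] [Algebra L ℂ] {Γ : Subgroup SL(2, ℤ)}
  {F : IntermediateField L (LaurentSeries L)}

variable (F Γ) in
/-- All the elements of `F` are quotients of forms on `Γ`. -/
def QF : Prop := ∀ f : F, ∃ (k : ℤ) (A B : ℍ → ℂ), IsQ Γ (f : LaurentSeries L) k A B

theorem intVal_F (hF : QF Γ F) {ν : ℤ → (ℍ → ℂ) → ℤ} (hν : FVal Γ ν) :
    IntVal (fun f : F => vQ Γ ν (f : LaurentSeries L)) :=
  intVal_vQ hν (algebraMap F (LaurentSeries L)) hF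

theorem coe_algebraMap_F (c : L) :
    ((algebraMap L F c : F) : LaurentSeries L) = HahnSeries.C c := by
  rw [HahnSeries.C_apply, ← algebraMap_laurentSeries_eq_single]
  rfl

theorem vQ_algebraMap {ν : ℤ → (ℍ → ℂ) → ℤ} (hν : FVal Γ ν) {c : L} (hc : c ≠ 0) :
    vQ Γ ν ((algebraMap L F c : F) : LaurentSeries L) = 0 := by
  rw [coe_algebraMap_F]
  exact vQ_const hν hc

/-- Divisibility of all orders at places implies divisibility for valuations of forms. -/
theorem dvd_vQ (hF : QF Γ F) {ν : ℤ → (ℍ → ℂ) → ℤ} (hν : FVal Γ ν) {n : ℤ} {f : F} (hf : f ≠ 0)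
    (hn : ∀ v : Place L F, n ∣ v.ord f) : n ∣ vQ Γ ν (f : LaurentSeries L) := by
  have h := (intVal_F hF hν).mul_dvd (K := L) (fun c hc => (vQ_algebraMap (F := F) hν hc).ge) hf hn
    (d := 1) (fun _ _ => one_dvd _)
  rwa [mul_one] at h

/-- A valuation of forms gives a multiple of the order at a place. -/
theorem exists_place_of_fVal (hF : QF Γ F) {ν : ℤ → (ℍ → ℂ) → ℤ} (hν : FVal Γ ν)
    (hnt : ∃ f : F, f ≠ 0 ∧ vQ Γ ν (f : LaurentSeries L) ≠ 0) :
    ∃ (v : Place L F) (e : ℕ), 0 < e ∧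
      ∀ f : F, f ≠ 0 → vQ Γ ν (f : LaurentSeries L) = e * v.ord f := by
  obtain ⟨v, e, he, -, h⟩ := (intVal_F hF hν).exists_place
    (fun c hc => (vQ_algebraMap (F := F) hν hc).ge) hnt
  exact ⟨v, e, he, h⟩

/-- **D1, local form.** -/
theorem locDvd (hF : QF Γ F) {n : ℕ} {f : F} (hf : f ≠ 0)
    (hv : ∀ v : Place L F, (n : ℤ) ∣ v.ord f) {k : ℤ} {A B : ℍ → ℂ}
    (h : IsQ Γ (f : LaurentSeries L) k A B) : LocDvd Γ n k A B where
  pt τ := by
    have hf0' : (f : LaurentSeries L) ≠ 0 := fun h => hf (Subtype.ext h)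
    have h1 := dvd_vQ hF (fVal_pt Γ τ) hf hv
    rw [vQ_eq (fVal_pt Γ τ) h hf0'] at h1
    exact h1
  cusp g h' _ hg P Q hP hQ := by
    have hf0' : (f : LaurentSeries L) ≠ 0 := fun h => hf (Subtype.ext h)
    have h1 := dvd_vQ hF (fVal_cusp hg) hf hv
    rw [vQ_eq (fVal_cusp hg) h hf0', cuspVal_eq' hg h.num hP, cuspVal_eq' hg h.den hQ] at h1
    exact h1

/-- `v` is a multiple of the valuation defined by `ν`. -/
def Hit (Γ : Subgroup SL(2, ℤ)) (ν : ℤ → (ℍ → ℂ) → ℤ) (v : Place L F) (e : ℕ) : Prop :=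
  0 < e ∧ ∀ f : F, f ≠ 0 → vQ Γ ν (f : LaurentSeries L) = e * v.ord f

/-- **Every place is analytic.** `W g` is any width for the cusp `g ∞`. -/
theorem exists_hit [IsAlgClosed L] [Γ.FiniteIndex] [RR.FunctionField L F] (hF : QF Γ F)
    (W : SL(2, ℤ) → ℕ) (hW0 : ∀ g, W g ≠ 0)
    (hW : ∀ g, g * ModularGroup.T ^ (W g) * g⁻¹ ∈ Γ) (v : Place L F) :
    (∃ (τ : ℍ) (e : ℕ), Hit Γ (PlacesVal.ptVal τ) v e) ∨
      (∃ (g : SL(2, ℤ)) (e : ℕ), Hit Γ (PlacesVal.cuspVal g (W g)) v e) := by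
  by_contra hcon
  rw [not_or] at hcon
  obtain ⟨hcon1, hcon2⟩ := hcon
  obtain ⟨f, hf0, hfv, hfw⟩ := RR.exists_single_pole (K := L) v
    (n := 2 * genusFF L F + 1) (by omega)
  have hf0' : (f : LaurentSeries L) ≠ 0 := fun h => hf0 (Subtype.ext h)
  -- all analytic values are nonnegative
  have key : ∀ ν : ℤ → (ℍ → ℂ) → ℤ, FVal Γ ν → (∀ e, ¬ Hit Γ ν v e) →
      0 ≤ vQ Γ ν (f : LaurentSeries L) := by
    intro ν hν hno
    by_cases hnt : ∃ f : F, f ≠ 0 ∧ vQ Γ ν (f : LaurentSeries L) ≠ 0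
    · obtain ⟨w, e, he, hw⟩ := exists_place_of_fVal hF hν hnt
      have hwv : w ≠ v := by
        rintro rfl
        exact hno e ⟨he, hw⟩
      rw [hw f hf0]
      exact mul_nonneg (Int.natCast_nonneg e) (hfw w hwv)
    · push Not at hnt
      rw [hnt f hf0]
  obtain ⟨k, A, B, hq⟩ := hF f
  have h1 : ∃ c : L, (f : LaurentSeries L) = HahnSeries.C c := by
    refine exists_eq_algebraMap hq ?_ ?_
    · intro _ τ
      have h2 := key (PlacesVal.ptVal τ) (fVal_pt Γ τ) fun e he => hcon1 ⟨τ, e, he⟩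
      rw [vQ_eq (fVal_pt Γ τ) hq hf0'] at h2
      unfold PlacesVal.ptVal at h2
      omega
    · intro hA0 g
      haveI : NeZero (W g) := ⟨hW0 g⟩
      refine ⟨W g, ⟨hW0 g⟩, hW g, fun P Q hP hQ => ?_⟩
      have hν := fVal_cusp (hW g)
      have h2 := key (PlacesVal.cuspVal g (W g)) hν fun e he => hcon2 ⟨g, e, he⟩
      rw [vQ_eq hν hq hf0', cuspVal_eq' (hW g) hq.num hP, cuspVal_eq' (hW g) hq.den hQ] at h2
      rw [← ENat.natCast_toNat (PlacesVal.order_ne_top hA0 hP),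
        ← ENat.natCast_toNat (PlacesVal.order_ne_top hq.den_ne hQ)]
      have h3 : Q.order.toNat ≤ P.order.toNat := by omega
      exact_mod_cast h3
  obtain ⟨c, hc⟩ := h1
  have h2 : f = algebraMap L F c := by
    apply Subtype.ext
    rw [hc, coe_algebraMap_F]
  rw [h2, Fermat.FF.ord_algebraMap] at hfv
  push_cast at hfv
  omega

end Field

end Fermat.Agent.DS.X1.Sel
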