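import Mathlib
import Fermat.Agent.DS.X1.SelVal
import Fermat.Agent.DS.X1.ApiBase
import Fermat.Agent.JAN.Places

/-!
# The places of `F1 L M` and functions attached to characters

* `qF_F1`, `mem_F1_of_isQ`: `F1 L M` is the field of quotients of forms on `Γ₁(M)`.
* `dvd_totient_of_hit`, `dvd_six_of_hit`: ramification of points and cusps.
* `exists_rl_of_dvd` (D1), `dvd_of_rl` (D2).
-/

set_option autoImplicit false
set_option linter.unusedSectionVars false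

noncomputable section

open UpperHalfPlane CongruenceSubgroup ModularCurve FermatJ Filter AlgebraicCurve
open scoped MatrixGroups ModularForm Manifold Topology

namespace Fermat.Agent.DS.X1.Sel

open Fermat.Agent.JAN Fermat.Agent.JAN.Orders

/-! ### Forms on `Γ₁(M)` -/

section Forms

variable {M : ℕ} [NeZero M] {k : ℤ} {A B : ℍ → ℂ}

theorem isMG_of_isCF (hA : IsCF (Gamma1 M) k 1 A) :
    IsMG (Gamma1 M : Subgroup (GL (Fin 2) ℝ)) k A := ⟨hA.toModularForm, rfl⟩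

theorem isCF_of_isMG (hA : IsMG (Gamma1 M : Subgroup (GL (Fin 2) ℝ)) k A) :
    IsCF (Gamma1 M) k 1 A := by
  obtain ⟨F, rfl⟩ := hA
  exact IsCF.of_modularForm F

theorem IsCF.hasExp1 (hA : IsCF (Gamma1 M) k 1 A) : HasExp (qc 1) A (MFF.LQ A) :=
  hA.hasExp (T_mem_Gamma1 M)

/-- The expansion of a form is in `MK ℂ M k`. -/
theorem LQ_mem_MK (hA : IsCF (Gamma1 M) k 1 A) : MFF.LQ A ∈ MK ℂ M k := by
  have h := (isMG_of_isCF hA).mem_VG
  have key : ∀ x : ℍ → ℂ, x ∈ VG (Gamma1 M : Subgroup (GL (Fin 2) ℝ)) k → MFF.LQ x ∈ MK ℂ M k := by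
    intro x hx
    induction hx using Submodule.span_induction with
    | mem x hx =>
      obtain ⟨hx1, hx2⟩ := hx
      obtain ⟨a, ha⟩ := hx2.exists_map
      refine Submodule.subset_span ⟨a, ⟨x, hx1, ha.symm⟩, ?_⟩
      rw [MFF.LQ, ← ha]
      rfl
    | zero =>
      have : MFF.LQ (0 : ℍ → ℂ) = 0 := by
        rw [MFF.LQ, UpperHalfPlane.qExpansion_zero, map_zero]
      rw [this]
      exact zero_mem _
    | add x y hx hy hx' hy' =>
      have : MFF.LQ (x + y) = MFF.LQ x + MFF.LQ y := by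
        rw [MFF.LQ, UpperHalfPlane.qExpansion_add (VG.isMG hx).anQ (VG.isMG hy).anQ, map_add]
        rfl
      rw [this]
      exact add_mem hx' hy'
    | smul c x hx hx' =>
      have : MFF.LQ (c • x) = c • MFF.LQ x := by
        rw [MFF.LQ, UpperHalfPlane.qExpansion_smul (VG.isMG hx).anQ]
        ext n
        rcases lt_or_ge n 0 with hn | hn
        · rw [HahnSeries.coeff_smul, MFF.LQ, ofPowerSeries_coeff_of_neg _ hn,
            ofPowerSeries_coeff_of_neg _ hn, smul_zero]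
        · lift n to ℕ using hn
          rw [HahnSeries.coeff_smul, MFF.LQ, HahnSeries.ofPowerSeries_apply_coeff,
            HahnSeries.ofPowerSeries_apply_coeff, PowerSeries.coeff_smul]
      rw [this]
      exact Submodule.smul_mem _ _ hx'
  exact key A h

/-- Elements of `MK L M k` are expansions of forms. -/
theorem exists_form_of_mem_MK {L : Type*} [Field L] [Algebra L ℂ] {x : LaurentSeries L}
    (hx : x ∈ MK L M k) : ∃ A : ℍ → ℂ, IsCF (Gamma1 M) k 1 A ∧ HasExp (qc 1) A (toC x) := by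
  induction hx using Submodule.span_induction with
  | mem x hx =>
    obtain ⟨F, ⟨A, hA, hAF⟩, rfl⟩ := hx
    have h1 := isCF_of_isMG hA
    refine ⟨A, h1, ?_⟩
    have h2 : toC (toK L F) = MFF.LQ A := by
      rw [MFF.LQ, hAF]
      exact coeffMap_toK (algebraMap L ℂ) F
    rw [h2]
    exact h1.hasExp1
  | zero => exact ⟨0, IsCF.zero _ _ _, by rw [toC_zero]; exact HasExp.zero _⟩
  | add x y _ _ hx hy =>
    obtain ⟨A, hA, hAx⟩ := hx
    obtain ⟨B, hB, hBy⟩ := hy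
    exact ⟨A + B, hA.add hB, by rw [toC_add]; exact hAx.add hBy⟩
  | smul c x _ hx =>
    obtain ⟨A, hA, hAx⟩ := hx
    refine ⟨algebraMap L ℂ c • A, hA.smul _, ?_⟩
    have h1 : toC (c • x) = HahnSeries.C (algebraMap L ℂ c) * toC x := by
      ext n
      rw [HahnSeries.C_mul_eq_smul, HahnSeries.coeff_smul]
      show algebraMap L ℂ ((c • x).coeff n) = _
      rw [HahnSeries.coeff_smul, smul_eq_mul, map_mul]
      rfl
    rw [h1]
    exact ((HasExp.const (qc 1) (algebraMap L ℂ c)).mul hAx)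

variable {L : Type*} [Field L] [Algebra L ℂ] {f : LaurentSeries L}

theorem exists_isQ_of_mem_F1 (hf : f ∈ F1 L M) :
    ∃ (k : ℤ) (A B : ℍ → ℂ), IsQ (Gamma1 M) f k A B := by
  obtain ⟨k, a, ha, b, hb, hb0, h⟩ := hf
  obtain ⟨A, hA, hAx⟩ := exists_form_of_mem_MK ha
  obtain ⟨B, hB, hBx⟩ := exists_form_of_mem_MK hb
  refine ⟨k, A, B, hA, hB, ?_, toC b, hBx, ?_⟩
  · rw [Ne, ← hasExp_qc_eq_zero_iff hBx]
    exact toC_ne_zero hb0
  · rw [← toC_mul, h]
    exact hAx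

theorem qF_F1 : QF (Gamma1 M) (F1 L M) := fun f => exists_isQ_of_mem_F1 f.2

/-- A quotient of forms on `Γ₁(M)` with coefficients in `L` is in `F1 L M`. -/
theorem mem_F1_of_isQ (hf : IsQ (Gamma1 M) f k A B) : f ∈ F1 L M := by
  obtain ⟨β, hβ, hα⟩ := hf.exp
  rw [← mem_F1_iff_coeffMap (K' := ℂ)]
  refine ⟨k, MFF.LQ A, LQ_mem_MK hf.num, MFF.LQ B, LQ_mem_MK hf.den, ?_, ?_⟩
  · rw [Ne, hasExp_qc_eq_zero_iff hf.den.hasExp1]
    exact hf.den_ne
  · rw [← hf.den.exp_eq (T_mem_Gamma1 M) hβ, ← hf.num.exp_eq (T_mem_Gamma1 M) hα]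

/-- forms on `Γ₀(M)` are forms on `Γ₁(M)` -/
theorem isCF_of_isCharForm (hA : IsCharForm M k 1 A) : IsCF (Gamma1 M) k 1 A where
  holo := hA.holo
  slash γ := by
    have h := hA.slash ⟨γ, Gamma1_in_Gamma0 M γ.2⟩
    rw [MonoidHom.one_apply, Units.val_one, one_smul] at h ⊢
    exact h
  bdd := hA.bdd

theorem isQ_of_isQuot (hf : IsQuot M f k A B) : IsQ (Gamma1 M) f k A B :=
  ⟨isCF_of_isCharForm hf.num, isCF_of_isCharForm hf.den, hf.den_ne, hf.exp⟩

end Forms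

/-! ### D1 -/

section D1

variable {M : ℕ} [NeZero M] {L : Type*} [Field L] [Algebra L ℂ]

/-- **D1.** A function all of whose orders are divisible by `n` comes from a character. -/
theorem exists_rl_of_dvd (hM : 5 ≤ M) {n : ℕ} (hn : n ≠ 0) {f : F1 L M} (hf : f ≠ 0)
    (hv : ∀ v : Place L (F1 L M), (n : ℤ) ∣ v.ord f) :
    ∃ χ : Gamma1 M →* ℂˣ, χ ^ n = 1 ∧ Par χ ∧ Rl (Gamma1 M) n χ (f : LaurentSeries L) := by
  obtain ⟨k, A, B, hq⟩ := qF_F1 f
  have hf' : (f : LaurentSeries L) ≠ 0 := fun h => hf (Subtype.ext h)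
  exact exists_rl_of_locDvd (noEll_Gamma1 hM) hn hf' hq (locDvd qF_F1 hf hv hq)

end D1

/-! ### The order at cusps in different coordinates -/

theorem order_mul_of_hasPS {u : ℍ → ℂ} {h h' : ℕ} [NeZero h] [NeZero h'] {P P' : PowerSeries ℂ}
    (hP : HasPS (qc h) u P) (hP' : HasPS (qc h') u P') (hu : u ≠ 0) :
    (P'.order.toNat : ℤ) * h = P.order.toNat * h' := by
  have hP0 : P ≠ 0 := by rw [Ne, hasPS_qc_eq_zero_iff hP]; exact hu
  have hP0' : P' ≠ 0 := by rw [Ne, hasPS_qc_eq_zero_iff hP']; exact hu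
  have h1 := (ordInf_of_hasPS hP hP0).unique (ordInf_of_hasPS hP' hP0')
  have hh : (h : ℝ) ≠ 0 := by exact_mod_cast NeZero.ne h
  have hh' : (h' : ℝ) ≠ 0 := by exact_mod_cast NeZero.ne h'
  rw [div_eq_div_iff hh hh'] at h1
  exact_mod_cast h1.symm

/-! ### Ramification at the cusps -/

section Cusp

variable {M : ℕ}

theorem pow_totient_mem {γ : SL(2, ℤ)} (hγ : γ ∈ Gamma0 M) : γ ^ (Nat.totient M) ∈ Gamma1 M := by
  have hdet : ((γ 0 0 : ℤ) : ZMod M) * ((γ 1 1 : ℤ) : ZMod M) = 1 := by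
    have h1 := γ.det_coe
    rw [Matrix.det_fin_two] at h1
    have h2 := congrArg (fun z : ℤ => (z : ZMod M)) h1
    have h3 : ((γ 1 0 : ℤ) : ZMod M) = 0 := Gamma0_mem.mp hγ
    simpa [h3] using h2
  have key : ∀ n : ℕ, (γ ^ n : SL(2, ℤ)) ∈ Gamma0 M ∧
      (((γ ^ n : SL(2, ℤ)) 0 0 : ℤ) : ZMod M) = ((γ 0 0 : ℤ) : ZMod M) ^ n ∧
      (((γ ^ n : SL(2, ℤ)) 1 1 : ℤ) : ZMod M) = ((γ 1 1 : ℤ) : ZMod M) ^ n := by
    intro n
    induction n with
    | zero => exact ⟨one_mem _, by simp, by simp⟩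
    | succ n ih =>
      obtain ⟨h1, h2, h3⟩ := ih
      have h1' : (((γ ^ n : SL(2, ℤ)) 1 0 : ℤ) : ZMod M) = 0 := Gamma0_mem.mp h1
      have h4 : ((γ 1 0 : ℤ) : ZMod M) = 0 := Gamma0_mem.mp hγ
      refine ⟨pow_mem hγ _, ?_, ?_⟩
      · have : (γ ^ (n + 1) : SL(2, ℤ)) 0 0 = (γ ^ n) 0 0 * γ 0 0 + (γ ^ n) 0 1 * γ 1 0 := by
          rw [pow_succ]
          show ((γ ^ n * γ : SL(2, ℤ)) : Matrix (Fin 2) (Fin 2) ℤ) 0 0 = _
          rw [Matrix.SpecialLinearGroup.coe_mul, Matrix.mul_apply, Fin.sum_univ_two]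
        rw [this]
        push_cast
        rw [h4, h2, mul_zero, add_zero, pow_succ]
      · have : (γ ^ (n + 1) : SL(2, ℤ)) 1 1 = (γ ^ n) 1 0 * γ 0 1 + (γ ^ n) 1 1 * γ 1 1 := by
          rw [pow_succ]
          show ((γ ^ n * γ : SL(2, ℤ)) : Matrix (Fin 2) (Fin 2) ℤ) 1 1 = _
          rw [Matrix.SpecialLinearGroup.coe_mul, Matrix.mul_apply, Fin.sum_univ_two]
        rw [this]
        push_cast
        rw [h1', h3, zero_mul, zero_add, pow_succ]
  obtain ⟨h1, h2, h3⟩ := key (Nat.totient M)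
  have hu : ∀ x y : ZMod M, x * y = 1 → x ^ Nat.totient M = 1 := by
    intro x y hxy
    have h5 := ZMod.pow_totient (Units.mkOfMulEqOne x y hxy)
    exact congrArg (fun u : (ZMod M)ˣ => (u : ZMod M)) h5
  rw [Gamma1_mem]
  refine ⟨?_, ?_, Gamma0_mem.mp h1⟩
  · rw [h2]; exact hu _ _ hdet
  · rw [h3]; exact hu _ _ (by rw [mul_comm]; exact hdet)

open PlacesCusp in
theorem conj_T_mem_Gamma1 (g : SL(2, ℤ)) :
    g * ModularGroup.T ^ (wid M g * Nat.totient M) * g⁻¹ ∈ Gamma1 M := by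
  have h := pow_totient_mem (wid_mem (N := M) g)
  rw [conj_pow] at h
  rwa [pow_mul]

variable [NeZero M] {L : Type*} [Field L] [Algebra ℚ L] [Algebra L ℂ]

open PlacesCusp PlacesVal PlacesExact in
/-- There is a function on `X₀(M)` of order one at a given cusp. -/
theorem exists_valQ_eq_one (L : Type*) [Field L] [Algebra ℚ L] [Algebra L ℂ] (g : SL(2, ℤ)) :
    ∃ x : FN L M, x ≠ 0 ∧ valQ M (cuspVal g (wid M g)) (x : LaurentSeries L) = 1 := by
  haveI : NeZero (wid M g) := ⟨wid_ne_zero g⟩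
  have hne : jd L 1 (one_dvd M) ≠ 0 := by
    have h1 := jd_sub_ne_zero (one_dvd M) (0 : L)
    rwa [map_zero, sub_zero] at h1
  have h2 := valQ_jd_mul (L := L) (one_dvd M) g
  have h3 : cA 1 g = 1 := Nat.dvd_one.mp (cA_dvd g)
  have h4 : cD 1 g = 1 := by rw [cD, h3]
  rw [h3, h4] at h2
  have h5 : valQ M (cuspVal g (wid M g)) ((jd L 1 (one_dvd M) : FN L M) : LaurentSeries L) ≠ 0 := by
    intro h0
    rw [h0] at h2
    have h6 : (wid M g : ℤ) ≠ 0 := by exact_mod_cast wid_ne_zero (N := M) g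
    push_cast at h2
    omega
  obtain ⟨v, e, he, hv⟩ := exists_place_of_formVal (L := L)
    (formVal_cuspVal (wid_mem (N := M) g)) ⟨_, hne, h5⟩
  have he1 : e = 1 := eq_one_of_hits ⟨he, hv⟩
  obtain ⟨x, hx⟩ := Fermat.FF.exists_ord_eq_one v
  have hx0 : x ≠ 0 := Fermat.FF.ne_zero_of_ord_ne_zero v (by rw [hx]; exact one_ne_zero)
  refine ⟨x, hx0, ?_⟩
  rw [hv x hx0, he1, hx]
  norm_num

open PlacesCusp PlacesVal PlacesExact in
/-- **Ramification at the cusps** divides `φ(M)`. -/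
theorem dvd_totient_of_hit {v : Place L (F1 L M)} {g : SL(2, ℤ)} {e : ℕ}
    (h : Hit (Gamma1 M) (cuspVal g (wid M g * Nat.totient M)) v e) : e ∣ Nat.totient M := by
  haveI : NeZero (wid M g) := ⟨wid_ne_zero g⟩
  have hφ : Nat.totient M ≠ 0 := (Nat.totient_pos.mpr (Nat.pos_of_ne_zero (NeZero.ne M))).ne'
  haveI : NeZero (Nat.totient M) := ⟨hφ⟩
  haveI : NeZero (wid M g * Nat.totient M) := ⟨Nat.mul_ne_zero (NeZero.ne _) hφ⟩
  obtain ⟨x, hx0, hx⟩ := exists_valQ_eq_one (M := M) L g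
  have hx0' : (x : LaurentSeries L) ≠ 0 := fun h => hx0 (Subtype.ext h)
  obtain ⟨k, A, B, hq⟩ := PlacesVal.exists_isQuot x
  have hq' := isQ_of_isQuot hq
  have hmem : (x : LaurentSeries L) ∈ F1 L M := mem_F1_of_isQ hq'
  have hA0 := hq'.num_ne_zero hx0'
  have h1 := h.2 ⟨_, hmem⟩ (fun h => hx0' (congrArg Subtype.val h))
  change vQ (Gamma1 M) (cuspVal g (wid M g * Nat.totient M)) (x : LaurentSeries L) = _ at h1
  have hg := conj_T_mem_Gamma1 (M := M) g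
  rw [vQ_eq (fVal_cusp hg) hq' hx0', cuspVal_eq' hg hq'.num (hq'.num.hasPS_slash hg),
    cuspVal_eq' hg hq'.den (hq'.den.hasPS_slash hg)] at h1
  rw [valQ_eq (formVal_cuspVal (wid_mem g)) hq hx0',
    cuspVal_eq (wid_mem g) hq.num (PlacesConst.hasPS_slash hq.num (wid_mem g)),
    cuspVal_eq (wid_mem g) hq.den (PlacesConst.hasPS_slash hq.den (wid_mem g))] at hx
  have h2 := order_mul_of_hasPS (PlacesConst.hasPS_slash hq.num (wid_mem g))
    (hq'.num.hasPS_slash hg) (slash_ne_zero hA0 g)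
  have h3 := order_mul_of_hasPS (PlacesConst.hasPS_slash hq.den (wid_mem g))
    (hq'.den.hasPS_slash hg) (slash_ne_zero hq.den_ne g)
  have hw : (wid M g : ℤ) ≠ 0 := by exact_mod_cast wid_ne_zero (N := M) g
  have h4 : (Nat.totient M : ℤ) = e * v.ord (⟨(x : LaurentSeries L), hmem⟩ : F1 L M) := by
    rw [← h1]
    apply mul_right_cancel₀ hw
    rw [Nat.cast_mul (α := ℤ)] at h2 h3
    linear_combination h3 - h2 - (wid M g : ℤ) * (Nat.totient M) * hx
  have h5 : (e : ℤ) ∣ (Nat.totient M : ℤ) := ⟨_, h4⟩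
  exact_mod_cast h5

end Cusp

/-! ### Ramification at the points -/

section Point

variable {M : ℕ} [NeZero M] {L : Type*} [Field L] [Algebra ℚ L] [Algebra L ℂ]

open PlacesVal PlacesExact ModularForm in
/-- **Ramification at the points**: `e = 1, 2, 3`. -/
theorem le_three_of_hit [IsAlgClosed L] [RR.FunctionField L (F1 L M)] {v : Place L (F1 L M)}
    {τ : ℍ} {e : ℕ} (h : Hit (Gamma1 M) (ptVal τ) v e) : e = 1 ∨ e = 2 ∨ e = 3 := by
  have he : (0 : ℤ) < e := by exact_mod_cast h.1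
  -- `j - c`
  have hq : ∀ c : L, IsQ (Gamma1 M)
      ((jd L 1 (one_dvd M) - algebraMap L (FN L M) c : FN L M) : LaurentSeries L) 12
      (fun τ => PlacesExact.jNum (algebraMap L ℂ c) (heckeDiagMatrix 1 • τ)) (MFF.liftMod (one_dvd M) MFF.Delta) :=
    fun c => isQ_of_isQuot (isQuot_jd_sub (one_dvd M) c)
  have hne : ∀ c : L,
      ((jd L 1 (one_dvd M) - algebraMap L (FN L M) c : FN L M) : LaurentSeries L) ≠ 0 :=
    fun c h => jd_sub_ne_zero (one_dvd M) c (Subtype.ext h)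
  set J : L → F1 L M := fun c => ⟨_, mem_F1_of_isQ (hq c)⟩ with hJ
  have hJ0 : ∀ c, J c ≠ 0 := fun c h => hne c (congrArg Subtype.val h)
  have hval : ∀ c : L, vQ (Gamma1 M) (ptVal τ) (J c : LaurentSeries L) =
      ordH (PlacesExact.jNum (algebraMap L ℂ c)) (heckeDiagMatrix 1 • τ) := by
    intro c
    rw [vQ_eq (fVal_pt _ τ) (hq c) (hne c)]
    unfold ptVal
    rw [ordH_liftMod_Delta, ordH_comp_mul]
    simp
  have hsub : ∀ c : L, J c = J 0 - algebraMap L (F1 L M) c := by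
    intro c
    apply Subtype.ext
    show ((jd L 1 (one_dvd M) - algebraMap L (FN L M) c : FN L M) : LaurentSeries L) =
      ((jd L 1 (one_dvd M) - algebraMap L (FN L M) 0 : FN L M) : LaurentSeries L) -
        ((algebraMap L (F1 L M) c : F1 L M) : LaurentSeries L)
    rw [map_zero, sub_zero, coe_algebraMap_F, ← coe_algebraMap_FN (N := M) c]
    rfl
  have h1 : 0 ≤ v.ord (J 0) := by
    have h2 := h.2 _ (hJ0 0)
    rw [hval] at h2
    have h4 : 0 ≤ (e : ℤ) * v.ord (J 0) := by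
      rw [← h2]
      exact Int.natCast_nonneg _
    exact nonneg_of_mul_nonneg_right h4 he
  haveI : Fermat.FF.IsFF1 L (F1 L M) := ⟨RR.FunctionField.exists_finite⟩
  obtain ⟨c, hc⟩ := Fermat.FF.exists_const_of_mem v ((Fermat.FF.mem_iff_ord v (hJ0 0)).mpr h1)
  rw [← hsub c] at hc
  have h2 := Fermat.FF.ord_pos_of_val_lt_one v (hJ0 c) hc
  have h3 := h.2 _ (hJ0 c)
  rw [hval] at h3
  have hpos : (0 : ℤ) < e * v.ord (J c) := mul_pos he h2
  rw [← h3] at hpos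
  have hpos' : 0 < ordH (PlacesExact.jNum (algebraMap L ℂ c)) (heckeDiagMatrix 1 • τ) := by exact_mod_cast hpos
  have hA0 : PlacesExact.jNum (algebraMap L ℂ c) ≠ 0 := by
    intro h0
    have h4 := (hq c).num_ne_zero (hne c)
    apply h4
    funext σ
    rw [h0]
    rfl
  have h5 := (ordH_pos_iff (mdiff_jNum _) hA0).mp hpos'
  have h6 : (e : ℤ) ∣ (ordH (PlacesExact.jNum (algebraMap L ℂ c)) (heckeDiagMatrix 1 • τ) : ℤ) := by
    rw [h3]
    exact dvd_mul_right _ _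
  rcases dvd_ordH_jNum h5 (by exact_mod_cast h6) with h7 | ⟨h7, -⟩ | ⟨h7, -⟩
  · exact Or.inl h7
  · exact Or.inr (Or.inr h7)
  · exact Or.inr (Or.inl h7)

end Point

/-! ### D2 -/

section D2

variable {M : ℕ} [NeZero M] {L : Type*} [Field L] [Algebra ℚ L] [Algebra L ℂ] [IsAlgClosed L]

theorem trace_conj_T (g : SL(2, ℤ)) (h : ℕ) :
    ((g * ModularGroup.T ^ h * g⁻¹ : SL(2, ℤ)) : Matrix (Fin 2) (Fin 2) ℤ).trace ^ 2 ≤ 4 := by
  rw [Places.trace_conj_T_pow]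
  norm_num

open PlacesVal in
/-- **D2.** A function attached to a character killing the parabolic elements has all its orders
divisible by `ℓ`. -/
theorem dvd_of_rl [RR.FunctionField L (F1 L M)] {ℓ : ℕ} (hℓ : ℓ.Prime) (hℓ5 : 5 ≤ ℓ)
    (hφ : ¬ ℓ ∣ Nat.totient M) {χ : Gamma1 M →* ℂˣ} (hχ : Par χ) {f : F1 L M}
    (hf : Rl (Gamma1 M) ℓ χ (f : LaurentSeries L)) (v : Place L (F1 L M)) :
    (ℓ : ℤ) ∣ v.ord f := by
  have hf0' := hf.ne_zero
  have hf0 : f ≠ 0 := fun h => hf0' (by rw [h]; rfl)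
  obtain ⟨k0, A0, B0, hq0⟩ := qF_F1 f
  have hχℓ := hf.char_pow hq0
  obtain ⟨k, B, E, β, hB, hE, hB0, hE0, hβ, hexp⟩ := hf
  have hq : IsQ (Gamma1 M) (f : LaurentSeries L) (ℓ * k) (E ^ ℓ) (B ^ ℓ) :=
    ⟨(hE.pow ℓ).congr_char hχℓ, (hB.pow ℓ).congr_char (ch_one_pow ℓ), pow_ne_zero_fun hB0 ℓ, β ^ ℓ,
      hβ.pow ℓ, hexp⟩
  have hφ0 : Nat.totient M ≠ 0 := (Nat.totient_pos.mpr (Nat.pos_of_ne_zero (NeZero.ne M))).ne'
  have hcop : ∀ e : ℕ, ¬ ℓ ∣ e → (ℓ : ℤ) ∣ e * v.ord f → (ℓ : ℤ) ∣ v.ord f := by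
    intro e he h
    refine ((Nat.prime_iff_prime_int.mp hℓ).dvd_or_dvd h).resolve_left fun h1 => he ?_
    exact_mod_cast h1
  rcases exists_hit (Γ := Gamma1 M) qF_F1 (fun g => PlacesCusp.wid M g * Nat.totient M)
    (fun g => Nat.mul_ne_zero (PlacesCusp.wid_ne_zero g) hφ0) (fun g => conj_T_mem_Gamma1 g) v with
    ⟨τ, e, h⟩ | ⟨g, e, h⟩
  · have h1 := h.2 f hf0
    rw [vQ_eq (fVal_pt _ τ) hq hf0'] at h1
    unfold ptVal at h1
    rw [PlacesVal.ordH_pow hE.holo, PlacesVal.ordH_pow hB.holo] at h1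
    apply hcop e
    · intro hd
      have h3 := Nat.le_of_dvd h.1 hd
      rcases le_three_of_hit h with h4 | h4 | h4 <;> omega
    · rw [← h1]
      push_cast
      exact ⟨_, (mul_sub (ℓ : ℤ) _ _).symm⟩
  · haveI : NeZero (PlacesCusp.wid M g * Nat.totient M) :=
      ⟨Nat.mul_ne_zero (PlacesCusp.wid_ne_zero g) hφ0⟩
    have hg := conj_T_mem_Gamma1 (M := M) g
    have h1 := h.2 f hf0
    have hP := hE.hasPS_slash' hg (hχ _ (trace_conj_T g _))
    have hQ := hB.hasPS_slash hg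
    have hP' := hP.pow ℓ
    have hQ' := hQ.pow ℓ
    rw [show (fun τ => (E ∣[k] g) τ ^ ℓ) = (E ^ ℓ) ∣[(ℓ : ℤ) * k] g from (pow_slash k ℓ g E).symm]
      at hP'
    rw [show (fun τ => (B ∣[k] g) τ ^ ℓ) = (B ^ ℓ) ∣[(ℓ : ℤ) * k] g from (pow_slash k ℓ g B).symm]
      at hQ'
    rw [vQ_eq (fVal_cusp hg) hq hf0', cuspVal_eq' hg hq.num hP', cuspVal_eq' hg hq.den hQ',
      PowerSeries.order_pow, PowerSeries.order_pow] at h1
    apply hcop e
    · intro hd
      exact hφ (hd.trans (dvd_totient_of_hit h))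
    · rw [← h1]
      simp only [nsmul_eq_mul, ENat.toNat_mul, ENat.toNat_natCast]
      push_cast
      exact ⟨_, (mul_sub (ℓ : ℤ) _ _).symm⟩

end D2

end Fermat.Agent.DS.X1.Sel
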