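import Mathlib
import Fermat.Agent.DS.X1.SelPlace
import Fermat.Agent.JAN.EisCharB

/-!
# Existence of a function with given character, over `ℂ`
-/

set_option autoImplicit false
set_option linter.unusedSectionVars false

noncomputable section

open UpperHalfPlane CongruenceSubgroup ModularCurve FermatJ Filter AlgebraicCurve
open scoped MatrixGroups ModularForm Manifold Topology

namespace Fermat.Agent.DS.X1.Sel

open Fermat.Agent.JAN

section Eis

open EisCharB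

variable {Γ : Subgroup SL(2, ℤ)} {χ : Γ →* ℂˣ}

theorem small_of_lower_left {γ : SL(2, ℤ)} (h : γ.1 1 0 = 0) :
    (γ : Matrix (Fin 2) (Fin 2) ℤ).trace ^ 2 ≤ 4 := by
  have hdet := γ.2
  rw [Matrix.det_fin_two, h, mul_zero, sub_zero] at hdet
  rw [Matrix.trace_fin_two]
  rcases Int.eq_one_or_neg_one_of_mul_eq_one hdet with h1 | h1
  · rw [h1, one_mul] at hdet
    rw [h1, hdet]; norm_num
  · rw [h1] at hdet
    rw [h1, show γ.1 1 1 = -1 by linarith]; norm_num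

theorem Par.lower (hχ : Par χ) (γ : Γ) (h : (γ : SL(2, ℤ)).1 1 0 = 0) : χ γ = 1 :=
  hχ γ (small_of_lower_left h)

theorem constTerm_wt' (hT : ∀ γ : Γ, (γ : SL(2, ℤ)).1 1 0 = 0 → χ γ = 1) (k : ℤ)
    (hΓ : NoEll Γ) : constTerm k (wt Γ χ) = 1 := by
  rw [constTerm_of_coprime fun v hv ↦ wt_of_not_isCoprime hv]
  have h1 : wt Γ χ ![0, 1] = 1 := by
    have := wt_row hT 1
    rw [map_one, inv_one, Units.val_one] at this
    rwa [show ((1 : Γ) : SL(2, ℤ)) = 1 from rfl, row_one] at this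
  have h2 : wt Γ χ ![0, -1] = 0 := by
    apply wt_of_not_exists
    rintro ⟨γ, hγ⟩
    have h10 : (γ : SL(2, ℤ)).1 1 0 = 0 := by
      have := congrFun hγ 0
      simpa [row] using this
    have h11 : (γ : SL(2, ℤ)).1 1 1 = -1 := by
      have := congrFun hγ 1
      simpa [row] using this
    have htr := hΓ γ γ.2 (small_of_lower_left h10)
    have hdet := (γ : SL(2, ℤ)).2
    rw [Matrix.det_fin_two, h10, mul_zero, sub_zero, h11] at hdet
    rw [Matrix.trace_fin_two, h11] at htr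
    omega
  rw [h1, h2]
  simp

theorem eis_ne_zero' (hT : ∀ γ : Γ, (γ : SL(2, ℤ)).1 1 0 = 0 → χ γ = 1)
    (hχ : ∀ γ : Γ, ‖(χ γ : ℂ)‖ = 1) {k : ℤ} (hk3 : 3 ≤ k) (hΓ : NoEll Γ) : eis Γ χ k ≠ 0 := by
  intro h
  have h1 := eisW_tendsto hk3 (norm_wt_le hχ)
  rw [constTerm_wt' hT k hΓ] at h1
  change Tendsto (eis Γ χ k) atImInfty (𝓝 1) at h1
  rw [h] at h1
  have h2 := tendsto_nhds_unique h1 (tendsto_const_nhds (x := (0 : ℂ)))
  norm_num at h2

theorem isCF_eis {n : ℕ} (hn : n ≠ 0) (hχn : χ ^ n = 1) (hχ : Par χ) {k : ℤ} (hk : 3 ≤ k) :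
    IsCF Γ k χ (eis Γ χ k) where
  holo := eis_mdifferentiable (norm_eq_one_of_pow_eq_one hn hχn) hk
  slash γ := EisCharB.eis_slash (fun γ h => hχ.lower γ h) k γ
  bdd g := eis_slash_isBoundedAtImInfty (norm_eq_one_of_pow_eq_one hn hχn) hk g

theorem isCF_disc (Γ : Subgroup SL(2, ℤ)) : IsCF Γ 12 1 ModularForm.discriminant := by
  refine ⟨mdifferentiable_discriminant, fun γ => ?_, fun g => ?_⟩
  · rw [discriminant_slash]; simp
  · rw [discriminant_slash]
    exact ModularForm.discriminant_isZeroAtImInfty.isBoundedAtImInfty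

theorem disc_ne_zero : ModularForm.discriminant ≠ 0 := fun h =>
  ModularForm.discriminant_ne_zero UpperHalfPlane.I (congrFun h _)

end Eis

/-- **Existence over `ℂ`.** -/
theorem exists_rl_complex {M : ℕ} [NeZero M] (hM : 5 ≤ M) {n : ℕ} (hn : n ≠ 0)
    {χ : Gamma1 M →* ℂˣ} (hχn : χ ^ n = 1) (hχ : Par χ) :
    ∃ f : F1 ℂ M, f ≠ 0 ∧ Rl (Gamma1 M) n χ (f : LaurentSeries ℂ) := by
  have hE := isCF_eis hn hχn hχ (k := 12) (by norm_num)
  have hE0 := eis_ne_zero' (fun γ h => hχ.lower γ h)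
    (EisCharB.norm_eq_one_of_pow_eq_one hn hχn) (k := 12) (by norm_num) (noEll_Gamma1 hM)
  set E := EisCharB.eis (Gamma1 M) χ 12
  have hB := isCF_disc (Gamma1 M)
  have hEn : IsCF (Gamma1 M) (n * 12) 1 (E ^ n) := (hE.pow n).congr_char hχn
  have hBn : IsCF (Gamma1 M) (n * 12) 1 (ModularForm.discriminant ^ n) :=
    (hB.pow n).congr_char (ch_one_pow n)
  have hβ := hB.hasExp1
  set β := MFF.LQ ModularForm.discriminant
  have hβ0 : β ≠ 0 := by
    rw [Ne, hasExp_qc_eq_zero_iff hβ]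
    exact disc_ne_zero
  have hβn0 := pow_ne_zero n hβ0
  have hexp : HasExp (qc 1) (E ^ n) ((MFF.LQ (E ^ n) / β ^ n) * β ^ n) := by
    rw [div_mul_cancel₀ _ hβn0]
    exact hEn.hasExp1
  have htoC : ∀ x : LaurentSeries ℂ, toC (K := ℂ) x = x := by
    intro x
    have : (algebraMap ℂ ℂ) = RingHom.id ℂ := rfl
    rw [toC, this, coeffMap_id]
  have hq : IsQ (Gamma1 M) (MFF.LQ (E ^ n) / β ^ n) (n * 12) (E ^ n)
      (ModularForm.discriminant ^ n) :=
    ⟨hEn, hBn, pow_ne_zero_fun disc_ne_zero n, β ^ n, hβ.pow n, by rw [htoC]; exact hexp⟩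
  have hr : Rl (Gamma1 M) n χ (MFF.LQ (E ^ n) / β ^ n) :=
    ⟨12, _, E, β, hB, hE, disc_ne_zero, hE0, hβ, by rw [htoC]; exact hexp⟩
  refine ⟨⟨_, mem_F1_of_isQ hq⟩, ?_, hr⟩
  intro h
  exact hr.ne_zero (congrArg Subtype.val h)

end Fermat.Agent.DS.X1.Sel
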