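import Mathlib
import Fermat.Agent.DS.X1.SelEx
import Fermat.Agent.DS.X1.SelDefs
import Fermat.Agent.DS.X1.ApiFin
import Fermat.Agent.JAN.KumPic
import Fermat.Agent.FF.Kaehler
import Fermat.Agent.S27

/-!
# Counting `Sel` and descent of the existence to `L ⊆ ℂ`
-/

set_option autoImplicit false
set_option linter.unusedSectionVars false

noncomputable section

open UpperHalfPlane CongruenceSubgroup ModularCurve FermatJ Filter AlgebraicCurve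
open scoped MatrixGroups ModularForm Manifold Topology

namespace Fermat.Agent.DS.X1.Sel

open Fermat.Agent.JAN

/-! ### The order of `Sel` -/

section Count

open KumPic

variable {K F : Type*} [Field K] [Field F] [Algebra K F]

theorem natCard_sel_eq_torsion [IsAlgClosed K] [CharZero K] [Fermat.FF.IsFF1 K F]
    [HasPrincipalDivisors K F] {n : ℕ} (hn : n ≠ 0) :
    Nat.card (Sel K F n) = Nat.card (Pic0.torsion K F n) := by
  let T : Sel K F n → Pic0.torsion K F n := fun x =>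
    ⟨cls (K := K) n x.exists_mk.choose, cls_mem_torsion n x.exists_mk.choose_spec.choose⟩
  refine Nat.card_congr (Equiv.ofBijective T ⟨?_, ?_⟩)
  · intro x y hxy
    have h1 : cls (K := K) n x.exists_mk.choose = cls (K := K) n y.exists_mk.choose :=
      congrArg Subtype.val hxy
    have hx := x.exists_mk.choose_spec
    have hy := y.exists_mk.choose_spec
    set f := x.exists_mk.choose
    set g := y.exists_mk.choose
    obtain ⟨hf, hf', hxf⟩ := hx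
    obtain ⟨hg, hg', hyg⟩ := hy
    rw [cls_eq_cls_iff hn hf hg hf' hg'] at h1
    obtain ⟨h, hh⟩ := h1
    rw [hxf, hyg, eq_comm, Sel.mk_eq_iff]
    refine ⟨h, ?_, hh⟩
    rintro rfl
    rw [zero_pow hn, mul_zero] at hh
    exact hf hh
  · rintro ⟨t, ht⟩
    obtain ⟨f, hf, hf', hft⟩ := exists_cls_eq hn ht
    refine ⟨Sel.mk f hf hf', ?_⟩
    apply Subtype.ext
    have hx := (Sel.mk f hf hf' : Sel K F n).exists_mk.choose_spec
    show cls (K := K) n (Sel.mk f hf hf' : Sel K F n).exists_mk.choose = t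
    set g := (Sel.mk f hf hf' : Sel K F n).exists_mk.choose
    obtain ⟨hg, hg', hxg⟩ := hx
    rw [Sel.mk_eq_iff] at hxg
    obtain ⟨h, hh0, hh⟩ := hxg
    rw [← hft, cls_eq_cls_iff hn hg hf hg' hf']
    exact ⟨h, hh⟩

/-- **The order of `Sel`.** -/
theorem natCard_sel (K F : Type*) [Field K] [Field F] [Algebra K F] [IsAlgClosed K] [CharZero K]
    [Fermat.FF.IsFF1 K F] {ℓ : ℕ} (hℓ : ℓ.Prime) :
    Nat.card (Sel K F ℓ) = ℓ ^ (2 * genusFF K F) := by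
  haveI : IsCurveOver K F := Fermat.FF.isCurveOver
  haveI : Algebra.EssFiniteType K F := Fermat.FF.IsFF1.essFiniteType K F
  haveI : Fact ℓ.Prime := ⟨hℓ⟩
  have h := Fermat.Agent.S27.result K F ℓ 1
  rw [pow_one, mul_one] at h
  rw [natCard_sel_eq_torsion hℓ.ne_zero, h]

end Count

/-! ### Descent of the constants -/

section Descent

variable {M : ℕ} [NeZero M] {ℓ : ℕ}

/-- D2 in terms of `OrdDvd`. -/
theorem ordDvd_of_rl {L : Type*} [Field L] [CharZero L] [Algebra L ℂ] [IsAlgClosed L]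
    (hℓ : ℓ.Prime) (hℓ5 : 5 ≤ ℓ) (hφ : ¬ ℓ ∣ Nat.totient M) {χ : Gamma1 M →* ℂˣ} (hχ : Par χ)
    {f : F1 L M} (hf : Rl (Gamma1 M) ℓ χ (f : LaurentSeries L)) : OrdDvd L ℓ f :=
  dvd_of_rl hℓ hℓ5 hφ hχ hf

/-- D1 in terms of `OrdDvd`. -/
theorem exists_rl_of_ordDvd {L : Type*} [Field L] [Algebra L ℂ] (hM : 5 ≤ M) (hℓ : ℓ ≠ 0)
    {f : F1 L M} (hf : f ≠ 0) (hv : OrdDvd L ℓ f) :
    ∃ χ : Gamma1 M →* ℂˣ, χ ^ ℓ = 1 ∧ Par χ ∧ Rl (Gamma1 M) ℓ χ (f : LaurentSeries L) :=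
  exists_rl_of_dvd hM hℓ hf hv

variable {L : Type*} [Field L] [CharZero L] [Algebra L ℂ] [IsAlgClosed L]

theorem rl_incF_iff {χ : Gamma1 M →* ℂˣ} {f : F1 L M} :
    Rl (Gamma1 M) ℓ χ ((incF L ℂ M f : F1 ℂ M) : LaurentSeries ℂ) ↔
      Rl (Gamma1 M) ℓ χ (f : LaurentSeries L) := by
  rw [coe_incF]
  exact rl_toC_iff

theorem ordDvd_incF (hM : 5 ≤ M) (hℓ : ℓ.Prime) (hℓ5 : 5 ≤ ℓ) (hφ : ¬ ℓ ∣ Nat.totient M)
    (f : F1 L M) (hf : f ≠ 0) (hv : OrdDvd L ℓ f) : OrdDvd ℂ ℓ (incF L ℂ M f) := by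
  obtain ⟨χ, -, hχ, hr⟩ := exists_rl_of_ordDvd hM hℓ.ne_zero hf hv
  exact ordDvd_of_rl hℓ hℓ5 hφ hχ (rl_incF_iff.mpr hr)

/-- base change of `Sel` -/
def selInc (L : Type*) [Field L] [CharZero L] [Algebra L ℂ] [IsAlgClosed L] (hM : 5 ≤ M)
    (hℓ : ℓ.Prime) (hℓ5 : 5 ≤ ℓ) (hφ : ¬ ℓ ∣ Nat.totient M) :
    Sel L (F1 L M) ℓ →+ Sel ℂ (F1 ℂ M) ℓ :=
  Sel.map (incF L ℂ M : F1 L M →* F1 ℂ M) (ordDvd_incF hM hℓ hℓ5 hφ)

theorem selInc_injective (hM : 5 ≤ M) (hℓ : ℓ.Prime) (hℓ5 : 5 ≤ ℓ)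
    (hφ : ¬ ℓ ∣ Nat.totient M) : Function.Injective (selInc L hM hℓ hℓ5 hφ) := by
  rw [injective_iff_map_eq_zero]
  intro x hx
  obtain ⟨f, hf, hf', rfl⟩ := x.exists_mk
  rw [selInc, Sel.map_mk, Sel.mk_eq_zero_iff] at hx
  obtain ⟨h, hh⟩ := hx
  rw [Sel.mk_eq_zero_iff]
  have h1 : (h : LaurentSeries ℂ) ^ ℓ = toC (f : LaurentSeries L) :=
    (congrArg (fun z : F1 ℂ M => (z : LaurentSeries ℂ)) hh).symm
  obtain ⟨y, hy⟩ := exists_coeffs_of_pow hℓ.ne_zero h1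
  have hmem : y ∈ F1 L M := by
    rw [← mem_F1_iff_coeffMap (K' := ℂ)]
    have h2 : coeffMap (algebraMap L ℂ) y = (h : LaurentSeries ℂ) := hy
    rw [h2]
    exact h.2
  refine ⟨⟨y, hmem⟩, Subtype.ext (JAN.toC_injective ?_)⟩
  rw [← h1, ← hy]
  exact (toC_pow y ℓ).symm

theorem selInc_surjective (hM : 5 ≤ M) (hℓ : ℓ.Prime) (hℓ5 : 5 ≤ ℓ)
    (hφ : ¬ ℓ ∣ Nat.totient M) (hg : genusFF ℂ (F1 ℂ M) ≤ genusFF L (F1 L M)) :
    Function.Surjective (selInc L hM hℓ hℓ5 hφ) := by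
  haveI : Fermat.FF.IsFF1 ℂ (F1 ℂ M) := ⟨RR.FunctionField.exists_finite⟩
  haveI : Fermat.FF.IsFF1 L (F1 L M) := ⟨RR.FunctionField.exists_finite⟩
  have h1 := natCard_sel ℂ (F1 ℂ M) hℓ
  have h2 := natCard_sel L (F1 L M) hℓ
  have hfin : Finite (Sel ℂ (F1 ℂ M) ℓ) :=
    Nat.finite_of_card_ne_zero (by rw [h1]; exact pow_ne_zero _ hℓ.ne_zero)
  have hle : Nat.card (Sel ℂ (F1 ℂ M) ℓ) ≤ Nat.card (Sel L (F1 L M) ℓ) := by
    rw [h1, h2]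
    exact Nat.pow_le_pow_right hℓ.pos (by omega)
  have hinj := selInc_injective (L := L) hM hℓ hℓ5 hφ
  have hfin' : Finite (Sel L (F1 L M) ℓ) := Finite.of_injective _ hinj
  exact (Function.Injective.bijective_of_nat_card_le hinj hle).2

/-- **D3.** Every character of order `ℓ` killing the parabolic elements comes from a function
with coefficients in `L`. -/
theorem exists_rl (hM : 5 ≤ M) (hℓ : ℓ.Prime) (hℓ5 : 5 ≤ ℓ)
    (hφ : ¬ ℓ ∣ Nat.totient M) (hg : genusFF ℂ (F1 ℂ M) ≤ genusFF L (F1 L M))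
    {χ : Gamma1 M →* ℂˣ} (hχℓ : χ ^ ℓ = 1) (hχ : Par χ) :
    ∃ f : F1 L M, f ≠ 0 ∧ OrdDvd L ℓ f ∧ Rl (Gamma1 M) ℓ χ (f : LaurentSeries L) := by
  obtain ⟨f, hf, hr⟩ := exists_rl_complex hM hℓ.ne_zero hχℓ hχ
  have hd : OrdDvd ℂ ℓ f := ordDvd_of_rl hℓ hℓ5 hφ hχ hr
  obtain ⟨x, hx⟩ := selInc_surjective (L := L) hM hℓ hℓ5 hφ hg (Sel.mk f hf hd)
  obtain ⟨g, hg0, hg', rfl⟩ := x.exists_mk
  rw [selInc, Sel.map_mk, eq_comm, Sel.mk_eq_iff] at hx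
  obtain ⟨h, hh0, hh⟩ := hx
  refine ⟨g, hg0, hg', ?_⟩
  rw [← rl_incF_iff]
  have h1 : ((incF L ℂ M g : F1 ℂ M) : LaurentSeries ℂ) =
      (f : LaurentSeries ℂ) * (h : LaurentSeries ℂ) ^ ℓ := by
    have h2 := congrArg (fun z : F1 ℂ M => (z : LaurentSeries ℂ)) hh
    exact h2
  rw [h1]
  obtain ⟨k, A, B, hq⟩ := qF_F1 h
  have h2 := hr.mul (Rl.pow_self (fun h0 => hh0 (Subtype.ext h0)) hq ℓ)
  rwa [ch_mul_one] at h2

end Descent

end Fermat.Agent.DS.X1.Sel
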