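import Mathlib
import Fermat.Agent.DS.X1.SelDefs

/-!
# The Kummer group `F^× / (F^×)^l` and its Selmer subgroup
-/

set_option autoImplicit false

noncomputable section

namespace Fermat.Agent.DS.X1

open AlgebraicCurve

section Generic

variable (F : Type*) [Field F] (l : ℕ)

/-- **The Kummer group** `F^× / (F^×)^l`, written additively. -/
def KumG : Type _ := Additive (Fˣ ⧸ (powMonoidHom l : Fˣ →* Fˣ).range)

instance : AddCommGroup (KumG F l) :=
  inferInstanceAs (AddCommGroup (Additive (Fˣ ⧸ (powMonoidHom l : Fˣ →* Fˣ).range)))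

variable {F l}

/-- The class of a function. -/
def KumG.mk (l : ℕ) (f : F) (hf : f ≠ 0) : KumG F l :=
  Additive.ofMul (QuotientGroup.mk (s := (powMonoidHom l : Fˣ →* Fˣ).range) (Units.mk0 f hf))

theorem KumG.exists_mk (x : KumG F l) : ∃ (f : F) (hf : f ≠ 0), x = KumG.mk l f hf := by
  obtain ⟨x, rfl⟩ := Additive.ofMul.surjective x
  obtain ⟨f, rfl⟩ := QuotientGroup.mk_surjective x
  refine ⟨f, f.ne_zero, ?_⟩
  have h1 : f = Units.mk0 (f : F) f.ne_zero := Units.ext rfl
  conv_lhs => rw [h1]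
  rfl

theorem KumG.mk_eq_iff {f g : F} {hf : f ≠ 0} {hg : g ≠ 0} :
    KumG.mk l f hf = KumG.mk l g hg ↔ ∃ h : F, h ≠ 0 ∧ g = f * h ^ l := by
  have h0 : KumG.mk l f hf = KumG.mk l g hg ↔
      (QuotientGroup.mk (s := (powMonoidHom l : Fˣ →* Fˣ).range) (Units.mk0 f hf)) =
        QuotientGroup.mk (s := (powMonoidHom l : Fˣ →* Fˣ).range) (Units.mk0 g hg) := Iff.rfl
  rw [h0, QuotientGroup.eq]
  constructor
  · rintro ⟨u, hu⟩
    refine ⟨u, u.ne_zero, ?_⟩
    have h1 := congrArg (fun x : Fˣ => (x : F)) hu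
    simp only [powMonoidHom_apply, Units.val_pow_eq_pow_val,
      Units.val_mul, Units.val_inv_eq_inv_val, Units.val_mk0] at h1
    rw [h1, mul_inv_cancel_left₀ hf]
  · rintro ⟨h, hh, rfl⟩
    refine ⟨Units.mk0 h hh, ?_⟩
    apply Units.ext
    simp only [powMonoidHom_apply, Units.val_pow_eq_pow_val,
      Units.val_mul, Units.val_inv_eq_inv_val, Units.val_mk0]
    rw [inv_mul_cancel_left₀ hf]

theorem KumG.mk_congr {f g : F} {hf : f ≠ 0} (h : f = g) :
    KumG.mk l f hf = KumG.mk l g (h ▸ hf) := by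
  subst h; rfl

theorem KumG.mk_add {f g : F} {hf : f ≠ 0} {hg : g ≠ 0} : KumG.mk l f hf + KumG.mk l g hg =
    KumG.mk l (f * g) (mul_ne_zero hf hg) := by
  have h1 : Units.mk0 (f * g) (mul_ne_zero hf hg) = Units.mk0 f hf * Units.mk0 g hg :=
    Units.ext rfl
  unfold KumG.mk
  rw [h1]
  rfl

theorem KumG.mk_one : KumG.mk l (1 : F) one_ne_zero = (0 : KumG F l) := by
  have h1 : Units.mk0 (1 : F) one_ne_zero = 1 := Units.ext rfl
  unfold KumG.mk
  rw [h1]
  rfl

theorem KumG.mk_eq_zero_iff {f : F} {hf : f ≠ 0} : KumG.mk l f hf = 0 ↔ ∃ h : F, f = h ^ l := by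
  rw [← KumG.mk_one, eq_comm, KumG.mk_eq_iff]
  constructor
  · rintro ⟨h, -, rfl⟩
    exact ⟨h, one_mul _⟩
  · rintro ⟨h, rfl⟩
    by_cases hh : h = 0
    · subst hh
      have hl : l = 0 := by
        by_contra hl
        exact hf (zero_pow hl)
      subst hl
      exact ⟨1, one_ne_zero, by simp⟩
    · exact ⟨h, hh, (one_mul _).symm⟩

theorem KumG.mk_sub_mk {f g : F} {hf : f ≠ 0} {hg : g ≠ 0} : KumG.mk l f hf - KumG.mk l g hg =
    KumG.mk l (f * g⁻¹) (mul_ne_zero hf (inv_ne_zero hg)) := by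
  rw [sub_eq_iff_eq_add, KumG.mk_add]
  exact (KumG.mk_congr (by rw [inv_mul_cancel_right₀ hg])).symm

theorem KumG.nsmul_mk {f : F} {hf : f ≠ 0} (n : ℕ) :
    n • KumG.mk l f hf = KumG.mk l (f ^ n) (pow_ne_zero n hf) := by
  induction n with
  | zero =>
    rw [zero_smul, ← KumG.mk_one]
    exact KumG.mk_congr (pow_zero f).symm
  | succ n ih =>
    rw [succ_nsmul, ih, KumG.mk_add]
    exact KumG.mk_congr (pow_succ f n).symm

theorem KumG.nsmul_eq_zero (x : KumG F l) : l • x = 0 := by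
  obtain ⟨f, hf, rfl⟩ := x.exists_mk
  rw [KumG.nsmul_mk, KumG.mk_eq_zero_iff]
  exact ⟨f, rfl⟩

end Generic

section Map

variable {F F' : Type*} [Field F] [Field F'] {l : ℕ}

/-- The map induced by a multiplicative map of functions. -/
def KumG.map (l : ℕ) (T : F →* F') : KumG F l →+ KumG F' l :=
  MonoidHom.toAdditive (QuotientGroup.map _ _ (Units.map T) (by
    rintro _ ⟨u, rfl⟩
    exact ⟨Units.map T u, (map_pow (Units.map T) u l).symm⟩))

theorem KumG.map_mk (T : F →* F') {f : F} {hf : f ≠ 0} :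
    KumG.map l T (KumG.mk l f hf) = KumG.mk l (T f) (monoidHom_ne_zero T hf) := by
  have h1 : Units.map T (Units.mk0 f hf) = Units.mk0 (T f) (monoidHom_ne_zero T hf) :=
    Units.ext rfl
  have h2 : KumG.map l T (KumG.mk l f hf) = Additive.ofMul (QuotientGroup.mk
      (s := (powMonoidHom l : F'ˣ →* F'ˣ).range) (Units.map T (Units.mk0 f hf))) := rfl
  rw [h2, h1]
  rfl

end Map

section Act

variable {G F : Type*} [Group G] [Field F] [MulSemiringAction G F] {l : ℕ}

/-- The action of a group of automorphisms. -/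
instance KumG.instAct : DistribMulAction G (KumG F l) where
  smul g := KumG.map l (MulSemiringAction.toRingHom _ F g : F →* F)
  one_smul x := by
    obtain ⟨f, hf, rfl⟩ := x.exists_mk
    refine (KumG.map_mk _).trans ?_
    exact KumG.mk_congr (one_smul _ f)
  mul_smul g g' x := by
    obtain ⟨f, hf, rfl⟩ := x.exists_mk
    refine (KumG.map_mk _).trans ?_
    refine Eq.trans ?_ (congrArg (KumG.map l (MulSemiringAction.toRingHom _ F g : F →* F))
      (KumG.map_mk _)).symm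
    refine Eq.trans ?_ (KumG.map_mk _).symm
    exact KumG.mk_congr (mul_smul g g' f)
  smul_zero g := map_zero (KumG.map l (MulSemiringAction.toRingHom _ F g : F →* F))
  smul_add g := map_add (KumG.map l (MulSemiringAction.toRingHom _ F g : F →* F))

theorem KumG.smul_mk (g : G) {f : F} {hf : f ≠ 0} :
    g • (KumG.mk l f hf) = KumG.mk l (g • f) ((smul_ne_zero_iff_ne g).mpr hf) := KumG.map_mk _

end Act

section Selmer

variable (K F : Type*) [Field K] [Field F] [Algebra K F] (l : ℕ)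

/-- The Selmer subgroup of the Kummer group. -/
def selK : AddSubgroup (KumG F l) where
  carrier := {x | ∃ (f : F) (hf : f ≠ 0), OrdDvd K l f ∧ x = KumG.mk l f hf}
  zero_mem' := ⟨1, one_ne_zero, ordDvd_one, KumG.mk_one.symm⟩
  add_mem' := by
    rintro _ _ ⟨f, hf, h, rfl⟩ ⟨g, hg, h', rfl⟩
    exact ⟨f * g, mul_ne_zero hf hg, h.mul hf hg h', KumG.mk_add⟩
  neg_mem' := by
    rintro _ ⟨f, hf, h, rfl⟩
    refine ⟨f⁻¹, inv_ne_zero hf, h.inv, ?_⟩
    rw [neg_eq_iff_add_eq_zero, KumG.mk_add, ← KumG.mk_one]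
    exact KumG.mk_congr (mul_inv_cancel₀ hf)

variable {K F l}

theorem mem_selK {x : KumG F l} :
    x ∈ selK K F l ↔ ∃ (f : F) (hf : f ≠ 0), OrdDvd K l f ∧ x = KumG.mk l f hf := Iff.rfl

theorem mk_mem_selK {f : F} {hf : f ≠ 0} : KumG.mk l f hf ∈ selK K F l ↔ OrdDvd K l f := by
  constructor
  · rintro ⟨g, hg, h, h'⟩
    obtain ⟨u, hu, rfl⟩ := KumG.mk_eq_iff.mp h'.symm
    exact h.mul_pow hg hu
  · intro h
    exact ⟨f, hf, h, rfl⟩

theorem smul_mem_selK (g : SemilinearAut K F) {x : KumG F l} (hx : x ∈ selK K F l) :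
    g • x ∈ selK K F l := by
  obtain ⟨f, hf, h, rfl⟩ := hx
  rw [KumG.smul_mk, mk_mem_selK]
  exact h.smul g

end Selmer

end Fermat.Agent.DS.X1
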