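import Mathlib
import Fermat.Agent.DS.X1.SelCount
import Fermat.Agent.DS.X1.SelKum
import Fermat.Agent.DS.X1.PerSupport

/-!
# The homomorphism from characters of `Γ₁(M)` to the Kummer group of `F1 L M`
-/

set_option autoImplicit false
set_option linter.unusedSectionVars false

noncomputable section

open UpperHalfPlane CongruenceSubgroup ModularCurve FermatJ Filter AlgebraicCurve
open scoped MatrixGroups ModularForm Manifold Topology

namespace Fermat.Agent.DS.X1.Sel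

open Fermat.Agent.JAN

section Chi

variable {G : Type*} [Group G] {n : ℕ} [NeZero n]

/-- The character `γ ↦ exp (2 π i φ(γ) / n)`. -/
def chi1 (φ : Additive G →+ ZMod n) : G →* ℂˣ where
  toFun γ := Circle.toUnits (ZMod.toCircle (φ (Additive.ofMul γ)))
  map_one' := by
    show Circle.toUnits (ZMod.toCircle (φ 0)) = 1
    rw [map_zero, AddChar.map_zero_eq_one, map_one]
  map_mul' γ δ := by
    show Circle.toUnits (ZMod.toCircle (φ (Additive.ofMul γ + Additive.ofMul δ))) = _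
    rw [map_add, AddChar.map_add_eq_mul, map_mul]

theorem chi1_apply (φ : Additive G →+ ZMod n) (γ : G) :
    chi1 φ γ = Circle.toUnits (ZMod.toCircle (φ (Additive.ofMul γ))) := rfl

theorem chi1_add (φ ψ : Additive G →+ ZMod n) : chi1 (φ + ψ) = chi1 φ * chi1 ψ := by
  apply MonoidHom.ext
  intro γ
  rw [MonoidHom.mul_apply, chi1_apply, chi1_apply, chi1_apply, AddMonoidHom.add_apply,
    AddChar.map_add_eq_mul, map_mul]

theorem chi1_zero : chi1 (0 : Additive G →+ ZMod n) = 1 := by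
  apply MonoidHom.ext
  intro γ
  rw [chi1_apply, AddMonoidHom.zero_apply, AddChar.map_zero_eq_one, map_one,
    MonoidHom.one_apply]

theorem chi1_pow (φ : Additive G →+ ZMod n) : chi1 φ ^ n = 1 := by
  apply MonoidHom.ext
  intro γ
  rw [MonoidHom.pow_apply, chi1_apply, ← map_pow, ← AddChar.map_nsmul_eq_pow]
  have : n • φ (Additive.ofMul γ) = 0 := by
    rw [nsmul_eq_mul, CharP.cast_eq_zero, zero_mul]
  rw [this, AddChar.map_zero_eq_one, map_one]
  rfl

theorem chi1_apply_eq_one {φ : Additive G →+ ZMod n} {γ : G} (h : φ (Additive.ofMul γ) = 0) :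
    chi1 φ γ = 1 := by
  rw [chi1_apply, h, AddChar.map_zero_eq_one, map_one]

theorem circle_toUnits_injective : Function.Injective (Circle.toUnits : Circle →* ℂˣ) := by
  intro a b h
  apply Subtype.ext
  exact congrArg (fun u : ℂˣ => (u : ℂ)) h

theorem chi1_injective : Function.Injective (chi1 : (Additive G →+ ZMod n) → (G →* ℂˣ)) := by
  intro φ ψ h
  apply AddMonoidHom.ext
  intro γ
  obtain ⟨γ, rfl⟩ := Additive.ofMul.surjective γ
  have h1 := DFunLike.congr_fun h γ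
  exact ZMod.injective_toCircle (circle_toUnits_injective h1)

end Chi

section Phi

variable {M : ℕ} [NeZero M] {ℓ : ℕ} [NeZero ℓ] {L : Type*} [Field L] [Algebra L ℂ]

theorem par_chi1 {φ : Additive (Gamma1 M) →+ ZMod ℓ} (hφ : φ ∈ parEll1 M (ZMod ℓ)) :
    Par (chi1 φ) := fun γ hγ => chi1_apply_eq_one (hφ γ hγ)

variable (L M ℓ) in
/-- Existence of functions with given characters. -/
def HasFun : Prop := ∀ χ : Gamma1 M →* ℂˣ, χ ^ ℓ = 1 → Par χ →
  ∃ f : F1 L M, f ≠ 0 ∧ OrdDvd L ℓ f ∧ Rl (Gamma1 M) ℓ χ (f : LaurentSeries L)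

/-- Two functions with the same character have the same class. -/
theorem kumG_eq [IsAlgClosed L] {χ : Gamma1 M →* ℂˣ} {f g : F1 L M} (hf : f ≠ 0) (hg : g ≠ 0)
    (hχ : χ ^ ℓ = 1) (hf' : Rl (Gamma1 M) ℓ χ (f : LaurentSeries L))
    (hg' : Rl (Gamma1 M) ℓ χ (g : LaurentSeries L)) : KumG.mk ℓ f hf = KumG.mk ℓ g hg := by
  obtain ⟨h, k, A, B, hq, hh⟩ := Rl.exists_root (T_mem_Gamma1 M) (NeZero.ne ℓ) hg' hf'
    (NeZero.ne ℓ) hχ
  rw [KumG.mk_eq_iff]
  refine ⟨⟨h, mem_F1_of_isQ hq⟩, ?_, Subtype.ext hh⟩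
  intro h0
  have h1 : h = 0 := congrArg Subtype.val h0
  rw [h1, zero_pow (NeZero.ne ℓ), mul_zero] at hh
  exact hg (Subtype.ext hh)

variable [IsAlgClosed L] (H : HasFun M ℓ L)

include H in
/-- a function with character `chi1 φ` -/
theorem exists_fn (φ : parEll1 M (ZMod ℓ)) : ∃ f : F1 L M, f ≠ 0 ∧ OrdDvd L ℓ f ∧
    Rl (Gamma1 M) ℓ (chi1 (φ : Additive (Gamma1 M) →+ ZMod ℓ)) (f : LaurentSeries L) :=
  H _ (chi1_pow _) (par_chi1 φ.2)

/-- **The homomorphism from characters to the Kummer group.** -/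
def Phi : parEll1 M (ZMod ℓ) →+ KumG (F1 L M) ℓ where
  toFun φ := KumG.mk ℓ (exists_fn H φ).choose (exists_fn H φ).choose_spec.1
  map_zero' := by
    rw [← KumG.mk_one]
    refine kumG_eq _ _ (chi1_pow 0) (exists_fn H 0).choose_spec.2.2 ?_
    rw [chi1_zero]
    exact Rl.one
  map_add' φ ψ := by
    rw [KumG.mk_add]
    refine kumG_eq _ _ (chi1_pow _) (exists_fn H (φ + ψ)).choose_spec.2.2 ?_
    rw [AddSubgroup.coe_add, chi1_add]
    exact (exists_fn H φ).choose_spec.2.2.mul (exists_fn H ψ).choose_spec.2.2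

/-- `Phi φ` is the class of any function with character `chi1 φ`. -/
theorem Phi_eq {φ : parEll1 M (ZMod ℓ)} {f : F1 L M} (hf : f ≠ 0)
    (h : Rl (Gamma1 M) ℓ (chi1 (φ : Additive (Gamma1 M) →+ ZMod ℓ)) (f : LaurentSeries L)) :
    Phi H φ = KumG.mk ℓ f hf :=
  kumG_eq _ _ (chi1_pow _) (exists_fn H φ).choose_spec.2.2 h

theorem Phi_mem (φ : parEll1 M (ZMod ℓ)) : Phi H φ ∈ selK L (F1 L M) ℓ :=
  ⟨_, _, (exists_fn H φ).choose_spec.2.1, rfl⟩

theorem exists_Phi_eq (φ : parEll1 M (ZMod ℓ)) : ∃ (f : F1 L M) (hf : f ≠ 0), OrdDvd L ℓ f ∧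
    Rl (Gamma1 M) ℓ (chi1 (φ : Additive (Gamma1 M) →+ ZMod ℓ)) (f : LaurentSeries L) ∧
    Phi H φ = KumG.mk ℓ f hf :=
  ⟨_, (exists_fn H φ).choose_spec.1, (exists_fn H φ).choose_spec.2.1,
    (exists_fn H φ).choose_spec.2.2, rfl⟩

theorem Phi_injective : Function.Injective (Phi H) := by
  rw [injective_iff_map_eq_zero]
  intro φ hφ
  obtain ⟨f, hf, -, hr, he⟩ := exists_Phi_eq H φ
  rw [he, KumG.mk_eq_zero_iff] at hφ
  obtain ⟨h, hh⟩ := hφ
  have h0 : (h : LaurentSeries L) ≠ 0 := by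
    intro h0
    apply hf
    have h1 : h = 0 := Subtype.ext h0
    rw [hh, h1, zero_pow (NeZero.ne ℓ)]
  obtain ⟨k, A, B, hq⟩ := qF_F1 h
  have h1 : Rl (Gamma1 M) ℓ 1 (f : LaurentSeries L) := by
    rw [hh]
    exact Rl.pow_self h0 hq ℓ
  have h2 := Rl.char_unique (NeZero.ne ℓ) hr h1
  rw [← chi1_zero (n := ℓ)] at h2
  exact Subtype.ext (chi1_injective h2)

/-- equivariance: if `T` changes the character of functions according to `φ ↦ ψ` -/
theorem Phi_map {φ ψ : parEll1 M (ZMod ℓ)} (T : F1 L M →* F1 L M)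
    (hT : ∀ f : F1 L M, f ≠ 0 →
      Rl (Gamma1 M) ℓ (chi1 (φ : Additive (Gamma1 M) →+ ZMod ℓ)) (f : LaurentSeries L) →
      Rl (Gamma1 M) ℓ (chi1 (ψ : Additive (Gamma1 M) →+ ZMod ℓ)) (T f : LaurentSeries L)) :
    Phi H ψ = KumG.map ℓ T (Phi H φ) := by
  obtain ⟨f, hf, -, hr, he⟩ := exists_Phi_eq H φ
  rw [he, KumG.map_mk]
  exact Phi_eq H _ (hT f hf hr)

end Phi

/-- **Existence of the functions**, from the equality of genera. -/
theorem hasFun {M : ℕ} [NeZero M] {ℓ : ℕ} {L : Type*} [Field L] [CharZero L] [Algebra L ℂ]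
    [IsAlgClosed L] (hM : 5 ≤ M) (hℓ : ℓ.Prime) (hℓ5 : 5 ≤ ℓ) (hφ : ¬ ℓ ∣ Nat.totient M)
    (hg : genusFF ℂ (F1 ℂ M) ≤ genusFF L (F1 L M)) : HasFun M ℓ L :=
  fun _ h1 h2 => exists_rl hM hℓ hℓ5 hφ hg h1 h2

end Fermat.Agent.DS.X1.Sel
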