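import Fermat.Agent.DS.X1.SelHeckePar
import Fermat.Agent.DS.X1.SelPhi
import Fermat.Agent.DS.X1.ApiDia

/-!
# Hecke and diamond operators on the functions of `X₁(M)`: final statements

* `isDia_dia`: the automorphism `dia M d L` is `f ↦ f ∘ γ`;
* `TM hp hpM L : F1 L M →* F1 L M`: the Hecke operator; `coe_TM`, `ordDvd_TM`, `rl_TM`;
* `rl_dia`.
-/

set_option autoImplicit false
set_option linter.unusedSectionVars false
set_option linter.style.haveILetI false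

noncomputable section

open UpperHalfPlane ModularForm CongruenceSubgroup ModularCurve Matrix.SpecialLinearGroup FermatJ
open AlgebraicCurve
open scoped MatrixGroups Manifold

namespace Fermat.Agent.DS.X1.SelHecke

open Fermat.Agent.DS.Hecke1 Fermat.Agent.DS.X1.Sel
open Fermat.Agent.JAN

variable {M : ℕ} [NeZero M] {p : ℕ} {L : Type*} [Field L] [CharZero L] [Algebra L ℂ]

theorem isDia_dia (d : (ZMod M)ˣ) (x : F1 L M) :
    IsDia ⟨rep M d, rep_mem d⟩ (x : LaurentSeries L) (dia M d L x : LaurentSeries L) := by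
  obtain ⟨k, A, B, hq⟩ := exists_isQ_of_mem_F1 x.2
  have hA := isCF_slash_one ⟨rep M d, rep_mem d⟩ hq.num
  have hB := isCF_slash_one ⟨rep M d, rep_mem d⟩ hq.den
  refine ⟨k, A, B, hq, hA, hB, Fermat.Agent.JAN.slash_ne_zero hq.den_ne _, _, hB.hasExp1, ?_⟩
  obtain ⟨β, hβ, hα⟩ := hq.exp
  have h1 : ((incF L ℂ M x : F1 ℂ M) : LaurentSeries ℂ) * MFF.LQ B = MFF.LQ A := by
    rw [← hq.den.exp_eq (T_mem_Gamma1 M) hβ, ← hq.num.exp_eq (T_mem_Gamma1 M) hα]
    rfl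
  have h2 := dia_complex_slash (isMG_of_isCF hq.num) (isMG_of_isCF hq.den) h1 (rep_mem d)
  have hd : unit11 (rep M d) (rep_mem d) = d := Units.ext (rep_11 d)
  rw [hd, dia_incF] at h2
  have h3 : toC (dia M d L x : LaurentSeries L) *
      MFF.LQ (B ∣[k] ((⟨rep M d, rep_mem d⟩ : Gamma0 M) : SL(2, ℤ))) =
      MFF.LQ (A ∣[k] ((⟨rep M d, rep_mem d⟩ : Gamma0 M) : SL(2, ℤ))) := h2
  rw [h3]
  exact hA.hasExp1

section Dia

variable {n : ℕ} [NeZero n]

theorem chi1_comp_conj1 (d : (ZMod M)ˣ) (φ : Additive (Gamma1 M) →+ ZMod n) :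
    (chi1 φ).comp (conj1 ⟨rep M d, rep_mem d⟩) = chi1 (diaHom d φ) := rfl

/-- **Diamonds and characters.** -/
theorem rl_dia (d : (ZMod M)ˣ) {φ : Additive (Gamma1 M) →+ ZMod n} {f : F1 L M}
    (hf : Rl (Gamma1 M) n (chi1 φ) (f : LaurentSeries L)) :
    Rl (Gamma1 M) n (chi1 (diaHom d φ)) (dia M d L f : LaurentSeries L) :=
  (isDia_dia d f).rl hf

theorem heckeChar1_chi1 (hp : p.Prime) (hpM : ¬ p ∣ M) (φ : Additive (Gamma1 M) →+ ZMod n) :
    heckeChar1 hp hpM (chi1 φ) = chi1 (heckeHom1 hp hpM φ) := by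
  refine heckeChar1_of_add hp hpM (fun a => Circle.toUnits (ZMod.toCircle (a : ZMod n))) ?_ ?_ φ
    (fun g => rfl) (fun g => rfl)
  · rw [AddChar.map_zero_eq_one, map_one]
  · intro a b
    rw [AddChar.map_add_eq_mul, map_mul]

end Dia

variable [IsAlgClosed L]

variable (L) in
/-- **The Hecke operator `T_p` on the functions of `X₁(M)`.** -/
def TM (hp : p.Prime) (hpM : ¬ p ∣ M) : F1 L M →* F1 L M :=
  heckeF hp hpM ((dia M (pu hp hpM) L : F1 L M ≃ₐ[L] F1 L M) : F1 L M →* F1 L M)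
    (fun f => isDia_dia (pu hp hpM) f)

/-- This is `hT` of `frob_fun`. -/
theorem coe_TM (hp : p.Prime) (hpM : ¬ p ∣ M) (f : F1 L M) :
    haveI : NeZero p := ⟨hp.ne_zero⟩
    (TM L hp hpM f : LaurentSeries L) =
      TMs L p (dia M (pu hp hpM) L f : LaurentSeries L) (f : LaurentSeries L) := rfl

/-- **Hecke operators and characters.** -/
theorem rl_TM (hp : p.Prime) (hpM : ¬ p ∣ M) {n : ℕ} [NeZero n]
    {φ : Additive (Gamma1 M) →+ ZMod n} {f : F1 L M}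
    (hf : Rl (Gamma1 M) n (chi1 φ) (f : LaurentSeries L)) :
    Rl (Gamma1 M) n (chi1 (heckeHom1 hp hpM φ)) (TM L hp hpM f : LaurentSeries L) := by
  rw [← heckeChar1_chi1]
  exact rl_heckeF hp hpM _ (fun f => isDia_dia (pu hp hpM) f) hf

/-- `T_p` preserves the functions all of whose orders are divisible by `ℓ`. -/
theorem ordDvd_TM [Algebra ℚ L] (hp : p.Prime) (hpM : ¬ p ∣ M) (hM : 5 ≤ M) {ℓ : ℕ}
    (hℓ : ℓ.Prime) (hℓ5 : 5 ≤ ℓ) (hφ : ¬ ℓ ∣ Nat.totient M) (f : F1 L M) (hf : f ≠ 0)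
    (hv : OrdDvd L ℓ f) : OrdDvd L ℓ (TM L hp hpM f) :=
  ordDvd_heckeF hp hpM hM hℓ hℓ5 hφ _ (fun f => isDia_dia (pu hp hpM) f) f hf hv

end Fermat.Agent.DS.X1.SelHecke
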