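import Mathlib
import Fermat.Agent.DS.X1.SelHeckeDia
import Fermat.Agent.DS.X1.ApiDiaAct
import Fermat.Agent.DS.X1.ApiDiaGal
import Fermat.Agent.DS.X1.GenusPMain
import Fermat.Agent.DS.X1.Genus0Fin
import Fermat.Agent.DS.X1.SelGenus
import Fermat.Agent.DS.X1.SelPhi
import Fermat.Agent.DS.X1.FinPre
import Fermat.Agent.DS.X1.RedES
import Fermat.Agent.DS.X1.AsmSmooth
import Fermat.Agent.DS.X1.DegF1

set_option autoImplicit false
set_option linter.unusedSectionVars false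
set_option linter.style.haveILetI false

noncomputable section

open ModularCurve AlgebraicCurve IntermediateField CongruenceSubgroup

namespace Fermat.Agent.DS.X1.GeoAsm

open Fermat.Agent.JRED Fermat.Agent.JRED.ES Fermat.Agent.S28 Fermat.Agent.JRED.ESGalois
open Fermat.Agent.DS Fermat.Agent.DS.Hecke1

local notation "Qbar" => AlgebraicClosure ℚ
local notation "Γℚ" => (AlgebraicClosure ℚ ≃ₐ[ℚ] AlgebraicClosure ℚ)

/-- an embedding of `Qbar` into `ℂ` -/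
@[reducible] def algC : Algebra Qbar ℂ :=
  (IsAlgClosed.lift (R := ℚ) (S := Qbar) (M := ℂ) : Qbar →ₐ[ℚ] ℂ).toRingHom.toAlgebra

variable (M : ℕ) [NeZero M] (ℓ : ℕ)

/-- the Galois action on the Kummer group -/
@[reducible] def galKum : DistribMulAction Γℚ (KumG (F1 Qbar M) ℓ) :=
  DistribMulAction.compHom _ (galF1 Qbar M)

attribute [local instance] galKum

theorem gal_mk (g : Γℚ) {f : F1 Qbar M} {hf : f ≠ 0} :
    g • (KumG.mk ℓ f hf) =
      KumG.mk ℓ (galF1 Qbar M g • f) ((smul_ne_zero_iff_ne _).mpr hf) :=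
  KumG.smul_mk (galF1 Qbar M g)

theorem gal_mem_selK (g : Γℚ) {x : KumG (F1 Qbar M) ℓ} (hx : x ∈ selK Qbar (F1 Qbar M) ℓ) :
    g • x ∈ selK Qbar (F1 Qbar M) ℓ :=
  smul_mem_selK (galF1 Qbar M g) hx

theorem T_gal_fun [Algebra Qbar ℂ] {p : ℕ} (hp : p.Prime) (hpM : ¬ p ∣ M) (g : Γℚ)
    (f : F1 Qbar M) :
    SelHecke.TM Qbar hp hpM (galF1 Qbar M g • f) = galF1 Qbar M g • SelHecke.TM Qbar hp hpM f := by
  haveI : NeZero p := ⟨hp.ne_zero⟩
  haveI : NeZero (p : Qbar) := ⟨Nat.cast_ne_zero.mpr hp.ne_zero⟩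
  obtain ⟨ζ, hζ⟩ := HasEnoughRootsOfUnity.exists_primitiveRoot Qbar p
  obtain ⟨ζ', hζ'⟩ : ∃ ζ' : Qbarˣ, IsPrimitiveRoot ζ' p := by
    refine ⟨hζ.isUnit hp.ne_zero |>.unit, ?_⟩
    exact hζ.isUnit_unit hp.ne_zero
  apply Subtype.ext
  rw [SelHecke.coe_TM, dia_galF1, coe_galF1_smul, coe_galF1_smul, coe_galF1_smul,
    SelHecke.coe_TM, coeffMap_TMs _ hζ']

theorem smooth_selK (x : KumG (F1 Qbar M) ℓ) :
    ∃ L : IntermediateField ℚ Qbar, FiniteDimensional ℚ L ∧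
      ∀ g : Γℚ, (∀ y ∈ L, g y = y) → g • x = x := by
  obtain ⟨f, hf, rfl⟩ := x.exists_mk
  obtain ⟨L, hL, h⟩ := exists_smooth_F1 f.2
  refine ⟨L, hL, fun g hg => ?_⟩
  rw [gal_mk]
  refine KumG.mk_congr (Subtype.ext ?_)
  rw [coe_galF1_smul]
  exact h g hg

section Red

variable {M ℓ}
variable {κ : Type} [Field κ] [IsAlgClosed κ] {A : ValuationSubring Qbar} {π : A →+* κ}
  (hπ : Function.Surjective π) {p : ℕ} [CharP κ p] (hp : p.Prime) (hpM : ¬ p ∣ M)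
  (hG : GoodP M p)

include hπ hp hpM hG in
/-- **Good reduction**: the genus does not drop. -/
theorem genus_le : genusFF Qbar (F1 Qbar M) ≤ genusFF κ (F1 κ M) := by
  let _ : Algebra Qbar ℂ := algC
  have hM : (M : κ) ≠ 0 := fun h => hpM ((CharP.cast_eq_zero_iff κ p M).mp h)
  obtain ⟨i1, i2, h⟩ := finrank_F1_le_alg (M := M) hπ hM
  have i3 : Fermat.FF.IsFF1 κ (F1 κ M) := isFF1_of_functionField
  exact (genusFF_F1_le_finrank Qbar M).trans (finrank_cusp_le_genusFF hπ h hp hG)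

include hπ hp hpM hG in
theorem inertia_aux (hℓp : (ℓ : κ) ≠ 0) {σ : Γℚ} (hσ : σ ∈ A.inertiaSubgroupIn ℚ)
    {w : KumG (F1 Qbar M) ℓ} (hw : w ∈ selK Qbar (F1 Qbar M) ℓ) : σ • w = w := by
  have hM : (M : κ) ≠ 0 := fun h => hpM ((CharP.cast_eq_zero_iff κ p M).mp h)
  obtain ⟨i1, i2, h⟩ := finrank_F1_le_alg (M := M) hπ hM
  obtain ⟨f, hf, hd, rfl⟩ := hw
  obtain ⟨g, hg⟩ := inertia_fun hπ (red_j1 hπ M) (transcendental_j1 κ M) h
    (genus_le hπ hp hpM hG) hℓp hσ hf hd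
  have hg0 : g ≠ 0 := by
    rintro rfl
    have hℓ0 : ℓ ≠ 0 := by
      rintro rfl
      exact hℓp (by rw [Nat.cast_zero])
    rw [zero_pow hℓ0, mul_zero] at hg
    exact ((smul_ne_zero_iff_ne _).mpr hf) hg
  rw [gal_mk, eq_comm, KumG.mk_eq_iff]
  exact ⟨g, hg0, hg⟩

include hπ hp hpM hG in
theorem frob_aux [Algebra Qbar ℂ] (hℓp : (ℓ : κ) ≠ 0) {σ : Γℚ} (hσ : A.IsFrobeniusAt σ p)
    {w : KumG (F1 Qbar M) ℓ} (hw : w ∈ selK Qbar (F1 Qbar M) ℓ)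
    (hTw : KumG.map ℓ (SelHecke.TM Qbar hp hpM) w ∈ selK Qbar (F1 Qbar M) ℓ) :
    σ • σ • w - KumG.map ℓ (SelHecke.TM Qbar hp hpM) (σ • w) +
      p • KumG.map ℓ ((dia M (pu hp hpM) Qbar : F1 Qbar M ≃ₐ[Qbar] F1 Qbar M) :
        F1 Qbar M →* F1 Qbar M) w = 0 := by
  have hM : (M : κ) ≠ 0 := fun h => hpM ((CharP.cast_eq_zero_iff κ p M).mp h)
  haveI : NeZero p := ⟨hp.ne_zero⟩
  obtain ⟨i1, i2, h⟩ := finrank_F1_le_alg (M := M) hπ hM
  obtain ⟨f, hf, hd, rfl⟩ := hw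
  rw [KumG.map_mk, mk_mem_selK] at hTw
  obtain ⟨g, hg⟩ := frob_fun hπ (red_j1 hπ M) (transcendental_j1 κ M) h
    (genus_le hπ hp hpM hG) hℓp hp (dia M (pu hp hpM) Qbar)
    (fun f u hu hf => exists_red_dia' hπ hM (pu hp hpM) hu hf)
    (fun σ f => dia_galF1 (pu hp hpM) σ f) (SelHecke.TM Qbar hp hpM)
    (fun f => SelHecke.coe_TM hp hpM f) hσ hf hd hTw
  have hdf : dia M (pu hp hpM) Qbar f ≠ 0 := (map_ne_zero _).mpr hf
  have hs2 : galF1 Qbar M σ • galF1 Qbar M σ • f ≠ 0 :=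
    (smul_ne_zero_iff_ne _).mpr ((smul_ne_zero_iff_ne _).mpr hf)
  have hg0 : g ≠ 0 := by
    rintro rfl
    have hℓ0 : ℓ ≠ 0 := by
      rintro rfl
      exact hℓp (by rw [Nat.cast_zero])
    rw [zero_pow hℓ0, mul_zero] at hg
    exact mul_ne_zero hs2 (pow_ne_zero p hdf) hg
  rw [gal_mk, gal_mk, KumG.map_mk, KumG.map_mk, KumG.nsmul_mk, sub_add_eq_add_sub, sub_eq_zero,
    KumG.mk_add, eq_comm, KumG.mk_eq_iff]
  exact ⟨g, hg0, hg⟩

end Red

/-- **The geometric input.** -/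
theorem nonempty_geoPre (M ℓ : ℕ) [NeZero M] (hℓ : ℓ.Prime) (hℓ5 : 5 ≤ ℓ) (hℓM : ℓ ∣ M)
    (hφ : ¬ ℓ ∣ Nat.totient M) : Nonempty (GeoPre M ℓ) := by
  let _ : Algebra Qbar ℂ := algC
  have : NeZero ℓ := ⟨hℓ.ne_zero⟩
  have hM5 : 5 ≤ M := hℓ5.trans (Nat.le_of_dvd (Nat.pos_of_ne_zero (NeZero.ne M)) hℓM)
  have H : Sel.HasFun M ℓ Qbar := Sel.hasFun hM5 hℓ hℓ5 hφ
    (SelDesc.genusFF_F1_le_of_algebra Qbar ℂ M)
  refine ⟨{
    W := KumG (F1 Qbar M) ℓ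
    gal := galKum M ℓ
    S := selK Qbar (F1 Qbar M) ℓ
    S_gal := fun g w hw => gal_mem_selK M ℓ g hw
    T := fun p hp hpM => KumG.map ℓ (SelHecke.TM Qbar hp hpM)
    D := fun d => KumG.map ℓ ((dia M d Qbar : F1 Qbar M ≃ₐ[Qbar] F1 Qbar M) :
      F1 Qbar M →* F1 Qbar M)
    T_gal := ?_
    D_gal := ?_
    smooth := fun x _ => smooth_selK M ℓ x
    Φ := Sel.Phi H
    Φ_mem := fun φ => Sel.Phi_mem H φ
    inj := Sel.Phi_injective H
    Φ_T := ?_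
    Φ_D := ?_
    inertia := ?_
    frob := ?_ }⟩
  · intro p hp hpM g w
    obtain ⟨f, hf, rfl⟩ := w.exists_mk
    rw [gal_mk, KumG.map_mk, KumG.map_mk, gal_mk]
    exact KumG.mk_congr (T_gal_fun M hp hpM g f)
  · intro d g w
    obtain ⟨f, hf, rfl⟩ := w.exists_mk
    rw [gal_mk, KumG.map_mk, KumG.map_mk, gal_mk]
    exact KumG.mk_congr (dia_galF1 d g f)
  · intro p hp hpM φ ψ hψ
    refine Sel.Phi_map H _ fun f _ hr => ?_
    rw [hψ]
    exact SelHecke.rl_TM hp hpM hr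
  · intro d φ ψ hψ
    refine Sel.Phi_map H _ fun f _ hr => ?_
    rw [hψ]
    exact SelHecke.rl_dia d hr
  · intro p hp hpM hG A hA g hg w hw
    have hπ : Function.Surjective (IsLocalRing.residue A) := IsLocalRing.residue_surjective
    have i1 : CharP (IsLocalRing.ResidueField A) p := ESFinal.charP_of_liesOver hπ hp hA
    have i2 : IsAlgClosed (IsLocalRing.ResidueField A) := isAlgClosed_of_surjective hπ
    refine inertia_aux hπ hp hpM hG ?_ hg hw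
    intro h
    rw [CharP.cast_eq_zero_iff _ p, Nat.prime_dvd_prime_iff_eq hp hℓ] at h
    exact hpM (h ▸ hℓM)
  · intro p hp hpM hG A hA g hg w hw hTw _
    have hπ : Function.Surjective (IsLocalRing.residue A) := IsLocalRing.residue_surjective
    have i1 : CharP (IsLocalRing.ResidueField A) p := ESFinal.charP_of_liesOver hπ hp hA
    have i2 : IsAlgClosed (IsLocalRing.ResidueField A) := isAlgClosed_of_surjective hπ
    refine frob_aux hπ hp hpM hG ?_ hg hw hTw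
    intro h
    rw [CharP.cast_eq_zero_iff _ p, Nat.prime_dvd_prime_iff_eq hp hℓ] at h
    exact hpM (h ▸ hℓM)

/-- **The mod `ℓ` Galois representations of weight 2 on `Γ₁(M)`.** -/
theorem galoisT1 : GaloisT1 :=
  galoisT1_of_geoPre fun M ℓ _ hℓ hℓ5 hℓM _ hφ => nonempty_geoPre M ℓ hℓ hℓ5 hℓM hφ

end Fermat.Agent.DS.X1.GeoAsm
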