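import Mathlib
import Fermat.Agent.DS.RatGamma1
import Fermat.Agent.JRED.GaussRing

/-!
# The function field of `X₁(M)` over any field, through `q`-expansions

* `toK K F`: the Laurent series over `K` of an integral power series;
* `IntExp M k F`: `F` is the `q`-expansion of a modular form of weight `k` on `Γ₁(M)`;
* `MK K M k`: the `K`-span of these expansions;
* `F1 K M`: the field of quotients `a / b` with `a, b ∈ MK K M k`.
-/

set_option autoImplicit false
set_option linter.unusedSectionVars false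

noncomputable section

open UpperHalfPlane CongruenceSubgroup

namespace Fermat.Agent.DS.X1

/-- The Laurent series over `K` of an integral power series. -/
def toK (K : Type*) [Field K] : PowerSeries ℤ →+* LaurentSeries K :=
  (HahnSeries.ofPowerSeries ℤ K).comp (PowerSeries.map (Int.castRingHom K))

/-- `F` is the `q`-expansion of a modular form of weight `k` on `Γ₁(M)`. -/
def IntExp (M : ℕ) (k : ℤ) (F : PowerSeries ℤ) : Prop :=
  ∃ f : ℍ → ℂ, IsMG (Gamma1 M : Subgroup (GL (Fin 2) ℝ)) k f ∧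
    qExpansion 1 f = PowerSeries.map (Int.castRingHom ℂ) F

/-- The `K`-span of the integral `q`-expansions of weight `k` on `Γ₁(M)`. -/
def MK (K : Type*) [Field K] (M : ℕ) (k : ℤ) : Submodule K (LaurentSeries K) :=
  Submodule.span K {x | ∃ F, IntExp M k F ∧ x = toK K F}

theorem IntExp.mul {M : ℕ} [NeZero M] {k l : ℤ} {F G : PowerSeries ℤ} (hF : IntExp M k F)
    (hG : IntExp M l G) : IntExp M (k + l) (F * G) := by
  obtain ⟨f, hf, hfF⟩ := hF
  obtain ⟨g, hg, hgG⟩ := hG
  exact ⟨f * g, hf.mul hg, by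
    rw [Fermat.Agent.IntStr.qExp_mul hf.anQ hg.anQ, hfF, hgG, map_mul]⟩

theorem IntExp.one (M : ℕ) [NeZero M] : IntExp M 0 1 :=
  ⟨1, IsMG.one _, by rw [map_one]; exact UpperHalfPlane.qExpansion_one 1⟩

variable {K : Type*} [Field K] {M : ℕ} [NeZero M]

theorem mem_MK_of_intExp {k : ℤ} {F : PowerSeries ℤ} (hF : IntExp M k F) :
    toK K F ∈ MK K M k := Submodule.subset_span ⟨F, hF, rfl⟩

theorem one_mem_MK : (1 : LaurentSeries K) ∈ MK K M 0 := by
  have := mem_MK_of_intExp (K := K) (IntExp.one M)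
  rwa [map_one] at this

theorem smul_eq_mul_MK (c : K) (x : LaurentSeries K) :
    c • x = algebraMap K (LaurentSeries K) c * x := by
  rw [Fermat.Agent.JRED.algebraMap_eq_C, HahnSeries.C_mul_eq_smul]

theorem mul_mem_MK {k l : ℤ} {a b : LaurentSeries K} (ha : a ∈ MK K M k) (hb : b ∈ MK K M l) :
    a * b ∈ MK K M (k + l) := by
  induction ha using Submodule.span_induction with
  | mem x hx =>
    obtain ⟨F, hF, rfl⟩ := hx
    induction hb using Submodule.span_induction with
    | mem y hy =>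
      obtain ⟨G, hG, rfl⟩ := hy
      rw [← map_mul]
      exact mem_MK_of_intExp (hF.mul hG)
    | zero => rw [mul_zero]; exact zero_mem _
    | add y z _ _ hy hz => rw [mul_add]; exact add_mem hy hz
    | smul c y _ hy =>
      rw [smul_eq_mul_MK, mul_left_comm, ← smul_eq_mul_MK]
      exact Submodule.smul_mem _ _ hy
  | zero => rw [zero_mul]; exact zero_mem _
  | add y z _ _ hy hz => rw [add_mul]; exact add_mem hy hz
  | smul c y _ hy =>
    rw [smul_eq_mul_MK, mul_assoc, ← smul_eq_mul_MK]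
    exact Submodule.smul_mem _ _ hy

theorem cast_mem_MK {k l : ℤ} {a : LaurentSeries K} (ha : a ∈ MK K M k) (h : k = l) :
    a ∈ MK K M l := h ▸ ha

variable (K M) in
/-- **The function field of `X₁(M)`** over `K`, inside `K((q))`. -/
def F1 : IntermediateField K (LaurentSeries K) where
  carrier := {x | ∃ k : ℤ, ∃ a ∈ MK K M k, ∃ b ∈ MK K M k, b ≠ 0 ∧ x * b = a}
  mul_mem' := by
    rintro x y ⟨k, a, ha, b, hb, hb0, h⟩ ⟨l, a', ha', b', hb', hb0', h'⟩
    exact ⟨k + l, a * a', mul_mem_MK ha ha', b * b', mul_mem_MK hb hb', mul_ne_zero hb0 hb0',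
      by rw [← h, ← h']; ring⟩
  one_mem' := ⟨0, 1, one_mem_MK, 1, one_mem_MK, one_ne_zero, mul_one 1⟩
  add_mem' := by
    rintro x y ⟨k, a, ha, b, hb, hb0, h⟩ ⟨l, a', ha', b', hb', hb0', h'⟩
    exact ⟨k + l, a * b' + b * a', add_mem (mul_mem_MK ha hb') (mul_mem_MK hb ha'), b * b',
      mul_mem_MK hb hb', mul_ne_zero hb0 hb0', by rw [← h, ← h']; ring⟩
  zero_mem' := ⟨0, 0, zero_mem _, 1, one_mem_MK, one_ne_zero, by rw [zero_mul]⟩
  algebraMap_mem' c := ⟨0, c • (1 : LaurentSeries K), Submodule.smul_mem _ _ one_mem_MK, 1,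
    one_mem_MK, one_ne_zero, by rw [smul_eq_mul_MK]⟩
  inv_mem' := by
    rintro x ⟨k, a, ha, b, hb, hb0, h⟩
    by_cases hx : x = 0
    · exact ⟨0, 0, zero_mem _, 1, one_mem_MK, one_ne_zero, by rw [hx, inv_zero, zero_mul]⟩
    · refine ⟨k, b, hb, a, ha, ?_, ?_⟩
      · rw [← h]; exact mul_ne_zero hx hb0
      · rw [← h, ← mul_assoc, inv_mul_cancel₀ hx, one_mul]

theorem mem_F1 {x : LaurentSeries K} :
    x ∈ F1 K M ↔ ∃ k : ℤ, ∃ a ∈ MK K M k, ∃ b ∈ MK K M k, b ≠ 0 ∧ x * b = a := Iff.rfl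

end Fermat.Agent.DS.X1
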