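import Fermat.Agent.RH.Main
import Fermat.Agent.RH.Genus

/-!
# The divisor `Diff - 2 (x)_∞` is canonical: its Riemann-Roch space has dimension `genusFF`

Tame case, any characteristic. (team S48, P6-B1, helper17)
-/

set_option autoImplicit false
set_option linter.unusedSectionVars false

noncomputable section

open AlgebraicCurve IsDedekindDomain WithZero IsLocalRing Polynomial IntermediateField
open IntermediateField.algebraAdjoinAdjoin Fermat.Agent.RR Fermat.Agent.RH

namespace Fermat.Agent.DS.X1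

variable {K F : Type*} [Field K] [Field F] [Algebra K F] {x : F} [IsAlgClosed K]
  [FunctionField K F] (hx : Transcendental K x) [FiniteDimensional K⟮x⟯ F]
  [Algebra.IsSeparable K⟮x⟯ F]

variable {ι : Type*} [Fintype ι] {b : Module.Basis ι K⟮x⟯ F} {a : ι → ℕ}

include hx in
/-- `ℓ(0)`, in terms of a reduced basis. -/
theorem finrank_zero_eq (hb : IsRed (K := K) x b a) :
    Module.finrank K (riemannRochSpace (0 : Divisor K F)) = ∑ i, (1 - a i) := by
  have hpir := Fermat.FF.adjoin_isPrincipalIdealRing hx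
  apply finrank_of_repr hx b
  intro f
  have h1 : ∀ i, (∃ p ∈ degreeLT K (1 - a i), ((b.repr f i : K⟮x⟯) : F) = aeval x p) ↔
      (b.repr f i ∈ (algebraMap (Algebra.adjoin K {x}) K⟮x⟯).range ∧
        ((b.repr f i : K⟮x⟯) : F) ∈ VInf (K := K) x (0 - a i)) := fun i => by
    rw [← mem_iff_exists_poly hx]
    rcases Nat.eq_zero_or_pos (a i) with h0 | h0
    · rw [h0]
      norm_num
    · have h2 : (((1 - a i : ℕ) : ℤ) - 1) = -1 := by omega
      rw [h2]
      constructor
      · rintro ⟨h3, h4⟩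
        have h5 := (mem_iff_exists_poly hx (q := b.repr f i) (N := 0)).mp
          ⟨h3, by simpa using h4⟩
        obtain ⟨p, hp, hpe⟩ := h5
        have hp0 : p = 0 := by
          rw [mem_degreeLT] at hp
          by_contra hne
          rw [degree_eq_natDegree hne] at hp
          have : p.natDegree < 0 := by exact_mod_cast hp
          omega
        rw [hp0, map_zero] at hpe
        exact ⟨h3, by rw [hpe]; exact Submodule.zero_mem _⟩
      · rintro ⟨h3, h4⟩
        exact ⟨h3, VInf_mono (by omega) h4⟩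
  simp only [h1]
  rw [forall_and, ← mem_integralClosure_iff_repr hb, ← mem_VInf_iff_repr hx hb,
    mem_riemannRochSpace_iff, mem_integralClosure_iff (K := K) K⟮x⟯, mem_VInf_iff_ord]
  rcases eq_or_ne f 0 with rfl | hf
  · simp [zero_mem]
  simp only [or_iff_right hf, forall_adjoin_mem_iff hx, Fermat.FF.mem_iff_ord _ hf]
  constructor
  · intro h
    constructor
    · intro v _
      have := h v
      simpa using this
    · intro v _
      have := h v
      simpa using this
  · rintro ⟨h, h'⟩ v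
    rcases le_or_gt 0 (v.ord x) with hv | hv
    · simpa using h v hv
    · have := h' v hv
      simpa using this

omit [Algebra.IsSeparable K⟮x⟯ F] in
include hx in
theorem forall_trace_mem_VInf_iff' (hb : IsRed (K := K) x b a) (f : F) (M : ℤ) :
    (∀ g ∈ VInf (K := K) x 0,
        ((Algebra.trace K⟮x⟯ F (x ^ (-M) * f * g) : K⟮x⟯) : F) ∈ VInf (K := K) x 0) ↔
      ∀ i, ((Algebra.trace K⟮x⟯ F (f * b i) : K⟮x⟯) : F) ∈ VInf (K := K) x (M + a i) := by
  have hx0 : x ≠ 0 := by
    rintro rfl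
    exact hx isAlgebraic_zero
  have hsm : ∀ (n : ℤ) (q : K⟮x⟯) (g : F), (Algebra.trace K⟮x⟯ F) (x ^ n * (q * g)) =
      AdjoinSimple.gen K x ^ n * (q * Algebra.trace K⟮x⟯ F g) := fun n q g => by
    have h1 : x ^ n * (q * g) = (AdjoinSimple.gen K x ^ n * q) • g := by
      rw [Algebra.smul_def, show algebraMap K⟮x⟯ F (AdjoinSimple.gen K x ^ n * q) =
        ((AdjoinSimple.gen K x ^ n * q : K⟮x⟯) : F) from rfl, coe_gen_zpow_mul]
      ring
    rw [h1, map_smul, smul_eq_mul, mul_assoc]
  constructor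
  · intro h i
    have h1 := h (x ^ (-(a i : ℤ)) * b i) (by
      rw [zpow_mul_mem_VInf_iff hx0, zero_sub, neg_neg]
      exact hb.mem i)
    have h2 : x ^ (-M) * f * (x ^ (-(a i : ℤ)) * b i) =
        x ^ (-(M + a i : ℤ)) * (((1 : K⟮x⟯) : F) * (f * b i)) := by
      rw [neg_add, zpow_add₀ hx0]
      push_cast
      ring
    rw [h2, hsm, coe_gen_zpow_mul, one_mul, zpow_mul_mem_VInf_iff hx0, zero_sub, neg_neg] at h1
    exact h1
  · intro h g hg
    rw [mem_VInf_iff_repr hx hb] at hg
    have h2 : x ^ (-M) * f * g =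
        ∑ i, x ^ (-M) * (((b.repr g i : K⟮x⟯) : F) * (f * b i)) := by
      conv_lhs => rw [← b.sum_repr g]
      rw [Finset.mul_sum]
      refine Finset.sum_congr rfl fun i _ => ?_
      rw [Algebra.smul_def]
      have : algebraMap K⟮x⟯ F (b.repr g i) = ((b.repr g i : K⟮x⟯) : F) := rfl
      rw [this]
      ring
    rw [h2, map_sum]
    have h3 : ((∑ i, (Algebra.trace K⟮x⟯ F) (x ^ (-M) *
        (((b.repr g i : K⟮x⟯) : F) * (f * b i))) : K⟮x⟯) : F) =
        ∑ i, x ^ (-M) * (((b.repr g i : K⟮x⟯) : F) *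
          ((Algebra.trace K⟮x⟯ F (f * b i) : K⟮x⟯) : F)) := by
      have := map_sum (algebraMap K⟮x⟯ F) (fun i => (Algebra.trace K⟮x⟯ F) (x ^ (-M) *
        (((b.repr g i : K⟮x⟯) : F) * (f * b i)))) Finset.univ
      refine this.trans (Finset.sum_congr rfl fun i _ => ?_)
      rw [hsm]
      exact coe_gen_zpow_mul _ _
    rw [h3]
    refine Submodule.sum_mem _ fun i _ => ?_
    rw [zpow_mul_mem_VInf_iff hx0]
    have := mul_mem_VInf (hg i) (h i)
    convert this using 1
    ring_nf

include hx in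
/-- `ℓ(D - 2 (x)_∞)` where `D` is the different. -/
theorem finrank_sub_two_eq (hb : IsRed (K := K) x b a)
    (htame : ∀ (v : Place K F) (a : K), 0 < v.ord (x - algebraMap K F a) →
      ((v.ord (x - algebraMap K F a) : ℤ) : K) ≠ 0)
    (htame' : ∀ v : Place K F, v.ord x < 0 → ((v.ord x : ℤ) : K) ≠ 0)
    {D : Divisor K F}
    (hD : ∀ (v : Place K F) (a : K), 0 < v.ord (x - algebraMap K F a) →
      D v = v.ord (x - algebraMap K F a) - 1)
    (hD' : ∀ v : Place K F, v.ord x < 0 → D v = -v.ord x - 1) :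
    Module.finrank K (riemannRochSpace (D - 2 • polesOf (K := K) x)) = ∑ i, (a i - 1) := by
  classical
  have hx0 : x ≠ 0 := by
    rintro rfl
    exact hx isAlgebraic_zero
  have hpir := Fermat.FF.adjoin_isPrincipalIdealRing hx
  let b' := (Algebra.traceForm K⟮x⟯ F).dualBasis (traceForm_nondegenerate K⟮x⟯ F) b
  have hb' : ∀ f i, b'.repr f i = Algebra.trace K⟮x⟯ F (f * b i) := fun f i => by
    rw [LinearMap.BilinForm.dualBasis_repr_apply]
    rfl
  apply finrank_of_repr hx b'
  intro f
  have h1 : ∀ i, (∃ p ∈ degreeLT K (a i - 1), ((b'.repr f i : K⟮x⟯) : F) = aeval x p) ↔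
      (Algebra.trace K⟮x⟯ F (f * b i) ∈ (algebraMap (Algebra.adjoin K {x}) K⟮x⟯).range ∧
        ((Algebra.trace K⟮x⟯ F (f * b i) : K⟮x⟯) : F) ∈ VInf (K := K) x ((-2 : ℤ) + a i)) :=
      fun i => by
    rw [← hb', ← mem_iff_exists_poly hx]
    rcases Nat.eq_zero_or_pos (a i) with h0 | h0
    · rw [h0]
      constructor
      · rintro ⟨h3, h4⟩
        have h5 := (mem_iff_exists_poly hx (q := b'.repr f i) (N := 0)).mp
          ⟨h3, by simpa using h4⟩
        obtain ⟨p, hp, hpe⟩ := h5
        have hp0 : p = 0 := by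
          rw [mem_degreeLT] at hp
          by_contra hne
          rw [degree_eq_natDegree hne] at hp
          have : p.natDegree < 0 := by exact_mod_cast hp
          omega
        rw [hp0, map_zero] at hpe
        exact ⟨h3, by rw [hpe]; exact Submodule.zero_mem _⟩
      · rintro ⟨h3, h4⟩
        exact ⟨h3, VInf_mono (by norm_num) h4⟩
    · rw [show (((a i - 1 : ℕ) : ℤ) - 1) = (-2 : ℤ) + a i by omega]
  simp only [h1]
  rw [forall_and, ← forall_trace_mem_range_iff hb, ← forall_trace_mem_VInf_iff' hx hb,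
    mem_riemannRochSpace_iff]
  have hpoles : ∀ v : Place K F, (D - 2 • polesOf (K := K) x) v =
      D v - 2 * max (-v.ord x) 0 := fun v => by
    rw [Finsupp.sub_apply, Finsupp.smul_apply, polesOf_apply, nsmul_eq_mul]
    push_cast
    ring
  rcases eq_or_ne f 0 with rfl | hf
  · simp [zero_mem]
  have hf' : x ^ (-(-2 : ℤ)) * f ≠ 0 := mul_ne_zero (zpow_ne_zero _ hx0) hf
  rw [trace_fin_iff hx htame hf, trace_inf_iff hx htame' hf']
  simp only [hpoles, or_iff_right hf]
  have hord : ∀ v : Place K F, v.ord (x ^ (-(-2 : ℤ)) * f) = 2 * v.ord x + v.ord f := fun v => by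
    rw [v.ord_mul (zpow_ne_zero _ hx0) hf, v.ord_zpow]
    ring
  simp only [hord]
  constructor
  · intro h
    constructor
    · intro v c hv
      have h2 := h v
      have h3 : 0 ≤ v.ord x := ord_nonneg_of_ord_sub_pos hx hv
      rw [max_eq_right (by omega), hD v c hv] at h2
      linarith
    · intro v hv
      have h2 := h v
      rw [max_eq_left (by omega), hD' v hv] at h2
      linarith
  · rintro ⟨h, h'⟩ v
    rcases le_or_gt 0 (v.ord x) with hv | hv
    · rw [max_eq_right (by omega)]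
      obtain ⟨c, hc⟩ := exists_ord_sub_pos hx hv
      rw [hD v c hc]
      have := h v c hc
      linarith
    · rw [max_eq_left (by omega), hD' v hv]
      have := h' v hv
      linarith

include hx in
/-- The divisor `Diff - 2 (x)_∞` is canonical. -/
theorem finrank_different_sub
    (htame : ∀ (v : Place K F) (a : K), 0 < v.ord (x - algebraMap K F a) →
      ((v.ord (x - algebraMap K F a) : ℤ) : K) ≠ 0)
    (htame' : ∀ v : Place K F, v.ord x < 0 → ((v.ord x : ℤ) : K) ≠ 0)
    {D : Divisor K F}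
    (hD : ∀ (v : Place K F) (a : K), 0 < v.ord (x - algebraMap K F a) →
      D v = v.ord (x - algebraMap K F a) - 1)
    (hD' : ∀ v : Place K F, v.ord x < 0 → D v = -v.ord x - 1) :
    Module.finrank K (riemannRochSpace (D - 2 • polesOf (K := K) x)) = genusFF K F := by
  obtain ⟨b₀, a, hb₀⟩ := exists_isRed (K := K) hx
  have hn0 : 0 < Module.finrank K⟮x⟯ F := Module.finrank_pos
  obtain ⟨b, hb⟩ : ∃ b : Module.Basis (Fin (Module.finrank K⟮x⟯ F)) K⟮x⟯ F,
      IsRed (K := K) x b a := by
    have : Nonempty (Fin (Module.finrank K⟮x⟯ F)) := ⟨⟨0, hn0⟩⟩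
    refine ⟨basisOfLinearIndependentOfCardEqFinrank (linearIndependent_of_span hb₀.span)
      (Fintype.card_fin _), ?_⟩
    rwa [coe_basisOfLinearIndependentOfCardEqFinrank]
  clear hb₀
  clear b₀
  generalize hn : Module.finrank K⟮x⟯ F = n at b a hb hn0
  rw [finrank_sub_two_eq hx hb htame htame' hD hD']
  have h0 := finrank_zero_eq hx hb
  rw [finrank_riemannRochSpace_zero] at h0
  -- choose `M` large
  obtain ⟨M, hM1, hM2⟩ : ∃ M : ℕ, (∀ i, a i ≤ M) ∧ (2 * (genusFF K F : ℤ) - 2 < M) := by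
    refine ⟨(∑ i, a i) + 2 * genusFF K F, fun i => ?_, ?_⟩
    · have : a i ≤ ∑ i, a i := Finset.single_le_sum (fun _ _ => Nat.zero_le _) (Finset.mem_univ i)
      omega
    · omega
  have h1 := finrank_nsmul_polesOf hx hb hM1
  have hdeg : Divisor.degree (M • polesOf (K := K) x) = M * n := by
    rw [map_nsmul, degree_polesOf hx, nsmul_eq_mul, hn]
  have hMn : (M : ℤ) ≤ M * n := by
    have : (1 : ℤ) ≤ n := by exact_mod_cast hn0
    nlinarith [Int.natCast_nonneg M]
  have h3 := finrank_riemannRochSpace_eq (K := K) (D := M • polesOf (K := K) x)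
    (by rw [hdeg]; omega)
  rw [h1, hdeg] at h3
  have h5 : ((∑ i, (M + 1 - a i) : ℕ) : ℤ) = n * (M + 1) - ∑ i, (a i : ℤ) := by
    push_cast
    have : ∀ i, ((M + 1 - a i : ℕ) : ℤ) = (M + 1) - (a i : ℤ) := fun i => by
      have := hM1 i
      omega
    simp only [this, Finset.sum_sub_distrib]
    simp
  rw [h5] at h3
  have h6 : ((∑ i, (a i - 1) : ℕ) : ℤ) = ∑ i, (a i : ℤ) - n + ((∑ i, (1 - a i) : ℕ) : ℤ) := by
    push_cast
    have h7 : ∀ i, ((a i - 1 : ℕ) : ℤ) = (a i : ℤ) - 1 + ((1 - a i : ℕ) : ℤ) := fun i => by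
      omega
    simp only [h7, Finset.sum_add_distrib, Finset.sum_sub_distrib]
    simp
  rw [← h0] at h6
  have h8 : ((∑ i, (a i - 1) : ℕ) : ℤ) = (genusFF K F : ℤ) := by
    rw [h6]
    push_cast
    linarith
  exact_mod_cast h8

end Fermat.Agent.DS.X1
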