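import Fermat.Agent.DS.X1.Genus0Dif
import Fermat.Agent.DS.X1.Genus0Can
import Fermat.Agent.DS.Hecke1Neb

/-!
# The genus of the function field of `X₁(M)` in characteristic zero

`genusFF_F1_le`: the genus is at most the dimension of the space of cusp forms of weight 2.
(team S48, P6-B1, helper17)
-/

set_option autoImplicit false
set_option linter.unusedSectionVars false

noncomputable section

open UpperHalfPlane CongruenceSubgroup ModularForm AlgebraicCurve FermatJ ModularCurve
open Fermat.Agent.JAN Fermat.Agent.JAN.MerField Fermat.Agent.JAN.AnFun Fermat.Agent.JAN.Orders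
open Fermat.Agent.MFF Fermat.Agent.RR IntermediateField
open scoped MatrixGroups Manifold Topology

namespace Fermat.Agent.DS.X1.Gen0

theorem order_jqC : jqC.order = -1 := by
  have h1 : jqC.coeff (-1) = 1 := by
    rw [jqC, coeffMap_coeff, coeff_jq_neg_one, map_one]
  have h1' : jqC.coeff (-1) ≠ 0 := by
    rw [h1]
    exact one_ne_zero
  refine le_antisymm (HahnSeries.order_le_of_coeff_ne_zero h1') ?_
  by_contra hlt
  push Not at hlt
  have hne : jqC ≠ 0 := by
    intro h0
    rw [h0] at h1'
    exact h1' rfl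
  apply HahnSeries.coeff_order_eq_zero.not.mpr hne
  rw [jqC, coeffMap_coeff]
  rw [jqC] at hlt
  rw [coeff_jq_of_lt hlt, map_zero]

/-! ### Orders of elements of the Riemann-Roch space -/

section Abstract

variable {K F : Type*} [Field K] [Field F] [Algebra K F] [IsAlgClosed K] [FunctionField K F]
  {x : F} (hx : Transcendental K x) [FiniteDimensional K⟮x⟯ F]

include hx in
theorem order_cusp_of_mem {cu : F →+* LaurentSeries ℂ}
    (hcu : ∀ c : K, (cu (algebraMap K F c)).order = 0) {m : ℤ} (hm : 0 < m)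
    (hxo : (cu x).order = -m) {D : Divisor K F}
    (hD' : ∀ v : Place K F, v.ord x < 0 → D v = -v.ord x - 1)
    {y : F} (hy : y ≠ 0) (hyD : y ∈ riemannRochSpace (D - 2 • polesOf (K := K) x)) :
    m < (cu y).order := by
  have hx0 : x ≠ 0 := by
    rintro rfl
    exact hx isAlgebraic_zero
  obtain ⟨v, e, he, -, hv⟩ := (intVal_order cu).exists_place (K := K)
    (fun c _ => (hcu c).ge) ⟨x, hx0, by rw [hxo]; omega⟩
  have he' : (0 : ℤ) < e := by exact_mod_cast he
  have h1 := hv x hx0
  rw [hxo] at h1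
  have h2 : v.ord x < 0 := by
    by_contra hcon
    push Not at hcon
    have : 0 ≤ (e : ℤ) * v.ord x := mul_nonneg he'.le hcon
    omega
  have h3 := (mem_riemannRochSpace_iff.mp hyD v).resolve_left hy
  rw [Finsupp.sub_apply, Finsupp.smul_apply, polesOf_apply, nsmul_eq_mul, hD' v h2,
    max_eq_left (by omega)] at h3
  push_cast at h3
  have h4 : (cu y).order = e * v.ord y := hv y hy
  rw [h4]
  nlinarith

variable [Algebra K ℂ]

include hx in
theorem order_loc_of_mem {an : F →+* Mer}
    (han : ∀ c : K, an (algebraMap K F c) = algebraMap ℂ Mer (algebraMap K ℂ c))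
    (hxj : an x = jMer) {D : Divisor K F}
    (hD : ∀ (v : Place K F) (a : K), 0 < v.ord (x - algebraMap K F a) →
      D v = v.ord (x - algebraMap K F a) - 1)
    {y : F} (hy : y ≠ 0) (hyD : y ∈ riemannRochSpace (D - 2 • polesOf (K := K) x))
    (τ₀ : ℍ) : 0 ≤ (locMer τ₀ (an y)).order + (locMer τ₀ djMer).order := by
  have hx0 : x ≠ 0 := by
    rintro rfl
    exact hx isAlgebraic_zero
  by_cases hnt : ∃ y : F, y ≠ 0 ∧ (((locMer τ₀).comp an) y).order ≠ 0
  · obtain ⟨v, e, he, -, hv⟩ := (intVal_order ((locMer τ₀).comp an)).exists_place (K := K)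
      (fun c _ => by
        show 0 ≤ (locMer τ₀ (an (algebraMap K F c))).order
        rw [han, locMer_algebraMapC, HahnSeries.order_C]) hnt
    simp only [RingHom.comp_apply] at hv
    have he' : (0 : ℤ) < e := by exact_mod_cast he
    have hvx : 0 ≤ v.ord x := by
      have h1 := hv x hx0
      have h2 : 0 ≤ (locMer τ₀ (an x)).order := by
        rw [hxj]
        exact order_locMer_jMer_nonneg τ₀
      rw [h1] at h2
      exact nonneg_of_mul_nonneg_right h2 he'
    obtain ⟨a, ha⟩ := RH.exists_ord_sub_pos hx hvx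
    have hxa0 : x - algebraMap K F a ≠ 0 := RH.sub_ne_zero_of_transcendental hx a
    have h3 := hv _ hxa0
    rw [map_sub, hxj, han] at h3
    have hja : jf τ₀ = algebraMap K ℂ a := by
      by_contra hne
      rw [order_locMer_jSub hne] at h3
      have : 0 < (e : ℤ) * v.ord (x - algebraMap K F a) := mul_pos he' ha
      omega
    have h5 := order_locMer_dj τ₀
    rw [hja, h3] at h5
    have h6 := (mem_riemannRochSpace_iff.mp hyD v).resolve_left hy
    rw [Finsupp.sub_apply, Finsupp.smul_apply, polesOf_apply, nsmul_eq_mul, hD v a ha,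
      max_eq_right (by omega), mul_zero, sub_zero] at h6
    rw [hv y hy]
    have h8 : (e : ℤ) * (-(v.ord (x - algebraMap K F a) - 1)) ≤ e * v.ord y :=
      mul_le_mul_of_nonneg_left h6 he'.le
    have h9 : (locMer τ₀ djMer).order = e * v.ord (x - algebraMap K F a) - 1 := by
      linarith
    rw [h9]
    have h10 : (1 : ℤ) ≤ e := he'
    linarith
  · push Not at hnt
    have h1 : (locMer τ₀ (an y)).order = 0 := hnt y hy
    rw [h1, zero_add]
    exact order_locMer_dj_nonneg τ₀

include hx in
/-- Abstract form of the bound. -/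
theorem genusFF_le_of_forms {V : Type*} [AddCommGroup V] [Module ℂ V] [FiniteDimensional ℂ V]
    {an : F →+* Mer}
    (han : ∀ c : K, an (algebraMap K F c) = algebraMap ℂ Mer (algebraMap K ℂ c))
    (hxj : an x = jMer) {G : Type*} (cu : G → F →+* LaurentSeries ℂ)
    (hcu : ∀ g, ∀ c : K, (cu g (algebraMap K F c)).order = 0) {m : ℤ} (hm : 0 < m)
    (hxo : ∀ g, (cu g x).order = -m)
    (S : F → V → Prop)
    (hS : ∀ y : F, y ≠ 0 → (∀ τ₀, 0 ≤ (locMer τ₀ (an y)).order + (locMer τ₀ djMer).order) →
      (∀ g, m < (cu g y).order) → ∃ f : V, S y f)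
    (hli : ∀ {ι : Type} [Fintype ι] (y : ι → F) (f : ι → V), LinearIndependent K y →
      (∀ i, S (y i) (f i)) → LinearIndependent ℂ f) :
    genusFF K F ≤ Module.finrank ℂ V := by
  have : CharZero K := (algebraMap K ℂ).charZero
  have : CharZero K⟮x⟯ := charZero_of_injective_algebraMap (algebraMap K K⟮x⟯).injective
  have htame : ∀ (v : Place K F) (a : K), 0 < v.ord (x - algebraMap K F a) →
      ((v.ord (x - algebraMap K F a) : ℤ) : K) ≠ 0 := fun v a h => by
    exact_mod_cast h.ne'
  have htame' : ∀ v : Place K F, v.ord x < 0 → ((v.ord x : ℤ) : K) ≠ 0 := fun v h => by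
    exact_mod_cast h.ne
  obtain ⟨D, hD, hD'⟩ := RH.exists_different hx htame
  rw [← finrank_different_sub hx htame htame' hD hD']
  set W := riemannRochSpace (D - 2 • polesOf (K := K) x) with hW
  let b := Module.finBasis K W
  have hbli : LinearIndependent K (fun i => ((b i : W) : F)) :=
    b.linearIndependent.map' W.subtype W.ker_subtype
  have hb0 : ∀ i, ((b i : W) : F) ≠ 0 := fun i => hbli.ne_zero i
  choose f hf using fun i => hS _ (hb0 i) (order_loc_of_mem hx han hxj hD (hb0 i) (b i).2)
    (fun g => order_cusp_of_mem hx (hcu g) hm (hxo g) hD' (hb0 i) (b i).2)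
  have := (hli _ f hbli hf).fintype_card_le_finrank
  rwa [Fintype.card_fin] at this

end Abstract

variable {K : Type*} [Field K] [Algebra K ℂ] {M : ℕ} [NeZero M]

/-! ### Linear independence over `ℂ` -/

/-- A linear relation over `ℂ` between expansions with coefficients in `K`. -/
theorem eq_zero_of_sum_toC {ι : Type*} [Fintype ι] {y : ι → F1 K M} (hy : LinearIndependent K y)
    {c : ι → ℂ} (h : ∑ i, algebraMap ℂ (LaurentSeries ℂ) (c i) * toC (y i : LaurentSeries K) = 0)
    (i : ι) : c i = 0 := by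
  rw [← Module.forall_dual_apply_eq_zero_iff K]
  intro φ
  have h1 := congrArg (coeffLin φ) h
  rw [map_sum, map_zero] at h1
  have h2 : ∀ i, coeffLin φ (algebraMap ℂ (LaurentSeries ℂ) (c i) * toC (y i : LaurentSeries K)) =
      algebraMap K (LaurentSeries K) (φ (c i)) * y i := fun i =>
    coeffLin_algebraMap_mul_emb φ (c i) (y i)
  simp only [h2] at h1
  have h3 : ∑ i, φ (c i) • y i = 0 := by
    apply Subtype.ext
    rw [AddSubmonoidClass.coe_finsetSum, ZeroMemClass.coe_zero, ← h1]
    refine Finset.sum_congr rfl fun i _ => ?_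
    rw [Algebra.smul_def]
    rfl
  exact Fintype.linearIndependent_iff.mp hy _ h3 i

/-- cusp forms as functions -/
def coeL (M : ℕ) [NeZero M] :
    CuspForm (Gamma1 M : Subgroup (GL (Fin 2) ℝ)) 2 →ₗ[ℂ] (ℍ → ℂ) where
  toFun f := f
  map_add' _ _ := rfl
  map_smul' _ _ := rfl

theorem linearIndependent_forms {ι : Type*} [Fintype ι] {ψ : LaurentSeries ℂ} (hψ : ψ ≠ 0)
    {y : ι → F1 K M} {G : ι → CuspForm (Gamma1 M : Subgroup (GL (Fin 2) ℝ)) 2}
    (hy : LinearIndependent K y) (hG : ∀ i, LQ (G i) = toC (y i : LaurentSeries K) * ψ) :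
    LinearIndependent ℂ G := by
  rw [Fintype.linearIndependent_iff]
  intro c hc i
  refine eq_zero_of_sum_toC hy (c := c) ?_ i
  have hMG : ∀ i, IsM1 M 2 (G i : ℍ → ℂ) := fun i => IsCG.isMG ⟨G i, rfl⟩
  have h1 : (∑ i, c i • (G i : ℍ → ℂ)) = 0 := by
    have h0 := congrArg (coeL M) hc
    rw [map_sum, map_zero] at h0
    simp only [map_smul] at h0
    exact h0
  have h2 := congrArg LQ h1
  rw [LQ_sum (fun i _ => ((hMG i).smul (c i)).anQ), LQ_zero] at h2
  have h3 : ∀ i, LQ (c i • (G i : ℍ → ℂ)) = algebraMap ℂ (LaurentSeries ℂ) (c i) *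
      toC (y i : LaurentSeries K) * ψ := fun i => by
    rw [LQ_smul' _ (hMG i).anQ, hG i, mul_assoc]
  simp only [h3] at h2
  rw [← Finset.sum_mul] at h2
  exact (mul_eq_zero.mp h2).resolve_right hψ

theorem order_cuspF_jMer {x : F1 K M} (hxj : anF K M x = jMer) (g : SL(2, ℤ)) :
    (cuspF g x).order = -M := by
  have h1 : HasQ M (sact g (anF K M x)) (qExpand ℂ M jqC) := by
    rw [hxj, sact_jMer]
    exact hasQ_expand hasQ_jMer M
  rw [cuspF_eq h1, order_qExpand', order_jqC]
  ring

/-- The genus of the function field of `X₁(M)` is at most the dimension of the space of cusp forms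
of weight 2. -/
theorem genusFF_F1_le [IsAlgClosed K] [FunctionField K (F1 K M)] {x : F1 K M}
    (hx : Transcendental K x) [FiniteDimensional K⟮x⟯ (F1 K M)] (hxj : anF K M x = jMer) :
    genusFF K (F1 K M) ≤
      Module.finrank ℂ (CuspForm (Gamma1 M : Subgroup (GL (Fin 2) ℝ)) 2) := by
  obtain ⟨ψ, hψ, hψ'⟩ := exists_hasQ_dj
  have hψ0 : ψ ≠ 0 := by
    rintro rfl
    simp at hψ'
  refine genusFF_le_of_forms hx (an := anF K M) anF_algebraMap hxj
    (fun g : SL(2, ℤ) => cuspF g) (fun g c => order_cuspF_algebraMap g c) (m := M)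
    (by exact_mod_cast Nat.pos_of_ne_zero (NeZero.ne M)) (order_cuspF_jMer hxj)
    (fun y G => LQ G = toC (y : LaurentSeries K) * ψ) ?_ ?_
  · intro y hy h1 h2
    exact exists_cuspForm hψ hψ' hy h1 h2
  · intro ι _ y f hy hf
    exact linearIndependent_forms hψ0 hy hf

end Fermat.Agent.DS.X1.Gen0
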