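import Fermat.Agent.DS.X1.Defs
import Fermat.Agent.JAN.Orders
import Fermat.Agent.MFF.Ratio

/-!
# The analytic realisation of the function field of `X₁(M)` over a subfield of `ℂ`

* `anF : F1 K M →+* Mer`: the meromorphic function with a given `q`-expansion;
* invariance under `Γ₁(M)`, expansions at all the cusps.
(team S48, P6-B1, helper17)
-/

set_option autoImplicit false
set_option linter.unusedSectionVars false

noncomputable section

open UpperHalfPlane CongruenceSubgroup ModularForm AlgebraicCurve FermatJ ModularCurve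
open Fermat.Agent.JAN Fermat.Agent.JAN.MerField Fermat.Agent.JAN.AnFun Fermat.Agent.JAN.Orders
open Fermat.Agent.MFF
open scoped MatrixGroups Manifold

namespace Fermat.Agent.DS.X1.Gen0

/-- modular forms of weight `k` on `Γ₁(M)` -/
abbrev IsM1 (M : ℕ) (k : ℤ) (f : ℍ → ℂ) : Prop := IsMG (Gamma1 M : Subgroup (GL (Fin 2) ℝ)) k f

section Forms

variable {M : ℕ} [NeZero M] {k l : ℤ} {f g : ℍ → ℂ}

theorem IsM1.holo (h : IsM1 M k f) : MDiff f := by
  obtain ⟨F, rfl⟩ := h
  exact F.holo'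

theorem IsM1.slash (h : IsM1 M k f) {γ : SL(2, ℤ)} (hγ : γ ∈ Gamma1 M) : f ∣[k] γ = f := by
  obtain ⟨F, rfl⟩ := h
  exact F.slash_action_eq' _ ⟨γ, hγ, rfl⟩

theorem IsM1.bdd (h : IsM1 M k f) (g : SL(2, ℤ)) : IsBoundedAtImInfty (f ∣[k] g) := by
  obtain ⟨F, rfl⟩ := h
  exact ModularFormClass.bdd_at_infty_slash F g

theorem IsM1.hasPS (h : IsM1 M k f) : HasPS (qc 1) f (qExpansion 1 f) := by
  obtain ⟨F, rfl⟩ := h
  intro τ
  have h := ModularForm.hasSum_qExpansion (h := 1) F one_pos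
    (GoodLevel.per (𝒢 := (Gamma1 M : Subgroup (GL (Fin 2) ℝ)))) τ
  simpa [qc] using h

theorem IsM1.hasExp (h : IsM1 M k f) : HasExp (qc 1) f (LQ f) := HasExp.of_hasPS h.hasPS

theorem conj_T_pow_mem_Gamma1 (g : SL(2, ℤ)) : g * ModularGroup.T ^ M * g⁻¹ ∈ Gamma1 M := by
  have h1 : g * ModularGroup.T ^ M * g⁻¹ ∈ Gamma M := by
    rw [Gamma_mem']
    have hT : (Matrix.SpecialLinearGroup.map (Int.castRingHom (ZMod M))) (ModularGroup.T ^ M) = 1 := by
      ext i j
      rw [Matrix.SpecialLinearGroup.map_apply_coe, ← zpow_natCast, ModularGroup.coe_T_zpow]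
      fin_cases i <;> fin_cases j <;> simp
    rw [map_mul, map_mul, hT, mul_one, map_inv, mul_inv_cancel]
  rw [Gamma_mem] at h1
  rw [Gamma1_mem]
  exact ⟨h1.1, h1.2.2.2, h1.2.2.1⟩

/-- the expansion of a form at the cusp `g ∞` -/
theorem IsM1.hasPS_slash (h : IsM1 M k f) (g : SL(2, ℤ)) :
    HasPS (qc M) (f ∣[k] g) (qExpansion M (f ∣[k] g)) := by
  refine hasPS_of_slash_T (k := k) ?_ (mdiff_slash h.holo g) (h.bdd g)
  rw [← SlashAction.slash_mul]
  have h1 : g * ModularGroup.T ^ (M : ℤ) = (g * ModularGroup.T ^ M * g⁻¹) * g := by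
    rw [inv_mul_cancel_right, zpow_natCast]
  rw [h1, SlashAction.slash_mul, h.slash (conj_T_pow_mem_Gamma1 g)]

end Forms

/-! ### Ratios of forms -/

/-- `x` is the expansion of `A / B`, with `A` and `B` forms of weight `k` on `Γ₁(M)`. -/
structure IsRat1 (M : ℕ) (x : LaurentSeries ℂ) (k : ℤ) (A B : ℍ → ℂ) : Prop where
  num : IsM1 M k A
  den : IsM1 M k B
  den_ne : B ≠ 0
  rel : x * LQ B = LQ A

namespace IsRat1

variable {M : ℕ} [NeZero M] {x : LaurentSeries ℂ} {k : ℤ} {A B : ℍ → ℂ}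

/-- The meromorphic function. -/
def mer (h : IsRat1 M x k A B) : Mer :=
  algebraMap Hol Mer ⟨A, h.num.holo⟩ / algebraMap Hol Mer ⟨B, h.den.holo⟩

theorem hasQ (h : IsRat1 M x k A B) : HasQ 1 h.mer x :=
  ⟨⟨A, h.num.holo⟩, ⟨B, h.den.holo⟩, LQ A, LQ B, hol_ne_zero h.den_ne, h.num.hasExp,
    h.den.hasExp, rfl, h.rel⟩

theorem sact_mer (h : IsRat1 M x k A B) {γ : SL(2, ℤ)} (hγ : γ ∈ Gamma1 M) :
    sact γ h.mer = h.mer := by
  rw [mer, sact_div k]
  have h1 : slashHol k γ ⟨A, h.num.holo⟩ = ⟨A, h.num.holo⟩ := Subtype.ext (h.num.slash hγ)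
  have h2 : slashHol k γ ⟨B, h.den.holo⟩ = ⟨B, h.den.holo⟩ := Subtype.ext (h.den.slash hγ)
  rw [h1, h2]

theorem exists_hasQ_sact (h : IsRat1 M x k A B) (g : SL(2, ℤ)) :
    ∃ φ, HasQ M (sact g h.mer) φ := by
  refine ⟨(HahnSeries.ofPowerSeries ℤ ℂ (qExpansion M (A ∣[k] g))) /
    (HahnSeries.ofPowerSeries ℤ ℂ (qExpansion M (B ∣[k] g))), ?_⟩
  rw [mer, sact_div k]
  have hB : slashHol k g ⟨B, h.den.holo⟩ ≠ 0 := hol_ne_zero (slash_ne_zero h.den_ne g)
  have hQ0 : (HahnSeries.ofPowerSeries ℤ ℂ (qExpansion M (B ∣[k] g)) : LaurentSeries ℂ) ≠ 0 :=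
    exp_ne_zero (h := M) (b := slashHol k g ⟨B, h.den.holo⟩)
      (HasExp.of_hasPS (h.den.hasPS_slash g)) hB
  exact ⟨slashHol k g ⟨A, h.num.holo⟩, slashHol k g ⟨B, h.den.holo⟩, _, _, hB,
    HasExp.of_hasPS (h.num.hasPS_slash g), HasExp.of_hasPS (h.den.hasPS_slash g), rfl,
    div_mul_cancel₀ _ hQ0⟩

end IsRat1

/-! ### The field `F1 K M` -/

section Field

variable {K : Type*} [Field K] [Algebra K ℂ] {M : ℕ} [NeZero M]

theorem toC_toK (P : PowerSeries ℤ) : toC (toK K P) =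
    HahnSeries.ofPowerSeries ℤ ℂ (PowerSeries.map (Int.castRingHom ℂ) P) := by
  rw [toC, toK, RingHom.comp_apply, FermatJ.coeffMap_ofPowerSeries]
  congr 1
  ext n
  simp

theorem exists_form_of_mem_MK {k : ℤ} {a : LaurentSeries K} (ha : a ∈ MK K M k) :
    ∃ f, IsM1 M k f ∧ toC a = LQ f := by
  induction ha using Submodule.span_induction with
  | mem x hx =>
    obtain ⟨F, ⟨f, hf, hF⟩, rfl⟩ := hx
    exact ⟨f, hf, by rw [toC_toK, LQ, hF]⟩
  | zero => exact ⟨0, IsMG.zero _ _, by rw [LQ_zero]; exact map_zero _⟩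
  | add x y _ _ hx hy =>
    obtain ⟨f, hf, h1⟩ := hx
    obtain ⟨g, hg, h2⟩ := hy
    refine ⟨f + g, hf.add hg, ?_⟩
    rw [LQ_add hf.anQ hg.anQ, ← h1, ← h2]
    exact map_add _ _ _
  | smul c x _ hx =>
    obtain ⟨f, hf, h1⟩ := hx
    refine ⟨(algebraMap K ℂ c) • f, hf.smul _, ?_⟩
    rw [LQ_smul' _ hf.anQ, ← h1, smul_eq_mul_MK]
    rw [← toC_algebraMap]
    exact map_mul _ _ _

theorem exists_isRat1 {x : LaurentSeries K} (hx : x ∈ F1 K M) :
    ∃ (k : ℤ) (A B : ℍ → ℂ), IsRat1 M (toC x) k A B := by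
  obtain ⟨k, a, ha, b, hb, hb0, h⟩ := mem_F1.mp hx
  obtain ⟨A, hA, hA'⟩ := exists_form_of_mem_MK ha
  obtain ⟨B, hB, hB'⟩ := exists_form_of_mem_MK hb
  refine ⟨k, A, B, hA, hB, ?_, ?_⟩
  · rintro rfl
    rw [LQ_zero] at hB'
    apply hb0
    exact (map_eq_zero_iff (coeffMap (algebraMap K ℂ)) (RingHom.injective _)).1 hB'
  · rw [← hA', ← hB', ← h]
    exact (map_mul _ _ _).symm

theorem toC_mem_qField1 {x : LaurentSeries K} (hx : x ∈ F1 K M) : toC x ∈ qField := by
  obtain ⟨k, A, B, h⟩ := exists_isRat1 hx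
  exact ⟨_, h.hasQ⟩

variable (K M) in
/-- The meromorphic function attached to an element of the function field. -/
def anF : F1 K M →+* Mer :=
  (an : qField →+* Mer).comp
    (((coeffMap (algebraMap K ℂ)).comp (algebraMap (F1 K M) (LaurentSeries K))).codRestrict
      qField (fun x => toC_mem_qField1 x.2))

theorem hasQ_anF (x : F1 K M) : HasQ 1 (anF K M x) (toC (x : LaurentSeries K)) :=
  hasQ_an ⟨toC (x : LaurentSeries K), toC_mem_qField1 x.2⟩

theorem anF_eq {x : F1 K M} {y : Mer} (hy : HasQ 1 y (toC (x : LaurentSeries K))) :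
    anF K M x = y := (hasQ_anF x).unique' hy

theorem anF_algebraMap (c : K) :
    anF K M (algebraMap K (F1 K M) c) = algebraMap ℂ Mer (algebraMap K ℂ c) := by
  apply anF_eq
  have h : ((algebraMap K (F1 K M) c : F1 K M) : LaurentSeries K) =
      algebraMap K (LaurentSeries K) c := rfl
  rw [h, toC_algebraMap]
  exact HasQ.algebraMap_hasQ _

theorem sact_anF {γ : SL(2, ℤ)} (hγ : γ ∈ Gamma1 M) (x : F1 K M) :
    sact γ (anF K M x) = anF K M x := by
  obtain ⟨k, A, B, h⟩ := exists_isRat1 x.2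
  rw [anF_eq h.hasQ, h.sact_mer hγ]

theorem exists_hasQ_sact_anF (g : SL(2, ℤ)) (x : F1 K M) :
    ∃ φ, HasQ M (sact g (anF K M x)) φ := by
  obtain ⟨k, A, B, h⟩ := exists_isRat1 x.2
  rw [anF_eq h.hasQ]
  exact h.exists_hasQ_sact g

/-- The embedding of the function field in the field of Laurent series in `q_M` at the cusp
`g ∞`. -/
def cuspF (g : SL(2, ℤ)) : F1 K M →+* LaurentSeries ℂ where
  toFun x := (exists_hasQ_sact_anF g x).choose
  map_one' := (exists_hasQ_sact_anF g _).choose_spec.unique (by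
    simpa only [map_one] using HasQ.one)
  map_zero' := (exists_hasQ_sact_anF g _).choose_spec.unique (by
    simpa only [map_zero] using HasQ.zero)
  map_mul' x y := (exists_hasQ_sact_anF g _).choose_spec.unique (by
    simpa only [map_mul] using
      (exists_hasQ_sact_anF g x).choose_spec.mul (exists_hasQ_sact_anF g y).choose_spec)
  map_add' x y := (exists_hasQ_sact_anF g _).choose_spec.unique (by
    simpa only [map_add] using
      (exists_hasQ_sact_anF g x).choose_spec.add (exists_hasQ_sact_anF g y).choose_spec)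

theorem hasQ_cuspF (g : SL(2, ℤ)) (x : F1 K M) : HasQ M (sact g (anF K M x)) (cuspF g x) :=
  (exists_hasQ_sact_anF g x).choose_spec

theorem cuspF_eq {g : SL(2, ℤ)} {x : F1 K M} {φ : LaurentSeries ℂ}
    (hφ : HasQ M (sact g (anF K M x)) φ) : cuspF g x = φ := (hasQ_cuspF g x).unique hφ

theorem cuspF_algebraMap (g : SL(2, ℤ)) (c : K) :
    cuspF (M := M) g (algebraMap K (F1 K M) c) =
      algebraMap ℂ (LaurentSeries ℂ) (algebraMap K ℂ c) := by
  apply cuspF_eq
  rw [anF_algebraMap, AlgHom.commutes]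
  exact HasQ.algebraMap_hasQ _

theorem order_algebraMapC (c : ℂ) : (algebraMap ℂ (LaurentSeries ℂ) c).order = 0 := by
  rw [algebraMap_laurentSeries_eq_single]
  by_cases hc : c = 0
  · rw [hc]
    simp
  · exact HahnSeries.order_single hc

/-- order at the cusp `g ∞` -/
theorem intVal_cuspF (g : SL(2, ℤ)) : IntVal (fun x : F1 K M => (cuspF g x).order) :=
  intVal_order _

theorem order_cuspF_algebraMap (g : SL(2, ℤ)) (c : K) :
    (cuspF (M := M) g (algebraMap K (F1 K M) c)).order = 0 := by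
  rw [cuspF_algebraMap, order_algebraMapC]

variable (K M) in
/-- The embedding of the function field in the field of Laurent series at `τ₀`. -/
def locF (τ₀ : ℍ) : F1 K M →+* LaurentSeries ℂ := (locMer τ₀).comp (anF K M)

theorem intVal_locF (τ₀ : ℍ) : IntVal (fun x : F1 K M => (locF K M τ₀ x).order) :=
  intVal_order _

theorem order_locF_algebraMap (τ₀ : ℍ) (c : K) :
    (locF K M τ₀ (algebraMap K (F1 K M) c)).order = 0 := by
  rw [locF, RingHom.comp_apply, anF_algebraMap, locMer_algebraMapC, HahnSeries.order_C]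

end Field

end Fermat.Agent.DS.X1.Gen0
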