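import Fermat.Agent.DS.X1.Genus0An
import Fermat.Agent.J.JDeriv

/-!
# Cusp forms of weight 2 from differentials `y dj`
(team S48, P6-B1, helper17)
-/

set_option autoImplicit false
set_option linter.unusedSectionVars false

noncomputable section

open UpperHalfPlane CongruenceSubgroup ModularForm AlgebraicCurve FermatJ ModularCurve
open Fermat.Agent.JAN Fermat.Agent.JAN.MerField Fermat.Agent.JAN.AnFun Fermat.Agent.JAN.Orders
open Fermat.Agent.MFF Derivative
open scoped MatrixGroups Manifold Topology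

namespace Fermat.Agent.DS.X1.Gen0

theorem analyticAt_of_mdiff {f : ℍ → ℂ} (hf : MDiff f) (τ : ℍ) :
    AnalyticAt ℂ (f ∘ ofComplex) (τ : ℂ) := by
  rw [UpperHalfPlane.mdifferentiable_iff] at hf
  exact hf.analyticAt (isOpen_upperHalfPlaneSet.mem_nhds τ.im_pos)

theorem localPS_ne_zero {f : Hol} (hf : f ≠ 0) (τ : ℍ) : localPS τ (f : ℍ → ℂ) ≠ 0 := by
  intro h
  exact hf ((locHol_injective τ) (by rw [locHol_apply, h, map_zero]))

theorem meromorphicOrderAt_hol {f : Hol} (hf : f ≠ 0) (τ : ℍ) :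
    meromorphicOrderAt ((f : ℍ → ℂ) ∘ ofComplex) (τ : ℂ) =
      ((localPS τ (f : ℍ → ℂ)).order.toNat : ℤ) := by
  rw [(analyticAt_of_mdiff f.2 τ).meromorphicOrderAt_eq, ← order_localPS τ f.2]
  have h1 := PowerSeries.coe_toNat_order (localPS_ne_zero hf τ)
  rw [← h1]
  simp

theorem withTop_aux {m n : ℤ} (h : n ≤ m) : (0 : WithTop ℤ) ≤ (m : WithTop ℤ) + -(n : WithTop ℤ) := by
  have h1 : (m : WithTop ℤ) + -(n : WithTop ℤ) = ((m - n : ℤ) : WithTop ℤ) := by
    rw [sub_eq_add_neg]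
    rfl
  rw [h1]
  exact_mod_cast sub_nonneg.mpr h

/-- A meromorphic function on `ℍ` with nonnegative orders at all the points is holomorphic. -/
theorem exists_hol {x : Mer} (h : ∀ τ₀, 0 ≤ (locMer τ₀ x).order) :
    ∃ f : Hol, algebraMap Hol Mer f = x := by
  obtain ⟨a, b, hb, rfl⟩ := IsFractionRing.div_surjective (A := Hol) x
  have hb0 : b ≠ 0 := nonZeroDivisors.ne_zero hb
  rcases eq_or_ne a 0 with rfl | ha0
  · exact ⟨0, by rw [map_zero, zero_div]⟩
  have hle : ∀ τ : ℍ, ((localPS τ (b : ℍ → ℂ)).order.toNat : ℤ) ≤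
      (localPS τ (a : ℍ → ℂ)).order.toNat := fun τ => by
    have h1 := h τ
    have h2 := (intVal_order (locMer τ)).div (algebraMap_ne_zero ha0) (algebraMap_ne_zero hb0)
    simp only [locMer_algebraMap, order_ofPowerSeries] at h2
    rw [h2] at h1
    linarith
  set a' : ℂ → ℂ := (a : ℍ → ℂ) ∘ ofComplex with ha'
  set b' : ℂ → ℂ := (b : ℍ → ℂ) ∘ ofComplex with hb'
  have hpt : ∀ z ∈ upperHalfPlaneSet, ∃ τ : ℍ, (τ : ℂ) = z := fun z hz => ⟨⟨z, hz⟩, rfl⟩
  have hFm : MeromorphicOn (a' / b') upperHalfPlaneSet := by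
    intro z hz
    obtain ⟨τ, rfl⟩ := hpt z hz
    exact (analyticAt_of_mdiff a.2 τ).meromorphicAt.div (analyticAt_of_mdiff b.2 τ).meromorphicAt
  set G := toMeromorphicNFOn (a' / b') upperHalfPlaneSet with hG
  have hGan : ∀ τ : ℍ, AnalyticAt ℂ G (τ : ℂ) := fun τ => by
    have hτ : (τ : ℂ) ∈ upperHalfPlaneSet := τ.im_pos
    have h1 : MeromorphicNFAt G (τ : ℂ) := meromorphicNFOn_toMeromorphicNFOn _ _ hτ
    rw [← h1.meromorphicOrderAt_nonneg_iff_analyticAt, hG,
      meromorphicOrderAt_toMeromorphicNFOn hFm hτ, div_eq_mul_inv,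
      meromorphicOrderAt_mul (analyticAt_of_mdiff a.2 τ).meromorphicAt
        (analyticAt_of_mdiff b.2 τ).meromorphicAt.inv, meromorphicOrderAt_inv,
      meromorphicOrderAt_hol ha0, meromorphicOrderAt_hol hb0]
    exact withTop_aux (hle τ)
  have hGd : MDiff (fun τ : ℍ => G τ) := by
    rw [UpperHalfPlane.mdifferentiable_iff]
    intro z hz
    obtain ⟨τ, rfl⟩ := hpt z hz
    refine (DifferentiableAt.congr_of_eventuallyEq (hGan τ).differentiableAt ?_).differentiableWithinAt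
    filter_upwards [isOpen_upperHalfPlaneSet.mem_nhds τ.im_pos] with w hw
    simp [ofComplex_apply_of_im_pos hw]
  refine ⟨⟨_, hGd⟩, ?_⟩
  rw [eq_div_iff (algebraMap_ne_zero hb0), ← map_mul]
  congr 1
  apply Subtype.ext
  funext τ
  show G τ * (b : ℍ → ℂ) τ = (a : ℍ → ℂ) τ
  have hτ : (τ : ℂ) ∈ upperHalfPlaneSet := τ.im_pos
  have h1 : G =ᶠ[𝓝[≠] (τ : ℂ)] (a' / b') :=
    hFm.toMeromorphicNFOn_eq_self_on_nhdsNE hτ
  have h2 : ∀ᶠ z in 𝓝[≠] (τ : ℂ), b' z ≠ 0 := by
    refine (analyticAt_of_mdiff b.2 τ).eventually_eq_zero_or_eventually_ne_zero.resolve_left ?_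
    intro h3
    have h4 := analyticOrderAt_eq_top.mpr h3
    rw [← order_localPS τ b.2] at h4
    rw [PowerSeries.order_eq_top] at h4
    exact localPS_ne_zero hb0 τ h4
  have h3 : (fun z => G z * b' z) =ᶠ[𝓝[≠] (τ : ℂ)] a' := by
    filter_upwards [h1, h2] with z hz1 hz2
    rw [hz1, Pi.div_apply, div_mul_cancel₀ _ hz2]
  have h4 : (fun z => G z * b' z) =ᶠ[𝓝 (τ : ℂ)] a' :=
    (((hGan τ).mul (analyticAt_of_mdiff b.2 τ)).frequently_eq_iff_eventually_eq
      (analyticAt_of_mdiff a.2 τ)).mp h3.frequently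
  have h5 := h4.self_of_nhds
  simpa [ha', hb'] using h5

/-! ### Leading terms at infinity -/

theorem hasPS_div_pow {ι : Type*} {t f : ι → ℂ} {Q : PowerSeries ℂ} {r : ℕ} (ht : ∀ x, t x ≠ 0)
    (h : HasPS t f (PowerSeries.X ^ r * Q)) : HasPS t (fun x => f x / t x ^ r) Q := by
  intro x
  set F : ℕ → ℂ := fun n => (PowerSeries.X ^ r * Q).coeff n * t x ^ n with hF
  have h1 : HasSum F (f x) := h x
  have h2 : HasSum (fun n : ℕ => F (n + r)) (f x) := by
    rw [hasSum_nat_add_iff r]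
    have h3 : ∑ i ∈ Finset.range r, F i = 0 := by
      refine Finset.sum_eq_zero fun i hi => ?_
      rw [Finset.mem_range] at hi
      rw [hF]
      simp only
      rw [PowerSeries.coeff_X_pow_mul', if_neg (by omega), zero_mul]
    rw [h3, add_zero]
    exact h1
  have h3 := h2.div_const (t x ^ r)
  convert! h3 using 1
  funext n
  rw [hF]
  simp only
  rw [PowerSeries.coeff_X_pow_mul', if_pos (by omega), Nat.add_sub_cancel, pow_add, mul_div_assoc,
    mul_div_cancel_right₀ _ (pow_ne_zero r (ht x))]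

open Filter in
/-- The leading coefficient of an expansion at infinity is a limit. -/
theorem tendsto_of_hasExp {h : ℕ} [NeZero h] {f : ℍ → ℂ} {φ : LaurentSeries ℂ}
    (hf : HasExp (qc h) f φ) (hφ : φ ≠ 0) :
    Tendsto (fun τ => f τ * qc h τ ^ (-φ.order)) atImInfty (𝓝 (φ.coeff φ.order)) := by
  obtain ⟨m, P, rfl, hP⟩ := hf
  have hP0 : P ≠ 0 := by
    rintro rfl
    apply hφ
    rw [map_zero, mul_zero]
  obtain ⟨Q, hQ⟩ := PowerSeries.X_pow_order_dvd (φ := P)
  set r := P.order.toNat with hr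
  have hQ0 : Q.coeff 0 ≠ 0 := by
    have h1 := PowerSeries.coeff_order hP0
    rw [← hr, hQ, PowerSeries.coeff_X_pow_mul', if_pos le_rfl, Nat.sub_self] at h1
    exact h1
  have h1 : (HahnSeries.single (-(m : ℤ)) (1 : ℂ) : LaurentSeries ℂ) ≠ 0 := by simp
  have h2 : (HahnSeries.ofPowerSeries ℤ ℂ P : LaurentSeries ℂ) ≠ 0 := by
    intro h
    exact hP0 (HahnSeries.ofPowerSeries_injective (h.trans (map_zero _).symm))
  have hord : (HahnSeries.single (-(m : ℤ)) (1 : ℂ) * HahnSeries.ofPowerSeries ℤ ℂ P :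
      LaurentSeries ℂ).order = r - m := by
    rw [HahnSeries.order_mul h1 h2, HahnSeries.order_single one_ne_zero,
      Fermat.Agent.JAN.Orders.order_ofPowerSeries, hr]
    ring
  have hcoef : (HahnSeries.single (-(m : ℤ)) (1 : ℂ) * HahnSeries.ofPowerSeries ℤ ℂ P :
      LaurentSeries ℂ).coeff (r - m) = Q.coeff 0 := by
    have h3 : ((r : ℤ) - m) = (-(m : ℤ)) + (r : ℤ) := by ring
    rw [h3, add_comm, HahnSeries.coeff_single_mul_add, one_mul,
      HahnSeries.ofPowerSeries_apply_coeff, hQ, PowerSeries.coeff_X_pow_mul', if_pos le_rfl,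
      Nat.sub_self]
  rw [hord, hcoef]
  rw [hQ] at hP
  have h4 := (hasPS_div_pow (qc_ne_zero h) hP).tendsto
  refine h4.congr fun τ => ?_
  have h5 := qc_ne_zero h τ
  rw [neg_sub, zpow_sub₀ h5, zpow_natCast, zpow_natCast]
  ring

open Filter in
/-- A holomorphic function with an expansion of positive order vanishes at infinity. -/
theorem isZeroAtImInfty_of_hasQ {h : ℕ} [NeZero h] {f : Hol} {φ : LaurentSeries ℂ}
    (hf : HasQ h (algebraMap Hol Mer f) φ) (hφ : 0 < φ.order) :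
    IsZeroAtImInfty (f : ℍ → ℂ) := by
  have hφ0 : φ ≠ 0 := by
    rintro rfl
    simp at hφ
  obtain ⟨a, b, α, β, hb, ha', hb', hx, hφ'⟩ := hf
  have hβ := exp_ne_zero hb' hb
  have hα : α ≠ 0 := by
    rw [← hφ']
    exact mul_ne_zero hφ0 hβ
  have hab : f * b = a := by
    rw [eq_div_iff (algebraMap_ne_zero hb), ← map_mul] at hx
    exact IsFractionRing.injective Hol Mer hx
  have hab' : ∀ τ, (f : ℍ → ℂ) τ * (b : ℍ → ℂ) τ = (a : ℍ → ℂ) τ := fun τ =>
    congrFun (congrArg Subtype.val hab) τ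
  have hord : α.order = φ.order + β.order := by rw [← hφ', HahnSeries.order_mul hφ0 hβ]
  have h1 := tendsto_of_hasExp ha' hα
  have h2 := tendsto_of_hasExp hb' hβ
  have hβc : β.coeff β.order ≠ 0 := by
    rwa [Ne, HahnSeries.coeff_order_eq_zero]
  obtain ⟨n, hn⟩ := Int.eq_ofNat_of_zero_le hφ.le
  have hn0 : n ≠ 0 := by
    rintro rfl
    rw [hn] at hφ
    exact absurd hφ (by norm_num)
  have h3 : Tendsto (fun τ => qc h τ ^ n) atImInfty (𝓝 0) := by
    have := (tendsto_qc h).pow n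
    rwa [zero_pow hn0] at this
  have h4 := (h1.mul h3).div h2 hβc
  rw [mul_zero, zero_div] at h4
  refine h4.congr' ?_
  filter_upwards [h2.eventually_ne hβc] with τ hτ
  rw [Pi.div_apply, div_eq_iff hτ]
  have h5 := qc_ne_zero h τ
  rw [← hab' τ, hord, hn, neg_add, zpow_add₀ h5, zpow_neg]
  have h6 : qc h τ ^ ((n : ℕ) : ℤ) = qc h τ ^ n := zpow_natCast _ _
  rw [h6]
  have h7 : qc h τ ^ n ≠ 0 := pow_ne_zero _ h5
  field_simp

/-! ### The differential `dj` -/

/-- `D j` as a holomorphic function. -/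
def djHol : Hol :=
  ⟨normalizedDerivOfComplex jf, normalizedDerivOfComplex_mdifferentiable mdifferentiable_jf⟩

/-- `D j` as a meromorphic function. -/
def djMer : Mer := algebraMap Hol Mer djHol

theorem slash_djHol (g : SL(2, ℤ)) : slashHol 2 g djHol = djHol :=
  Subtype.ext (normalizedDeriv_jf_slash g)

theorem djHol_ne_zero : djHol ≠ 0 := by
  obtain ⟨τ, hτ⟩ := normalizedDeriv_jf_ne_zero
  exact hol_ne_zero fun h => hτ (congrFun h τ)

theorem qc_one_eq (h : ℕ) [NeZero h] (τ : ℍ) : qc 1 τ = qc h τ ^ h := by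
  have hh : (h : ℂ) ≠ 0 := by exact_mod_cast NeZero.ne h
  simp only [qc, Function.Periodic.qParam]
  rw [← Complex.exp_nat_mul]
  congr 1
  push_cast
  field_simp

theorem hasExp_expand {f : ℍ → ℂ} {φ : LaurentSeries ℂ} (hf : HasExp (qc 1) f φ) (h : ℕ)
    [NeZero h] : HasExp (qc h) f (qExpand ℂ h φ) :=
  HasExp.expand (t := qc 1) (t' := qc h) (σ := id) h (fun τ => qc_one_eq h τ) hf

theorem hasQ_expand {x : Mer} {φ : LaurentSeries ℂ} (hx : HasQ 1 x φ) (h : ℕ) [NeZero h] :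
    HasQ h x (qExpand ℂ h φ) := by
  obtain ⟨a, b, α, β, hb, ha', hb', hx', hφ⟩ := hx
  exact ⟨a, b, _, _, hb, hasExp_expand ha' h, hasExp_expand hb' h, hx', by rw [← map_mul, hφ]⟩

theorem order_qExpand' (n : ℕ) [NeZero n] (φ : LaurentSeries ℂ) :
    (qExpand ℂ n φ).order = n * φ.order := by
  have hn : 0 < n := Nat.pos_of_ne_zero (NeZero.ne n)
  rcases eq_or_ne φ 0 with rfl | hφ
  · simp
  have h1 : (qExpand ℂ n φ).coeff (n * φ.order) ≠ 0 := by
    rw [qExpand_coeff_mul]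
    exact HahnSeries.coeff_order_eq_zero.not.mpr hφ
  refine le_antisymm (HahnSeries.order_le_of_coeff_ne_zero h1) ?_
  have hne : qExpand ℂ n φ ≠ 0 := by
    intro h0
    rw [h0] at h1
    exact h1 rfl
  have h2 := HahnSeries.coeff_order_eq_zero.not.mpr hne
  obtain ⟨k, hk⟩ : (n : ℤ) ∣ (qExpand ℂ n φ).order := by
    by_contra hdvd
    exact h2 (qExpand_coeff_of_not_dvd n _ hdvd)
  rw [hk]
  rw [hk, qExpand_coeff_mul] at h2
  have h3 := HahnSeries.order_le_of_coeff_ne_zero h2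
  exact mul_le_mul_of_nonneg_left h3 (by positivity)

theorem order_ofPS_eq {P : PowerSeries ℂ} {n : ℕ} (h : P.order = n) :
    (HahnSeries.ofPowerSeries ℤ ℂ P : LaurentSeries ℂ).order = n := by
  rw [Fermat.Agent.JAN.Orders.order_ofPowerSeries, h]
  rfl

theorem ofPS_ne_zero {P : PowerSeries ℂ} (h : P ≠ 0) :
    (HahnSeries.ofPowerSeries ℤ ℂ P : LaurentSeries ℂ) ≠ 0 := fun h0 =>
  h (HahnSeries.ofPowerSeries_injective (h0.trans (map_zero _).symm))

/-- The expansion of `D j` has order `-1`. -/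
theorem exists_hasQ_dj : ∃ ψ : LaurentSeries ℂ, HasQ 1 djMer ψ ∧ ψ.order = -1 := by
  obtain ⟨c, hc, h⟩ := exists_normalizedDeriv_jf
  let P : PowerSeries ℂ := PowerSeries.C c *
    ((qExpansion 1 (E₄ : ℍ → ℂ)) ^ 2 * qExpansion 1 (E₆ : ℍ → ℂ))
  have hP : HasPS (qc 1) (fun τ => c * (E₄ τ ^ 2 * E₆ τ)) P :=
    (HasPS.C (qc 1) c).mul (((hasPS_E E₄).pow 2).mul (hasPS_E E₆))
  have hPord : P.order = (0 : ℕ) := by
    rw [PowerSeries.order_eq_nat]
    refine ⟨?_, fun i hi => absurd hi (Nat.not_lt_zero i)⟩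
    simp only [P, PowerSeries.coeff_zero_eq_constantCoeff, map_mul, map_pow]
    have e4 : PowerSeries.constantCoeff (qExpansion 1 (E₄ : ℍ → ℂ)) = 1 := by
      rw [← PowerSeries.coeff_zero_eq_constantCoeff_apply, EisensteinSeries.E_qExpansion_coeff_zero _ ⟨2, rfl⟩]
    have e6 : PowerSeries.constantCoeff (qExpansion 1 (E₆ : ℍ → ℂ)) = 1 := by
      rw [← PowerSeries.coeff_zero_eq_constantCoeff_apply, EisensteinSeries.E_qExpansion_coeff_zero _ ⟨3, rfl⟩]
    rw [e4, e6]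
    simpa using hc
  let Q : PowerSeries ℂ := PowerSeries.X * ModularCurve.dedekindEtaUnit.map (Int.castRingHom ℂ)
  have hQ : HasPS (qc 1) discriminant Q := hasPS_discriminant
  have hQord : Q.order = (1 : ℕ) := by
    rw [PowerSeries.order_eq_nat]
    constructor
    · simp only [Q]
      rw [show (1 : ℕ) = 0 + 1 from rfl, PowerSeries.coeff_succ_X_mul, PowerSeries.coeff_map,
        PowerSeries.coeff_zero_eq_constantCoeff, constantCoeff_dedekindEtaUnit]
      simp
    · intro i hi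
      obtain rfl : i = 0 := by omega
      simp [Q]
  have hmd : MDiff (fun τ => c * (E₄ τ ^ 2 * E₆ τ)) := by
    have h1 : (fun τ => c * (E₄ τ ^ 2 * E₆ τ)) = fun τ =>
        normalizedDerivOfComplex jf τ * discriminant τ := funext fun τ => (h τ).symm
    rw [h1]
    exact djHol.2.mul mdifferentiable_discriminant
  let a : Hol := ⟨_, hmd⟩
  let b : Hol := ⟨_, mdifferentiable_discriminant⟩
  have hb : b ≠ 0 := hol_ne_zero fun h0 => discriminant_ne_zero UpperHalfPlane.I (congrFun h0 _)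
  have hab : djHol * b = a := Subtype.ext (funext h)
  have hP0 : P ≠ 0 := by
    intro h0
    rw [h0] at hPord
    simp at hPord
  have hQ0 : Q ≠ 0 := by
    intro h0
    rw [h0] at hQord
    simp at hQord
  refine ⟨HahnSeries.ofPowerSeries ℤ ℂ P / HahnSeries.ofPowerSeries ℤ ℂ Q, ⟨a, b, _, _, hb,
    HasExp.of_hasPS hP, HasExp.of_hasPS hQ, ?_, div_mul_cancel₀ _ (ofPS_ne_zero hQ0)⟩, ?_⟩
  · rw [djMer, eq_div_iff (algebraMap_ne_zero hb), ← map_mul, hab]
  · have h2 := (intVal_order (RingHom.id (LaurentSeries ℂ))).div (ofPS_ne_zero hP0)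
      (ofPS_ne_zero hQ0)
    simp only [RingHom.id_apply] at h2
    rw [h2, order_ofPS_eq hPord, order_ofPS_eq hQord]
    norm_num

/-! ### Local orders of `dj` -/

theorem localPS_unique {τ₀ : ℍ} {f : Hol} {P : PowerSeries ℂ}
    (h : HasPS (wc τ₀) (f : ℍ → ℂ) P) : localPS τ₀ (f : ℍ → ℂ) = P :=
  (hasPS_local τ₀ f.2).unique (eventually_mem_range_wc τ₀) h

theorem order_locMer_algebraMap (τ₀ : ℍ) (f : Hol) :
    (locMer τ₀ (algebraMap Hol Mer f)).order = (localPS τ₀ (f : ℍ → ℂ)).order.toNat := by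
  rw [locMer_algebraMap, Fermat.Agent.JAN.Orders.order_ofPowerSeries]

/-- `j - c` -/
def jSub (c : ℂ) : Hol := jHol - algebraMap ℂ Hol c

theorem jSub_ne_zero (c : ℂ) : jSub c ≠ 0 := by
  obtain ⟨τ, hτ⟩ := jf_ne_const c
  refine hol_ne_zero fun h => hτ ?_
  have h1 : jf τ - c = 0 := congrFun h τ
  exact sub_eq_zero.mp h1

theorem algebraMap_jSub (c : ℂ) :
    algebraMap Hol Mer (jSub c) = jMer - algebraMap ℂ Mer c := by
  rw [jSub, map_sub, ← IsScalarTower.algebraMap_apply, jMer]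

theorem localPS_jSub (τ₀ : ℍ) (c : ℂ) :
    localPS τ₀ (jSub c : ℍ → ℂ) = localPS τ₀ jf - PowerSeries.C c := by
  refine localPS_unique ?_
  have h1 := (hasPS_local τ₀ mdifferentiable_jf).add (HasPS.C (wc τ₀) c).neg
  rw [← sub_eq_add_neg] at h1
  exact h1.congr fun τ => (sub_eq_add_neg (jf τ) c).symm

/-- The order of `j - j(τ₀)` at `τ₀` is one more than the order of `D j`. -/
theorem order_locMer_dj (τ₀ : ℍ) :
    (locMer τ₀ djMer).order + 1 = (locMer τ₀ (jMer - algebraMap ℂ Mer (jf τ₀))).order := by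
  rw [← algebraMap_jSub, djMer, order_locMer_algebraMap, order_locMer_algebraMap]
  set Q := localPS τ₀ (jSub (jf τ₀) : ℍ → ℂ) with hQ
  have hQ0 : Q ≠ 0 := localPS_ne_zero (jSub_ne_zero _) τ₀
  have hQc : Q.coeff 0 = 0 := by
    rw [hQ, ← (hasPS_local τ₀ (jSub (jf τ₀)).2).coeff_zero (wc_self τ₀)]
    exact sub_self (jf τ₀)
  have h1 := order_derivative_add_one hQc hQ0
  have h2 : localPS τ₀ (djHol : ℍ → ℂ) =
      PowerSeries.derivative (R := ℂ) Q * localPS τ₀ (dwc τ₀) := by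
    refine localPS_unique ?_
    have h3 := hasPS_normalizedDeriv τ₀ mdifferentiable_jf
    have h4 : PowerSeries.derivative (R := ℂ) Q =
        PowerSeries.derivative (R := ℂ) (localPS τ₀ jf) := by
      rw [hQ, localPS_jSub, map_sub, PowerSeries.derivative_C, sub_zero]
    rw [h4]
    exact h3
  have h3 : (localPS τ₀ (dwc τ₀)).order = 0 := by
    have : (localPS τ₀ (dwc τ₀)).order = (0 : ℕ) := by
      rw [PowerSeries.order_eq_nat]
      exact ⟨localPS_dwc_coeff_zero τ₀, fun i hi => absurd hi (Nat.not_lt_zero i)⟩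
    exact_mod_cast this
  rw [h2, PowerSeries.order_mul, h3, add_zero]
  have hD0 : PowerSeries.derivative (R := ℂ) Q ≠ 0 := by
    intro h0
    rw [h0, PowerSeries.order_zero, top_add] at h1
    exact hQ0 (PowerSeries.order_eq_top.mp h1.symm)
  have h4 := PowerSeries.coe_toNat_order hD0
  have h5 := PowerSeries.coe_toNat_order hQ0
  rw [← h4, ← h5] at h1
  have h6 : (PowerSeries.derivative (R := ℂ) Q).order.toNat + 1 = Q.order.toNat := by
    exact_mod_cast h1
  exact_mod_cast h6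

theorem order_locMer_dj_nonneg (τ₀ : ℍ) : 0 ≤ (locMer τ₀ djMer).order := by
  rw [djMer, order_locMer_algebraMap]
  positivity

/-- `j - c` does not vanish at `τ₀` if `c ≠ j(τ₀)`. -/
theorem order_locMer_jSub {τ₀ : ℍ} {c : ℂ} (hc : jf τ₀ ≠ c) :
    (locMer τ₀ (jMer - algebraMap ℂ Mer c)).order = 0 := by
  rw [← algebraMap_jSub, order_locMer_algebraMap]
  have h1 : (localPS τ₀ (jSub c : ℍ → ℂ)).order = (0 : ℕ) := by
    rw [PowerSeries.order_eq_nat]
    refine ⟨?_, fun i hi => absurd hi (Nat.not_lt_zero i)⟩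
    rw [← (hasPS_local τ₀ (jSub c).2).coeff_zero (wc_self τ₀)]
    exact sub_ne_zero.mpr hc
  rw [h1]
  rfl

theorem order_locMer_jMer_nonneg (τ₀ : ℍ) : 0 ≤ (locMer τ₀ jMer).order := by
  rw [jMer, order_locMer_algebraMap]
  positivity

/-! ### Construction of cusp forms -/

/-- Build a cusp form on `Γ₁(M)`. -/
def mkCusp (M : ℕ) [NeZero M] (f : ℍ → ℂ) (hf : MDiff f)
    (hs : ∀ γ ∈ Gamma1 M, f ∣[(2 : ℤ)] γ = f) (hz : ∀ g : SL(2, ℤ), IsZeroAtImInfty (f ∣[(2 : ℤ)] g)) :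
    CuspForm (Gamma1 M : Subgroup (GL (Fin 2) ℝ)) 2 where
  toFun := f
  slash_action_eq' := by
    rintro _ ⟨γ, hγ, rfl⟩
    exact hs γ hγ
  holo' := hf
  zero_at_cusps' := by
    intro c hc
    rw [Subgroup.IsArithmetic.isCusp_iff_isCusp_SL2Z] at hc
    rw [OnePoint.isZeroAt_iff_forall_SL2Z hc]
    intro γ _
    exact hz γ

section Field

variable {K : Type*} [Field K] [Algebra K ℂ] {M : ℕ} [NeZero M]

/-- `y dj` is a cusp form of weight 2 if its orders are large enough. -/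
theorem exists_cuspForm {ψ : LaurentSeries ℂ} (hψ : HasQ 1 djMer ψ) (hψ' : ψ.order = -1)
    {y : F1 K M} (hy : y ≠ 0)
    (h1 : ∀ τ₀, 0 ≤ (locF K M τ₀ y).order + (locMer τ₀ djMer).order)
    (h2 : ∀ g : SL(2, ℤ), (M : ℤ) < (cuspF g y).order) :
    ∃ G : CuspForm (Gamma1 M : Subgroup (GL (Fin 2) ℝ)) 2,
      LQ G = toC (y : LaurentSeries K) * ψ := by
  have hdj : djMer ≠ 0 := algebraMap_ne_zero djHol_ne_zero
  have hay : anF K M y ≠ 0 := (map_ne_zero _).mpr hy
  obtain ⟨G, hG⟩ : ∃ G : Hol, algebraMap Hol Mer G = anF K M y * djMer := by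
    refine exists_hol fun τ₀ => ?_
    have := (intVal_order (locMer τ₀)).mul _ _ hay hdj
    rw [this]
    exact h1 τ₀
  -- the action of `SL₂(ℤ)`
  have hsl : ∀ g : SL(2, ℤ), algebraMap Hol Mer (slashHol 2 g G) =
      sact g (anF K M y) * djMer := fun g => by
    have e1 : algebraMap Hol Mer (slashHol 2 g djHol) =
        sact g djMer * algebraMap Hol Mer (factHol g 2) := by
      rw [slashHol_eq, map_mul, djMer, sact, act_algebraMap]
    rw [slash_djHol] at e1
    rw [slashHol_eq, map_mul, ← act_algebraMap, hG]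
    change sact g (anF K M y * djMer) * _ = _
    rw [map_mul, mul_assoc, ← e1]
    rfl
  have hs : ∀ γ ∈ Gamma1 M, (G : ℍ → ℂ) ∣[(2 : ℤ)] γ = G := fun γ hγ => by
    have e1 := hsl γ
    rw [sact_anF hγ, ← hG] at e1
    exact congrArg Subtype.val (IsFractionRing.injective Hol Mer e1)
  have hz : ∀ g : SL(2, ℤ), IsZeroAtImInfty ((G : ℍ → ℂ) ∣[(2 : ℤ)] g) := fun g => by
    have e1 : HasQ M (algebraMap Hol Mer (slashHol 2 g G)) (cuspF g y * qExpand ℂ M ψ) := by
      rw [hsl g]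
      exact (hasQ_cuspF g y).mul (hasQ_expand hψ M)
    refine isZeroAtImInfty_of_hasQ e1 ?_
    have hψ0 : ψ ≠ 0 := by
      rintro rfl
      simp at hψ'
    rw [HahnSeries.order_mul ((map_ne_zero (cuspF g)).mpr hy) (by
      intro h0
      have := order_qExpand' M ψ
      rw [h0, hψ', HahnSeries.order_zero] at this
      have hM : (M : ℤ) ≠ 0 := by exact_mod_cast NeZero.ne M
      omega), order_qExpand', hψ']
    have := h2 g
    linarith
  refine ⟨mkCusp M G G.2 hs hz, ?_⟩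
  have e1 : HasQ 1 (algebraMap Hol Mer G) (LQ (G : ℍ → ℂ)) :=
    HasQ.of_hol (IsM1.hasExp (k := 2) (M := M)
      (IsCG.isMG ⟨mkCusp M G G.2 hs hz, rfl⟩))
  have e2 : HasQ 1 (algebraMap Hol Mer G) (toC (y : LaurentSeries K) * ψ) := by
    rw [hG]
    exact (hasQ_anF y).mul hψ
  exact e1.unique e2

end Field

end Fermat.Agent.DS.X1.Gen0
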