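import Fermat.Agent.JRED.PlaceMap
import Fermat.Agent.JRED.GoodReductionFinal

set_option autoImplicit false
set_option linter.unusedSectionVars false
set_option linter.style.haveILetI false

/-!
# Functions with divisor divisible by `l` and trivial reduction are `l`-th powers

`exists_eq_pow_of_red`: abstract form, for a reduction datum `F → F'` with good degree and equal
genus, `l` invertible in the residue field.
-/

noncomputable section

open AlgebraicCurve IntermediateField

namespace Fermat.Agent.DS.X1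

open Fermat.Agent.JRED

section Pow

variable {K F : Type*} [Field K] [Field F] [Algebra K F] [IsAlgClosed K] [RR.FunctionField K F]

/-- If all orders of `f` are divisible by `l`, there is a divisor `D` with `l D = div f`. -/
theorem exists_divisor_of_dvd {l : ℕ} (hl : l ≠ 0) {f : F}
    (hdiv : ∀ P : Place K F, (l : ℤ) ∣ P.ord f) :
    ∃ D : Divisor K F, l • D = RR.divOf f ∧ Divisor.degree D = 0 := by
  classical
  refine ⟨(RR.divOf f).mapRange (fun m => m / l) (by simp), ?_, ?_⟩
  · ext P
    rw [Finsupp.smul_apply, Finsupp.mapRange_apply, RR.divOf_apply, nsmul_eq_mul,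
      Int.mul_ediv_cancel' (hdiv P)]
  · have h1 : l • Divisor.degree ((RR.divOf (K := K) f).mapRange (fun m => m / (l : ℤ))
        (by simp)) = 0 := by
      rw [← map_nsmul]
      have h2 : l • ((RR.divOf (K := K) f).mapRange (fun m => m / (l : ℤ)) (by simp)) =
          RR.divOf f := by
        ext P
        rw [Finsupp.smul_apply, Finsupp.mapRange_apply, RR.divOf_apply, nsmul_eq_mul,
          Int.mul_ediv_cancel' (hdiv P)]
      rw [h2, RR.degree_divOf]
    rw [nsmul_eq_mul] at h1
    rcases mul_eq_zero.mp h1 with h | h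
    · exact absurd (by exact_mod_cast h) hl
    · exact h

/-- A function whose divisor is `l` times a principal divisor is an `l`-th power. -/
theorem exists_eq_pow_of_isPrincipal {l : ℕ} (hl : l ≠ 0) {f : F} (hf : f ≠ 0)
    {D : Divisor K F} (hD : l • D = RR.divOf f) (hp : Divisor.IsPrincipal D) :
    ∃ g : F, f = g ^ l := by
  obtain ⟨h, hh, hhD⟩ := hp
  have h1 : RR.divOf (K := K) f = RR.divOf (h ^ l) := by
    ext P
    rw [← hD, Finsupp.smul_apply, hhD P, RR.divOf_apply, RR.ord_pow, nsmul_eq_mul]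
  obtain ⟨c, hc, hcf⟩ := (RR.divOf_eq_iff hf (pow_ne_zero l hh)).mp h1
  obtain ⟨d, hd⟩ := IsAlgClosed.exists_pow_nat_eq c (Nat.pos_of_ne_zero hl)
  refine ⟨algebraMap K F d * h, ?_⟩
  rw [mul_pow, ← map_pow, hd, hcf, Algebra.smul_def]

end Pow

section Red

variable {K k : Type*} [Field K] [Field k] {A : ValuationSubring K} {π : A →+* k}
  {F F' : Type*} [Field F] [Field F'] [Algebra K F] [Algebra k F']

theorem ConstRed.exists_eq_pow [IsAlgClosed K] [IsAlgClosed k] [RR.FunctionField K F]
    [RR.FunctionField k F'] (hπ : Function.Surjective π) (C : ConstRed A π F F')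
    {r : Place K F → Place k F'} (hr : C.IsPlaceMap r) (hg : genusFF K F = genusFF k F')
    {l : ℕ} (hl : (l : k) ≠ 0) {f : C.O} {v : F'} (hv : v ≠ 0) (hf : C.res f = v ^ l)
    (hdiv : ∀ P : Place K F, (l : ℤ) ∣ P.ord (f : F)) : ∃ g : F, (f : F) = g ^ l := by
  have hl0 : l ≠ 0 := by
    rintro rfl
    exact hl (by rw [Nat.cast_zero])
  have hres : C.res f ≠ 0 := by rw [hf]; exact pow_ne_zero l hv
  have hf0 : (f : F) ≠ 0 := by
    intro h0
    apply hres
    rw [show f = 0 from Subtype.ext h0, map_zero]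
  obtain ⟨D, hD, hdeg⟩ := exists_divisor_of_dvd hl0 hdiv
  refine exists_eq_pow_of_isPrincipal hl0 hf0 hD ?_
  refine C.isPrincipal_of_torsion hπ hr hg hl D hdeg ?_ ?_
  · exact ⟨f, hf0, fun P => by rw [hD, RR.divOf_apply]⟩
  · refine ⟨v, hv, fun Q => ?_⟩
    have h1 := hr f hres (RR.divOf (f : F)) (fun P => RR.divOf_apply _ P) Q
    rw [← hD, hf, RR.ord_pow] at h1
    have h2 : Finsupp.mapDomain r (l • D) = l • Finsupp.mapDomain r D :=
      map_nsmul (Finsupp.mapDomain.addMonoidHom r) l D
    rw [h2, Finsupp.smul_apply, nsmul_eq_mul] at h1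
    exact mul_left_cancel₀ (by exact_mod_cast hl0) h1

/-- **Injectivity of reduction on `l`-Selmer classes.** -/
theorem exists_eq_pow_of_red {R : RedDatum K F k F' A π} (hπ : Function.Surjective π)
    (hsurj : ∀ u : F', ∃ w, R.Red w u) {x : F} {t : F'} (hx : R.Red x t)
    (htr : Transcendental k t) [IsAlgClosed K] [FiniteDimensional K⟮x⟯ F]
    (hdeg : Module.finrank K⟮x⟯ F ≤ Module.finrank k⟮t⟯ F')
    (hg : genusFF K F ≤ genusFF k F') {l : ℕ} (hl : (l : k) ≠ 0) {f : F} {v : F'} (hv : v ≠ 0)
    (hf : R.Red f (v ^ l)) (hdiv : ∀ P : Place K F, (l : ℤ) ∣ P.ord f) : ∃ g : F, f = g ^ l := by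
  haveI : IsAlgClosed k := isAlgClosed_of_surjective hπ
  have hxtr : Transcendental K x := RedDatum.transcendental_of_red hπ hx htr
  haveI : RR.FunctionField K F := functionField_of_finite hxtr inferInstance
  haveI : FiniteDimensional k⟮t⟯ F' := finiteDimensional_of_finrank_le inferInstance hdeg
  haveI : RR.FunctionField k F' := functionField_of_finite htr inferInstance
  have hortho : ∀ W : Submodule K F, Module.Finite K W → R.HasOrtho W := fun W hW =>
    RedDatum.hasOrtho_of_finrank hπ hsurj hx htr hdeg W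
  have hg' : genusFF K F = genusFF k F' := by
    refine le_antisymm hg (genusFF_le_of_red (R := R) hπ hsurj hortho hx htr ?_)
    rw [DescentB.degree_polesOf hxtr, DescentB.degree_polesOf htr]
    exact_mod_cast hdeg
  set C := R.toConstRed hπ hsurj hortho with hC
  obtain ⟨r, hr⟩ := C.exists_isPlaceMap hπ hg'
  have hmem : f ∈ C.O := ⟨_, hf⟩
  have hres : C.res ⟨f, hmem⟩ = v ^ l := by
    have h1 : R.Red f (C.res ⟨f, hmem⟩) := Exists.choose_spec (⟨_, hf⟩ : ∃ u, R.Red f u)
    exact R.unique h1 hf
  exact ConstRed.exists_eq_pow hπ C hr hg' hl (f := ⟨f, hmem⟩) hv hres hdiv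

end Red

end Fermat.Agent.DS.X1
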