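import Fermat.Agent.JAN.KumPic
import Fermat.Agent.DS.X1.DegBase
import Fermat.Agent.RR.OfFF1
import Fermat.Agent.RR.Corollaries
import Fermat.Agent.S27
import Fermat.Agent.FF.PlaceOfVal

/-!
# Functions with orders divisible by `ℓ` under extension of algebraically closed constants

Let `K ⊂ K'` be algebraically closed of characteristic zero and `i : E → E'` a constant field
extension of function fields.  Then `Sel_ℓ(E) → Sel_ℓ(E')` is bijective, where `Sel_ℓ` is the group
of functions all of whose orders are divisible by `ℓ`, modulo `ℓ`-th powers.  Injectivity is an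
input; surjectivity is by counting.
-/

set_option autoImplicit false

noncomputable section

open AlgebraicCurve IntermediateField

namespace Fermat.Agent.DS.X1.SelDesc

open Fermat.Agent.JAN.KumPic

section Restrict

variable {K E K' E' : Type*} [Field K] [Field E] [Algebra K E] [Field K'] [Field E']
  [Algebra K' E'] [Algebra K K']

/-- **Restriction of places** along a homomorphism over `K → K'`: either all orders vanish, or
they are a multiple of the orders at a place of `E`. -/
theorem exists_restrict {i : E →+* E'}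
    (hi : ∀ c, i (algebraMap K E c) = algebraMap K' E' (algebraMap K K' c)) (v' : Place K' E') :
    (∀ x : E, v'.ord (i x) = 0) ∨
      ∃ v : Place K E, ∃ e : ℕ, 0 < e ∧ ∀ x : E, v'.ord (i x) = e * v.ord x := by
  classical
  let f : E → WithTop ℤ := fun x => if x = 0 then ⊤ else ((v'.ord (i x) : ℤ) : WithTop ℤ)
  have hf0 : f 0 = ⊤ := if_pos rfl
  have hf : ∀ x, x ≠ 0 → f x = ((v'.ord (i x) : ℤ) : WithTop ℤ) := fun x hx => if_neg hx
  have hix : ∀ x, x ≠ 0 → i x ≠ 0 := fun x hx => (map_ne_zero i).2 hx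
  let ν : AddValuation E (WithTop ℤ) := AddValuation.of f hf0
    (by rw [hf 1 one_ne_zero, map_one, v'.ord_one]; rfl)
    (by
      intro x y
      by_cases hx : x = 0
      · rw [hx, zero_add]; exact min_le_right _ _
      by_cases hy : y = 0
      · rw [hy, add_zero]; exact min_le_left _ _
      by_cases hxy : x + y = 0
      · rw [hxy, hf0]; exact le_top
      rw [hf x hx, hf y hy, hf _ hxy, ← WithTop.coe_min, WithTop.coe_le_coe, map_add]
      have h1 : i x + i y ≠ 0 := by rw [← map_add]; exact hix _ hxy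
      exact Fermat.FF.ord_add_ge v' h1 (Or.inr (min_le_left _ _)) (Or.inr (min_le_right _ _)))
    (by
      intro x y
      by_cases hx : x = 0
      · rw [hx, zero_mul, hf0, WithTop.top_add]
      by_cases hy : y = 0
      · rw [hy, mul_zero, hf0, WithTop.add_top]
      rw [hf x hx, hf y hy, hf _ (mul_ne_zero hx hy), map_mul,
        v'.ord_mul (hix x hx) (hix y hy)]
      rfl)
  have hν : ∀ x, ν x = f x := fun x => rfl
  by_cases hnt : ∃ x : E, ν x < 0
  · right
    have hK : ∀ c : K, 0 ≤ ν (algebraMap K E c) := by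
      intro c
      by_cases hc : algebraMap K E c = 0
      · rw [hν, hc, hf0]; exact le_top
      · rw [hν, hf _ hc, hi, Fermat.FF.ord_algebraMap]; exact le_rfl
    obtain ⟨e, he, h⟩ := Fermat.FF.exists_mul_ord_placeOfVal ν hK hnt
    refine ⟨Fermat.FF.placeOfVal ν hK hnt, e, he, fun x => ?_⟩
    by_cases hx : x = 0
    · rw [hx, map_zero, v'.ord_zero, Place.ord_zero, mul_zero]
    · have h1 := h x hx
      rw [hν, hf x hx] at h1
      exact_mod_cast h1
  · left
    push Not at hnt
    intro x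
    by_cases hx : x = 0
    · rw [hx, map_zero, v'.ord_zero]
    · have h1 := hnt x
      have h2 := hnt x⁻¹
      rw [hν, hf x hx] at h1
      rw [hν, hf _ (inv_ne_zero hx), map_inv₀, v'.ord_inv] at h2
      have h1' : 0 ≤ v'.ord (i x) := by exact_mod_cast h1
      have h2' : 0 ≤ -v'.ord (i x) := by exact_mod_cast h2
      omega

/-- Divisibility of the orders is preserved. -/
theorem dvdOrd_map {i : E →+* E'}
    (hi : ∀ c, i (algebraMap K E c) = algebraMap K' E' (algebraMap K K' c)) {n : ℕ} {f : E}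
    (hf : DvdOrd K n f) : DvdOrd K' n (i f) := by
  intro v'
  rcases exists_restrict hi v' with h | ⟨v, e, -, h⟩
  · rw [h]; exact dvd_zero _
  · rw [h]; exact dvd_mul_of_dvd_right (hf v) _

end Restrict

section Genus

variable {K E K' E' : Type*} [Field K] [Field E] [Algebra K E] [Field K'] [Field E']
  [Algebra K' E'] [Algebra K K'] [IsAlgClosed K] [IsAlgClosed K'] [RR.FunctionField K E]
  [RR.FunctionField K' E'] {i : E →+* E'}

/-- The dimension of Riemann–Roch spaces of multiples of a pole divisor does not decrease. -/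
theorem finrank_le (h : ConstExt K K' i) {t : E} (m : ℕ) :
    Module.finrank K (riemannRochSpace (m • RR.polesOf (K := K) t)) ≤
      Module.finrank K' (riemannRochSpace (m • RR.polesOf (K := K') (i t))) := by
  set D := m • RR.polesOf (K := K) t with hD
  set D' := m • RR.polesOf (K := K') (i t) with hD'
  let b := Module.finBasis K (riemannRochSpace D)
  have h1 : LinearIndependent K (fun j => (b j : E)) :=
    b.linearIndependent.map' (riemannRochSpace D).subtype (Submodule.ker_subtype _)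
  have h2 := h.li _ h1
  have h3 : ∀ j, i (b j : E) ∈ riemannRochSpace D' := by
    intro j
    have hb0 : (b j : E) ≠ 0 := h1.ne_zero j
    have hib0 : i (b j : E) ≠ 0 := (map_ne_zero i).2 hb0
    rw [RR.mem_riemannRochSpace_of_ne_zero hib0]
    intro v'
    have hmem := (RR.mem_riemannRochSpace_of_ne_zero hb0).mp (b j).2
    have eD : D' v' = m * max (-v'.ord (i t)) 0 := by
      rw [hD', Finsupp.smul_apply, RR.polesOf_apply, nsmul_eq_mul]
    rw [Finsupp.add_apply, RR.divOf_apply, eD]
    rcases exists_restrict h.comm v' with hv | ⟨v, e, he, hv⟩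
    · rw [hv, hv]; simp
    · have h4 := hmem v
      have eD2 : D v = m * max (-v.ord t) 0 := by
        rw [hD, Finsupp.smul_apply, RR.polesOf_apply, nsmul_eq_mul]
      rw [Finsupp.add_apply, RR.divOf_apply, eD2] at h4
      rw [hv, hv]
      simp only [Finsupp.coe_zero, Pi.zero_apply] at h4 ⊢
      have he' : (0 : ℤ) ≤ e := by exact_mod_cast he.le
      have h5 : max (-(e * v.ord t)) 0 = e * max (-v.ord t) 0 := by
        rw [← mul_neg]
        rcases le_total 0 (-v.ord t) with h6 | h6
        · rw [max_eq_left h6, max_eq_left (mul_nonneg he' h6)]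
        · rw [max_eq_right h6, mul_zero, max_eq_right (mul_nonpos_of_nonneg_of_nonpos he' h6)]
      rw [h5]
      have h6 := mul_nonneg he' h4
      linarith
  let w : Fin (Module.finrank K (riemannRochSpace D)) → riemannRochSpace D' :=
    fun j => ⟨_, h3 j⟩
  have h6 : LinearIndependent K' w := by
    apply LinearIndependent.of_comp (riemannRochSpace D').subtype
    exact h2
  have h7 := h6.fintype_card_le_finrank
  rwa [Fintype.card_fin] at h7

/-- **The genus does not increase** under constant field extension. -/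
theorem genusFF_le (h : ConstExt K K' i) : genusFF K' E' ≤ genusFF K E := by
  obtain ⟨t, ht, hfin⟩ := RR.FunctionField.exists_finite (K := K) (F := E)
  obtain ⟨hfin', hdeg⟩ := h.finrank_eq ht
  have ht' := h.transcendental ht
  set m : ℕ := 2 * (genusFF K E + genusFF K' E') with hm
  have hd : 1 ≤ Module.finrank K⟮t⟯ E := Module.finrank_pos
  have e1 : Divisor.degree (m • RR.polesOf (K := K) t) = m * Module.finrank K⟮t⟯ E := by
    rw [map_nsmul, RR.degree_polesOf ht, nsmul_eq_mul]
  have e2 : Divisor.degree (m • RR.polesOf (K := K') (i t)) = m * Module.finrank K⟮t⟯ E := by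
    rw [map_nsmul, RR.degree_polesOf ht', nsmul_eq_mul, hdeg]
  have hmd : (m : ℤ) ≤ m * Module.finrank K⟮t⟯ E := by
    have : (1 : ℤ) ≤ Module.finrank K⟮t⟯ E := by exact_mod_cast hd
    nlinarith [Int.natCast_nonneg m]
  have h1 := RR.finrank_riemannRochSpace_eq (D := m • RR.polesOf (K := K) t)
    (by rw [e1]; push_cast [hm] at hmd ⊢; linarith)
  have h2 := RR.finrank_riemannRochSpace_eq (D := m • RR.polesOf (K := K') (i t))
    (by rw [e2]; push_cast [hm] at hmd ⊢; linarith)
  have h3 : (Module.finrank K (riemannRochSpace (m • RR.polesOf (K := K) t)) : ℤ) ≤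
      Module.finrank K' (riemannRochSpace (m • RR.polesOf (K := K') (i t))) := by
    exact_mod_cast finrank_le h m
  rw [h1, h2, e1, e2] at h3
  have h4 : (genusFF K' E' : ℤ) ≤ genusFF K E := by linarith
  exact_mod_cast h4

end Genus

section Count

universe u v u' v'

variable {K : Type u} {E : Type v} {K' : Type u'} {E' : Type v'} [Field K] [Field E] [Algebra K E]
  [Field K'] [Field E'] [Algebra K' E'] [Algebra K K'] [IsAlgClosed K] [IsAlgClosed K']
  [CharZero K] [CharZero K'] [RR.FunctionField K E] [RR.FunctionField K' E'] {i : E →+* E'}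

/-- `#Pic⁰[ℓ] = ℓ^{2g}`. -/
theorem natCard_torsion (K : Type u) (E : Type v) [Field K] [Field E] [Algebra K E]
    [IsAlgClosed K] [CharZero K] [RR.FunctionField K E] {ℓ : ℕ} (hℓ : ℓ.Prime) :
    Nat.card (Pic0.torsion K E ℓ) = ℓ ^ (2 * genusFF K E) := by
  have : Fact ℓ.Prime := ⟨hℓ⟩
  have h := Fermat.Agent.S27D.natCard_torsion_charZero
    (fun p _ K F _ _ _ _ _ _ _ ℓ _ hℓ k =>
      Fermat.Agent.S27Lib.natCard_torsion_charP p K F ℓ hℓ k) K E ℓ 1
  rwa [pow_one, mul_one] at h

/-- **Descent of the constants** for functions with orders divisible by `ℓ`. -/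
theorem exists_descend (h : ConstExt K K' i) {ℓ : ℕ} (hℓ : ℓ.Prime)
    (hinj : ∀ f : E, (∃ g : E', i f = g ^ ℓ) → ∃ g : E, f = g ^ ℓ) {f' : E'} (hf0 : f' ≠ 0)
    (hf : DvdOrd K' ℓ f') :
    ∃ f : E, f ≠ 0 ∧ DvdOrd K ℓ f ∧ ∃ g : E', f' = i f * g ^ ℓ := by
  have : Fermat.FF.IsFF1 K E := ⟨RR.FunctionField.exists_finite⟩
  have : Fermat.FF.IsFF1 K' E' := ⟨RR.FunctionField.exists_finite⟩
  have hℓ0 : ℓ ≠ 0 := hℓ.ne_zero
  have hc := natCard_torsion K E hℓ
  have hc' := natCard_torsion K' E' hℓ
  have hfin : Finite (Pic0.torsion K E ℓ) := Nat.finite_of_card_ne_zero (by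
    rw [hc]; exact pow_ne_zero _ hℓ0)
  have hfin' : Finite (Pic0.torsion K' E' ℓ) := Nat.finite_of_card_ne_zero (by
    rw [hc']; exact pow_ne_zero _ hℓ0)
  have hle : Nat.card (Pic0.torsion K' E' ℓ) ≤ Nat.card (Pic0.torsion K E ℓ) := by
    rw [hc, hc']
    exact Nat.pow_le_pow_right hℓ.pos (Nat.mul_le_mul_left 2 (genusFF_le h))
  choose F hF0 hF hFc using fun x : Pic0.torsion K E ℓ => exists_cls_eq hℓ0 x.2
  have hi0 : ∀ x, i (F x) ≠ 0 := fun x => (map_ne_zero i).2 (hF0 x)
  have hid : ∀ x, DvdOrd K' ℓ (i (F x)) := fun x => dvdOrd_map h.comm (hF x)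
  let φ : Pic0.torsion K E ℓ → Pic0.torsion K' E' ℓ := fun x =>
    ⟨cls ℓ (i (F x)), cls_mem_torsion ℓ (hi0 x)⟩
  have hφ : Function.Injective φ := by
    intro x y hxy
    have h1 : cls (K := K') ℓ (i (F x)) = cls ℓ (i (F y)) := congrArg Subtype.val hxy
    rw [cls_eq_cls_iff hℓ0 (hi0 x) (hi0 y) (hid x) (hid y)] at h1
    obtain ⟨g, hg⟩ := h1
    obtain ⟨g', hg'⟩ := hinj (F x / F y) ⟨g, by rw [map_div₀, hg, mul_div_cancel_left₀ _ (hi0 y)]⟩
    apply Subtype.ext
    rw [← hFc x, ← hFc y, cls_eq_cls_iff hℓ0 (hF0 x) (hF0 y) (hF x) (hF y)]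
    exact ⟨g', by rw [← hg', mul_div_cancel₀ _ (hF0 y)]⟩
  have hsurj : Function.Surjective φ := by
    have hcard : Nat.card (Pic0.torsion K E ℓ) = Nat.card (Pic0.torsion K' E' ℓ) :=
      le_antisymm (Nat.card_le_card_of_injective φ hφ) hle
    exact ((Nat.bijective_iff_injective_and_card φ).mpr ⟨hφ, hcard⟩).2
  obtain ⟨x, hx⟩ := hsurj ⟨cls ℓ f', cls_mem_torsion ℓ hf0⟩
  have h1 : cls (K := K') ℓ f' = cls ℓ (i (F x)) := (congrArg Subtype.val hx).symm
  rw [cls_eq_cls_iff hℓ0 hf0 (hi0 x) hf (hid x)] at h1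
  exact ⟨F x, hF0 x, hF x, h1⟩

/-- Finiteness of the group of functions with orders divisible by `ℓ` modulo `ℓ`-th powers. -/
theorem exists_finite_reps {ℓ : ℕ} (hℓ : ℓ.Prime) :
    ∃ S : Set E, S.Finite ∧ ∀ f : E, f ≠ 0 → DvdOrd K ℓ f → ∃ s ∈ S, ∃ g : E, f = s * g ^ ℓ := by
  have : Fermat.FF.IsFF1 K E := ⟨RR.FunctionField.exists_finite⟩
  have hℓ0 : ℓ ≠ 0 := hℓ.ne_zero
  have hfin : Finite (Pic0.torsion K E ℓ) := Nat.finite_of_card_ne_zero (by
    rw [natCard_torsion K E hℓ]; exact pow_ne_zero _ hℓ0)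
  choose F hF0 hF hFc using fun x : Pic0.torsion K E ℓ => exists_cls_eq hℓ0 x.2
  refine ⟨Set.range F, Set.finite_range F, fun f hf0 hf => ?_⟩
  refine ⟨F ⟨cls ℓ f, cls_mem_torsion ℓ hf0⟩, ⟨_, rfl⟩, ?_⟩
  rw [← cls_eq_cls_iff (K := K) hℓ0 hf0 (hF0 _) hf (hF _), hFc]

end Count

end Fermat.Agent.DS.X1.SelDesc
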