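import Fermat.Agent.DS.X1.SelHeckeForm
import Fermat.Agent.DS.X1.SelPlace
import Fermat.Agent.JAN.AnFun
import Fermat.Agent.J.FieldGal

/-!
# `q`-expansions of the multiplicative Hecke operator, and its effect on functions and characters
-/

set_option autoImplicit false
set_option linter.unusedSectionVars false
set_option linter.style.haveILetI false

noncomputable section

open UpperHalfPlane ModularForm CongruenceSubgroup ModularCurve Matrix.SpecialLinearGroup FermatJ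
open scoped MatrixGroups Manifold

namespace Fermat.Agent.DS.X1.SelHecke

open Fermat.Agent.DS.Hecke1 Fermat.Agent.DS.X1.Sel
open Fermat.Agent.JAN Fermat.Agent.JAN.AnFun

variable {M : ℕ} [NeZero M] {p : ℕ} {k : ℤ}

/-! ### Expansions -/

theorem twist_eq (u : ℂˣ) (φ : LaurentSeries ℂ) : FermatJ.twist u φ = S28.twist u φ := by
  ext n
  rw [coeff_twist, S28.twist_coeff]

theorem heckeMatrix_eq_upper [NeZero p] (j : ℕ) :
    heckeMatrix p j = ((upper 1 p j : GL(2, ℝ)⁺) : GL (Fin 2) ℝ) := by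
  apply Units.ext
  rw [val_heckeMatrix (NeZero.ne p)]
  simp [upper, Matrix.GeneralLinearGroup.mkOfDetNeZero]

theorem heckeDiagMatrix_eq_upper [NeZero p] :
    heckeDiagMatrix p = ((upper p 1 0 : GL(2, ℝ)⁺) : GL (Fin 2) ℝ) := by
  apply Units.ext
  rw [val_heckeDiagMatrix (NeZero.ne p)]
  simp [upper, Matrix.GeneralLinearGroup.mkOfDetNeZero]

theorem det_heckeMatrix (hp : p ≠ 0) (j : ℕ) : (heckeMatrix p j).det.val = p := by
  have h1 : (heckeMatrix p j).det.val = (heckeMatrix p j : Matrix (Fin 2) (Fin 2) ℝ).det := rfl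
  rw [h1, val_heckeMatrix hp, Matrix.det_fin_two_of]
  ring

theorem det_heckeDiagMatrix (hp : p ≠ 0) : (heckeDiagMatrix p).det.val = p := by
  have h1 : (heckeDiagMatrix p).det.val = (heckeDiagMatrix p : Matrix (Fin 2) (Fin 2) ℝ).det := rfl
  rw [h1, val_heckeDiagMatrix hp, Matrix.det_fin_two_of]
  ring

/-- the constant `p^(k-1) p^(-k)` -/
def cA (p : ℕ) (k : ℤ) : ℂ := (p : ℂ) ^ (k - 1) * (p : ℂ) ^ (-k)

theorem cA_ne_zero (hp : p ≠ 0) : cA p k ≠ 0 := by
  have : (p : ℂ) ≠ 0 := by exact_mod_cast hp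
  exact mul_ne_zero (zpow_ne_zero _ this) (zpow_ne_zero _ this)

theorem slash_heckeMatrix_apply (hp : p ≠ 0) (f : ℍ → ℂ) (j : ℕ) (τ : ℍ) :
    (f ∣[k] heckeMatrix p j) τ = cA p k * f (heckeMatrix p j • τ) := by
  have hpos : 0 < (heckeMatrix p j).det.val := by
    rw [det_heckeMatrix hp]
    exact_mod_cast Nat.pos_of_ne_zero hp
  have hden : denom (heckeMatrix p j) τ = p := by
    simp [denom, val_heckeMatrix hp]
  rw [slash_apply_of_pos hpos, hden, det_heckeMatrix hp, mul_comm, cA]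
  congr 2
  simp

theorem slash_heckeDiagMatrix_apply' (hp : p ≠ 0) (f : ℍ → ℂ) (τ : ℍ) :
    (f ∣[k] heckeDiagMatrix p) τ = (p : ℂ) ^ (k - 1) * f (heckeDiagMatrix p • τ) := by
  have hpos : 0 < (heckeDiagMatrix p).det.val := by
    rw [det_heckeDiagMatrix hp]
    exact_mod_cast Nat.pos_of_ne_zero hp
  have hden : denom (heckeDiagMatrix p) τ = 1 := by
    simp [denom, val_heckeDiagMatrix hp]
  rw [slash_apply_of_pos hpos, hden, det_heckeDiagMatrix hp, mul_comm]
  congr 1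
  simp

theorem hasExp_slash_heckeMatrix [NeZero p] {f : ℍ → ℂ} {φ : LaurentSeries ℂ}
    (hf : HasExp (qc 1) f φ) (j : ℕ) :
    HasExp (qc p) (f ∣[k] heckeMatrix p j)
      (HahnSeries.C (cA p k) * S28.twist (zetaU p j) φ) := by
  have h1 := hasExp_upper hf 1 p j
  have h2 : qExpand ℂ 1 (FermatJ.twist (zetaU p j) φ) = S28.twist (zetaU p j) φ := by
    rw [twist_eq]
    ext n
    have := qExpand_coeff_mul 1 (S28.twist (zetaU p j) φ) n
    rwa [Nat.cast_one, one_mul] at this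
  rw [h2] at h1
  have h3 := (HasExp.const (qc p) (cA p k)).mul h1
  refine h3.congr fun τ => ?_
  rw [slash_heckeMatrix_apply (NeZero.ne p), heckeMatrix_eq_upper]

theorem hasExp_slash_heckeDiagMatrix [NeZero p] {f : ℍ → ℂ} {ψ : LaurentSeries ℂ}
    (hf : HasExp (qc 1) f ψ) :
    HasExp (qc 1) (f ∣[k] heckeDiagMatrix p)
      (HahnSeries.C ((p : ℂ) ^ (k - 1)) * qExpand ℂ p ψ) := by
  have h1 := hasExp_upper hf p 1 0
  rw [zetaU_one, AnFun.twist_one] at h1
  have h3 := (HasExp.const (qc 1) ((p : ℂ) ^ (k - 1))).mul h1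
  refine h3.congr fun τ => ?_
  rw [slash_heckeDiagMatrix_apply' (NeZero.ne p), heckeDiagMatrix_eq_upper]

theorem zetaU_pow (p : ℕ) (j : ℕ) : zetaU p j = zetaU p 1 ^ j := by
  apply Units.ext
  rw [Units.val_pow_eq_pow_val]
  simp only [zetaU, Units.val_mk0]
  rw [← Complex.exp_nat_mul]
  congr 1
  push_cast
  ring

theorem isPrimitiveRoot_zetaU (p : ℕ) [NeZero p] : IsPrimitiveRoot (zetaU p 1) p := by
  have h1 := Complex.isPrimitiveRoot_exp p (NeZero.ne p)
  have h2 : ((zetaU p 1 : ℂˣ) : ℂ) = Complex.exp (2 * Real.pi * Complex.I / p) := by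
    simp only [zetaU, Units.val_mk0]
    congr 1
    push_cast
    ring
  rw [← h2] at h1
  exact IsPrimitiveRoot.coe_units_iff.mp h1

theorem hasExp_prod_fun {ι κ : Type*} {t : ι → ℂ} (s : Finset κ) {F : κ → ι → ℂ}
    {Ψ : κ → LaurentSeries ℂ} (h : ∀ i ∈ s, HasExp t (F i) (Ψ i)) :
    HasExp t (∏ i ∈ s, F i) (∏ i ∈ s, Ψ i) := by
  classical
  induction s using Finset.induction_on with
  | empty =>
    rw [Finset.prod_empty, Finset.prod_empty]
    exact HasExp.one t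
  | insert a s ha ih =>
    rw [Finset.prod_insert ha, Finset.prod_insert ha]
    exact (h a (Finset.mem_insert_self a s)).mul (ih fun i hi => h i (Finset.mem_insert_of_mem hi))

theorem prod_zmod_eq {A : Type*} [CommMonoid A] (p : ℕ) [NeZero p] (F : ℕ → A) :
    ∏ j : ZMod p, F j.val = ∏ b : Fin p, F b := by
  obtain ⟨n, hn⟩ := Nat.exists_eq_succ_of_ne_zero (NeZero.ne p)
  subst hn
  rfl

theorem hasExp_prod_heckeMatrix [NeZero p] {f : ℍ → ℂ} {φ : LaurentSeries ℂ}
    (hf : HasExp (qc 1) f φ) :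
    HasExp (qc 1) (∏ j : ZMod p, f ∣[k] heckeMatrix p j.val)
      (HahnSeries.C (cA p k ^ p) * nrmQ ℂ p φ) := by
  have h1 : HasExp (qc p) (∏ j : ZMod p, f ∣[k] heckeMatrix p j.val)
      (∏ j : ZMod p, (HahnSeries.C (cA p k) * S28.twist (zetaU p j.val) φ)) :=
    hasExp_prod_fun _ fun j _ => hasExp_slash_heckeMatrix hf j.val
  have h2 : (∏ j : ZMod p, (HahnSeries.C (cA p k) * S28.twist (zetaU p j.val) φ)) =
      qExpand ℂ p (HahnSeries.C (cA p k ^ p) * nrmQ ℂ p φ) := by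
    rw [map_mul, qExpand_nrmQ (isPrimitiveRoot_zetaU p), Finset.prod_mul_distrib,
      Finset.prod_const, Finset.card_univ, ZMod.card, ← map_pow]
    congr 1
    · rw [HahnSeries.C_apply, qExpand_single, mul_zero]
    · rw [prod_zmod_eq p fun j => S28.twist (zetaU p j) φ]
      refine Finset.prod_congr rfl fun b _ => ?_
      rw [zetaU_pow]
  rw [h2] at h1
  have h3 := FermatJ.HasExp.of_qExpand p (fun τ => qc_ne_zero p τ) h1
  have h4 : (fun τ => FermatJ.qc p τ ^ p) = FermatJ.qc 1 := by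
    funext τ
    have hp : (p : ℂ) ≠ 0 := by exact_mod_cast NeZero.ne p
    simp only [FermatJ.qc, Function.Periodic.qParam]
    rw [← Complex.exp_nat_mul]
    congr 1
    push_cast
    field_simp
  rwa [h4] at h3

/-- the constant in `hasExp_NF` -/
def cN (p : ℕ) (k : ℤ) : ℂ := (p : ℂ) ^ (k - 1) * cA p k ^ p

theorem cN_ne_zero (hp : p ≠ 0) : cN p k ≠ 0 := by
  have : (p : ℂ) ≠ 0 := by exact_mod_cast hp
  exact mul_ne_zero (zpow_ne_zero _ this) (pow_ne_zero _ (cA_ne_zero hp))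

/-- **The expansion of the multiplicative Hecke operator.** -/
theorem hasExp_NF (hp : p.Prime) (hpM : ¬ p ∣ M) {f : ℍ → ℂ} {φ ψ : LaurentSeries ℂ}
    (hf : HasExp (qc 1) f φ)
    (hf' : HasExp (qc 1) (f ∣[k] (rep M (pu hp hpM) : SL(2, ℤ))) ψ) :
    haveI : NeZero p := ⟨hp.ne_zero⟩
    HasExp (qc 1) (NF M k hp hpM f) (HahnSeries.C (cN p k) * TMs ℂ p ψ φ) := by
  haveI : NeZero p := ⟨hp.ne_zero⟩
  have h1 : NF M k hp hpM f = (f ∣[k] (rep M (pu hp hpM) : SL(2, ℤ))) ∣[k] heckeDiagMatrix p *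
      ∏ j : ZMod p, f ∣[k] heckeMatrix p j.val := by
    rw [NF, Fintype.prod_option]
    congr 1
    rw [ModularForm.SL_slash, ← SlashAction.slash_mul]
    rfl
  rw [h1]
  have h2 := (hasExp_slash_heckeDiagMatrix (p := p) (k := k) hf').mul
    (hasExp_prod_heckeMatrix (p := p) (k := k) hf)
  have h3 : HahnSeries.C (cN p k) * TMs ℂ p ψ φ =
      (HahnSeries.C ((p : ℂ) ^ (k - 1)) * qExpand ℂ p ψ) *
        (HahnSeries.C (cA p k ^ p) * nrmQ ℂ p φ) := by
    have h4 : (HahnSeries.C (cN p k) : LaurentSeries ℂ) =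
        HahnSeries.C ((p : ℂ) ^ (k - 1)) * HahnSeries.C (cA p k ^ p) := by
      rw [cN, map_mul]
    have h5 : TMs ℂ p ψ φ = qExpand ℂ p ψ * nrmQ ℂ p φ := rfl
    rw [h4, h5]
    ring
  rw [h3]
  exact h2

end Fermat.Agent.DS.X1.SelHecke
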