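import Fermat.Agent.DS.X1.PerHom
import Fermat.Agent.DS.X1.ApiC
import Fermat.Agent.DS.X1.RedHecke

/-!
# The multiplicative Hecke operator on forms

`NF M k hp hpM f = ∏_x f |_k B_x`, the product over the coset representatives of `T_p`.
-/

set_option autoImplicit false
set_option linter.unusedSectionVars false
set_option linter.style.haveILetI false

noncomputable section

open UpperHalfPlane ModularForm CongruenceSubgroup ModularCurve Matrix.SpecialLinearGroup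
open scoped MatrixGroups Manifold

namespace Fermat.Agent.DS.X1.SelHecke

open Fermat.Agent.DS.Hecke1

variable {M : ℕ} [NeZero M] {p : ℕ} {k : ℤ}

/-- The multiplicative Hecke operator. -/
def NF (M : ℕ) [NeZero M] (k : ℤ) {p : ℕ} (hp : p.Prime) (hpM : ¬ p ∣ M) (f : ℍ → ℂ) : ℍ → ℂ :=
  haveI : NeZero p := ⟨hp.ne_zero⟩
  ∏ x : Option (ZMod p), f ∣[k] B M hp hpM x

theorem det_B (hp : p.Prime) (hpM : ¬ p ∣ M) (x : Option (ZMod p)) :
    (B M hp hpM x).det.val = p := by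
  have h1 : (B M hp hpM x).det.val =
      (B M hp hpM x : Matrix (Fin 2) (Fin 2) ℝ).det := rfl
  rw [h1, B_val]
  have h2 := RingHom.map_det (Int.castRingHom ℝ) (bmat p (rep M (pu hp hpM)) x)
  rw [det_bmat] at h2
  have h3 : (Int.castRingHom ℝ).mapMatrix (bmat p (rep M (pu hp hpM)) x) =
      (bmat p (rep M (pu hp hpM)) x).map (Int.cast : ℤ → ℝ) := rfl
  rw [← h3, ← h2]
  simp

theorem slash_apply_of_pos {g : GL (Fin 2) ℝ} (hg : 0 < g.det.val) (f : ℍ → ℂ) (τ : ℍ) :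
    (f ∣[k] g) τ = f (g • τ) * (((|g.det.val| : ℝ) : ℂ) ^ (k - 1) * denom g τ ^ (-k)) := by
  rw [ModularForm.slash_apply, σ, if_pos hg, ContinuousAlgEquiv.refl_apply, mul_assoc]

theorem smul_slash_of_pos {g : GL (Fin 2) ℝ} (hg : 0 < g.det.val) (f : ℍ → ℂ) (c : ℂ) :
    (c • f) ∣[k] g = c • (f ∣[k] g) := by
  rw [ModularForm.smul_slash, σ, if_pos hg, ContinuousAlgEquiv.refl_apply]

theorem det_B_pos (hp : p.Prime) (hpM : ¬ p ∣ M) (x : Option (ZMod p)) :
    0 < (B M hp hpM x).det.val := by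
  rw [det_B]
  exact_mod_cast hp.pos

/-- a relation `E ^ n = A * B ^ (n - 1)`-type is preserved. -/
theorem NF_rel (hp : p.Prime) (hpM : ¬ p ∣ M) {E A G : ℍ → ℂ} {n : ℕ}
    (h : E ^ (n + 1) = A * G ^ n) :
    NF M k hp hpM E ^ (n + 1) = NF M k hp hpM A * NF M k hp hpM G ^ n := by
  haveI : NeZero p := ⟨hp.ne_zero⟩
  rw [NF, NF, NF, ← Finset.prod_pow, ← Finset.prod_pow, ← Finset.prod_mul_distrib]
  refine Finset.prod_congr rfl fun x _ => ?_
  funext τ
  have h1 := congrFun h (B M hp hpM x • τ)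
  simp only [Pi.pow_apply, Pi.mul_apply] at h1 ⊢
  rw [slash_apply_of_pos (det_B_pos hp hpM x), slash_apply_of_pos (det_B_pos hp hpM x),
    slash_apply_of_pos (det_B_pos hp hpM x), mul_pow, h1]
  ring

theorem prod_slash_SL {ι : Type*} (s : Finset ι) (f : ι → ℍ → ℂ) (γ : SL(2, ℤ)) :
    (∏ i ∈ s, f i) ∣[k * (s.card : ℤ)] γ = ∏ i ∈ s, f i ∣[k] γ := by
  rw [ModularForm.SL_slash, ModularForm.prod_slash]
  simp [ModularForm.SL_slash]

theorem card_option (p : ℕ) [NeZero p] :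
    ((Finset.univ : Finset (Option (ZMod p))).card : ℤ) = p + 1 := by
  rw [Finset.card_univ, Fintype.card_option, ZMod.card]
  push_cast
  rfl

theorem NF_slash_SL (hp : p.Prime) (hpM : ¬ p ∣ M) (f : ℍ → ℂ) (γ : SL(2, ℤ)) :
    haveI : NeZero p := ⟨hp.ne_zero⟩
    NF M k hp hpM f ∣[k * (p + 1)] γ =
      ∏ x : Option (ZMod p), (f ∣[k] B M hp hpM x) ∣[k] γ := by
  haveI : NeZero p := ⟨hp.ne_zero⟩
  rw [← prod_slash_SL, card_option]
  rfl

/-- holomorphy -/
theorem mdiff_NF (hp : p.Prime) (hpM : ¬ p ∣ M) {f : ℍ → ℂ} (hf : MDiff f) :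
    MDiff (NF M k hp hpM f) := by
  classical
  haveI : NeZero p := ⟨hp.ne_zero⟩
  have key : ∀ s : Finset (Option (ZMod p)), MDiff (∏ x ∈ s, f ∣[k] B M hp hpM x) := by
    intro s
    induction s using Finset.induction_on with
    | empty =>
      simp only [Finset.prod_empty]
      exact mdifferentiable_const
    | insert a s ha ih =>
      rw [Finset.prod_insert ha]
      exact (hf.slash k _).mul ih
  exact key _

/-- **Transformation law**: `NF` of a form with character `χ` has character `heckeHom1 χ`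
(written multiplicatively). -/
theorem NF_slash (hp : p.Prime) (hpM : ¬ p ∣ M) {f : ℍ → ℂ} (χ : Gamma1 M → ℂ)
    (hf : ∀ γ : Gamma1 M, f ∣[k] (γ : SL(2, ℤ)) = χ γ • f) (γ : Gamma1 M) :
    haveI : NeZero p := ⟨hp.ne_zero⟩
    NF M k hp hpM f ∣[k * (p + 1)] (γ : SL(2, ℤ)) =
      (∏ x : Option (ZMod p), χ (coc1 hp hpM γ x)) • NF M k hp hpM f := by
  haveI : NeZero p := ⟨hp.ne_zero⟩
  rw [NF_slash_SL]
  have h1 : ∀ x : Option (ZMod p), (f ∣[k] B M hp hpM x) ∣[k] (γ : SL(2, ℤ)) =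
      χ (coc1 hp hpM γ x) • (f ∣[k] B M hp hpM (actPerm hp hpM (inc M γ) x)) := by
    intro x
    rw [ModularForm.SL_slash, ← SlashAction.slash_mul]
    have h2 := coc1_spec hp hpM γ x
    change f ∣[k] (B M hp hpM x * (mapGL ℝ (γ : SL(2, ℤ)) : GL (Fin 2) ℝ)) = _
    rw [h2, SlashAction.slash_mul]
    have h3 : f ∣[k] (mapGL ℝ (coc1 hp hpM γ x : SL(2, ℤ)) : GL (Fin 2) ℝ) =
        χ (coc1 hp hpM γ x) • f := hf _
    rw [h3, smul_slash_of_pos (det_B_pos hp hpM _)]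
    rfl
  simp only [h1]
  rw [Finset.prod_smul]
  congr 1
  exact Equiv.prod_comp (actPerm hp hpM (inc M γ)) (fun x => f ∣[k] B M hp hpM x)

/-- boundedness -/
theorem bdd_NF (hp : p.Prime) (hpM : ¬ p ∣ M) {f : ℍ → ℂ}
    (hf : ∀ γ : SL(2, ℤ), IsBoundedAtImInfty (f ∣[k] γ)) (γ : SL(2, ℤ)) :
    IsBoundedAtImInfty (NF M k hp hpM f ∣[k * (p + 1)] γ) := by
  classical
  haveI : NeZero p := ⟨hp.ne_zero⟩
  rw [NF_slash_SL]
  have key : ∀ x : Option (ZMod p), IsBoundedAtImInfty ((f ∣[k] B M hp hpM x) ∣[k] γ) := by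
    intro x
    obtain ⟨l, δ, hδ⟩ := exists_factor hp (rep M (pu hp hpM))
      (bmat p (rep M (pu hp hpM)) x * (γ : Matrix (Fin 2) (Fin 2) ℤ))
      (by rw [Matrix.det_mul, det_bmat, γ.det_coe, mul_one])
    have h1 : B M hp hpM x * (mapGL ℝ γ : GL (Fin 2) ℝ) = mapGL ℝ δ * B M hp hpM l := by
      apply Units.ext
      rw [Units.val_mul, Units.val_mul, B_val, B_val, val_mapGL, val_mapGL]
      have h := congrArg (fun A : Matrix (Fin 2) (Fin 2) ℤ => A.map (Int.castRingHom ℝ)) hδ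
      simp only [Matrix.map_mul] at h
      exact h
    rw [ModularForm.SL_slash, ← SlashAction.slash_mul]
    change IsBoundedAtImInfty (f ∣[k] (B M hp hpM x * (mapGL ℝ γ : GL (Fin 2) ℝ)))
    rw [h1]
    cases l with
    | some j =>
      rw [SlashAction.slash_mul]
      refine IsBoundedAtImInfty.slash k ?_ (hf δ)
      change (heckeMatrix p j.val : Matrix (Fin 2) (Fin 2) ℝ) 1 0 = 0
      rw [val_heckeMatrix hp.ne_zero]
      rfl
    | none =>
      have h2 : mapGL ℝ δ * B M hp hpM none =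
          mapGL ℝ (δ * rep M (pu hp hpM)) * heckeDiagMatrix p := by
        rw [map_mul, mul_assoc]
        rfl
      rw [h2, SlashAction.slash_mul]
      refine IsBoundedAtImInfty.slash k ?_ (hf (δ * rep M (pu hp hpM)))
      change (heckeDiagMatrix p : Matrix (Fin 2) (Fin 2) ℝ) 1 0 = 0
      rw [val_heckeDiagMatrix hp.ne_zero]
      rfl
  have key2 : ∀ s : Finset (Option (ZMod p)),
      IsBoundedAtImInfty (∏ x ∈ s, (f ∣[k] B M hp hpM x) ∣[k] γ) := by
    intro s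
    induction s using Finset.induction_on with
    | empty =>
      simp only [Finset.prod_empty]
      exact Filter.const_boundedAtFilter _ _
    | insert a s ha ih =>
      rw [Finset.prod_insert ha]
      exact (key a).mul ih
  exact key2 _

omit [NeZero M] in
theorem bdd_slash_of_isM1 [NeZero M] {f : ℍ → ℂ} (hf : IsM1 M k f) (γ : SL(2, ℤ)) :
    IsBoundedAtImInfty (f ∣[k] γ) := by
  obtain ⟨F, rfl⟩ := hf
  exact ModularFormClass.bdd_at_infty_slash F γ

omit [NeZero M] in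
theorem mdiff_of_isM1 {f : ℍ → ℂ} (hf : IsM1 M k f) : MDiff f := by
  obtain ⟨F, rfl⟩ := hf
  exact ModularFormClass.holo F

omit [NeZero M] in
theorem slash_of_isM1 {f : ℍ → ℂ} (hf : IsM1 M k f) (γ : Gamma1 M) :
    f ∣[k] (γ : SL(2, ℤ)) = f := by
  obtain ⟨F, rfl⟩ := hf
  exact SlashInvariantFormClass.slash_action_eq F _ ⟨γ, γ.2, rfl⟩

theorem isM1_of {f : ℍ → ℂ} (h1 : MDiff f) (h2 : ∀ γ : Gamma1 M, f ∣[k] (γ : SL(2, ℤ)) = f)
    (h3 : ∀ γ : SL(2, ℤ), IsBoundedAtImInfty (f ∣[k] γ)) : IsM1 M k f := by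
  refine ⟨{ toFun := f
            slash_action_eq' := ?_
            holo' := h1
            bdd_at_cusps' := ?_ }, rfl⟩
  · rintro _ ⟨γ, hγ, rfl⟩
    exact h2 ⟨γ, hγ⟩
  · intro x hx
    rw [Subgroup.IsArithmetic.isCusp_iff_isCusp_SL2Z] at hx
    rw [OnePoint.isBoundedAt_iff_forall_SL2Z hx]
    intro δ _
    exact h3 δ

/-- `NF` preserves modular forms on `Γ₁(M)`. -/
theorem isM1_NF (hp : p.Prime) (hpM : ¬ p ∣ M) {f : ℍ → ℂ} (hf : IsM1 M k f) :
    IsM1 M (k * (p + 1)) (NF M k hp hpM f) := by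
  haveI : NeZero p := ⟨hp.ne_zero⟩
  refine isM1_of (mdiff_NF hp hpM (mdiff_of_isM1 hf)) (fun γ => ?_)
    (bdd_NF hp hpM (bdd_slash_of_isM1 hf))
  rw [NF_slash hp hpM (fun _ => 1) (fun γ => by rw [one_smul]; exact slash_of_isM1 hf γ)]
  simp

theorem slash_ne_zero {f : ℍ → ℂ} (g : GL (Fin 2) ℝ) (hf : f ≠ 0) : f ∣[k] g ≠ 0 := by
  intro h
  have h1 := congrArg (fun f => f ∣[k] g⁻¹) h
  simp only [← SlashAction.slash_mul, mul_inv_cancel, SlashAction.slash_one,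
    SlashAction.zero_slash] at h1
  exact hf h1

theorem NF_ne_zero (hp : p.Prime) (hpM : ¬ p ∣ M) {f : ℍ → ℂ} (hf : MDiff f) (h0 : f ≠ 0) :
    NF M k hp hpM f ≠ 0 := by
  haveI : NeZero p := ⟨hp.ne_zero⟩
  intro h
  rw [NF, UpperHalfPlane.prod_eq_zero_iff (fun q _ => hf.slash k _)] at h
  obtain ⟨q, -, hq⟩ := h
  exact slash_ne_zero _ h0 hq

end Fermat.Agent.DS.X1.SelHecke
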