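import Fermat.Agent.DS.X1.SelHeckeExp

/-!
# The multiplicative Hecke operator on functions and characters

* `heckeChar1 hp hpM χ`: transfer of characters of `Γ₁(M)`;
* `IsDia γ f d`: `d = f ∘ γ`, for functions with coefficients in `L`;
* `isQ_TMs`, `TMs_mem_F1`: `TMs L p d f` is a function on `X₁(M)`;
* `rl_TMs`: `f = (E/B)^n` with character `χ` ⇒ `TMs L p d f` has character `heckeChar1 χ`.
-/

set_option autoImplicit false
set_option linter.unusedSectionVars false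
set_option linter.style.haveILetI false

noncomputable section

open UpperHalfPlane ModularForm CongruenceSubgroup ModularCurve Matrix.SpecialLinearGroup FermatJ
open AlgebraicCurve
open scoped MatrixGroups Manifold

namespace Fermat.Agent.DS.X1.SelHecke

open Fermat.Agent.DS.Hecke1 Fermat.Agent.DS.X1.Sel
open Fermat.Agent.JAN

variable {M : ℕ} [NeZero M] {p : ℕ} {k : ℤ}

/-! ### Characters -/

/-- The transfer of a character. -/
def heckeChar1 (hp : p.Prime) (hpM : ¬ p ∣ M) (χ : Gamma1 M →* ℂˣ) : Gamma1 M →* ℂˣ :=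
  haveI : NeZero p := ⟨hp.ne_zero⟩
  { toFun := fun g => ∏ x : Option (ZMod p), χ (coc1 hp hpM g x)
    map_one' := by
      refine Finset.prod_eq_one fun x _ => ?_
      rw [coc1_one, map_one]
    map_mul' := fun g h => by
      have h1 : ∀ x : Option (ZMod p), χ (coc1 hp hpM (g * h) x) =
          χ (coc1 hp hpM g x) * χ (coc1 hp hpM h (actPerm hp hpM (inc M g) x)) := by
        intro x
        rw [coc1_mul, map_mul, actPerm_apply]
      simp_rw [h1]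
      rw [Finset.prod_mul_distrib]
      congr 1
      exact Equiv.prod_comp (actPerm hp hpM (inc M g)) (fun x => χ (coc1 hp hpM h x)) }

theorem heckeChar1_apply (hp : p.Prime) (hpM : ¬ p ∣ M) (χ : Gamma1 M →* ℂˣ) (g : Gamma1 M) :
    heckeChar1 hp hpM χ g =
      haveI : NeZero p := ⟨hp.ne_zero⟩
      ∏ x : Option (ZMod p), χ (coc1 hp hpM g x) := rfl

theorem heckeChar1_one (hp : p.Prime) (hpM : ¬ p ∣ M) :
    heckeChar1 hp hpM (1 : Gamma1 M →* ℂˣ) = 1 := by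
  haveI : NeZero p := ⟨hp.ne_zero⟩
  refine MonoidHom.ext fun g => ?_
  rw [heckeChar1_apply]
  exact Finset.prod_eq_one fun x _ => rfl

theorem heckeChar1_pow (hp : p.Prime) (hpM : ¬ p ∣ M) (χ : Gamma1 M →* ℂˣ) (n : ℕ) :
    heckeChar1 hp hpM χ ^ n = heckeChar1 hp hpM (χ ^ n) := by
  haveI : NeZero p := ⟨hp.ne_zero⟩
  refine MonoidHom.ext fun g => ?_
  rw [MonoidHom.pow_apply, heckeChar1_apply, heckeChar1_apply, ← Finset.prod_pow]
  rfl

/-- Compatibility with the transfer on additive characters. -/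
theorem heckeChar1_of_add (hp : p.Prime) (hpM : ¬ p ∣ M) {A : Type*} [AddCommGroup A]
    (ψ : A → ℂˣ) (h0 : ψ 0 = 1) (hadd : ∀ a b, ψ (a + b) = ψ a * ψ b)
    (φ : Additive (Gamma1 M) →+ A) {χ χ' : Gamma1 M →* ℂˣ}
    (hχ : ∀ g, χ g = ψ (φ (Additive.ofMul g)))
    (hχ' : ∀ g, χ' g = ψ (heckeHom1 hp hpM φ (Additive.ofMul g))) :
    heckeChar1 hp hpM χ = χ' := by
  haveI : NeZero p := ⟨hp.ne_zero⟩
  refine MonoidHom.ext fun g => ?_
  rw [heckeChar1_apply, hχ', heckeHom1_apply]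
  simp_rw [hχ]
  let F : Multiplicative A →* ℂˣ :=
    { toFun := fun a => ψ (Multiplicative.toAdd a)
      map_one' := h0
      map_mul' := fun a b => hadd _ _ }
  exact (map_prod F (fun x => Multiplicative.ofAdd (φ (Additive.ofMul (coc1 hp hpM g x))))
    Finset.univ).symm

theorem isCF_NF (hp : p.Prime) (hpM : ¬ p ∣ M) {χ : Gamma1 M →* ℂˣ} {E : ℍ → ℂ}
    (hE : IsCF (Gamma1 M) k χ E) :
    IsCF (Gamma1 M) (k * (p + 1)) (heckeChar1 hp hpM χ) (NF M k hp hpM E) where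
  holo := mdiff_NF hp hpM hE.holo
  slash γ := by
    rw [NF_slash hp hpM (fun γ => (χ γ : ℂ)) hE.slash, heckeChar1_apply, Units.coe_prod]
  bdd := bdd_NF hp hpM hE.bdd

/-- slash by elements of `Γ₀(M)` -/
theorem isCF_slash (γ : Gamma0 M) {χ : Gamma1 M →* ℂˣ} {E : ℍ → ℂ}
    (hE : IsCF (Gamma1 M) k χ E) :
    IsCF (Gamma1 M) k (χ.comp (conj1 γ)) (E ∣[k] (γ : SL(2, ℤ))) where
  holo := mdiff_slash hE.holo _
  slash g := by
    have h1 := hE.slash (conj1 γ g)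
    rw [← SlashAction.slash_mul]
    have h2 : (γ : SL(2, ℤ)) * (g : SL(2, ℤ)) = (conj1 γ g : SL(2, ℤ)) * γ := by
      rw [coe_conj1]
      group
    rw [h2, SlashAction.slash_mul, h1, ModularForm.SL_smul_slash]
    rfl
  bdd g := by
    rw [← SlashAction.slash_mul]
    exact hE.bdd _

theorem isCF_slash_one (γ : Gamma0 M) {E : ℍ → ℂ}
    (hE : IsCF (Gamma1 M) k 1 E) : IsCF (Gamma1 M) k 1 (E ∣[k] (γ : SL(2, ℤ))) :=
  (isCF_slash γ hE).congr_char rfl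

/-! ### Diamonds -/

section Fun

variable {L : Type*} [Field L] [Algebra L ℂ] {f g d e : LaurentSeries L} {A B C D : ℍ → ℂ} {l : ℤ}

/-- Change of presentation. -/
theorem isQ_of_cross (hf : IsQ (Gamma1 M) f k A B) (hC : IsCF (Gamma1 M) l 1 C)
    (hD : IsCF (Gamma1 M) l 1 D) (hD0 : D ≠ 0) (h : A * D = C * B) :
    IsQ (Gamma1 M) f l C D := by
  obtain ⟨β, hβ, hα⟩ := hf.exp
  refine ⟨hC, hD, hD0, MFF.LQ D, hD.hasExp1, ?_⟩
  have hβ0 : β ≠ 0 := by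
    rw [Ne, hasExp_qc_eq_zero_iff hβ]
    exact hf.den_ne
  have h1 := hα.mul hD.hasExp1
  have h2 := hC.hasExp1.mul hβ
  have h3 : (fun τ => A τ * D τ) = fun τ => C τ * B τ := h
  have h4 : toC f * β * MFF.LQ D = MFF.LQ C * β :=
    h1.unique (eventually_mem_range_qc 1) (h2.congr fun τ => (congrFun h3 τ).symm)
  have h5 : toC f * MFF.LQ D = MFF.LQ C := by
    apply mul_right_cancel₀ hβ0
    rw [← h4]
    ring
  rw [h5]
  exact hC.hasExp1

/-- `d` is the function `f ∘ γ`. -/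
def IsDia (γ : Gamma0 M) (f d : LaurentSeries L) : Prop :=
  ∃ (k : ℤ) (A B : ℍ → ℂ), IsQ (Gamma1 M) f k A B ∧
    IsQ (Gamma1 M) d k (A ∣[k] (γ : SL(2, ℤ))) (B ∣[k] (γ : SL(2, ℤ)))

theorem IsDia.isQ {γ : Gamma0 M} (h : IsDia γ f d) (hf : IsQ (Gamma1 M) f k A B) :
    IsQ (Gamma1 M) d k (A ∣[k] (γ : SL(2, ℤ))) (B ∣[k] (γ : SL(2, ℤ))) := by
  obtain ⟨k0, A0, B0, h1, h2⟩ := h
  have h3 := h1.cross hf
  refine isQ_of_cross h2 (isCF_slash_one γ hf.num) (isCF_slash_one γ hf.den)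
    (Fermat.Agent.JAN.slash_ne_zero hf.den_ne _) ?_
  rw [← ModularForm.mul_slash_SL2, ← ModularForm.mul_slash_SL2, h3, add_comm]

theorem IsDia.unique {γ : Gamma0 M} (h : IsDia γ f d) (h' : IsDia γ f e) : d = e := by
  obtain ⟨k0, A0, B0, h1, h2⟩ := h
  have h3 := h'.isQ h1
  obtain ⟨β, hβ, hα⟩ := h2.exp
  obtain ⟨β', hβ', hα'⟩ := h3.exp
  have e1 := hβ.unique (eventually_mem_range_qc 1) hβ'
  subst e1
  have e2 := hα.unique (eventually_mem_range_qc 1) hα'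
  have hβ0 : β ≠ 0 := by
    rw [Ne, hasExp_qc_eq_zero_iff hβ]
    exact h2.den_ne
  exact Fermat.Agent.JAN.toC_injective (mul_right_cancel₀ hβ0 e2)

theorem IsDia.mul {γ : Gamma0 M} (h : IsDia γ f d) (h' : IsDia γ g e) :
    IsDia γ (f * g) (d * e) := by
  obtain ⟨k0, A0, B0, h1, h2⟩ := h
  obtain ⟨k1, A1, B1, h3, h4⟩ := h'
  refine ⟨k0 + k1, A0 * A1, B0 * B1, h1.mul h3, ?_⟩
  rw [ModularForm.mul_slash_SL2, ModularForm.mul_slash_SL2]
  exact h2.mul h4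

theorem IsDia.add {γ : Gamma0 M} (h : IsDia γ f d) (h' : IsDia γ g e) :
    IsDia γ (f + g) (d + e) := by
  obtain ⟨k0, A0, B0, h1, h2⟩ := h
  obtain ⟨k1, A1, B1, h3, h4⟩ := h'
  refine ⟨k0 + k1, A0 * B1 + B0 * A1, B0 * B1, h1.add h3, ?_⟩
  rw [SlashAction.add_slash, ModularForm.mul_slash_SL2, ModularForm.mul_slash_SL2,
    ModularForm.mul_slash_SL2]
  exact h2.add h4

theorem isDia_const (γ : Gamma0 M) (c : L) :
    IsDia γ (HahnSeries.C c : LaurentSeries L) (HahnSeries.C c) := by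
  have h1 : ∀ E : ℍ → ℂ, (∀ τ τ', E τ = E τ') → E ∣[(0 : ℤ)] (γ : SL(2, ℤ)) = E := by
    intro E hE
    funext τ
    rw [slash_apply_eq, neg_zero, zpow_zero, mul_one]
    exact hE _ _
  refine ⟨0, _, _, IsQ.const c, ?_⟩
  rw [h1 _ (fun τ τ' => rfl), h1 _ (fun τ τ' => rfl)]
  exact IsQ.const c

/-- The relation with characters under diamonds. -/
theorem IsDia.rl {γ : Gamma0 M} (h : IsDia γ f d) {n : ℕ} {χ : Gamma1 M →* ℂˣ}
    (hf : Rl (Gamma1 M) n χ f) : Rl (Gamma1 M) n (χ.comp (conj1 γ)) d := by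
  obtain ⟨k', A', B', h1, h2⟩ := h
  have hχ := hf.char_pow h1
  obtain ⟨k, B, E, β, hB, hE, hB0, hE0, hβ, hf⟩ := hf
  have h3 : E ^ n * B' = A' * B ^ n := Rl.mul_eq hβ hf h1
  have hB1 := isCF_slash_one γ hB
  have hE1 := isCF_slash γ hE
  have hEn : IsCF (Gamma1 M) (n * k) 1 ((E ∣[k] (γ : SL(2, ℤ))) ^ n) := by
    refine (hE1.pow n).congr_char ?_
    refine MonoidHom.ext fun g => ?_
    rw [MonoidHom.pow_apply, MonoidHom.comp_apply, ← MonoidHom.pow_apply, hχ]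
    rfl
  refine ⟨k, B ∣[k] (γ : SL(2, ℤ)), E ∣[k] (γ : SL(2, ℤ)), _, hB1, hE1,
    Fermat.Agent.JAN.slash_ne_zero hB0 _, Fermat.Agent.JAN.slash_ne_zero hE0 _, hB1.hasExp1, ?_⟩
  have h4 : (E ∣[k] (γ : SL(2, ℤ))) ^ n * (B' ∣[k'] (γ : SL(2, ℤ))) =
      (A' ∣[k'] (γ : SL(2, ℤ))) * (B ∣[k] (γ : SL(2, ℤ))) ^ n := by
    rw [← pow_slash, ← pow_slash, ← ModularForm.mul_slash_SL2, ← ModularForm.mul_slash_SL2, h3,
      add_comm]
  obtain ⟨β', hβ', hα'⟩ := h2.exp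
  have hβ0 : β' ≠ 0 := by
    rw [Ne, hasExp_qc_eq_zero_iff hβ']
    exact h2.den_ne
  have h5 := hEn.hasExp1.mul hβ'
  have h6 := hα'.mul (hB1.hasExp1.pow n)
  have h7 : MFF.LQ ((E ∣[k] (γ : SL(2, ℤ))) ^ n) * β' =
      toC d * β' * MFF.LQ (B ∣[k] (γ : SL(2, ℤ))) ^ n :=
    h5.unique (eventually_mem_range_qc 1) (h6.congr fun τ => (congrFun h4 τ).symm)
  have h8 : toC d * MFF.LQ (B ∣[k] (γ : SL(2, ℤ))) ^ n =
      MFF.LQ ((E ∣[k] (γ : SL(2, ℤ))) ^ n) := by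
    apply mul_right_cancel₀ hβ0
    rw [h7]
    ring
  rw [h8]
  exact hEn.hasExp1

/-! ### The Hecke operator -/

theorem exists_primitiveRoot_units [IsAlgClosed L] (p : ℕ) [NeZero p] :
    ∃ ζ : Lˣ, IsPrimitiveRoot ζ p := by
  haveI : CharZero L := (algebraMap L ℂ).charZero
  haveI : NeZero ((p : ℕ) : L) := ⟨by exact_mod_cast NeZero.ne p⟩
  obtain ⟨ζ, hζ⟩ := HasEnoughRootsOfUnity.exists_primitiveRoot L p
  have hζ0 : ζ ≠ 0 := hζ.ne_zero (NeZero.ne p)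
  refine ⟨Units.mk0 ζ hζ0, ?_⟩
  exact IsPrimitiveRoot.coe_units_iff.mp hζ

theorem toC_TMs [IsAlgClosed L] (p : ℕ) [NeZero p] (d f : LaurentSeries L) :
    toC (TMs L p d f) = TMs ℂ p (toC d) (toC f) := by
  obtain ⟨ζ, hζ⟩ := exists_primitiveRoot_units (L := L) p
  exact coeffMap_TMs (algebraMap L ℂ) hζ d f

variable [IsAlgClosed L]

/-- **`T_p` on functions.** -/
theorem isQ_TMs (hp : p.Prime) (hpM : ¬ p ∣ M)
    (h : IsDia ⟨rep M (pu hp hpM), rep_mem (pu hp hpM)⟩ f d) (hf : IsQ (Gamma1 M) f k A B) :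
    haveI : NeZero p := ⟨hp.ne_zero⟩
    IsQ (Gamma1 M) (TMs L p d f) (k * (p + 1)) (NF M k hp hpM A) (NF M k hp hpM B) := by
  haveI : NeZero p := ⟨hp.ne_zero⟩
  have hd := h.isQ hf
  obtain ⟨β, hβ, hα⟩ := hf.exp
  obtain ⟨β', hβ', hα'⟩ := hd.exp
  have h1 := hasExp_NF (k := k) hp hpM hβ hβ'
  have h2 := hasExp_NF (k := k) hp hpM hα hα'
  refine ⟨(isCF_NF hp hpM hf.num).congr_char (heckeChar1_one hp hpM),
    (isCF_NF hp hpM hf.den).congr_char (heckeChar1_one hp hpM),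
    NF_ne_zero hp hpM hf.den.holo hf.den_ne, _, h1, ?_⟩
  have h3 : toC (TMs L p d f) * (HahnSeries.C (cN p k) * TMs ℂ p β' β) =
      HahnSeries.C (cN p k) * TMs ℂ p (toC d * β') (toC f * β) := by
    rw [toC_TMs, TMs_mul]
    ring
  rw [h3]
  exact h2

theorem TMs_mem_F1 (hp : p.Prime) (hpM : ¬ p ∣ M)
    (h : IsDia ⟨rep M (pu hp hpM), rep_mem (pu hp hpM)⟩ f d) :
    haveI : NeZero p := ⟨hp.ne_zero⟩
    TMs L p d f ∈ F1 L M := by
  obtain ⟨k, A, B, hf, hd⟩ := id h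
  exact mem_F1_of_isQ (isQ_TMs hp hpM h hf)

/-- `NF` on relations of forms of different weights. -/
theorem NF_rel' (hp : p.Prime) (hpM : ¬ p ∣ M) {E A' B B' : ℍ → ℂ} {k' : ℤ} {n : ℕ}
    (h : E ^ n * B' = A' * B ^ n) :
    NF M k hp hpM E ^ n * NF M k' hp hpM B' = NF M k' hp hpM A' * NF M k hp hpM B ^ n := by
  haveI : NeZero p := ⟨hp.ne_zero⟩
  rw [NF, NF, NF, NF, ← Finset.prod_pow, ← Finset.prod_pow, ← Finset.prod_mul_distrib,
    ← Finset.prod_mul_distrib]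
  refine Finset.prod_congr rfl fun x _ => ?_
  funext τ
  have h1 := congrFun h (Hecke1.B M hp hpM x • τ)
  simp only [Pi.pow_apply, Pi.mul_apply] at h1 ⊢
  rw [slash_apply_of_pos (det_B_pos hp hpM x), slash_apply_of_pos (det_B_pos hp hpM x),
    slash_apply_of_pos (det_B_pos hp hpM x), slash_apply_of_pos (det_B_pos hp hpM x), mul_pow,
    mul_pow]
  linear_combination (((|(Hecke1.B M hp hpM x).det.val| : ℝ) : ℂ) ^ (k - 1) *
    denom (Hecke1.B M hp hpM x) τ ^ (-k)) ^ n *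
    (((|(Hecke1.B M hp hpM x).det.val| : ℝ) : ℂ) ^ (k' - 1) *
    denom (Hecke1.B M hp hpM x) τ ^ (-k')) * h1

/-- **`T_p` and characters.** -/
theorem rl_TMs (hp : p.Prime) (hpM : ¬ p ∣ M)
    (h : IsDia ⟨rep M (pu hp hpM), rep_mem (pu hp hpM)⟩ f d) {n : ℕ} {χ : Gamma1 M →* ℂˣ}
    (hf : Rl (Gamma1 M) n χ f) :
    haveI : NeZero p := ⟨hp.ne_zero⟩
    Rl (Gamma1 M) n (heckeChar1 hp hpM χ) (TMs L p d f) := by
  haveI : NeZero p := ⟨hp.ne_zero⟩
  obtain ⟨k', A', B', h1, -⟩ := id h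
  have hq := isQ_TMs hp hpM h h1
  have hχ := hf.char_pow h1
  obtain ⟨k, B, E, β, hB, hE, hB0, hE0, hβ, hf⟩ := hf
  have h3 : E ^ n * B' = A' * B ^ n := Rl.mul_eq hβ hf h1
  have h4 := NF_rel' (k := k) (k' := k') hp hpM h3
  have hB1 : IsCF (Gamma1 M) (k * (p + 1)) 1 (NF M k hp hpM B) :=
    (isCF_NF hp hpM hB).congr_char (heckeChar1_one hp hpM)
  have hE1 := isCF_NF hp hpM hE
  have hEn : IsCF (Gamma1 M) (n * (k * (p + 1))) 1 (NF M k hp hpM E ^ n) := by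
    refine (hE1.pow n).congr_char ?_
    rw [heckeChar1_pow, hχ, heckeChar1_one]
  refine ⟨k * (p + 1), NF M k hp hpM B, NF M k hp hpM E, _, hB1, hE1,
    NF_ne_zero hp hpM hB.holo hB0, NF_ne_zero hp hpM hE.holo hE0, hB1.hasExp1, ?_⟩
  obtain ⟨β', hβ', hα'⟩ := hq.exp
  have hβ0 : β' ≠ 0 := by
    rw [Ne, hasExp_qc_eq_zero_iff hβ']
    exact hq.den_ne
  have h5 := hEn.hasExp1.mul hβ'
  have h6 := hα'.mul (hB1.hasExp1.pow n)
  have h7 : MFF.LQ (NF M k hp hpM E ^ n) * β' =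
      toC (TMs L p d f) * β' * MFF.LQ (NF M k hp hpM B) ^ n :=
    h5.unique (eventually_mem_range_qc 1) (h6.congr fun τ => (congrFun h4 τ).symm)
  have h8 : toC (TMs L p d f) * MFF.LQ (NF M k hp hpM B) ^ n =
      MFF.LQ (NF M k hp hpM E ^ n) := by
    apply mul_right_cancel₀ hβ0
    rw [h7]
    ring
  rw [h8]
  exact hEn.hasExp1

end Fun

end Fermat.Agent.DS.X1.SelHecke
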