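import Fermat.Agent.DS.X1.SelHeckeFun
import Fermat.Agent.DS.X1.ApiFin
import Fermat.Agent.DS.X1.SelDefs

/-!
# The Hecke operators preserve the functions with orders divisible by `ℓ`
-/

set_option autoImplicit false
set_option linter.unusedSectionVars false
set_option linter.style.haveILetI false

noncomputable section

open UpperHalfPlane ModularForm CongruenceSubgroup ModularCurve Matrix.SpecialLinearGroup FermatJ
open AlgebraicCurve
open scoped MatrixGroups Manifold

namespace Fermat.Agent.DS.X1.SelHecke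

open Fermat.Agent.DS.Hecke1 Fermat.Agent.DS.X1.Sel
open Fermat.Agent.JAN

/-- A product over a finite set is trivial if it is on the orbits of a permutation. -/
theorem prod_eq_one_of_orbits {X A : Type*} [Fintype X] [DecidableEq X] [CommMonoid A]
    (σ : Equiv.Perm X) (c : X → A)
    (h : ∀ (x : X) (m : ℕ), 0 < m → σ^[m] x = x → ∏ i ∈ Finset.range m, c (σ^[i] x) = 1) :
    ∏ x, c x = 1 := by
  have key : ∀ (n : ℕ) (s : Finset X), s.card ≤ n → (∀ x ∈ s, σ x ∈ s) → ∏ x ∈ s, c x = 1 := by
    intro n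
    induction n with
    | zero =>
      intro s hs _
      rw [Nat.le_zero, Finset.card_eq_zero] at hs
      rw [hs, Finset.prod_empty]
    | succ n ih =>
      intro s hs hinv
      by_cases hse : s = ∅
      · rw [hse, Finset.prod_empty]
      obtain ⟨x, hx⟩ := Finset.nonempty_iff_ne_empty.mpr hse
      have hper : x ∈ Function.periodicPts σ := σ.injective.mem_periodicPts x
      have hm : 0 < Function.minimalPeriod σ x := Function.minimalPeriod_pos_of_mem_periodicPts hper
      have hmx : σ^[Function.minimalPeriod σ x] x = x := Function.iterate_minimalPeriod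
      have hinj := Function.iterate_injOn_Iio_minimalPeriod (f := σ) (x := x)
      set m := Function.minimalPeriod σ x with hmdef
      set t := (Finset.range m).image (fun i => σ^[i] x) with ht
      have hmem : ∀ i, σ^[i] x ∈ s := by
        intro i
        induction i with
        | zero => exact hx
        | succ i ih => rw [Function.iterate_succ_apply']; exact hinv _ ih
      have hts : t ⊆ s := by
        intro y hy
        rw [ht, Finset.mem_image] at hy
        obtain ⟨i, -, rfl⟩ := hy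
        exact hmem i
      have hprod : ∏ y ∈ t, c y = 1 := by
        rw [ht, Finset.prod_image]
        · exact h x m hm hmx
        · intro i hi j hj hij
          exact hinj (by simpa using hi) (by simpa using hj) hij
      rw [← Finset.prod_sdiff hts, hprod, mul_one]
      apply ih
      · have h1 : x ∈ t := by
          rw [ht, Finset.mem_image]
          exact ⟨0, Finset.mem_range.mpr hm, rfl⟩
        have h2 : (s \ t).card < s.card := by
          apply Finset.card_lt_card
          refine Finset.ssubset_iff_subset_ne.mpr ⟨Finset.sdiff_subset, fun he => ?_⟩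
          have h3 : x ∈ s \ t := by rw [he]; exact hx
          exact (Finset.mem_sdiff.mp h3).2 h1
        omega
      · intro y hy
        rw [Finset.mem_sdiff] at hy ⊢
        refine ⟨hinv y hy.1, fun hyt => hy.2 ?_⟩
        rw [ht, Finset.mem_image] at hyt ⊢
        obtain ⟨i, hi, hiy⟩ := hyt
        rw [Finset.mem_range] at hi
        rcases Nat.eq_zero_or_pos i with rfl | hi0
        · refine ⟨m - 1, Finset.mem_range.mpr (by omega), ?_⟩
          apply σ.injective
          have h4 : σ (σ^[m - 1] x) = σ^[m] x := by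
            rw [← Function.iterate_succ_apply' (f := σ)]
            congr 1
            omega
          rw [h4, hmx, ← hiy]
          rfl
        · refine ⟨i - 1, Finset.mem_range.mpr (by omega), ?_⟩
          apply σ.injective
          have h4 : σ (σ^[i - 1] x) = σ^[i] x := by
            rw [← Function.iterate_succ_apply' (f := σ)]
            congr 1
            omega
          rw [h4, hiy]
  exact key _ Finset.univ le_rfl fun x _ => Finset.mem_univ _

variable {M : ℕ} [NeZero M] {p : ℕ}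

theorem trace_pow_of_trace_two {γ : SL(2, ℤ)}
    (h : (γ : Matrix (Fin 2) (Fin 2) ℤ).trace = 2) (m : ℕ) :
    ((γ ^ m : SL(2, ℤ)) : Matrix (Fin 2) (Fin 2) ℤ).trace = 2 := by
  obtain ⟨g, j, rfl⟩ := exists_T_conj h
  rw [conj_pow, ← zpow_natCast, ← zpow_mul]
  rw [Matrix.SpecialLinearGroup.coe_mul, Matrix.trace_mul_comm,
    ← Matrix.SpecialLinearGroup.coe_mul, inv_mul_cancel_left,
    ModularGroup.coe_T_zpow, Matrix.trace_fin_two]
  simp

theorem trace_eq_of_conj {G : GL (Fin 2) ℝ} {a b : SL(2, ℤ)}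
    (h : G * mapGL ℝ a = mapGL ℝ b * G) :
    (b : Matrix (Fin 2) (Fin 2) ℤ).trace = (a : Matrix (Fin 2) (Fin 2) ℤ).trace := by
  have h1 : (mapGL ℝ b : GL (Fin 2) ℝ) = G * mapGL ℝ a * G⁻¹ := by
    rw [h, mul_inv_cancel_right]
  have h2 := congrArg (fun A : GL (Fin 2) ℝ => (A : Matrix (Fin 2) (Fin 2) ℝ).trace) h1
  simp only [Units.val_mul] at h2
  have h3 := Matrix.trace_units_conj G ((mapGL ℝ a : GL (Fin 2) ℝ) : Matrix (Fin 2) (Fin 2) ℝ)
  rw [h3, val_mapGL, val_mapGL, Matrix.trace_fin_two, Matrix.trace_fin_two] at h2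
  simp only [Matrix.map_apply, eq_intCast] at h2
  rw [Matrix.trace_fin_two, Matrix.trace_fin_two]
  exact_mod_cast h2

/-- The transfer preserves the characters trivial on parabolic elements. -/
theorem par_heckeChar1 (hp : p.Prime) (hpM : ¬ p ∣ M) (hM : 5 ≤ M) {χ : Gamma1 M →* ℂˣ}
    (hχ : Par χ) : Par (heckeChar1 hp hpM χ) := by
  classical
  haveI : NeZero p := ⟨hp.ne_zero⟩
  intro γ hγ
  have htr := noEll_Gamma1 hM _ γ.2 hγ
  rw [heckeChar1_apply]
  refine prod_eq_one_of_orbits (actPerm hp hpM (inc M γ)) _ fun x m hm hmx => ?_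
  have key : ∀ m : ℕ, act hp hpM (inc M (γ ^ m)) x = (actPerm hp hpM (inc M γ))^[m] x ∧
      χ (coc1 hp hpM (γ ^ m) x) =
        ∏ i ∈ Finset.range m, χ (coc1 hp hpM γ ((actPerm hp hpM (inc M γ))^[i] x)) := by
    intro m
    induction m with
    | zero =>
      rw [pow_zero, map_one, coc1_one, map_one, Finset.range_zero, Finset.prod_empty]
      exact ⟨act_one hp hpM x, rfl⟩
    | succ m ih =>
      obtain ⟨ih1, ih2⟩ := ih
      refine ⟨?_, ?_⟩
      · rw [pow_succ, map_mul, act_mul, ih1, Function.iterate_succ_apply', actPerm_apply]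
      · rw [pow_succ, coc1_mul, map_mul, ih2, ih1, Finset.prod_range_succ]
  obtain ⟨h1, h2⟩ := key m
  rw [← h2]
  apply hχ
  have h3 := coc1_spec hp hpM (γ ^ m) x
  rw [h1, hmx] at h3
  rw [trace_eq_of_conj h3, Subgroup.coe_pow, trace_pow_of_trace_two htr]
  norm_num

/-- Conjugation preserves the characters trivial on parabolic elements. -/
theorem par_comp_conj1 (γ : Gamma0 M) {χ : Gamma1 M →* ℂˣ} (hχ : Par χ) :
    Par (χ.comp (conj1 γ)) := by
  intro g hg
  rw [MonoidHom.comp_apply]
  apply hχ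
  rw [coe_conj1, Matrix.SpecialLinearGroup.coe_mul, Matrix.trace_mul_comm,
    ← Matrix.SpecialLinearGroup.coe_mul, inv_mul_cancel_left]
  exact hg

section Ord

variable {L : Type*} [Field L] [Algebra ℚ L] [Algebra L ℂ] [IsAlgClosed L] {ℓ : ℕ}

/-- **`T_p` preserves the functions all of whose orders are divisible by `ℓ`.** -/
theorem ordDvd_TMs (hp : p.Prime) (hpM : ¬ p ∣ M) (hM : 5 ≤ M) (hℓ : ℓ.Prime) (hℓ5 : 5 ≤ ℓ)
    (hφ : ¬ ℓ ∣ Nat.totient M) {f d g : F1 L M} (hf : f ≠ 0)
    (h : IsDia ⟨rep M (pu hp hpM), rep_mem (pu hp hpM)⟩ (f : LaurentSeries L)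
      (d : LaurentSeries L))
    (hg : haveI : NeZero p := ⟨hp.ne_zero⟩
      (g : LaurentSeries L) = TMs L p (d : LaurentSeries L) (f : LaurentSeries L))
    (hv : OrdDvd L ℓ f) : OrdDvd L ℓ g := by
  haveI : NeZero p := ⟨hp.ne_zero⟩
  obtain ⟨χ, hχℓ, hχ, hrl⟩ := exists_rl_of_dvd hM hℓ.ne_zero hf hv
  have h1 := rl_TMs hp hpM h hrl
  intro v
  refine dvd_of_rl hℓ hℓ5 hφ (par_heckeChar1 hp hpM hM hχ) ?_ v
  rw [hg]
  exact h1

/-- **The Hecke operator on the functions of `X₁(M)`**, attached to the diamond automorphism. -/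
def heckeF (hp : p.Prime) (hpM : ¬ p ∣ M) (dia : F1 L M →* F1 L M)
    (hdia : ∀ f : F1 L M, IsDia ⟨rep M (pu hp hpM), rep_mem (pu hp hpM)⟩ (f : LaurentSeries L)
      (dia f : LaurentSeries L)) : F1 L M →* F1 L M :=
  haveI : NeZero p := ⟨hp.ne_zero⟩
  { toFun := fun f => ⟨TMs L p (dia f : LaurentSeries L) (f : LaurentSeries L),
      TMs_mem_F1 hp hpM (hdia f)⟩
    map_one' := by
      apply Subtype.ext
      show TMs L p ((dia 1 : F1 L M) : LaurentSeries L) ((1 : F1 L M) : LaurentSeries L) = 1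
      rw [map_one]
      show TMs L p (1 : LaurentSeries L) (1 : LaurentSeries L) = 1
      rw [TMs, map_one, nrmQ_one, mul_one]
    map_mul' := fun f g => by
      apply Subtype.ext
      show TMs L p ((dia (f * g) : F1 L M) : LaurentSeries L)
        ((f * g : F1 L M) : LaurentSeries L) = _
      rw [map_mul]
      exact TMs_mul _ _ _ _ }

theorem coe_heckeF (hp : p.Prime) (hpM : ¬ p ∣ M) (dia : F1 L M →* F1 L M)
    (hdia : ∀ f : F1 L M, IsDia ⟨rep M (pu hp hpM), rep_mem (pu hp hpM)⟩ (f : LaurentSeries L)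
      (dia f : LaurentSeries L)) (f : F1 L M) :
    haveI : NeZero p := ⟨hp.ne_zero⟩
    (heckeF hp hpM dia hdia f : LaurentSeries L) =
      TMs L p (dia f : LaurentSeries L) (f : LaurentSeries L) := rfl

theorem ordDvd_heckeF (hp : p.Prime) (hpM : ¬ p ∣ M) (hM : 5 ≤ M) (hℓ : ℓ.Prime) (hℓ5 : 5 ≤ ℓ)
    (hφ : ¬ ℓ ∣ Nat.totient M) (dia : F1 L M →* F1 L M)
    (hdia : ∀ f : F1 L M, IsDia ⟨rep M (pu hp hpM), rep_mem (pu hp hpM)⟩ (f : LaurentSeries L)
      (dia f : LaurentSeries L)) (f : F1 L M) (hf : f ≠ 0) (hv : OrdDvd L ℓ f) :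
    OrdDvd L ℓ (heckeF hp hpM dia hdia f) :=
  ordDvd_TMs hp hpM hM hℓ hℓ5 hφ hf (hdia f) rfl hv

theorem rl_heckeF (hp : p.Prime) (hpM : ¬ p ∣ M) (dia : F1 L M →* F1 L M)
    (hdia : ∀ f : F1 L M, IsDia ⟨rep M (pu hp hpM), rep_mem (pu hp hpM)⟩ (f : LaurentSeries L)
      (dia f : LaurentSeries L)) {f : F1 L M} {n : ℕ} {χ : Gamma1 M →* ℂˣ}
    (hf : Rl (Gamma1 M) n χ (f : LaurentSeries L)) :
    Rl (Gamma1 M) n (heckeChar1 hp hpM χ) (heckeF hp hpM dia hdia f : LaurentSeries L) :=
  rl_TMs hp hpM (hdia f) hf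

end Ord

end Fermat.Agent.DS.X1.SelHecke
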